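import Fermat.Agent.FlatLoc.Rad

/-!
# Valuations of `ζ - 1` and the upper bound for radii
-/

set_option autoImplicit false
set_option linter.unusedSectionVars false

namespace Fermat.Agent.FlatLoc

open Fermat.Agent.ECRed Polynomial

variable {K : Type*} [Field K] {v : OrdFn K} {p : ℕ}

lemma ord_root_of_unity {z : K} {n : ℕ} (hn : n ≠ 0) (hz : z ^ n = 1) : v.Eq 0 z := by
  have hz0 : z ≠ 0 := by
    rintro rfl
    rw [zero_pow hn] at hz
    exact zero_ne_one hz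
  refine ⟨hz0, ?_⟩
  have h1 : (n : ℝ) * v.ord z = 0 := by
    rw [← OrdFn.ord_pow hz0, hz, OrdFn.ord_one]
  have h2 : (n : ℝ) ≠ 0 := by exact_mod_cast hn
  exact (mul_eq_zero.mp h1).resolve_left h2

lemma Ge.pow_aux {z : K} (h : v.Ge 0 z) (n : ℕ) : v.Ge 0 (z ^ n) := by
  induction n with
  | zero => rw [pow_zero]; exact OrdFn.eq_one.ge
  | succ n ih =>
    rw [pow_succ]
    simpa using ih.mul h

/-- `ord (ζ - 1) = 1/(p-1)` -/
theorem eq_zeta_sub_one [hp : Fact p.Prime] (hv : v.ord (p : K) = 1) {ζ : K}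
    (hζ : IsPrimitiveRoot ζ p) : v.Eq (1 / ((p : ℝ) - 1)) (ζ - 1) := by
  have hp1 : (1 : ℝ) < p := by exact_mod_cast hp.out.one_lt
  have hζ0 : v.Eq 0 ζ := ord_root_of_unity hp.out.ne_zero hζ.pow_eq_one
  have hne : ζ - 1 ≠ 0 := sub_ne_zero.mpr (hζ.ne_one hp.out.one_lt)
  have hgeom : ∀ (μ : K) (i : ℕ), v.Eq 0 μ → v.Ge (v.ord (μ - 1)) (μ ^ i - 1) := by
    intro μ i hμ
    by_cases hμ1 : μ - 1 = 0
    · rw [sub_eq_zero.mp hμ1, one_pow, sub_self]; exact OrdFn.Ge.zero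
    · rw [← mul_geom_sum]
      have h1 := (OrdFn.eq_self (v := v) hμ1).ge.mul
        (ge_sum (v := v) (c := 0) (Finset.range i) (fun j => μ ^ j) fun j _ => Ge.pow_aux hμ.ge j)
      rwa [add_zero] at h1
  have hall : ∀ i, 0 < i → i < p → v.ord (ζ ^ i - 1) = v.ord (ζ - 1) := by
    intro i hi hip
    have hco : Nat.Coprime i p := ((Nat.Prime.coprime_iff_not_dvd hp.out).mpr (Nat.not_dvd_of_pos_of_lt hi hip)).symm
    have hne' : ζ ^ i - 1 ≠ 0 := sub_ne_zero.mpr (hζ.pow_ne_one_of_pos_of_lt hi.ne' hip)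
    obtain ⟨j, hj⟩ := Nat.exists_mul_mod_eq_one_of_coprime hco hp.out.one_lt
    have e : (ζ ^ i) ^ j = ζ := by
      rw [← pow_mul, ← pow_mod_orderOf, ← hζ.eq_orderOf, hj.2, pow_one]
    refine le_antisymm ?_ ?_
    · have h1 := hgeom (ζ ^ i) j (by simpa using hζ0.pow i)
      rw [e] at h1
      exact (OrdFn.ge_iff hne).mp h1
    · exact (OrdFn.ge_iff hne').mp (hgeom ζ i hζ0)
  refine ⟨hne, ?_⟩
  obtain ⟨m, hm⟩ : ∃ m, p = m + 1 := ⟨p - 1, (Nat.sub_add_cancel hp.out.one_lt.le).symm⟩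
  have hprod : ∏ k ∈ Finset.range m, (1 - ζ ^ (k + 1)) = (m : K) + 1 :=
    IsPrimitiveRoot.prod_one_sub_pow_eq_order (by rwa [← hm])
  have hord : ∀ n ≤ m, (∏ k ∈ Finset.range n, (1 - ζ ^ (k + 1)) ≠ 0) ∧
      v.ord (∏ k ∈ Finset.range n, (1 - ζ ^ (k + 1))) = n * v.ord (ζ - 1) := by
    intro n
    induction n with
    | zero => intro _; simp [OrdFn.ord_one]
    | succ n ih =>
      intro hn
      obtain ⟨h1, h2⟩ := ih (by omega)
      have hne' : (1 - ζ ^ (n + 1)) ≠ 0 := by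
        rw [← neg_sub, neg_ne_zero]
        exact sub_ne_zero.mpr (hζ.pow_ne_one_of_pos_of_lt (by omega) (by omega))
      have h3 : v.ord (1 - ζ ^ (n + 1)) = v.ord (ζ - 1) := by
        rw [← neg_sub, OrdFn.ord_neg]
        exact hall (n + 1) (by omega) (by omega)
      rw [Finset.prod_range_succ]
      refine ⟨mul_ne_zero h1 hne', ?_⟩
      rw [OrdFn.ord_mul h1 hne', h2, h3]
      push_cast
      ring
  have h4 := (hord m le_rfl).2
  rw [hprod] at h4
  have h5 : ((m : K) + 1) = (p : K) := by rw [hm]; push_cast; ring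
  rw [h5, hv] at h4
  have h6 : (p : ℝ) - 1 = m := by rw [hm]; push_cast; ring
  rw [h6]
  have h7 : (m : ℝ) ≠ 0 := by
    intro h0
    rw [h0, zero_mul] at h4
    exact one_ne_zero h4
  field_simp
  linarith

variable {G : Type*} [Group G] [MulSemiringAction G K]
variable [Fact p.Prime] {V : Type*} [AddCommGroup V] [Module (ZMod p) V] [Finite V]
variable {R : Subring K} {ρ : G →* AddMonoid.End V} {H : Subalgebra R (V → K)} {c : ℝ} {x : V}

/-- `ord (ψ(a) - 1) = 1/(p-1)` for `a ≠ 0` -/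
lemma eq_addChar_sub_one (hvp : v.ord (p : K) = 1) {ψ : AddChar (ZMod p) K}
    (hψ : Function.Injective ψ) {a : ZMod p} (ha : a ≠ 0) :
    v.Eq (1 / ((p : ℝ) - 1)) (ψ a - 1) := by
  have hp := (Fact.out : p.Prime)
  refine eq_zeta_sub_one hvp (IsPrimitiveRoot.mk_of_lt _ hp.pos ?_ ?_)
  · rw [← AddChar.map_nsmul_eq_pow]
    simp
  · intro l hl hlp h
    rw [← AddChar.map_nsmul_eq_pow, ← AddChar.map_zero_eq_one ψ] at h
    have h1 := hψ h
    rw [nsmul_eq_mul, mul_eq_zero] at h1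
    rcases h1 with h1 | h1
    · rw [ZMod.natCast_eq_zero_iff] at h1
      exact absurd (Nat.le_of_dvd hl h1) (not_le.mpr hlp)
    · exact ha h1

/-- values of characters -/
theorem IsOrder.char_ge (hR : IsBase G R) (hRv : ∀ r ∈ R, v.Ge 0 r) (hH : IsOrder R ρ H)
    {ψ : AddChar (ZMod p) K} (hψ : Function.Injective ψ) (ω : G →* (ZMod p)ˣ)
    (hω : ∀ (σ : G) (a : ZMod p), σ • ψ a = ψ (ω σ * a)) (hx : RGe v H c x)
    (l : Module.Dual (ZMod p) V) : v.Ge c (ψ (l x) - 1) := by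
  classical
  cases nonempty_fintype V
  obtain ⟨H', hH', a, b, ha, hb, e⟩ := hH.exists_dual hR ψ hψ ω hω
  simp only [finsum_eq_sum_of_fintype] at e
  have h1 : ψ (l x) - 1 = ∑ k, a k l * (b k x - b k 0) := by
    have h2 := e l x
    have h3 := e l 0
    rw [map_zero, AddChar.map_zero_eq_one] at h3
    rw [h2, h3, ← Finset.sum_sub_distrib]
    exact Finset.sum_congr rfl fun k _ => by ring
  rw [h1]
  refine ge_sum _ _ fun k _ => ?_
  have := (hH'.val_ge hRv (ha k) l).mul (hx (b k) (hb k))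
  rwa [zero_add] at this

/-- **the upper bound** `r(x) ≤ 1/(p-1)` -/
theorem IsOrder.rad_le (hR : IsBase G R) (hRv : ∀ r ∈ R, v.Ge 0 r) (hH : IsOrder R ρ H)
    (hvp : v.ord (p : K) = 1)
    {ψ : AddChar (ZMod p) K} (hψ : Function.Injective ψ) (ω : G →* (ZMod p)ˣ)
    (hω : ∀ (σ : G) (a : ZMod p), σ • ψ a = ψ (ω σ * a)) (hx : RGe v H c x) (hx0 : x ≠ 0) :
    c ≤ 1 / ((p : ℝ) - 1) := by
  obtain ⟨l, hl⟩ : ∃ l : Module.Dual (ZMod p) V, l x ≠ 0 := by
    by_contra hcon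
    push Not at hcon
    exact hx0 ((Module.forall_dual_apply_eq_zero_iff (ZMod p) x).mp hcon)
  have h1 := hH.char_ge hR hRv hψ ω hω hx l
  have h2 := eq_addChar_sub_one hvp hψ hl
  rw [OrdFn.ge_iff h2.1, h2.2] at h1
  exact h1

end Fermat.Agent.FlatLoc
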