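import Fermat.Agent.FlatLoc.Base
import Fermat.Agent.ECRed.OrdQbar
import Fermat.Agent.Frob.Qbar
import Fermat.Prelude.Def_GaloisRep_Flat

/-!
# From the frozen Hopf algebra form of flatness to orders
-/

set_option autoImplicit false
set_option linter.unusedSectionVars false

namespace Fermat.Agent.FlatLoc

open Fermat.Agent.ECRed
open scoped TensorProduct

local notation "Qbar" => AlgebraicClosure ℚ
local notation "GQ" => (AlgebraicClosure ℚ ≃ₐ[ℚ] AlgebraicClosure ℚ)

instance instIsAlgebraicQbar : Algebra.IsAlgebraic ℚ (AlgebraicClosure ℚ) := Frob.isAlgebraic_Qbar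

/-- `ℤ_(p)` inside `ℚ̄` -/
noncomputable def Zloc (p : ℕ) : Subring Qbar :=
  (GaloisRep.ratLocalizedAt p).map (algebraMap ℚ Qbar)

lemma smul_Qbar (σ : GQ) (z : Qbar) : σ • z = σ z := rfl

lemma fixed_iff {z : Qbar} : (∀ σ : GQ, σ • z = z) ↔ ∃ q : ℚ, z = algebraMap ℚ Qbar q := by
  constructor
  · intro h
    have := Frob.isGalois_Qbar
    have h1 : z ∈ (⊥ : IntermediateField ℚ Qbar) := (InfiniteGalois.mem_bot_iff_fixed z).mpr h
    obtain ⟨q, hq⟩ := IntermediateField.mem_bot.mp h1
    exact ⟨q, hq.symm⟩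
  · rintro ⟨q, rfl⟩ σ
    exact σ.commutes q

section place

variable {p : ℕ} (hp : p.Prime) {A : ValuationSubring Qbar} (hA : (p : Qbar) ∈ A.nonunits)

include hp in
lemma ord_p : (ordFnAt A hp hA).ord (p : Qbar) = 1 := by
  have hp0 : (p : Qbar) ≠ 0 := by exact_mod_cast hp.ne_zero
  have := ordAt_eq A hp hA hp0 (e := 1) one_pos (f := 1) (by simp)
  change ordAt A hp hA (p : Qbar) = 1
  simpa using this

include hp in
lemma int_val_rat {z : Qbar} (hz : z ≠ 0) (h : ∀ σ : GQ, σ • z = z) :
    ∃ n : ℤ, (ordFnAt A hp hA).ord z = n := by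
  obtain ⟨q, rfl⟩ := fixed_iff.mp h
  have hq : q ≠ 0 := fun h0 => hz (by rw [h0, map_zero])
  obtain ⟨k, hk⟩ := val_rat A hp hA hq
  refine ⟨k, ?_⟩
  have := ordAt_eq A hp hA hz (e := 1) one_pos (f := k) (by rw [pow_one]; exact hk)
  change ordAt A hp hA _ = _
  simpa using this

include hp in
lemma mem_Zloc_iff (z : Qbar) : z ∈ Zloc p ↔ (∀ σ : GQ, σ • z = z) ∧ (ordFnAt A hp hA).Ge 0 z := by
  rw [ordFnAt_ge]
  constructor
  · rintro ⟨q, hq, rfl⟩
    refine ⟨fixed_iff.mpr ⟨q, rfl⟩, ?_⟩
    change algebraMap ℚ Qbar q ∈ A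
    have hq' : q.den.Coprime p := hq
    have h1 : A.valuation ((q.den : ℤ) : Qbar) = 1 := by
      refine val_int_of_coprime A hp hA fun h => ?_
      have h2 : p ∣ q.den := by exact_mod_cast h
      exact hp.one_lt.ne' (Nat.eq_one_of_dvd_coprimes hq' h2 dvd_rfl)
    rw [← A.valuation_le_one_iff]
    have h3 : algebraMap ℚ Qbar q = (q.num : Qbar) / ((q.den : ℤ) : Qbar) := by
      rw [eq_ratCast, Rat.cast_def, Int.cast_natCast]
    rw [h3, map_div₀, h1, div_one]
    exact val_int_le A _
  · rintro ⟨h, hzA⟩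
    obtain ⟨q, rfl⟩ := fixed_iff.mp h
    refine ⟨q, ?_, rfl⟩
    change q.den.Coprime p
    rw [Nat.coprime_comm, hp.coprime_iff_not_dvd]
    intro hdvd
    have hnum : ¬ (p : ℤ) ∣ q.num := by
      intro h1
      have h2 := q.reduced
      have h3 : p ∣ q.num.natAbs := Int.natCast_dvd.mp h1
      exact hp.one_lt.ne' (Nat.eq_one_of_dvd_coprimes h2 h3 hdvd)
    have h1 := val_int_of_coprime A hp hA hnum
    have h2 : A.valuation ((q.den : ℤ) : Qbar) < 1 := by
      obtain ⟨m, hm⟩ := hdvd
      rw [hm]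
      push_cast
      rw [map_mul]
      have h3 := (A.mem_nonunits_iff).mp hA
      exact (mul_le_of_le_one_right' (by simpa using val_int_le A (m : ℤ))).trans_lt h3
    have h3 : algebraMap ℚ Qbar q = (q.num : Qbar) / ((q.den : ℤ) : Qbar) := by
      rw [eq_ratCast, Rat.cast_def, Int.cast_natCast]
    rw [← A.valuation_le_one_iff, h3, map_div₀, h1, one_div] at hzA
    have h4 : A.valuation ((q.den : ℤ) : Qbar) ≠ 0 := by
      rw [Valuation.ne_zero_iff]
      exact_mod_cast q.den_ne_zero
    have h5 := (inv_le_one₀ (zero_lt_iff.mpr h4)).mp hzA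
    exact absurd h5 (not_le.mpr h2)

end place

theorem isBase_Zloc {p : ℕ} (hp : p.Prime) : IsBase GQ (Zloc p) := by
  obtain ⟨A, hA⟩ := Frob.exists_liesOverPrime Qbar hp
  exact isBase_of_val (v := ordFnAt A hp hA) hp.ne_zero (ord_p hp hA) (mem_Zloc_iff hp hA)
    (fun z hz h => int_val_rat hp hA hz h)

/-- the frozen flatness for a finite Galois module -/
def HopfFlat (p : ℕ) {V : Type} [AddCommGroup V] (ρ : GQ →* AddMonoid.End V) : Prop :=
  ∃ (H : Type) (_ : CommRing H) (_ : HopfAlgebra (GaloisRep.ratLocalizedAt p) H),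
      Module.Finite (GaloisRep.ratLocalizedAt p) H ∧
      Module.Flat (GaloisRep.ratLocalizedAt p) H ∧
      Coalgebra.IsCocomm (GaloisRep.ratLocalizedAt p) H ∧
      ∃ e : WithConv (H →ₐ[GaloisRep.ratLocalizedAt p] AlgebraicClosure ℚ) ≃ V,
        (∀ f g : WithConv (H →ₐ[GaloisRep.ratLocalizedAt p] AlgebraicClosure ℚ),
          e (f * g) = e f + e g) ∧
        ∀ (σ : AlgebraicClosure ℚ ≃ₐ[ℚ] AlgebraicClosure ℚ)
          (f g : WithConv (H →ₐ[GaloisRep.ratLocalizedAt p] AlgebraicClosure ℚ)),
          (∀ h : H, g h = σ (f h)) → e g = ρ σ (e f)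

/-- **(F3)** the frozen form gives an order -/
theorem HopfFlat.isFlatMod {p : ℕ} (hp : p.Prime) {V : Type} [AddCommGroup V] [Finite V]
    {ρ : GQ →* AddMonoid.End V} (h : HopfFlat p ρ) : IsFlatMod (Zloc p) ρ := by
  classical
  obtain ⟨H, _, _, hfin, -, -, e, hadd, hact⟩ := h
  have : Fintype V := Fintype.ofFinite V
  -- the point attached to `x`
  let pt : V → (H →ₐ[(GaloisRep.ratLocalizedAt p)] Qbar) := fun x => (e.symm x).ofConv
  have hpt : ∀ x, e (WithConv.toConv (pt x)) = x := fun x => e.apply_symm_apply x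
  have hptinj : Function.Injective pt := fun x y hxy => by
    rw [← hpt x, ← hpt y, hxy]
  -- evaluation
  let ev : H → V → Qbar := fun h x => pt x h
  have hptact : ∀ (σ : GQ) x h, pt (ρ σ x) h = σ (pt x h) := by
    intro σ x h
    let g : H →ₐ[(GaloisRep.ratLocalizedAt p)] Qbar :=
      { toRingHom := (σ : Qbar →+* Qbar).comp (pt x : H →+* Qbar)
        commutes' := fun r => by
          change σ (pt x (algebraMap (GaloisRep.ratLocalizedAt p) H r)) = _
          rw [AlgHom.commutes]
          exact σ.commutes (r : ℚ) }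
    have h1 := hact σ (WithConv.toConv (pt x)) (WithConv.toConv g) (fun h => rfl)
    rw [hpt] at h1
    have h2 : pt (ρ σ x) = g := by
      rw [← h1]
      change (e.symm (e (WithConv.toConv g))).ofConv = g
      rw [e.symm_apply_apply]
    rw [h2]
    rfl
  have hptadd : ∀ x y, WithConv.toConv (pt (x + y)) = WithConv.toConv (pt x) * WithConv.toConv (pt y) := by
    intro x y
    apply e.injective
    rw [hadd, hpt, hpt, hpt]
  -- the algebra
  let H' : Subalgebra (Zloc p) (V → Qbar) :=
    { carrier := Set.range ev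
      mul_mem' := by
        rintro _ _ ⟨a, rfl⟩ ⟨b, rfl⟩
        exact ⟨a * b, by ext x; exact map_mul (pt x) a b⟩
      add_mem' := by
        rintro _ _ ⟨a, rfl⟩ ⟨b, rfl⟩
        exact ⟨a + b, by ext x; exact map_add (pt x) a b⟩
      algebraMap_mem' := by
        rintro ⟨_, q, hq, rfl⟩
        exact ⟨algebraMap (GaloisRep.ratLocalizedAt p) H ⟨q, hq⟩, by ext x; exact (pt x).commutes ⟨q, hq⟩⟩ }
  have hmem : ∀ f, f ∈ H' ↔ ∃ h, ev h = f := fun f => Iff.rfl
  refine ⟨H', ⟨?_, ?_, ?_, ?_⟩⟩
  · -- finitely generated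
    obtain ⟨S, hS⟩ := hfin.1
    refine ⟨S.image ev, le_antisymm ?_ ?_⟩
    · rw [Submodule.span_le]
      intro f hf
      rw [Finset.coe_image] at hf
      obtain ⟨h, -, rfl⟩ := hf
      exact ⟨h, rfl⟩
    · rintro _ ⟨h, rfl⟩
      have h1 : h ∈ Submodule.span (GaloisRep.ratLocalizedAt p) (S : Set H) := by rw [hS]; trivial
      induction h1 using Submodule.span_induction with
      | mem x hx => exact Submodule.subset_span (by rw [Finset.coe_image]; exact ⟨x, hx, rfl⟩)
      | zero =>
        have : ev 0 = 0 := by ext x; exact map_zero (pt x)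
        rw [this]; exact Submodule.zero_mem _
      | add a b _ _ ha hb =>
        have : ev (a + b) = ev a + ev b := by ext x; exact map_add (pt x) a b
        rw [this]; exact Submodule.add_mem _ ha hb
      | smul r a _ ha =>
        have : ev (r • a) = (⟨algebraMap ℚ Qbar r, r, r.2, rfl⟩ : Zloc p) • ev a := by
          ext x
          change pt x (r • a) = algebraMap ℚ Qbar r * pt x a
          rw [map_smul, Algebra.smul_def]
          rfl
        rw [this]; exact Submodule.smul_mem _ _ ha
  · rintro _ ⟨h, rfl⟩ σ x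
    exact hptact σ x h
  · -- span
    by_contra hne
    obtain ⟨φ, hφ, hle⟩ := Submodule.exists_le_ker_of_lt_top _ (lt_top_iff_ne_top.mpr hne)
    apply hφ
    have hli := linearIndependent_monoidHom H Qbar
    have hli' : LinearIndependent Qbar (fun x : V => ((pt x : H →* Qbar) : H → Qbar)) :=
      hli.comp (fun x : V => (pt x : H →* Qbar)) (fun x y hxy => hptinj (AlgHom.ext fun h =>
        DFunLike.congr_fun hxy h))
    have h1 : ∑ x, φ (Pi.single x 1) • ((pt x : H →* Qbar) : H → Qbar) = 0 := by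
      ext h
      have h2 : φ (ev h) = 0 := hle (Submodule.subset_span ⟨h, rfl⟩)
      rw [Finset.sum_apply, Pi.zero_apply, ← h2]
      conv_rhs => rw [show ev h = ∑ x, ev h x • (Pi.single x 1 : V → Qbar) by
        ext y; simp [Pi.single_apply]]
      rw [map_sum]
      refine Finset.sum_congr rfl fun x _ => ?_
      rw [map_smul, smul_eq_mul, mul_comm]
      rfl
    have h3 := (Fintype.linearIndependent_iff.mp hli') _ h1
    ext x
    simpa using h3 x
  · -- comultiplication
    rintro _ ⟨h, rfl⟩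
    have key : ∀ t : H ⊗[(GaloisRep.ratLocalizedAt p)] H, (fun q : V × V => Algebra.TensorProduct.lift (pt q.1) (pt q.2)
        (fun _ _ => Commute.all _ _) t) ∈ box H' H' := by
      intro t
      induction t using TensorProduct.induction_on with
      | zero =>
        have : (fun q : V × V => Algebra.TensorProduct.lift (pt q.1) (pt q.2)
            (fun _ _ => Commute.all _ _) (0 : H ⊗[GaloisRep.ratLocalizedAt p] H)) = 0 := by
          ext q; exact map_zero _
        rw [this]
        exact Subalgebra.zero_mem (box H' H')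
      | tmul a b =>
        refine mem_box.mpr ⟨1, fun _ => ev a, fun _ => ev b, fun _ => ⟨a, rfl⟩, fun _ => ⟨b, rfl⟩,
          fun x y => ?_⟩
        rw [Algebra.TensorProduct.lift_tmul]
        simp [ev]
      | add s t hs ht =>
        have : (fun q : V × V => Algebra.TensorProduct.lift (pt q.1) (pt q.2)
            (fun _ _ => Commute.all _ _) (s + t)) =
            (fun q : V × V => Algebra.TensorProduct.lift (pt q.1) (pt q.2)
            (fun _ _ => Commute.all _ _) s) + (fun q : V × V =>
            Algebra.TensorProduct.lift (pt q.1) (pt q.2) (fun _ _ => Commute.all _ _) t) := by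
          ext q; simp
        rw [this]
        exact Subalgebra.add_mem _ hs ht
    have h1 : (fun q : V × V => ev h (q.1 + q.2)) = (fun q : V × V =>
        Algebra.TensorProduct.lift (pt q.1) (pt q.2) (fun _ _ => Commute.all _ _)
          (Coalgebra.comul (R := GaloisRep.ratLocalizedAt p) h)) := by
      ext q
      have h2 := hptadd q.1 q.2
      have h3 := AlgHom.convMul_apply (WithConv.toConv (pt q.1)) (WithConv.toConv (pt q.2)) h
      rw [← h2] at h3
      exact h3
    rw [h1]
    exact key _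

end Fermat.Agent.FlatLoc
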