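import Fermat.Agent.FlatLoc.Count
import Fermat.Agent.FlatLoc.Frozen
import Fermat.Agent.Carayol.Inertia
import Fermat.Agent.GalRep.Cyclo
import Fermat.Agent.TWGal.Inertia
import Fermat.Agent.SSMod.K0
import Mathlib.NumberTheory.Cyclotomic.CyclotomicCharacter

/-!
# The decomposition context at a place of `ℚ̄`
-/

set_option autoImplicit false
set_option linter.unusedSectionVars false

noncomputable section

namespace Fermat.Agent.FlatLoc

open Fermat.Agent.ECRed IsLocalRing
open scoped Polynomial Pointwise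

local notation "Qbar" => AlgebraicClosure ℚ
local notation "GQ" => (AlgebraicClosure ℚ ≃ₐ[ℚ] AlgebraicClosure ℚ)

variable {p : ℕ} [hp : Fact p.Prime] {A : ValuationSubring Qbar} (hA : A.LiesOverPrime p)

/-- the decomposition group as a group -/
abbrev DD (A : ValuationSubring Qbar) : Type := A.decompositionSubgroup ℚ

/-- the inertia group as a subgroup of the decomposition group -/
abbrev II (A : ValuationSubring Qbar) : Subgroup (DD A) := A.inertiaSubgroup ℚ

lemma smul_DD (σ : DD A) (z : Qbar) : σ • z = (σ : GQ) z := rfl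

lemma smul_II (σ : II A) (z : Qbar) : σ • z = ((σ : DD A) : GQ) z := rfl

lemma II_mem (σ : II A) : ((σ : DD A) : GQ) ∈ A.inertiaSubgroupIn ℚ := ⟨σ, σ.2, rfl⟩

lemma DD_mem (σ : DD A) (z : Qbar) : (σ : GQ) z ∈ A ↔ z ∈ A := by
  obtain ⟨g, hg⟩ := σ
  have h : g • A = A := hg
  change g z ∈ A ↔ z ∈ A
  conv_lhs => rw [← h]
  exact ValuationSubring.smul_mem_pointwise_smul_iff

/-- the order function -/
abbrev vA (hA : A.LiesOverPrime p) : OrdFn Qbar := ordFnAt A hp.out hA

lemma ge_vA {z : Qbar} : (vA hA).Ge 0 z ↔ z ∈ A := ordFnAt_ge A hp.out hA z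

lemma gt_vA {z : Qbar} : (vA hA).Gt 0 z ↔ A.valuation z < 1 := by
  rw [ordFnAt_gt A hp.out hA z, ValuationSubring.mem_nonunits_iff]

lemma ord_DD (σ : DD A) (z : Qbar) : (vA hA).ord (σ • z) = (vA hA).ord z := by
  rw [smul_DD]
  by_cases hz : z = 0
  · rw [hz, map_zero]
  have hz' : (σ : GQ) z ≠ 0 := by simpa using hz
  obtain ⟨e, he, f, h⟩ := val_alg A hp.out hA hz
  have hp0 : (p : Qbar) ≠ 0 := by exact_mod_cast hp.out.ne_zero
  have hval : ∀ w : Qbar, A.valuation w = 1 → A.valuation ((σ : GQ) w) = 1 := by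
    intro w hw
    have hw0 : w ≠ 0 := by rintro rfl; simp at hw
    apply le_antisymm
    · rw [A.valuation_le_one_iff, DD_mem, ← A.valuation_le_one_iff]; exact hw.le
    · have h1 : A.valuation ((σ : GQ) w⁻¹) ≤ 1 := by
        rw [A.valuation_le_one_iff, DD_mem, ← A.valuation_le_one_iff, map_inv₀, hw, inv_one]
      rw [map_inv₀, map_inv₀] at h1
      have h2 : A.valuation ((σ : GQ) w) ≠ 0 := by
        rw [Valuation.ne_zero_iff]; simpa using hw0
      exact (inv_le_one₀ (zero_lt_iff.mpr h2)).mp h1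
  have hvp0 : A.valuation (p : Qbar) ≠ 0 := (Valuation.ne_zero_iff _).mpr hp0
  have h1 : A.valuation (z ^ e * ((p : Qbar) ^ f)⁻¹) = 1 := by
    rw [map_mul, map_pow, h, map_inv₀, map_zpow₀, mul_inv_cancel₀ (zpow_ne_zero _ hvp0)]
  have h2 := hval _ h1
  rw [map_mul, map_pow, map_inv₀, map_zpow₀, map_natCast, map_mul, map_pow, map_inv₀, map_zpow₀,
    mul_inv_eq_one₀ (zpow_ne_zero _ hvp0)] at h2
  change ordAt A hp.out hA _ = ordAt A hp.out hA _
  rw [ordAt_eq A hp.out hA hz he h, ordAt_eq A hp.out hA hz' he h2]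

open Classical in
/-- the reduction map extended by zero -/
def rA (A : ValuationSubring Qbar) (z : Qbar) : ResidueField A :=
  if h : z ∈ A then residue A ⟨z, h⟩ else 0

lemma rA_of_mem {z : Qbar} (h : z ∈ A) : rA A z = residue A ⟨z, h⟩ := dif_pos h

/-- the base ring -/
def RR (hA : A.LiesOverPrime p) : Subring Qbar where
  carrier := {z | (∀ σ : II A, σ • z = z) ∧ (vA hA).Ge 0 z}
  mul_mem' ha hb := ⟨fun σ => by rw [smul_mul', ha.1, hb.1], by
    have := OrdFn.Ge.mul ha.2 hb.2; rwa [add_zero] at this⟩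
  one_mem' := ⟨fun σ => smul_one σ, OrdFn.eq_one.ge⟩
  add_mem' ha hb := ⟨fun σ => by rw [smul_add, ha.1, hb.1], ha.2.add hb.2⟩
  zero_mem' := ⟨fun σ => smul_zero σ, OrdFn.Ge.zero⟩
  neg_mem' ha := ⟨fun σ => by rw [smul_neg, ha.1], ha.2.neg⟩

lemma mem_RR {z : Qbar} : z ∈ RR hA ↔ (∀ σ : II A, σ • z = z) ∧ (vA hA).Ge 0 z := Iff.rfl

lemma int_val_II {z : Qbar} (hz : z ≠ 0) (h : ∀ σ : II A, σ • z = z) :
    ∃ n : ℤ, (vA hA).ord z = n := by
  have h1 : z ∈ Carayol.K0 A := by
    rw [Carayol.mem_K0]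
    rintro _ ⟨σ, hσ, rfl⟩
    exact h ⟨σ, hσ⟩
  obtain ⟨n, u, -, hu, he⟩ := Carayol.exists_unit_mul hp.out hA h1 hz
  refine ⟨n, ?_⟩
  have := ordAt_eq A hp.out hA hz (e := 1) one_pos (f := n) (by
    rw [pow_one, he, map_mul, hu, mul_one, map_zpow₀])
  change ordAt A hp.out hA _ = _
  simpa using this

theorem charP_res (hA : A.LiesOverPrime p) : CharP (ResidueField A) p :=
  FrobDens.charP_residueField A hp.out hA

lemma r_surj_aux (hA : A.LiesOverPrime p) (a : ResidueField A) : ∃ x ∈ RR hA, rA A x = a := by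
  have := charP_res hA
  by_cases ha : a = 0
  · refine ⟨0, (RR hA).zero_mem, ?_⟩
    rw [rA_of_mem A.zero_mem, ha]
    exact map_zero _
  -- `a` is a root of unity of order prime to `p`
  let _ := ZMod.algebra (ResidueField A) p
  have halg : Algebra.IsAlgebraic (ZMod p) (ResidueField A) := TWGal.isAlgebraic_residueField hp.out hA
  let F := IntermediateField.adjoin (ZMod p) {a}
  have hfd : FiniteDimensional (ZMod p) F :=
    IntermediateField.adjoin.finiteDimensional (halg.isAlgebraic a).isIntegral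
  have : Finite F := Module.finite_of_finite (ZMod p)
  have := Fintype.ofFinite F
  set n := Fintype.card F - 1 with hn
  have hcard : Fintype.card F = p ^ Module.finrank (ZMod p) F := by
    have := Module.card_eq_pow_finrank (K := ZMod p) (V := F)
    rwa [ZMod.card] at this
  have h1F : 1 < Fintype.card F := Fintype.one_lt_card
  have hpn : ¬ p ∣ n := by
    intro h
    have h1 : p ∣ Fintype.card F := by
      rw [hcard]
      refine dvd_pow_self p ?_
      intro h0
      rw [hcard, h0, pow_zero] at h1F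
      exact lt_irrefl _ h1F
    have h2 : p ∣ 1 := by
      have : Fintype.card F = n + 1 := by omega
      rw [this] at h1
      exact (Nat.dvd_add_right h).mp h1
    exact hp.out.one_lt.ne' (Nat.dvd_one.mp h2)
  have hn0 : n ≠ 0 := fun h0 => hpn (h0 ▸ dvd_zero p)
  have han : a ^ n = 1 := by
    have h1 := FiniteField.pow_card_sub_one_eq_one (⟨a, IntermediateField.mem_adjoin_simple_self _ a⟩ : F)
      (fun h => ha (congrArg Subtype.val h))
    exact congrArg Subtype.val h1
  obtain ⟨b, hb, hba⟩ := SSMod.exists_root_lift (residue A) (m := Polynomial.X ^ n - 1)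
    (Polynomial.monic_X_pow_sub_C (R := A) 1 hn0) (α := a) (by simp [han])
  have hbn : (b : Qbar) ^ n = 1 := by
    have h1 : b ^ n = 1 := by
      rw [Polynomial.eval_sub, Polynomial.eval_pow, Polynomial.eval_X, Polynomial.eval_one,
        sub_eq_zero] at hb
      exact hb
    exact congrArg Subtype.val h1
  refine ⟨b, ⟨fun σ => ?_, (ge_vA hA).mpr b.2⟩, ?_⟩
  · exact GalRep.inertia_rootOfUnity hp.out hA (II_mem σ) hpn hbn
  · rw [rA_of_mem b.2]; exact hba

/-- the additive character given by a primitive `p`-th root of unity -/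
def ψp (p : ℕ) [hp : Fact p.Prime] : AddChar (ZMod p) Qbar :=
  AddChar.zmodChar p (HasEnoughRootsOfUnity.exists_primitiveRoot Qbar p).choose_spec.pow_eq_one

lemma ψp_inj : Function.Injective (ψp p) := by
  intro a b h
  have hζ := (HasEnoughRootsOfUnity.exists_primitiveRoot Qbar p).choose_spec
  exact ZMod.val_injective p (hζ.pow_inj (ZMod.val_lt a) (ZMod.val_lt b) h)

/-- the mod `p` cyclotomic character -/
def cyc (p : ℕ) [hp : Fact p.Prime] : GQ →* (ZMod p)ˣ :=
  (modularCyclotomicCharacter Qbar (HasEnoughRootsOfUnity.natCard_rootsOfUnity Qbar p)).comp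
    (MulSemiringAction.toRingAut GQ Qbar)

lemma cyc_root (σ : GQ) {t : Qbar} (ht : t ^ p = 1) : σ t = t ^ (cyc p σ : ZMod p).val := by
  have ht0 : t ≠ 0 := fun h => by
    rw [h, zero_pow hp.out.ne_zero] at ht; exact zero_ne_one ht
  exact modularCyclotomicCharacter.spec Qbar (HasEnoughRootsOfUnity.natCard_rootsOfUnity Qbar p)
    (MulSemiringAction.toRingAut GQ Qbar σ) (t := Units.mk0 t ht0)
    ((mem_rootsOfUnity _ _).mpr (Units.ext (by simpa using ht)))

lemma psi_pow (a : ZMod p) : (ψp p a) ^ p = 1 := by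
  rw [← AddChar.map_nsmul_eq_pow]; simp

lemma cyc_spec (σ : GQ) (a : ZMod p) : σ (ψp p a) = ψp p (cyc p σ * a) := by
  rw [cyc_root σ (psi_pow a),
    ← AddChar.map_nsmul_eq_pow, nsmul_eq_mul, ZMod.natCast_zmod_val]

/-- uniqueness -/
lemma cyc_eq {σ : GQ} {a : ℕ} (h : ∀ μ : Qbar, μ ^ p = 1 → σ μ = μ ^ a) :
    (cyc p σ : ZMod p) = a := by
  have h1 := cyc_spec σ (1 : ZMod p)
  rw [h _ (psi_pow 1), ← AddChar.map_nsmul_eq_pow] at h1
  have h2 := ψp_inj h1
  rw [nsmul_eq_mul, mul_one, mul_one] at h2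
  exact h2.symm

/-- **the inertia context** -/
def ctx (hp2 : p ≠ 2) (hA : A.LiesOverPrime p) : Ctx Qbar (ResidueField A) (II A) p where
  v := vA hA
  R := RR hA
  base := isBase_of_val (v := vA hA) hp.out.ne_zero (ord_p hp.out hA) (fun _ => Iff.rfl)
    (fun z hz h => int_val_II hA hz h)
  mem_R _ := Iff.rfl
  hv σ z := ord_DD hA (σ : DD A) z
  vp := ord_p hp.out hA
  int_val z hz h := int_val_II hA hz h
  inert σ z hz := by
    rw [gt_vA, smul_II]
    exact ((Carayol.mem_inertia_iff A _).mp (II_mem σ)).2 z ((ge_vA hA).mp hz)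
  r := rA A
  r_add x y hx hy := by
    rw [ge_vA] at hx hy
    rw [rA_of_mem hx, rA_of_mem hy, rA_of_mem (A.add_mem _ _ hx hy), ← map_add]; rfl
  r_mul x y hx hy := by
    rw [ge_vA] at hx hy
    rw [rA_of_mem hx, rA_of_mem hy, rA_of_mem (A.mul_mem _ _ hx hy), ← map_mul]; rfl
  r_one := by rw [rA_of_mem A.one_mem]; exact map_one _
  r_eq_zero x hx := by
    rw [ge_vA] at hx
    rw [rA_of_mem hx, gt_vA, residue_eq_zero_iff]
    exact A.valuation_lt_one_iff ⟨x, hx⟩
  r_surj a := r_surj_aux hA a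
  char := charP_res hA
  ψ := ψp p
  hψ := ψp_inj
  ω := (cyc p).comp ((A.decompositionSubgroup ℚ).subtype.comp (II A).subtype)
  hω σ a := cyc_spec _ a
  p_ne_two := hp2
  charZero := inferInstance

end Fermat.Agent.FlatLoc
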