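import Fermat.Agent.FlatLoc.Final

/-!
# The flat bound for representations of `G_ℚ`
-/

set_option autoImplicit false
set_option linter.unusedSectionVars false

noncomputable section

namespace Fermat.Agent.FlatLoc

open Fermat.Agent.ECRed IsLocalRing
open scoped Polynomial Pointwise

local notation "Qbar" => AlgebraicClosure ℚ
local notation "GQ" => (AlgebraicClosure ℚ ≃ₐ[ℚ] AlgebraicClosure ℚ)

variable {p : ℕ} [hp : Fact p.Prime]

/-- `ρ` is trivial on the Galois group of a finite extension -/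
def FinLev {X : Type*} (f : GQ → X) (a : X) : Prop :=
  ∃ K₀ : IntermediateField ℚ Qbar, FiniteDimensional ℚ K₀ ∧
    ∀ σ : GQ, (∀ x ∈ K₀, σ x = x) → f σ = a

lemma FinLev.prod {X Y : Type*} {f : GQ → X} {a : X} {g : GQ → Y} {b : Y} (hf : FinLev f a)
    (hg : FinLev g b) : FinLev (fun σ => (f σ, g σ)) (a, b) := by
  obtain ⟨K, hK, h⟩ := hf
  obtain ⟨K', hK', h'⟩ := hg
  refine ⟨K ⊔ K', inferInstance, fun σ hσ => ?_⟩
  change (f σ, g σ) = (a, b)
  rw [h σ fun x hx => hσ x ((le_sup_left : K ≤ K ⊔ K') hx),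
    h' σ fun x hx => hσ x ((le_sup_right : K' ≤ K ⊔ K') hx)]

lemma FinLev.comp {X Y : Type*} {f : GQ → X} {a : X} (hf : FinLev f a) (g : X → Y) :
    FinLev (fun σ => g (f σ)) (g a) := by
  obtain ⟨K, hK, h⟩ := hf
  exact ⟨K, hK, fun σ hσ => congrArg g (h σ hσ)⟩

/-- global flat cocycles with values in `M₂(𝔽_p)` -/
structure GF (ρ : GQ →* Matrix (Fin 2) (Fin 2) (ZMod p))
    (c : GQ → Matrix (Fin 2) (Fin 2) (ZMod p)) : Prop where
  tr : ∀ σ, (c σ).trace = 0
  lev : FinLev c 0
  flat : FlatR (Zloc p) ρ c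

variable {ρ : GQ →* Matrix (Fin 2) (Fin 2) (ZMod p)}

/-- the group of global flat cocycles -/
def GFlat (ρ : GQ →* Matrix (Fin 2) (Fin 2) (ZMod p)) (hV : IsFlatMod (Zloc p) (vb ρ)) :
    AddSubgroup (GQ → Matrix (Fin 2) (Fin 2) (ZMod p)) where
  carrier := {c | GF ρ c}
  add_mem' {c c'} h h' :=
    { tr := fun σ => by
        have e1 : (c σ).trace = 0 := h.tr σ
        have e2 : (c' σ).trace = 0 := h'.tr σ
        rw [Pi.add_apply, Matrix.trace_add, e1, e2, add_zero]
      lev := by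
        have := (FinLev.prod h.lev h'.lev).comp (fun q => q.1 + q.2)
        rwa [add_zero] at this
      flat := h.flat.add (isBase_Zloc hp.out) h'.flat }
  zero_mem' :=
    { tr := fun σ => by simp
      lev := ⟨⊥, inferInstance, fun _ _ => rfl⟩
      flat := FlatR.zero (isBase_Zloc hp.out) hV }
  neg_mem' {c} h :=
    { tr := fun σ => by
        have e1 : (c σ).trace = 0 := h.tr σ
        rw [Pi.neg_apply, Matrix.trace_neg, e1, neg_zero]
      lev := by
        have := h.lev.comp (fun q => -q)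
        rwa [neg_zero] at this
      flat := h.flat.neg (isBase_Zloc hp.out) }

/-- restriction to the decomposition group -/
def resD (A : ValuationSubring Qbar) (X : Type*) [AddCommGroup X] [Module (ZMod p) X] :
    (GQ → X) →ₗ[ZMod p] (DD A → X) where
  toFun c σ := c σ
  map_add' _ _ := rfl
  map_smul' _ _ := rfl

lemma Zloc_le_RR {A : ValuationSubring Qbar} (hA : A.LiesOverPrime p) : Zloc p ≤ RR hA := by
  intro z hz
  have h := (mem_Zloc_iff hp.out hA z).mp hz
  exact ⟨fun σ => h.1 ((σ : DD A) : GQ), h.2⟩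

/-- **The flat bound, `𝔽_p`-coefficients** -/
theorem flat_bound_one (hp2 : p ≠ 2) {A : ValuationSubring Qbar} (hA : A.LiesOverPrime p)
    (hdet : ∀ σ ∈ A.inertiaSubgroupIn ℚ, (ρ σ).det = cyc p σ) (hρ : FinLev ρ 1)
    (hV : IsFlatMod (Zloc p) (vb ρ)) :
    Module.rank (ZMod p) ((AddSubgroup.toZModSubmodule p (GFlat ρ hV)).map
      (resD A (Matrix (Fin 2) (Fin 2) (ZMod p)))) ≤ (4 : ℕ) := by
  obtain ⟨ϖ, hϖ⟩ := exists_varpi p
  obtain ⟨φ, hφ, hφϖ⟩ := exists_frob_fix hA hp2 hϖ
  have : IsAlgClosed (ResidueField A) := GoodRed.isAlgClosed_residueField A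
  set DC := dctx hA hp2 hϖ hφ hφϖ with hDC
  refine DC.rank_le_four (ρ := ρ.comp (A.decompositionSubgroup ℚ).subtype) ?_ ?_
  · intro σ
    exact hdet _ (II_mem (A := A) σ)
  · refine ⟨?_, ?_, ?_, ?_⟩
    · rintro _ ⟨c, hc, rfl⟩ σ τ
      have h : GF ρ c := hc
      exact h.flat.1 _ _
    · rintro _ ⟨c, hc, rfl⟩ σ
      have h : GF ρ c := hc
      exact h.tr _
    · rintro _ ⟨c, hc, rfl⟩
      have h : GF ρ c := hc
      obtain ⟨hcoc, hfl⟩ := h.flat
      refine ⟨fun σ τ => hcoc _ _, ?_⟩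
      exact hfl.baseChange (Zloc_le_RR hA)
        ((A.decompositionSubgroup ℚ).subtype.comp (II A).subtype)
        (fun σ z => rfl) (fun r hr σ => hr.1 σ)
    · rintro _ ⟨c, hc, rfl⟩ hI h0
      have h : GF ρ c := hc
      obtain ⟨hcoc, -⟩ := h.flat
      obtain ⟨K₀, hK₀, hK⟩ := FinLev.prod hρ h.lev
      funext g
      obtain ⟨k, σ, hσ, hk⟩ := TWGal.exists_frob_mul_inertia hp.out hA hφ g.2 K₀
      change c g = 0
      have hcφ : ∀ n : ℕ, c ((φ : GQ) ^ n) = 0 := by
        intro n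
        induction n with
        | zero => rw [pow_zero]; exact hcoc.one
        | succ n ih =>
          have hφ0 : c (φ : GQ) = 0 := h0
          rw [pow_succ, hcoc, ih, hφ0]
          simp
      have hcσ : c σ = 0 := by
        obtain ⟨τ, hτ, rfl⟩ := hσ
        exact hI τ hτ
      have h1 : c (((φ : GQ) ^ k * σ)⁻¹ * g) = 0 := by
        have := hK (((φ : GQ) ^ k * σ)⁻¹ * g) fun x hx => by
          rw [AlgEquiv.mul_apply, ← hk x hx]
          exact inv_smul_smul ((φ : GQ) ^ k * σ) x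
        exact (Prod.mk.inj this).2
      have h2 : (g : GQ) = ((φ : GQ) ^ k * σ) * (((φ : GQ) ^ k * σ)⁻¹ * g) := by group
      rw [h2, hcoc, h1, hcoc, hcφ, hcσ]
      simp

section k

variable {k : Type*} [Field k] [Algebra (ZMod p) k] [Finite k]

/-- global flat cocycles with values in `M₂(k)` -/
structure GFk (ρ : GQ →* Matrix (Fin 2) (Fin 2) (ZMod p))
    (C : GQ → Matrix (Fin 2) (Fin 2) k) : Prop where
  coc : IsCock (rk k ρ) C
  tr : ∀ σ, (C σ).trace = 0
  lev : FinLev C 0
  flat : IsFlatMod (Zloc p) (ext2 _ C coc)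

/-- **The flat bound** -/
theorem flat_bound (hp2 : p ≠ 2) {A : ValuationSubring Qbar} (hA : A.LiesOverPrime p)
    (hdet : ∀ σ ∈ A.inertiaSubgroupIn ℚ, (ρ σ).det = cyc p σ) (hρ : FinLev ρ 1)
    (S : Submodule k (DD A → Matrix (Fin 2) (Fin 2) k))
    (hS : ∀ c ∈ S, ∃ C : GQ → Matrix (Fin 2) (Fin 2) k, GFk ρ C ∧ ∀ σ : DD A, c σ = C σ) :
    Module.rank k S ≤ (4 : ℕ) := by
  classical
  obtain ⟨C₀, hC₀, -⟩ := hS 0 S.zero_mem
  have hV : IsFlatMod (Zloc p) (vb ρ) := hC₀.flat.of_ext2_res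
  have hb := flat_bound_one hp2 hA hdet hρ hV
  set Z := (AddSubgroup.toZModSubmodule p (GFlat ρ hV)).map
      (resD A (Matrix (Fin 2) (Fin 2) (ZMod p))) with hZ
  have hfree : Module.Free (ZMod p) Z := Module.Free.of_divisionRing _ _
  have : Module.Finite (ZMod p) Z := by
    rw [← Module.rank_lt_aleph0_iff]
    exact hb.trans_lt (Cardinal.natCast_lt_aleph0)
  have hfr : Module.finrank (ZMod p) Z ≤ 4 := by
    rw [← Module.finrank_eq_rank] at hb
    exact_mod_cast hb
  let b := Module.finBasis (ZMod p) Z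
  let ι : (DD A → Matrix (Fin 2) (Fin 2) (ZMod p)) → (DD A → Matrix (Fin 2) (Fin 2) k) :=
    fun c σ => (c σ).map (algebraMap (ZMod p) k)
  have hfin : Module.Finite (ZMod p) k := Module.Finite.of_finite
  let e := Module.finBasis (ZMod p) k
  have hle : S ≤ Submodule.span k (Set.range fun i => ι (b i)) := by
    intro c hc
    obtain ⟨C, hC, hcC⟩ := hS c hc
    have h1 : ∀ i, resD (p := p) A (Matrix (Fin 2) (Fin 2) (ZMod p)) (fun σ => (C σ).map (e.coord i)) ∈ Z := by
      intro i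
      refine ⟨_, ?_, rfl⟩
      refine GF.mk (fun σ => ?_) ?_ (FlatR.of_ext2 (isBase_Zloc hp.out) hC.flat (e.coord i))
      · rw [← AddMonoidHom.map_trace (e.coord i), hC.tr, map_zero]
      · have := hC.lev.comp (fun M => M.map (e.coord i))
        rwa [Matrix.map_zero _ (map_zero _)] at this
    have h2 : c = ∑ i, e i • ι (resD (p := p) A (Matrix (Fin 2) (Fin 2) (ZMod p)) (fun σ => (C σ).map (e.coord i))) := by
      funext σ
      rw [hcC]
      ext a a'
      rw [Finset.sum_apply, Matrix.sum_apply]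
      change C σ a a' = ∑ i, e i * algebraMap (ZMod p) k (e.coord i (C σ a a'))
      conv_lhs => rw [← e.sum_repr (C σ a a')]
      refine Finset.sum_congr rfl fun i _ => ?_
      rw [Algebra.smul_def, mul_comm]; rfl
    rw [h2]
    refine Submodule.sum_mem _ fun i _ => Submodule.smul_mem _ _ ?_
    have h3 : ∀ z : Z, ι z ∈ Submodule.span k (Set.range fun i => ι (b i)) := by
      intro z
      have h4 : ι z = ∑ j, algebraMap (ZMod p) k (b.repr z j) • ι (b j) := by
        have h5 : (z : DD A → Matrix (Fin 2) (Fin 2) (ZMod p)) = ∑ j, b.repr z j • (b j : DD A → Matrix (Fin 2) (Fin 2) (ZMod p)) := by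
          conv_lhs => rw [← b.sum_repr z]
          push_cast; rfl
        funext σ
        ext a a'
        rw [Finset.sum_apply, Matrix.sum_apply]
        change algebraMap (ZMod p) k ((z : DD A → Matrix (Fin 2) (Fin 2) (ZMod p)) σ a a') =
          ∑ j, algebraMap (ZMod p) k (b.repr z j) * algebraMap (ZMod p) k ((b j : DD A → Matrix (Fin 2) (Fin 2) (ZMod p)) σ a a')
        conv_lhs => rw [h5]
        rw [Finset.sum_apply, Matrix.sum_apply, map_sum]
        refine Finset.sum_congr rfl fun j _ => ?_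
        rw [← map_mul]; rfl
      rw [h4]
      exact Submodule.sum_mem _ fun j _ => Submodule.smul_mem _ _
        (Submodule.subset_span ⟨j, rfl⟩)
    exact h3 ⟨_, h1 i⟩
  refine (Submodule.rank_mono hle).trans ?_
  refine (rank_span_le _).trans ?_
  have h1 := Cardinal.mk_range_le_lift (f := fun i => ι (b i))
  rw [Cardinal.mk_fin, Cardinal.lift_natCast] at h1
  exact Cardinal.lift_le_nat_iff.mp (h1.trans (by exact_mod_cast hfr))

end k

end Fermat.Agent.FlatLoc
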