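import Fermat.Agent.FlatLoc.Inst
import Fermat.Agent.Frob.Qbar
import Fermat.Agent.GoodRed.ValRing

/-!
# The decomposition group at `p` as a `DCtx`
-/

set_option autoImplicit false
set_option linter.unusedSectionVars false

noncomputable section

namespace Fermat.Agent.FlatLoc

open Fermat.Agent.ECRed IsLocalRing
open scoped Polynomial Pointwise

local notation "Qbar" => AlgebraicClosure ℚ
local notation "GQ" => (AlgebraicClosure ℚ ≃ₐ[ℚ] AlgebraicClosure ℚ)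

variable {p : ℕ} [hp : Fact p.Prime] {A : ValuationSubring Qbar} (hA : A.LiesOverPrime p)

instance : (II A).Normal := inferInstanceAs (MonoidHom.ker _).Normal

lemma exists_varpi (p : ℕ) [hp : Fact p.Prime] : ∃ ϖ : Qbar, ϖ ^ (p ^ 2 - 1) = p :=
  IsAlgClosed.exists_pow_nat_eq _ (by
    have := hp.out.two_le
    have : 2 ^ 2 ≤ p ^ 2 := Nat.pow_le_pow_left this 2
    omega)

lemma frob_inertia_mul {g σ : GQ} (hg : A.IsFrobeniusAt g p) (hσ : σ ∈ A.inertiaSubgroupIn ℚ) :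
    A.IsFrobeniusAt (σ * g) p := by
  rw [FrobDens.isFrobeniusAt_iff] at hg ⊢
  obtain ⟨h1, h2⟩ := (Carayol.mem_inertia_iff A _).mp hσ
  have hσ' : σ • A = A := by
    obtain ⟨τ, -, rfl⟩ := hσ
    exact τ.2
  refine ⟨by rw [mul_smul, hg.1, hσ'], fun x hx => ?_⟩
  have hgx : g x ∈ A := (DD_mem (⟨g, hg.1⟩ : DD A) x).mpr hx
  have h4 : (σ * g) x - x ^ p = (σ (g x) - g x) + (g x - x ^ p) := by
    rw [sub_add_sub_cancel]; rfl
  rw [h4]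
  exact Valuation.map_add_lt _ (h2 _ hgx) (hg.2 x hx)

include hA in
lemma exists_frob_fix (hp2 : p ≠ 2) {ϖ : Qbar} (hϖ : ϖ ^ (p ^ 2 - 1) = p) :
    ∃ φ : DD A, A.IsFrobeniusAt (φ : GQ) p ∧ φ • ϖ = ϖ := by
  obtain ⟨g, hg⟩ := Frob.exists_isFrobeniusAt_Qbar A hp.out hA
  set C := ctx hp2 hA with hC
  have he : p ^ 2 - 1 ≠ 0 := by
    have := hp.out.two_le
    have : 2 ^ 2 ≤ p ^ 2 := Nat.pow_le_pow_left this 2
    omega
  have hϖ0 : ϖ ≠ 0 := by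
    rintro rfl
    rw [zero_pow he] at hϖ
    exact hp.out.ne_zero (by exact_mod_cast hϖ.symm)
  set ζ : Qbar := g ϖ / ϖ with hζ
  have hζe : ζ ^ (p ^ 2 - 1) = 1 := by
    have hpq : (p : Qbar) ≠ 0 := by exact_mod_cast hp.out.ne_zero
    rw [hζ, div_pow, ← map_pow, hϖ, map_natCast, div_self hpq]
  have hζ0 : ζ ≠ 0 := fun h => by rw [h, zero_pow he] at hζe; exact zero_ne_one hζe
  obtain ⟨σ₀, hσ₀⟩ := C.Th_surj hϖ
  have hprim : IsPrimitiveRoot ((C.Th hϖ σ₀ : Qbarˣ) : Qbar) (p ^ 2 - 1) :=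
    IsPrimitiveRoot.coe_units_iff.mpr hσ₀
  have : NeZero (p ^ 2 - 1) := ⟨he⟩
  obtain ⟨k, -, hk⟩ := hprim.eq_pow_of_pow_eq_one (ξ := ζ⁻¹) (by rw [inv_pow, hζe, inv_one])
  have hk' : ((C.Th hϖ (σ₀ ^ k) : Qbarˣ) : Qbar) = ζ⁻¹ := by
    rw [map_pow, Units.val_pow_eq_pow_val]; exact hk
  set σ : II A := σ₀ ^ k with hσ
  have h1 : σ • ϖ = ζ⁻¹ * ϖ := by rw [C.smul_varpi hϖ, hk']
  refine ⟨(σ : DD A) * ⟨g, hg.mem_decompositionSubgroup⟩, ?_, ?_⟩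
  · exact frob_inertia_mul hg (II_mem σ)
  · rw [mul_smul]
    have h2 : (⟨g, hg.mem_decompositionSubgroup⟩ : DD A) • ϖ = ζ * ϖ := by
      change g ϖ = ζ * ϖ
      rw [hζ, div_mul_cancel₀ _ hϖ0]
    rw [h2, smul_mul']
    have h3 : (σ : DD A) • ϖ = ζ⁻¹ * ϖ := h1
    have h4 : (σ : DD A) • ζ = ζ := by
      have hne : ¬ p ∣ p ^ 2 - 1 := Ctx.not_dvd_e
      exact GalRep.inertia_rootOfUnity hp.out hA (II_mem σ) hne hζe
    rw [h3, h4, ← mul_assoc, mul_inv_cancel₀ hζ0, one_mul]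

lemma rA_frob {φ : DD A} (hφ : A.IsFrobeniusAt (φ : GQ) p) {z : Qbar} (hz : z ∈ A) :
    rA A (φ • z) = rA A z ^ p := by
  have h1 : φ • z ∈ A := (DD_mem φ z).mpr hz
  rw [rA_of_mem h1, rA_of_mem hz]
  exact hφ.smul_residue_eq (IsLocalRing.residue A ⟨z, hz⟩)

/-- **the decomposition context** -/
def dctx (hp2 : p ≠ 2) {ϖ : Qbar} (hϖ : ϖ ^ (p ^ 2 - 1) = p) {φ : DD A}
    (hφ : A.IsFrobeniusAt (φ : GQ) p) (hφϖ : φ • ϖ = ϖ) :
    DCtx Qbar (ResidueField A) (DD A) p ϖ where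
  I := II A
  C := ctx hp2 hA
  hϖ := hϖ
  φ := φ
  norm σ hσ := by
    have := (inferInstance : (II A).Normal).conj_mem σ hσ φ⁻¹
    rwa [inv_inv] at this
  hφ := hφϖ
  ord z := ord_DD hA φ z
  r_eq z hz := rA_frob hφ ((ge_vA hA).mp hz)
  u := cyc p (φ : GQ)
  hu a := cyc_spec _ a

end Fermat.Agent.FlatLoc
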