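import Fermat.Agent.FlatLoc.KFinal

/-!
# Flat cocycles form a subspace
-/

set_option autoImplicit false
set_option linter.unusedSectionVars false

noncomputable section

namespace Fermat.Agent.FlatLoc

open Fermat.Agent.ECRed IsLocalRing
open scoped Polynomial Pointwise

section gen

variable {k : Type*} [Field k] {Γ : Type*} [Group Γ] {ρ : Γ →* Matrix (Fin 2) (Fin 2) k}
  {c c' : Γ → Matrix (Fin 2) (Fin 2) k}

lemma IsCock.add (hc : IsCock ρ c) (hc' : IsCock ρ c') : IsCock ρ (c + c') := by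
  intro σ τ
  rw [Pi.add_apply, Pi.add_apply, Pi.add_apply, hc σ τ, hc' σ τ, mul_add, add_mul]
  abel

lemma IsCock.smul (a : k) (hc : IsCock ρ c) : IsCock ρ (a • c) := by
  intro σ τ
  rw [Pi.smul_apply, Pi.smul_apply, Pi.smul_apply, hc σ τ, smul_add, Matrix.mul_smul,
    Matrix.smul_mul]

lemma isCock_zero : IsCock ρ 0 := by
  intro σ τ
  simp

lemma isCock_cob (X : Matrix (Fin 2) (Fin 2) k) : IsCock ρ (fun σ => X - ρ σ * X * ρ σ⁻¹) := by
  intro σ τ
  beta_reduce
  rw [mul_inv_rev, map_mul, map_mul, mul_sub, sub_mul]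
  simp only [mul_assoc]
  abel

variable {K : Type*} [Field K] [MulSemiringAction Γ K] {R : Subring K} [Finite k]

theorem flatK_add (hR : IsBase Γ R) {hc : IsCock ρ c} {hc' : IsCock ρ c'}
    (hf : IsFlatMod R (ext2 ρ c hc)) (hf' : IsFlatMod R (ext2 ρ c' hc')) :
    IsFlatMod R (ext2 ρ (c + c') (hc.add hc')) := by
  let g : ((Fin 2 → k) × (Fin 2 → k)) × ((Fin 2 → k) × (Fin 2 → k)) →+
      (Fin 2 → k) × (Fin 2 → k) :=
    AddMonoidHom.mk' (fun x => (x.1.1, x.1.2 + x.2.2)) fun x y => by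
      ext1
      · rfl
      · simp only [Prod.fst_add, Prod.snd_add]; abel
  let S : AddSubgroup (((Fin 2 → k) × (Fin 2 → k)) × ((Fin 2 → k) × (Fin 2 → k))) :=
    { carrier := {x | x.1.1 = x.2.1}
      add_mem' := fun {x y} hx hy => by
        change x.1.1 + y.1.1 = x.2.1 + y.2.1
        rw [show x.1.1 = x.2.1 from hx, show y.1.1 = y.2.1 from hy]
      zero_mem' := rfl
      neg_mem' := fun {x} hx => by
        change -x.1.1 = -x.2.1
        rw [show x.1.1 = x.2.1 from hx] }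
  refine (hf.prod hR hf').subquot hR S ?_ g ?_ ?_
  · intro σ x hx
    change (ρ σ).mulVec x.1.1 = (ρ σ).mulVec x.2.1
    rw [show x.1.1 = x.2.1 from hx]
  · intro σ x hx
    have hx' : x.1.1 = x.2.1 := hx
    change ((ρ σ).mulVec x.1.1, ((c σ * ρ σ).mulVec x.1.1 + (ρ σ).mulVec x.1.2) +
      ((c' σ * ρ σ).mulVec x.2.1 + (ρ σ).mulVec x.2.2)) =
      ((ρ σ).mulVec x.1.1, ((c + c') σ * ρ σ).mulVec x.1.1 + (ρ σ).mulVec (x.1.2 + x.2.2))
    rw [← hx', Pi.add_apply, add_mul, Matrix.add_mulVec, Matrix.mulVec_add]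
    congr 1
    abel
  · intro w
    exact ⟨((w.1, w.2), (w.1, 0)), rfl, by change (w.1, w.2 + 0) = w; rw [add_zero]⟩

theorem flatK_cob (hR : IsBase Γ R) (hV : IsFlatMod R (vk ρ)) (X : Matrix (Fin 2) (Fin 2) k) :
    IsFlatMod R (ext2 ρ _ (isCock_cob (ρ := ρ) X)) := by
  refine (hV.prod hR hV).subquot hR ⊤ (fun _ _ _ => trivial)
    (AddMonoidHom.mk' (fun x => (x.1, x.2 + X.mulVec x.1)) fun x y => by
      ext1
      · rfl
      · simp only [Prod.fst_add, Prod.snd_add, Matrix.mulVec_add]; abel) ?_ ?_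
  · intro σ x _
    have h1 : ρ σ⁻¹ * ρ σ = 1 := by rw [← map_mul, inv_mul_cancel, map_one]
    change ((ρ σ).mulVec x.1, (ρ σ).mulVec x.2 + X.mulVec ((ρ σ).mulVec x.1)) =
      ((ρ σ).mulVec x.1, ((X - ρ σ * X * ρ σ⁻¹) * ρ σ).mulVec x.1 +
        (ρ σ).mulVec (x.2 + X.mulVec x.1))
    rw [sub_mul, mul_assoc _ (ρ σ⁻¹), h1, mul_one, Matrix.sub_mulVec, Matrix.mulVec_add,
      Matrix.mulVec_mulVec, Matrix.mulVec_mulVec]
    congr 1
    abel
  · intro w
    exact ⟨(w.1, w.2 - X.mulVec w.1), trivial, by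
      change (w.1, w.2 - X.mulVec w.1 + X.mulVec w.1) = w; rw [sub_add_cancel]⟩

lemma flatK_congr {hc : IsCock ρ c} (h : c = c') (hf : IsFlatMod R (ext2 ρ c hc))
    (hc' : IsCock ρ c') : IsFlatMod R (ext2 ρ c' hc') := by
  subst h
  exact hf

theorem flatK_zero (hR : IsBase Γ R) (hV : IsFlatMod R (vk ρ)) :
    IsFlatMod R (ext2 ρ 0 isCock_zero) := by
  refine flatK_congr ?_ (flatK_cob hR hV 0) _
  funext σ
  simp

theorem flatK_smul (hR : IsBase Γ R) {hc : IsCock ρ c} (hf : IsFlatMod R (ext2 ρ c hc)) (a : k) :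
    IsFlatMod R (ext2 ρ (a • c) (hc.smul a)) := by
  by_cases ha : a = 0
  · exact flatK_congr (by rw [ha, zero_smul]) (flatK_zero hR (flat_vk hf)) _
  · refine hf.subquot hR ⊤ (fun _ _ _ => trivial)
      (AddMonoidHom.mk' (fun x => (x.1, a • x.2)) fun x y => by
        ext1
        · rfl
        · simp only [Prod.snd_add, smul_add]) ?_ ?_
    · intro σ x _
      change ((ρ σ).mulVec x.1, a • ((c σ * ρ σ).mulVec x.1 + (ρ σ).mulVec x.2)) =
        ((ρ σ).mulVec x.1, ((a • c) σ * ρ σ).mulVec x.1 + (ρ σ).mulVec (a • x.2))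
      rw [Pi.smul_apply, Matrix.smul_mul, Matrix.smul_mulVec, Matrix.mulVec_smul, smul_add]
    · intro w
      exact ⟨(w.1, a⁻¹ • w.2), trivial, by
        change (w.1, a • a⁻¹ • w.2) = w; rw [smul_smul, mul_inv_cancel₀ ha, one_smul]⟩

end gen

local notation "Qbar" => AlgebraicClosure ℚ
local notation "GQ" => (AlgebraicClosure ℚ ≃ₐ[ℚ] AlgebraicClosure ℚ)

variable {p : ℕ} [hp : Fact p.Prime] {k : Type*} [Field k] [Finite k]
  {ρ : GQ →* Matrix (Fin 2) (Fin 2) k}

/-- the space of flat cocycles -/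
def gfkSub (ρ : GQ →* Matrix (Fin 2) (Fin 2) k) (hV : IsFlatMod (Zloc p) (vk ρ)) :
    Submodule k (GQ → Matrix (Fin 2) (Fin 2) k) where
  carrier := {C | GFK p ρ C}
  add_mem' {c c'} h h' :=
    { coc := IsCock.add h.coc h'.coc
      tr := fun σ => by
        have e1 : (c σ).trace = 0 := h.tr σ
        have e2 : (c' σ).trace = 0 := h'.tr σ
        rw [Pi.add_apply, Matrix.trace_add, e1, e2, add_zero]
      lev := by
        have := (FinLev.prod h.lev h'.lev).comp (fun q => q.1 + q.2)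
        rwa [add_zero] at this
      flat := flatK_add (isBase_Zloc hp.out) h.flat h'.flat }
  zero_mem' :=
    { coc := isCock_zero
      tr := fun σ => by simp
      lev := ⟨⊥, inferInstance, fun _ _ => rfl⟩
      flat := flatK_zero (isBase_Zloc hp.out) hV }
  smul_mem' a c h :=
    { coc := IsCock.smul a h.coc
      tr := fun σ => by
        have e1 : (c σ).trace = 0 := h.tr σ
        rw [Pi.smul_apply, Matrix.trace_smul, e1, smul_zero]
      lev := by
        have := h.lev.comp (fun q => a • q)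
        rwa [smul_zero] at this
      flat := flatK_smul (isBase_Zloc hp.out) h.flat a }

@[simp] lemma mem_gfkSub (hV : IsFlatMod (Zloc p) (vk ρ)) {C : GQ → Matrix (Fin 2) (Fin 2) k} :
    C ∈ gfkSub ρ hV ↔ GFK p ρ C := Iff.rfl

/-- coboundaries are flat -/
lemma gfk_cob (hV : IsFlatMod (Zloc p) (vk ρ)) (hρ : FinLev ρ 1) {X : Matrix (Fin 2) (Fin 2) k}
    (hX : X.trace = 0) : GFK p ρ (fun σ => X - ρ σ * X * ρ σ⁻¹) where
  coc := isCock_cob X
  tr σ := by
    have h1 : ρ σ⁻¹ * ρ σ = 1 := by rw [← map_mul, inv_mul_cancel, map_one]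
    rw [Matrix.trace_sub, Matrix.trace_mul_comm, ← mul_assoc, h1, one_mul, hX, sub_zero]
  lev := by
    obtain ⟨K₀, hK₀, h⟩ := hρ
    refine ⟨K₀, hK₀, fun σ hσ => ?_⟩
    have h2 : ρ σ⁻¹ = 1 := by
      have h3 : ρ σ * ρ σ⁻¹ = 1 := by rw [← map_mul, mul_inv_cancel, map_one]
      rwa [h σ hσ, one_mul] at h3
    change X - ρ σ * X * ρ σ⁻¹ = 0
    rw [h σ hσ, h2, one_mul, mul_one, sub_self]
  flat := flatK_cob (isBase_Zloc hp.out) hV X

section rk

variable [Algebra (ZMod p) k]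

/-- powers of a representation -/
def piRep {Γ V : Type*} [Group Γ] [AddCommGroup V] (n : ℕ) (r : Γ →* AddMonoid.End V) :
    Γ →* AddMonoid.End (Fin n → V) where
  toFun σ := AddMonoidHom.mk' (fun x i => r σ (x i)) fun x y => by
    funext i; exact map_add (r σ) _ _
  map_one' := by
    ext1 x
    funext i
    change r 1 (x i) = x i
    rw [map_one]; rfl
  map_mul' σ τ := by
    ext1 x
    funext i
    change r (σ * τ) (x i) = r σ (r τ (x i))
    rw [map_mul]; rfl

theorem flat_pi {K : Type*} [Field K] {Γ : Type*} [Group Γ] [MulSemiringAction Γ K]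
    {R : Subring K} (hR : IsBase Γ R) {V : Type*} [AddCommGroup V] [Finite V]
    {r : Γ →* AddMonoid.End V} (h : IsFlatMod R r) (n : ℕ) : IsFlatMod R (piRep n r) := by
  induction n with
  | zero =>
    refine h.quotient hR 0 (fun w => ⟨0, Subsingleton.elim _ _⟩) ?_
    intro σ x
    exact Subsingleton.elim _ _
  | succ n ih =>
    refine (h.prod hR ih).subquot hR ⊤ (fun _ _ _ => trivial)
      (AddMonoidHom.mk' (fun x => Fin.cons x.1 x.2) fun x y => ?_) ?_ ?_
    · funext i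
      refine Fin.cases ?_ (fun i => ?_) i <;> simp
    · intro σ x _
      change (Fin.cons (r σ x.1) (fun i => r σ (x.2 i)) : Fin (n + 1) → V) =
        fun i => r σ ((Fin.cons x.1 x.2 : Fin (n + 1) → V) i)
      funext i
      refine Fin.cases ?_ (fun i => ?_) i <;> simp
    · intro w
      exact ⟨(w 0, fun i => w i.succ), trivial, Fin.cons_self_tail w⟩

/-- extension of scalars of flat representations is flat -/
theorem flat_rk {r : GQ →* Matrix (Fin 2) (Fin 2) (ZMod p)} (hV : IsFlatMod (Zloc p) (vb r)) :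
    IsFlatMod (Zloc p) (vk (rk k r)) := by
  classical
  have : Module.Finite (ZMod p) k := Module.Finite.of_finite
  let b := Module.finBasis (ZMod p) k
  have hR := isBase_Zloc hp.out
  refine (flat_pi hR hV (Module.finrank (ZMod p) k)).subquot hR ⊤ (fun _ _ _ => trivial)
    (AddMonoidHom.mk' (fun x i => ∑ j, algebraMap (ZMod p) k (x j i) * b j) fun x y => by
      funext i
      simp only [Pi.add_apply, map_add, add_mul, Finset.sum_add_distrib]) ?_ ?_
  · intro σ x _
    change (fun i => ∑ j, algebraMap (ZMod p) k ((r σ).mulVec (x j) i) * b j) =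
      ((r σ).map (algebraMap (ZMod p) k)).mulVec (fun i => ∑ j, algebraMap (ZMod p) k (x j i) * b j)
    funext i
    simp only [Matrix.mulVec, dotProduct, Matrix.map_apply, map_sum, map_mul, Finset.sum_mul,
      Finset.mul_sum, mul_assoc]
    rw [Finset.sum_comm]
  · intro w
    refine ⟨fun j i => b.repr (w i) j, trivial, ?_⟩
    funext i
    change ∑ j, algebraMap (ZMod p) k (b.repr (w i) j) * b j = w i
    conv_rhs => rw [← b.sum_repr (w i)]
    exact Finset.sum_congr rfl fun j _ => (Algebra.smul_def _ _).symm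

lemma gfk_iff {r : GQ →* Matrix (Fin 2) (Fin 2) (ZMod p)} {C : GQ → Matrix (Fin 2) (Fin 2) k} :
    GFk r C ↔ GFK p (rk k r) C :=
  ⟨fun h => ⟨h.coc, h.tr, h.lev, h.flat⟩, fun h => ⟨h.coc, h.tr, h.lev, h.flat⟩⟩

end rk

end Fermat.Agent.FlatLoc
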