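import Fermat.Agent.FlatLoc.Order

/-!
# Closure properties of flat modules: subobjects, quotients, products
-/

set_option autoImplicit false
set_option linter.unusedSectionVars false

namespace Fermat.Agent.FlatLoc

variable {K : Type*} [Field K] {G : Type*} [Group G] [MulSemiringAction G K]
variable {V : Type*} [AddCommGroup V] {W : Type*} [AddCommGroup W]
variable {R : Subring K} {ρ : G →* AddMonoid.End V} {ρ' : G →* AddMonoid.End W}

lemma IsOrder.isIntegral {H : Subalgebra R (V → K)} (hH : IsOrder R ρ H) {f : V → K}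
    (hf : f ∈ H) (x : V) : IsIntegral R (f x) := by
  have h1 : IsIntegral R f := IsIntegral.of_mem_of_fg H hH.fg f hf
  exact h1.map (Pi.evalAlgHom R (fun _ : V => K) x)

/-- equivariant homomorphisms -/
def Equivar (ρ : G →* AddMonoid.End V) (ρ' : G →* AddMonoid.End W) (g : V →+ W) : Prop :=
  ∀ σ x, g (ρ σ x) = ρ' σ (g x)

/-- **Subobjects** -/
theorem IsOrder.restrict {H : Subalgebra R (V → K)} (hH : IsOrder R ρ H) (ι : W →+ V)
    (hι : Function.Injective ι) (hι' : Equivar ρ' ρ ι) : IsOrder R ρ' (H.map (pull R ι)) where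
  fg := by rw [Subalgebra.map_toSubmodule]; exact hH.fg.map _
  equiv := by
    rintro _ ⟨f, hf, rfl⟩ σ x
    change f (ι (ρ' σ x)) = σ • f (ι x)
    rw [hι', hH.equiv f hf]
  span := by
    classical
    let L : (V → K) →ₗ[K] (W → K) := LinearMap.funLeft K K ι
    have hL : LinearMap.range L = ⊤ := LinearMap.range_eq_top.mpr
      (LinearMap.funLeft_surjective_of_injective K K ι hι)
    have h1 : ((H.map (pull R ι) : Subalgebra R (W → K)) : Set (W → K)) = L '' (H : Set (V → K)) := by
      ext f; rfl
    rw [h1, Submodule.span_image, hH.span, Submodule.map_top, hL]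
  comul := by
    rintro _ ⟨f, hf, rfl⟩
    obtain ⟨n, g, h, hg, hh, e⟩ := hH.comul' hf
    refine mem_box.mpr ⟨n, fun i => g i ∘ ι, fun i => h i ∘ ι, fun i => ⟨_, hg i, rfl⟩,
      fun i => ⟨_, hh i, rfl⟩, fun x y => ?_⟩
    change f (ι (x + y)) = _
    rw [map_add, e]
    rfl

theorem IsFlatMod.sub (h : IsFlatMod R ρ) (ι : W →+ V) (hι : Function.Injective ι)
    (hι' : Equivar ρ' ρ ι) : IsFlatMod R ρ' := by
  obtain ⟨H, hH⟩ := h
  exact ⟨_, hH.restrict ι hι hι'⟩

theorem IsFlatMod.of_equiv (h : IsFlatMod R ρ) (e : V ≃+ W) (he : Equivar ρ ρ' e) :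
    IsFlatMod R ρ' := by
  refine h.sub (e.symm : W →+ V) e.symm.injective fun σ x => ?_
  have h1 := he σ (e.symm x)
  simp only [AddMonoidHom.coe_coe, AddEquiv.apply_symm_apply] at h1
  simp [← h1]

lemma rho_inv_apply (ρ : G →* AddMonoid.End V) (σ : G) (x : V) : ρ σ (ρ σ⁻¹ x) = x := by
  have : (ρ σ * ρ σ⁻¹) x = x := by rw [← map_mul, mul_inv_cancel, map_one]; rfl
  exact this

lemma rho_inv_apply' (ρ : G →* AddMonoid.End V) (σ : G) (x : V) : ρ σ⁻¹ (ρ σ x) = x := by
  have : (ρ σ⁻¹ * ρ σ) x = x := by rw [← map_mul, inv_mul_cancel, map_one]; rfl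
  exact this

/-- averages over the kernel -/
lemma sum_ker_mem (hR : IsBase G R) [Finite V] {H : Subalgebra R (V → K)} (hH : IsOrder R ρ H)
    (π : V →+ W) (hπ' : Equivar ρ ρ' π) {h : V → K} (hh : h ∈ H) :
    ∑ᶠ k : π.ker, h k ∈ R := by
  classical
  have : Fintype π.ker := Fintype.ofFinite _
  rw [finsum_eq_sum_of_fintype]
  apply hR.int
  · intro σ
    rw [Finset.smul_sum]
    let e : π.ker ≃ π.ker :=
      { toFun := fun k => ⟨ρ σ k, by
          rw [AddMonoidHom.mem_ker, hπ', (AddMonoidHom.mem_ker).mp k.2, map_zero]⟩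
        invFun := fun k => ⟨ρ σ⁻¹ k, by
          rw [AddMonoidHom.mem_ker, hπ', (AddMonoidHom.mem_ker).mp k.2, map_zero]⟩
        left_inv := fun k => Subtype.ext (rho_inv_apply' ρ σ _)
        right_inv := fun k => Subtype.ext (rho_inv_apply ρ σ _) }
    rw [← e.sum_comp (fun k : π.ker => h k)]
    exact Finset.sum_congr rfl fun k _ => (hH.equiv h hh σ k).symm
  · exact IsIntegral.sum _ fun k _ => hH.isIntegral hh _

/-- **Quotients** -/
theorem IsOrder.quotient (hR : IsBase G R) [Finite V] {H : Subalgebra R (V → K)}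
    (hH : IsOrder R ρ H) (π : V →+ W) (hπ : Function.Surjective π) (hπ' : Equivar ρ ρ' π) :
    IsOrder R ρ' (H.comap (pull R π)) := by
  classical
  have hinj : Function.Injective (pull R (π : V → W) : (W → K) →ₐ[R] (V → K)) := by
    intro f g hfg
    ext w
    obtain ⟨v, rfl⟩ := hπ w
    exact congrFun hfg v
  have heq : ∀ f ∈ H.comap (pull R π), ∀ (σ : G) (x : W), f (ρ' σ x) = σ • f x := by
    intro f hf σ w
    obtain ⟨v, rfl⟩ := hπ w
    rw [← hπ']
    exact hH.equiv _ hf σ v
  have hfg : (Subalgebra.toSubmodule (H.comap (pull R (π : V → W)))).FG := by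
    have := hR.pid
    have : Module.Finite R (Subalgebra.toSubmodule H) := Module.Finite.iff_fg.mpr hH.fg
    have : IsNoetherian R (Subalgebra.toSubmodule H) := isNoetherian_of_isNoetherianRing_of_finite _ _
    let L : Subalgebra.toSubmodule (H.comap (pull R (π : V → W))) →ₗ[R] Subalgebra.toSubmodule H :=
      LinearMap.restrict (pull R (π : V → W)).toLinearMap (fun f hf => hf)
    have hL : Function.Injective L := by
      intro f g hfg
      apply Subtype.ext
      apply hinj
      exact congrArg Subtype.val hfg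
    have := Module.Finite.of_injective L hL
    exact Module.Finite.iff_fg.mp this
  have : Fintype π.ker := Fintype.ofFinite _
  -- the trace
  have htr : ∀ f ∈ H, ∃ f' ∈ H.comap (pull R (π : V → W)),
      ∀ v, f' (π v) = ∑ k : π.ker, f (v + k) := by
    intro f hf
    let f' : W → K := fun w => ∑ k : π.ker, f ((hπ w).choose + k)
    have hf' : ∀ v, f' (π v) = ∑ k : π.ker, f (v + k) := by
      intro v
      have h1 : (hπ (π v)).choose - v ∈ π.ker := by
        rw [AddMonoidHom.mem_ker, map_sub, (hπ (π v)).choose_spec, sub_self]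
      let e : π.ker ≃ π.ker := Equiv.addRight ⟨_, h1⟩
      rw [← e.sum_comp]
      refine Finset.sum_congr rfl fun k _ => ?_
      congr 1
      simp only [e, Equiv.coe_addRight, AddSubgroup.coe_add]
      abel
    refine ⟨f', ?_, hf'⟩
    rw [Subalgebra.mem_comap]
    obtain ⟨n, g, h, hg, hh, e⟩ := hH.comul' hf
    have h2 : pull R π f' = ∑ i, (⟨_, sum_ker_mem hR hH π hπ' (hh i)⟩ : R) • g i := by
      ext v
      rw [pull_apply, hf', Finset.sum_apply]
      simp_rw [e]
      rw [Finset.sum_comm]
      refine Finset.sum_congr rfl fun i _ => ?_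
      rw [← Finset.mul_sum, mul_comm, ← finsum_eq_sum_of_fintype]
      rfl
    rw [h2]
    exact Subalgebra.sum_mem _ fun i _ => Subalgebra.smul_mem _ (hg i) _
  refine ⟨hfg, heq, ?_, ?_⟩
  · -- span
    rw [eq_top_iff]
    intro F _
    have hcard : ∃ s : W → V, ∀ w, π (s w) = w := ⟨fun w => (hπ w).choose, fun w => (hπ w).choose_spec⟩
    obtain ⟨s, hs⟩ := hcard
    let T : (V → K) →ₗ[K] (W → K) :=
      { toFun := fun f w => ∑ k : π.ker, f (s w + k)
        map_add' := fun f g => by ext w; simp [Finset.sum_add_distrib]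
        map_smul' := fun c f => by ext w; simp [Finset.mul_sum] }
    have hT : Submodule.map T ⊤ ≤ Submodule.span K (H.comap (pull R π) : Set (W → K)) := by
      rw [← hH.span, Submodule.map_span, Submodule.span_le]
      rintro _ ⟨f, hf, rfl⟩
      obtain ⟨f', hf', e⟩ := htr f hf
      have h1 : T f = f' := by
        ext w
        conv_rhs => rw [← hs w]
        rw [e]
        rfl
      rw [h1]
      exact Submodule.subset_span hf'
    refine hT ⟨fun v => if v = s (π v) then F (π v) else 0, trivial, ?_⟩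
    ext w
    change (∑ k : π.ker, if s w + k = s (π (s w + k)) then F (π (s w + k)) else 0) = F w
    have h2 : ∀ k : π.ker, π (s w + k) = w := fun k => by
      rw [map_add, (AddMonoidHom.mem_ker).mp k.2, add_zero, hs]
    simp only [h2]
    rw [Finset.sum_eq_single 0]
    · simp
    · intro k _ hk
      rw [if_neg]
      intro h3
      apply hk
      apply Subtype.ext
      simpa using h3
    · intro h; exact absurd (Finset.mem_univ _) h
  · -- comultiplication
    intro f hf
    obtain ⟨n, g, h, hg, hh, e⟩ := hH.comul' (f := pull R π f) hf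
    obtain ⟨m, b, hb, hbl, hbs⟩ := FlatLoc.exists_basis hR hH.fg hH.equiv
    obtain ⟨l, c, hc, hcl, hcs⟩ := FlatLoc.exists_basis hR hfg heq
    choose r hr using fun i => hbs (h i) (hh i)
    -- first expansion
    let Gf : Fin m → V → K := fun j x => ∑ i, (r i j : K) * g i x
    have hGH : ∀ j, Gf j ∈ H := by
      intro j
      have : Gf j = ∑ i, r i j • g i := by
        ext x; rw [Finset.sum_apply]; rfl
      rw [this]
      exact Subalgebra.sum_mem _ fun i _ => Subalgebra.smul_mem _ (hg i) _
    have e1 : ∀ x y, f (π x + π y) = ∑ j, Gf j x * b j y := by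
      intro x y
      have := e x y
      rw [pull_apply, map_add] at this
      rw [this]
      simp_rw [hr, Finset.mul_sum, Gf, Finset.sum_mul]
      rw [Finset.sum_comm]
      exact Finset.sum_congr rfl fun j _ => Finset.sum_congr rfl fun i _ => by ring
    have hGinv : ∀ j, ∀ x x', π x = π x' → Gf j x = Gf j x' := by
      intro j x x' hx
      have h1 : ∑ j, (Gf j x - Gf j x') • b j = 0 := by
        ext y
        simp only [Finset.sum_apply, Pi.smul_apply, smul_eq_mul, sub_mul, Finset.sum_sub_distrib,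
          Pi.zero_apply]
        rw [← e1, ← e1, hx, sub_self]
      exact sub_eq_zero.mp ((Fintype.linearIndependent_iff.mp hbl) _ h1 j)
    choose G' hG' using fun j => (show ∃ G' : W → K, ∀ x, G' (π x) = Gf j x from
      ⟨fun w => Gf j (hπ w).choose, fun x => hGinv j _ _ (hπ (π x)).choose_spec⟩)
    have hG'mem : ∀ j, G' j ∈ H.comap (pull R (π : V → W)) := by
      intro j
      rw [Subalgebra.mem_comap]
      have : pull R π (G' j) = Gf j := by ext x; exact hG' j x
      rw [this]; exact hGH j
    choose α hα using fun j => hcs (G' j) (hG'mem j)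
    -- second expansion
    let Df : Fin l → V → K := fun i y => ∑ j, (α j i : K) * b j y
    have hDH : ∀ i, Df i ∈ H := by
      intro i
      have : Df i = ∑ j, α j i • b j := by
        ext x; rw [Finset.sum_apply]; rfl
      rw [this]
      exact Subalgebra.sum_mem _ fun j _ => Subalgebra.smul_mem _ (hb j) _
    have e2 : ∀ w y, f (w + π y) = ∑ i, c i w * Df i y := by
      intro w y
      obtain ⟨x, rfl⟩ := hπ w
      rw [e1]
      simp_rw [← hG', hα, Df, Finset.mul_sum, Finset.sum_mul]
      rw [Finset.sum_comm]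
      exact Finset.sum_congr rfl fun j _ => Finset.sum_congr rfl fun i _ => by ring
    have hDinv : ∀ i, ∀ y y', π y = π y' → Df i y = Df i y' := by
      intro i y y' hy
      have h1 : ∑ i, (Df i y - Df i y') • c i = 0 := by
        ext w
        simp only [Finset.sum_apply, Pi.smul_apply, smul_eq_mul, sub_mul, Finset.sum_sub_distrib,
          Pi.zero_apply]
        simp_rw [mul_comm _ (c _ w)]
        rw [← e2, ← e2, hy, sub_self]
      exact sub_eq_zero.mp ((Fintype.linearIndependent_iff.mp hcl) _ h1 i)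
    choose D' hD' using fun i => (show ∃ D' : W → K, ∀ x, D' (π x) = Df i x from
      ⟨fun w => Df i (hπ w).choose, fun x => hDinv i _ _ (hπ (π x)).choose_spec⟩)
    have hD'mem : ∀ i, D' i ∈ H.comap (pull R (π : V → W)) := by
      intro i
      rw [Subalgebra.mem_comap]
      have : pull R π (D' i) = Df i := by ext x; exact hD' i x
      rw [this]; exact hDH i
    refine mem_box.mpr ⟨l, c, D', hc, hD'mem, fun w w' => ?_⟩
    obtain ⟨y, rfl⟩ := hπ w'
    change f (w + π y) = _
    rw [e2]
    exact Finset.sum_congr rfl fun i _ => by rw [hD']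

theorem IsFlatMod.quotient (hR : IsBase G R) [Finite V] (h : IsFlatMod R ρ) (π : V →+ W)
    (hπ : Function.Surjective π) (hπ' : Equivar ρ ρ' π) : IsFlatMod R ρ' := by
  obtain ⟨H, hH⟩ := h
  exact ⟨_, hH.quotient hR π hπ hπ'⟩

/-- the action on a product -/
def prodRep (ρ : G →* AddMonoid.End V) (ρ' : G →* AddMonoid.End W) :
    G →* AddMonoid.End (V × W) where
  toFun σ := AddMonoidHom.prodMap (ρ σ) (ρ' σ)
  map_one' := by rw [map_one, map_one]; rfl
  map_mul' σ τ := by rw [map_mul, map_mul]; rfl

@[simp] lemma prodRep_apply (σ : G) (x : V × W) : prodRep ρ ρ' σ x = (ρ σ x.1, ρ' σ x.2) := rfl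

/-- **Products** -/
theorem IsOrder.prod [Finite V] [Finite W] {H : Subalgebra R (V → K)} {H' : Subalgebra R (W → K)}
    (hR : IsBase G R) (hH : IsOrder R ρ H) (hH' : IsOrder R ρ' H') :
    IsOrder R (prodRep ρ ρ') (box H H') where
  fg := box_fg hH.fg hH'.fg
  equiv := by
    intro F hF σ x
    obtain ⟨n, g, h, hg, hh, e⟩ := mem_box.mp hF
    obtain ⟨x, y⟩ := x
    rw [prodRep_apply, e, e, Finset.smul_sum]
    refine Finset.sum_congr rfl fun i _ => ?_
    rw [smul_mul', hH.equiv _ (hg i), hH'.equiv _ (hh i)]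
  span := by
    classical
    cases nonempty_fintype V
    cases nonempty_fintype W
    rw [eq_top_iff]
    -- products of functions lie in the span
    have key : ∀ (g : V → K) (h : W → K), (fun q : V × W => g q.1 * h q.2) ∈
        Submodule.span K (box H H' : Set (V × W → K)) := by
      intro g h
      have hg : g ∈ Submodule.span K (H : Set (V → K)) := by rw [hH.span]; trivial
      have hh : h ∈ Submodule.span K (H' : Set (W → K)) := by rw [hH'.span]; trivial
      induction hg using Submodule.span_induction with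
      | mem g hg =>
        induction hh using Submodule.span_induction with
        | mem h hh =>
          refine Submodule.subset_span (mem_box.mpr ⟨1, fun _ => g, fun _ => h, fun _ => hg,
            fun _ => hh, fun x y => by simp⟩)
        | zero =>
          have h0 : (fun q : V × W => g q.1 * (0 : W → K) q.2) = 0 := by ext q; simp
          rw [h0]; exact Submodule.zero_mem _
        | add h₁ h₂ _ _ ih₁ ih₂ =>
          convert Submodule.add_mem _ ih₁ ih₂ using 1
          ext q; simp [mul_add]
        | smul c h₁ _ ih =>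
          convert Submodule.smul_mem _ c ih using 1
          ext q; simp [mul_left_comm]
      | zero =>
        have h0 : (fun q : V × W => (0 : V → K) q.1 * h q.2) = 0 := by ext q; simp
        rw [h0]; exact Submodule.zero_mem _
      | add h₁ h₂ _ _ ih₁ ih₂ =>
        convert Submodule.add_mem _ ih₁ ih₂ using 1
        ext q; simp [add_mul]
      | smul c h₁ _ ih =>
        convert Submodule.smul_mem _ c ih using 1
        ext q; simp [mul_assoc]
    intro F _
    have h1 : F = ∑ q : V × W, F q • (fun q' : V × W => (Pi.single q.1 1 : V → K) q'.1 *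
        (Pi.single q.2 1 : W → K) q'.2) := by
      ext q
      rw [Finset.sum_apply, Finset.sum_eq_single q]
      · simp
      · intro q' _ hq'
        simp only [Pi.smul_apply, smul_eq_mul, Pi.single_apply]
        by_cases h2 : q.1 = q'.1
        · by_cases h3 : q.2 = q'.2
          · exact absurd (Prod.ext h2 h3).symm hq'
          · simp [h3]
        · simp [h2]
      · intro h; exact absurd (Finset.mem_univ _) h
    rw [h1]
    exact Submodule.sum_mem _ fun q _ => Submodule.smul_mem _ _ (key _ _)
  comul := by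
    intro F hF
    obtain ⟨n, g, h, hg, hh, e⟩ := mem_box.mp hF
    have hsum : (fun q : (V × W) × (V × W) => F (q.1 + q.2)) =
        ∑ i, (fun q : (V × W) × (V × W) => g i (q.1.1 + q.2.1) * h i (q.1.2 + q.2.2)) := by
      ext ⟨⟨x, y⟩, ⟨x', y'⟩⟩
      rw [Finset.sum_apply]
      exact e _ _
    rw [hsum]
    refine Subalgebra.sum_mem _ fun i _ => ?_
    obtain ⟨n₁, g₁, g₂, hg₁, hg₂, e₁⟩ := hH.comul' (hg i)
    obtain ⟨n₂, h₁, h₂, hh₁, hh₂, e₂⟩ := hH'.comul' (hh i)
    have h3 : (fun q : (V × W) × (V × W) => g i (q.1.1 + q.2.1) * h i (q.1.2 + q.2.2)) =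
        ∑ j : Fin n₁, ∑ k : Fin n₂, pull R Prod.fst (fun q : V × W => g₁ j q.1 * h₁ k q.2) *
          pull R Prod.snd (fun q : V × W => g₂ j q.1 * h₂ k q.2) := by
      ext ⟨⟨x, y⟩, ⟨x', y'⟩⟩
      simp only [Finset.sum_apply, Pi.mul_apply, pull_apply, e₁, e₂, Finset.sum_mul_sum]
      exact Finset.sum_congr rfl fun j _ => Finset.sum_congr rfl fun k _ => by ring
    rw [h3]
    refine Subalgebra.sum_mem _ fun j _ => Subalgebra.sum_mem _ fun k _ => mul_mem ?_ ?_
    · refine (le_sup_left : (box H H').map (pull R Prod.fst) ≤ box (box H H') (box H H')) ⟨_, ?_, rfl⟩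
      exact mem_box.mpr ⟨1, fun _ => g₁ j, fun _ => h₁ k, fun _ => hg₁ j, fun _ => hh₁ k,
        fun x y => by simp⟩
    · refine (le_sup_right : (box H H').map (pull R Prod.snd) ≤ box (box H H') (box H H')) ⟨_, ?_, rfl⟩
      exact mem_box.mpr ⟨1, fun _ => g₂ j, fun _ => h₂ k, fun _ => hg₂ j, fun _ => hh₂ k,
        fun x y => by simp⟩

theorem IsFlatMod.prod (hR : IsBase G R) [Finite V] [Finite W] (h : IsFlatMod R ρ)
    (h' : IsFlatMod R ρ') : IsFlatMod R (prodRep ρ ρ') := by
  obtain ⟨H, hH⟩ := h
  obtain ⟨H', hH'⟩ := h'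
  exact ⟨_, hH.prod hR hH'⟩

end Fermat.Agent.FlatLoc
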