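import Fermat.Agent.FlatLoc.Rad

/-!
# Base rings from valuations
-/

set_option autoImplicit false
set_option linter.unusedSectionVars false

namespace Fermat.Agent.FlatLoc

open Fermat.Agent.ECRed

variable {K : Type*} [Field K] [CharZero K] {G : Type*} [Group G] [MulSemiringAction G K]
  {v : OrdFn K} {p : ℕ} {R : Subring K}

theorem isBase_of_val (hp : p ≠ 0) (hvp : v.ord (p : K) = 1)
    (hR : ∀ z, z ∈ R ↔ (∀ σ : G, σ • z = z) ∧ v.Ge 0 z)
    (hint : ∀ z : K, z ≠ 0 → (∀ σ : G, σ • z = z) → ∃ n : ℤ, v.ord z = n) : IsBase G R := by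
  have hp0 : (p : K) ≠ 0 := by exact_mod_cast hp
  have hpfix : ∀ σ : G, σ • (p : K) = p := fun σ => by
    rw [← MulSemiringAction.toRingHom_apply, map_natCast]
  have hRv : ∀ r ∈ R, v.Ge 0 r := fun r hr => ((hR r).mp hr).2
  have hpR : (p : K) ∈ R := (hR _).mpr ⟨hpfix, OrdFn.ge_natCast p⟩
  refine ⟨fun r hr => ((hR r).mp hr).1, fun z hz => ?_, fun z hz hzi => ?_, ?_⟩
  · by_cases hz0 : z = 0
    · exact ⟨1, R.one_mem, one_ne_zero, by rw [hz0, mul_zero]; exact R.zero_mem⟩
    obtain ⟨n, hn⟩ := hint z hz0 hz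
    refine ⟨(p : K) ^ n.natAbs, R.pow_mem hpR _, pow_ne_zero _ hp0, ?_⟩
    rw [hR]
    refine ⟨fun σ => by rw [smul_mul', smul_pow', hpfix, hz], Or.inr ?_⟩
    rw [OrdFn.ord_mul (pow_ne_zero _ hp0) hz0, OrdFn.ord_pow hp0, hvp, hn, mul_one]
    have h1 : (0 : ℤ) ≤ (n.natAbs : ℤ) + n := by omega
    have h2 : (0 : ℝ) ≤ (((n.natAbs : ℤ) + n : ℤ) : ℝ) := by exact_mod_cast h1
    rw [Int.cast_add, Int.cast_natCast] at h2
    exact h2
  · exact (hR z).mpr ⟨hz, ge_of_isIntegral hRv hzi⟩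
  · -- discrete valuation ring
    have key : IsDiscreteValuationRing.HasUnitMulPowIrreducibleFactorization R := by
      refine ⟨⟨p, hpR⟩, ?_, ?_⟩
      · -- irreducible
        have hunit : ∀ x : R, x ≠ 0 → v.ord (x : K) = 0 → IsUnit x := by
          intro x hx hx0
          have hxK : (x : K) ≠ 0 := fun h => hx (Subtype.ext h)
          have hinv : (x : K)⁻¹ ∈ R := by
            rw [hR]
            refine ⟨fun σ => by rw [smul_inv'', ((hR _).mp x.2).1], Or.inr ?_⟩
            rw [OrdFn.ord_inv _ hxK, hx0, neg_zero]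
          exact IsUnit.of_mul_eq_one (⟨_, hinv⟩ : R) (Subtype.ext (mul_inv_cancel₀ hxK))
        refine ⟨fun hu => ?_, fun a b hab => ?_⟩
        · obtain ⟨u, hu⟩ := hu
          have h1 : ((u : R) : K) * ((u⁻¹ : Rˣ) : R) = 1 := congrArg Subtype.val u.mul_inv
          have h2 : ((u : R) : K) = p := congrArg Subtype.val hu
          rw [h2] at h1
          have h3 : (((u⁻¹ : Rˣ) : R) : K) ≠ 0 := right_ne_zero_of_mul_eq_one h1
          have h4 := OrdFn.ord_mul (v := v) hp0 h3
          rw [h1, OrdFn.ord_one, hvp] at h4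
          have h5 := (OrdFn.ge_iff h3).mp (hRv _ ((u⁻¹ : Rˣ) : R).2)
          linarith
        · have h1 : (a : K) * b = p := (congrArg Subtype.val hab).symm
          have ha : (a : K) ≠ 0 := left_ne_zero_of_mul (h1 ▸ hp0)
          have hb : (b : K) ≠ 0 := right_ne_zero_of_mul (h1 ▸ hp0)
          have h2 := OrdFn.ord_mul (v := v) ha hb
          rw [h1, hvp] at h2
          obtain ⟨m, hm⟩ := hint a ha ((hR _).mp a.2).1
          obtain ⟨n, hn⟩ := hint b hb ((hR _).mp b.2).1
          have hm0 : (0 : ℝ) ≤ m := by rw [← hm]; exact (OrdFn.ge_iff ha).mp (hRv _ a.2)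
          have hn0 : (0 : ℝ) ≤ n := by rw [← hn]; exact (OrdFn.ge_iff hb).mp (hRv _ b.2)
          rw [hm, hn] at h2
          have hm0' : (0 : ℤ) ≤ m := by exact_mod_cast hm0
          have hn0' : (0 : ℤ) ≤ n := by exact_mod_cast hn0
          have h2' : (1 : ℤ) = m + n := by exact_mod_cast h2
          rcases eq_or_lt_of_le hm0' with h | h
          · left
            exact hunit a (fun h' => ha (congrArg Subtype.val h')) (by rw [hm, ← h]; simp)
          · right
            have : n = 0 := by omega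
            exact hunit b (fun h' => hb (congrArg Subtype.val h')) (by rw [hn, this]; simp)
      · intro x hx
        have hxK : (x : K) ≠ 0 := fun h => hx (Subtype.ext h)
        obtain ⟨n, hn⟩ := hint x hxK ((hR _).mp x.2).1
        have hn0 : (0 : ℝ) ≤ n := by rw [← hn]; exact (OrdFn.ge_iff hxK).mp (hRv _ x.2)
        obtain ⟨m, rfl⟩ : ∃ m : ℕ, n = m := ⟨n.toNat, (Int.toNat_of_nonneg (by exact_mod_cast hn0)).symm⟩
        have hord : v.ord ((x : K) / (p : K) ^ m) = 0 := by
          rw [div_eq_mul_inv, OrdFn.ord_mul hxK (inv_ne_zero (pow_ne_zero _ hp0)),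
            OrdFn.ord_inv _ (pow_ne_zero _ hp0), OrdFn.ord_pow hp0, hvp, hn]
          push_cast; ring
        have hne : (x : K) / (p : K) ^ m ≠ 0 := div_ne_zero hxK (pow_ne_zero _ hp0)
        have hfix : ∀ σ : G, σ • ((x : K) / (p : K) ^ m) = (x : K) / (p : K) ^ m := fun σ => by
          rw [smul_div₀', smul_pow', hpfix, ((hR _).mp x.2).1]
        have h1 : (x : K) / (p : K) ^ m ∈ R := (hR _).mpr ⟨hfix, Or.inr hord.ge⟩
        have h2 : ((x : K) / (p : K) ^ m)⁻¹ ∈ R := (hR _).mpr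
          ⟨fun σ => by rw [smul_inv'', hfix], Or.inr (by rw [OrdFn.ord_inv _ hne, hord, neg_zero])⟩
        refine ⟨m, ⟨⟨⟨_, h1⟩, ⟨_, h2⟩, Subtype.ext (mul_inv_cancel₀ hne),
          Subtype.ext (inv_mul_cancel₀ hne)⟩, ?_⟩⟩
        apply Subtype.ext
        change (p : K) ^ m * ((x : K) / (p : K) ^ m) = x
        rw [mul_div_cancel₀ _ (pow_ne_zero _ hp0)]
    have := IsDiscreteValuationRing.ofHasUnitMulPowIrreducibleFactorization key
    infer_instance

end Fermat.Agent.FlatLoc
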