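import Fermat.Agent.FlatLoc.Order

/-!
# Base change of orders
-/

set_option autoImplicit false
set_option linter.unusedSectionVars false

namespace Fermat.Agent.FlatLoc

variable {K : Type*} [Field K] {G G' : Type*} [Group G] [MulSemiringAction G K] [Group G']
  [MulSemiringAction G' K] {V : Type*} [AddCommGroup V]

/-- the base changed algebra -/
def bc {R : Subring K} (R' : Subring K) (H : Subalgebra R (V → K)) : Subalgebra R' (V → K) :=
  Algebra.adjoin R' (H : Set (V → K))

lemma bc_toSubmodule {R : Subring K} (R' : Subring K) (H : Subalgebra R (V → K)) :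
    Subalgebra.toSubmodule (bc R' H) = Submodule.span R' (H : Set (V → K)) := by
  rw [bc, Algebra.adjoin_eq_span]
  congr 1
  exact congrArg _ (Submonoid.closure_eq H.toSubmonoid)

lemma mem_bc {R : Subring K} {R' : Subring K} {H : Subalgebra R (V → K)} {f : V → K} :
    f ∈ bc R' H ↔ f ∈ Submodule.span R' (H : Set (V → K)) := by
  rw [← bc_toSubmodule]; rfl

lemma smul_mem_R {R : Subring K} {V : Type*} (H : Subalgebra R (V → K)) {f : V → K} (hf : f ∈ H)
    (r : R) : (fun x => (r : K) * f x) ∈ H := H.smul_mem hf r

lemma span_eq_of_fg {R : Subring K} {R' : Subring K} (hR : R ≤ R') {H : Subalgebra R (V → K)}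
    {S : Set (V → K)} (hS : Submodule.span R S = Subalgebra.toSubmodule H) :
    Submodule.span R' (H : Set (V → K)) = Submodule.span R' S := by
  apply le_antisymm
  · rw [Submodule.span_le]
    intro f hf
    have hf' : f ∈ Submodule.span R S := by rw [hS]; exact hf
    induction hf' using Submodule.span_induction with
    | mem x hx => exact Submodule.subset_span hx
    | zero => exact Submodule.zero_mem _
    | add x y _ _ hx hy =>
      refine Submodule.add_mem _ (hx ?_) (hy ?_)
      all_goals
        rw [SetLike.mem_coe, ← Subalgebra.mem_toSubmodule, ← hS]; assumption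
    | smul a x hx' hx =>
      have h1 := hx (by rw [SetLike.mem_coe, ← Subalgebra.mem_toSubmodule, ← hS]; exact hx')
      exact Submodule.smul_mem _ (⟨a, hR a.2⟩ : R') h1
  · refine Submodule.span_mono ?_
    intro f hf
    have : f ∈ Subalgebra.toSubmodule H := by rw [← hS]; exact Submodule.subset_span hf
    exact this

theorem IsOrder.baseChange {R R' : Subring K} (hR : R ≤ R') {ρ : G →* AddMonoid.End V}
    {H : Subalgebra R (V → K)} (h : IsOrder R ρ H) (j : G' →* G)
    (hj : ∀ (σ : G') (z : K), j σ • z = σ • z) (hR' : ∀ r ∈ R', ∀ σ : G', σ • r = r) :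
    IsOrder R' (ρ.comp j) (bc R' H) where
  fg := by
    obtain ⟨S, hS⟩ := h.fg
    rw [bc_toSubmodule, span_eq_of_fg hR hS]
    exact ⟨S, rfl⟩
  equiv f hf σ x := by
    rw [mem_bc] at hf
    induction hf using Submodule.span_induction with
    | mem f hf =>
      rw [← hj]
      exact h.equiv f hf (j σ) x
    | zero => simp
    | add f g _ _ hf hg => rw [Pi.add_apply, Pi.add_apply, smul_add, hf, hg]
    | smul a f _ hf =>
      change (a : K) * f _ = σ • ((a : K) * f x)
      rw [smul_mul', hR' a a.2 σ]
      exact congrArg _ hf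
  span := by
    rw [eq_top_iff, ← h.span]
    refine Submodule.span_mono ?_
    intro f hf
    exact mem_bc.mpr (Submodule.subset_span hf)
  comul f hf := by
    have hle : ∀ F : V × V → K, F ∈ box H H → F ∈ box (bc R' H) (bc R' H) := by
      intro F hF
      obtain ⟨n, g, g', hg, hg', e⟩ := mem_box.mp hF
      exact mem_box.mpr ⟨n, g, g', fun i => mem_bc.mpr (Submodule.subset_span (hg i)),
        fun i => mem_bc.mpr (Submodule.subset_span (hg' i)), e⟩
    rw [mem_bc] at hf
    induction hf using Submodule.span_induction with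
    | mem f hf => exact hle _ (h.comul f hf)
    | zero => exact Subalgebra.zero_mem _
    | add f g _ _ hf hg => exact Subalgebra.add_mem _ hf hg
    | smul a f _ hf => exact Subalgebra.smul_mem _ hf a

theorem IsFlatMod.baseChange {R R' : Subring K} (hR : R ≤ R') {ρ : G →* AddMonoid.End V}
    (h : IsFlatMod R ρ) (j : G' →* G) (hj : ∀ (σ : G') (z : K), j σ • z = σ • z)
    (hR' : ∀ r ∈ R', ∀ σ : G', σ • r = r) : IsFlatMod R' (ρ.comp j) := by
  obtain ⟨H, hH⟩ := h
  exact ⟨_, hH.baseChange hR j hj hR'⟩

end Fermat.Agent.FlatLoc
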