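import Fermat.Agent.FlatLoc.Weights

/-!
# Classification of two-dimensional flat representations of inertia
-/

set_option autoImplicit false
set_option linter.unusedSectionVars false

namespace Fermat.Agent.FlatLoc

open Fermat.Agent.ECRed
open scoped Polynomial

section field

/-- roots of quadratics over the prime field -/
lemma root_frob {κ : Type*} [Field κ] {p : ℕ} [Fact p.Prime] [CharP κ p] {a : κ} {t w : ℤ}
    (h : a ^ 2 - t * a + w = 0) : (a ^ p) ^ 2 - t * a ^ p + w = 0 := by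
  have h1 := congrArg (frobenius κ p) h
  rw [map_add, map_sub, map_mul, map_pow, map_zero, map_intCast, map_intCast, frobenius_def] at h1
  exact h1

lemma root_frob_sq {κ : Type*} [Field κ] {p : ℕ} [Fact p.Prime] [CharP κ p] {a : κ} {t w : ℤ}
    (h : a ^ 2 - t * a + w = 0) : (a ^ p) ^ p = a := by
  have h1 := root_frob (p := p) h
  have h2 := root_frob (p := p) h1
  by_cases hab : a ^ p = a
  · rw [hab, hab]
  · have hsum : a + a ^ p = t := by
      have h3 : (a - a ^ p) * (a + a ^ p - t) = 0 := by linear_combination h - h1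
      have h4 := (mul_eq_zero.mp h3).resolve_left (sub_ne_zero.mpr (Ne.symm hab))
      exact sub_eq_zero.mp h4
    have h5 : ((a ^ p) ^ p - a ^ p) * ((a ^ p) ^ p + a ^ p - t) = 0 := by linear_combination h2 - h1
    rcases mul_eq_zero.mp h5 with h6 | h6
    · exfalso
      apply hab
      have h7 : frobenius κ p (a ^ p) = frobenius κ p a := by
        rw [frobenius_def, frobenius_def]; exact sub_eq_zero.mp h6
      exact frobenius_inj κ p h7
    · rw [← hsum] at h6
      have : (a ^ p) ^ p - a = 0 := by linear_combination h6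
      exact sub_eq_zero.mp this

end field

variable {K : Type*} [Field K] {κ : Type*} [Field κ] {G : Type*} [Group G]
  [MulSemiringAction G K] {p : ℕ} [hp : Fact p.Prime] (C : Ctx K κ G p)
variable {V : Type*} [AddCommGroup V] [Module (ZMod p) V] [Finite V]
variable {ρ : G →* AddMonoid.End V} {H : Subalgebra C.R (V → K)}

/-- the linear maps attached to `ρ` -/
def lin (p : ℕ) [Module (ZMod p) V] (ρ : G →* AddMonoid.End V) (σ : G) : V →ₗ[ZMod p] V :=
  AddMonoidHom.toZModLinearMap p (ρ σ)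

@[simp] lemma lin_apply (σ : G) (x : V) : lin p ρ σ x = ρ σ x := rfl

/-- the quadratic polynomial `X² - tX + w` -/
noncomputable def quad (t w : ℤ) : ℤ[X] := Polynomial.X ^ 2 - Polynomial.C t * Polynomial.X + Polynomial.C w

lemma aeval_quad_field {F : Type*} [Field F] (a : F) (t w : ℤ) :
    Polynomial.aeval a (quad t w) = a ^ 2 - t * a + w := by
  simp [quad]

lemma aeval_quad_end (f : AddMonoid.End V) (t w : ℤ) (x : V) :
    Polynomial.aeval f (quad t w) x = f (f x) - t • f x + w • x := by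
  unfold quad
  rw [map_add, map_sub, map_mul, map_pow, Polynomial.aeval_X, Polynomial.aeval_C,
    Polynomial.aeval_C, Algebra.algebraMap_eq_smul_one, Algebra.algebraMap_eq_smul_one, pow_two]
  simp only [smul_mul_assoc, one_mul]
  rfl

/-- Cayley-Hamilton -/
lemma exists_quad (hfin : Module.finrank (ZMod p) V = 2) (σ : G) :
    ∃ t w : ℤ, (w : ZMod p) = LinearMap.det (lin p ρ σ) ∧
      ∀ x, Polynomial.aeval (ρ σ) (quad t w) x = 0 := by
  classical
  set f := lin p ρ σ with hf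
  have hdeg : f.charpoly.natDegree = 2 := by rw [LinearMap.charpoly_natDegree, hfin]
  have hmon : f.charpoly.Monic := LinearMap.charpoly_monic f
  have h1 : f.charpoly = Polynomial.X ^ 2 + Polynomial.C (f.charpoly.coeff 1) * Polynomial.X +
      Polynomial.C (f.charpoly.coeff 0) := by
    have h2 := f.charpoly.as_sum_range_C_mul_X_pow
    rw [hdeg, Finset.sum_range_succ, Finset.sum_range_succ, Finset.sum_range_one] at h2
    have h3 : f.charpoly.coeff 2 = 1 := by rw [← hdeg]; exact hmon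
    rw [h3] at h2
    conv_lhs => rw [h2]
    simp only [map_one, one_mul, pow_zero, mul_one, pow_one]
    ring
  have hdet : LinearMap.det f = f.charpoly.coeff 0 := by
    rw [LinearMap.det_eq_sign_charpoly_coeff, hfin]; simp
  refine ⟨-((f.charpoly.coeff 1).val : ℤ), ((f.charpoly.coeff 0).val : ℤ), ?_, fun x => ?_⟩
  · rw [hdet]; simp
  · have h4 := f.aeval_self_charpoly
    rw [h1] at h4
    have h5 := LinearMap.congr_fun h4 x
    rw [map_add, map_add, map_mul, map_pow, Polynomial.aeval_X, Polynomial.aeval_C,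
      Polynomial.aeval_C] at h5
    rw [aeval_quad_end, neg_smul, sub_neg_eq_add, natCast_zsmul, natCast_zsmul]
    have h6 : ∀ (a : ZMod p) (y : V), a.val • y = a • y := fun a y => by
      rw [← Nat.cast_smul_eq_nsmul (ZMod p)]; simp
    rw [h6, h6]
    have h7 : f (f x) + f.charpoly.coeff 1 • f x + f.charpoly.coeff 0 • x = 0 := by
      have : (f ^ 2) x = f (f x) := by rw [pow_two]; rfl
      rw [LinearMap.add_apply, LinearMap.add_apply, this, LinearMap.zero_apply] at h5
      exact h5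
    exact h7

namespace Ctx

section scalar

include C

/-- scalar action at the level of residues -/
lemma scalar_gt (hH : IsOrder C.R ρ H) {c : ℝ} (hc : 0 < c) {ϖ : K} (hϖ : C.v.Eq c ϖ) (σ : G)
    (P : ℤ[X]) {x : V} (hx : RGe C.v H c x)
    (hP : Polynomial.aeval (C.r (σ • ϖ / ϖ)) P = 0) :
    RGt C.v H c (Polynomial.aeval (ρ σ) P x) := by
  have h1 := C.r_aeval P (C.eq_ratio hϖ σ).ge
  refine hH.scalar_gt C.hv C.hRv (C.inert σ) hϖ hc P hx ?_
  rw [← C.r_eq_zero _ h1.1, h1.2, hP]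

lemma scalar_of_gt (hH : IsOrder C.R ρ H) {c : ℝ} (hc : 0 < c) {ϖ : K} (hϖ : C.v.Eq c ϖ) (σ : G)
    (P : ℤ[X]) {x : V} (hx : REq C.v H c x)
    (hP : RGt C.v H c (Polynomial.aeval (ρ σ) P x)) :
    Polynomial.aeval (C.r (σ • ϖ / ϖ)) P = 0 := by
  have h1 := C.r_aeval P (C.eq_ratio hϖ σ).ge
  rw [← h1.2, C.r_eq_zero _ h1.1]
  exact hH.scalar_of_gt C.hv C.hRv (C.inert σ) hϖ hc P hx hP

end scalar

omit hp [Module (ZMod p) V] [Finite V] in
lemma aeval_X_sub_end (f : AddMonoid.End V) (n : ℤ) (x : V) :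
    Polynomial.aeval f (Polynomial.X - Polynomial.C n : ℤ[X]) x = f x - n • x := by
  rw [map_sub, Polynomial.aeval_X, Polynomial.aeval_C, Algebra.algebraMap_eq_smul_one]
  rfl

lemma val_zsmul (a : ZMod p) (y : V) : ((a.val : ℕ) : ℤ) • y = a • y := by
  rw [natCast_zsmul, ← Nat.cast_smul_eq_nsmul (ZMod p)]; simp

section level2

omit C in
lemma not_dvd_e : ¬ p ∣ p ^ 2 - 1 := by
  have h1 := hp.out.one_lt
  intro h
  have h2 : p ∣ p ^ 2 := Dvd.intro_left (p ^ 1) (by ring)
  have h3 : p ∣ p ^ 2 - (p ^ 2 - 1) := Nat.dvd_sub h2 h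
  have h4 : p ^ 2 - (p ^ 2 - 1) = 1 := by
    have : 1 ≤ p ^ 2 := Nat.one_le_pow _ _ hp.out.pos
    omega
  rw [h4] at h3
  exact absurd (Nat.dvd_one.mp h3) (by omega)

omit C in
lemma e_ne_zero : p ^ 2 - 1 ≠ 0 := fun h => (not_dvd_e (p := p)) (by rw [h]; exact dvd_zero _)

omit C in
lemma e_factor : p ^ 2 - 1 = (p + 1) * (p - 1) := by
  have := hp.out.one_lt
  obtain ⟨m, rfl⟩ : ∃ m, p = m + 1 := ⟨p - 1, by omega⟩
  have : (m + 1) ^ 2 = m ^ 2 + 2 * m + 1 := by ring
  rw [this]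
  simp only [Nat.add_sub_cancel]
  ring

omit C in
lemma e_cast : (((p ^ 2 - 1 : ℕ)) : ℝ) = (p + 1) * (p - 1) := by
  rw [e_factor]
  have := hp.out.one_lt.le
  push_cast [Nat.cast_sub this]
  ring

include C in
lemma psi_ratio (a : ZMod p) : C.v.Ge 0 ((C.ψ a - 1) / (C.ψ 1 - 1)) ∧
    C.r ((C.ψ a - 1) / (C.ψ 1 - 1)) = (a.val : κ) := by
  have hz := eq_addChar_sub_one C.vp C.hψ (one_ne_zero (α := ZMod p))
  have hz0 : C.v.Eq 0 (C.ψ 1) := by
    refine ord_root_of_unity (v := C.v) (n := p) (Fact.out : p.Prime).ne_zero ?_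
    rw [← AddChar.map_nsmul_eq_pow]; simp
  have hpos : (0 : ℝ) < 1 / ((p : ℝ) - 1) := by
    have := one_lt (p := p)
    exact one_div_pos.mpr (by linarith)
  have h1 : C.ψ a - 1 = (C.ψ 1) ^ a.val - 1 := by
    rw [← AddChar.map_nsmul_eq_pow]
    congr 2
    simp
  have h2 : (C.ψ a - 1) / (C.ψ 1 - 1) = ∑ i ∈ Finset.range a.val, (C.ψ 1) ^ i := by
    rw [h1, ← geom_sum_mul, mul_div_cancel_right₀ _ hz.1]
  rw [h2, C.r_sum _ _ fun i _ => Ge.pow_aux hz0.ge i]
  have h3 : C.r (C.ψ 1) = 1 := by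
    rw [← C.r_one, C.r_eq_iff hz0.ge OrdFn.eq_one.ge]
    exact hz.gt hpos
  refine ⟨ge_sum _ _ fun i _ => Ge.pow_aux hz0.ge i, ?_⟩
  rw [Finset.sum_congr rfl fun i _ => by rw [C.r_pow hz0.ge, h3, one_pow]]
  simp

variable {ϖ : K} (hϖ : ϖ ^ (p ^ 2 - 1) = p)

include C hϖ

/-- the cyclotomic character in terms of the level two character -/
lemma r_omega_eq (σ : G) : C.r (σ • ϖ / ϖ) ^ (p + 1) = ((C.ω σ : ZMod p).val : κ) := by
  have h1 := C.eq_varpi hϖ e_ne_zero
  have h2 : C.v.Eq (1 / ((p : ℝ) - 1)) (ϖ ^ (p + 1)) := by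
    have h3 := h1.pow (p + 1)
    convert h3 using 1
    rw [e_cast]
    have := one_lt (p := p)
    have h4 : (p : ℝ) - 1 ≠ 0 := by linarith
    have h5 : (p : ℝ) + 1 ≠ 0 := by linarith
    push_cast
    field_simp
  have h4 := eq_addChar_sub_one C.vp C.hψ (one_ne_zero (α := ZMod p))
  rw [← C.r_omega, ← C.r_ratio h2 h4, ← C.r_pow (C.eq_ratio h1 σ).ge, smul_pow', div_pow]

/-- **exclusion of the twisted prolongation** -/
theorem excl_p (hH : IsOrder C.R ρ H) (hV : Nontrivial V)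
    (hdet : ∀ σ, ∃ t w : ℤ, (w : ZMod p) = C.ω σ ∧
      ∀ x, Polynomial.aeval (ρ σ) (quad t w) x = 0)
    (hr : ∀ x : V, x ≠ 0 → REq C.v H (p / ((p ^ 2 - 1 : ℕ) : ℝ)) x) : False := by
  classical
  have := C.char
  have hp1 := one_lt (p := p)
  have hp2 := C.two_lt_nat
  set e := p ^ 2 - 1 with he
  have he0 : e ≠ 0 := e_ne_zero
  have hpe : ¬ p ∣ e := not_dvd_e
  have : NeZero e := ⟨he0⟩
  have heR : (e : ℝ) = (p + 1) * (p - 1) := e_cast
  have hepos : (0 : ℝ) < e := by exact_mod_cast Nat.pos_of_ne_zero he0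
  have h1 := C.eq_varpi hϖ he0
  have hϖ0 := C.varpi_ne hϖ he0
  set c : ℝ := p / (e : ℝ) with hc
  have hc0 : 0 < c := by positivity
  have hϖp : C.v.Eq c (ϖ ^ p) := by
    have := h1.pow p
    convert this using 1
    rw [hc]; ring
  have hrge : ∀ x : V, RGe C.v H c x := by
    intro x
    by_cases hx : x = 0
    · rw [hx]; exact RGe.zero
    · exact (hr x hx).1
  have hrgt : ∀ x : V, RGt C.v H c x → x = 0 := by
    intro x hx
    by_contra hx0
    exact (hr x hx0).not_gt hx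
  have hratio : ∀ σ : G, C.r (σ • (ϖ ^ p) / ϖ ^ p) = C.r (σ • ϖ / ϖ) ^ p := by
    intro σ
    rw [smul_pow', ← div_pow, C.r_pow (C.eq_ratio h1 σ).ge]
  let Θ := C.thetaHom hpe hϖ
  have hΘ : ∀ σ, ((Θ σ : Kˣ) : K) = σ • ϖ / ϖ := fun σ => rfl
  have hΘe : ∀ σ, Θ σ ^ e = 1 := fun σ => Units.ext (by
    rw [Units.val_pow_eq_pow_val, hΘ, Units.val_one]; exact C.theta_pow hϖ he0 σ)
  have hΘfix : ∀ σ τ : G, σ • ((Θ τ : Kˣ) : K) = Θ τ := fun σ τ =>
    C.root_fixed hpe (by rw [hΘ]; exact C.theta_pow hϖ he0 τ) σ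
  obtain ⟨σ₀, hσ₀⟩ := C.exists_theta_primitive hpe hϖ
  have hΘs : ∃ σ, IsPrimitiveRoot (Θ σ) e := ⟨σ₀, IsPrimitiveRoot.coe_units_iff.mp hσ₀⟩
  have := finite_range_of_pow hΘe
  have : Fintype Θ.range := Fintype.ofFinite _
  have hcard : Fintype.card Θ.range = e := by
    rw [← Nat.card_eq_fintype_card]; exact card_range hΘe hΘs
  -- elements with trivial tame character act trivially
  have htriv : ∀ τ : G, Θ τ = 1 → ∀ x, ρ τ x = x := by
    intro τ hτ x
    have h2 : σ₀ = σ₀ := rfl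
    have h3 := C.scalar_gt hH hc0 hϖp τ (Polynomial.X - Polynomial.C 1) (hrge x) (by
      have : τ • ϖ / ϖ = 1 := by rw [← hΘ, hτ, Units.val_one]
      rw [hratio, this, C.r_one, one_pow]
      simp)
    have h4 := hrgt _ h3
    rw [aeval_X_sub_end, one_smul, sub_eq_zero] at h4
    exact h4
  -- residues of roots of unity
  have hru : ∀ u : Θ.range, C.v.Eq 0 ((u : Kˣ) : K) := fun u =>
    ord_root_of_unity (v := C.v) he0 (by
      obtain ⟨_, σ, rfl⟩ := u
      rw [← Units.val_pow_eq_pow_val]; simp only; rw [hΘe, Units.val_one])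
  set g : κ := C.r (σ₀ • ϖ / ϖ) with hg
  have hgprim : IsPrimitiveRoot g e := by
    refine ⟨?_, fun l hl => ?_⟩
    · rw [hg, ← C.r_pow (C.eq_ratio h1 σ₀).ge, C.theta_pow hϖ he0, C.r_one]
    · apply hσ₀.dvd_of_pow_eq_one
      refine C.root_inj hpe (n := e) ?_ (one_pow e) ?_
      · rw [← pow_mul, mul_comm, pow_mul, C.theta_pow hϖ he0, one_pow]
      · rw [C.r_pow (C.eq_ratio h1 σ₀).ge, C.r_one]; exact hl
  -- the quadratic equation at `σ₀`
  obtain ⟨t, w, hw, hquad⟩ := hdet σ₀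
  obtain ⟨x₁, hx₁⟩ := exists_ne (0 : V)
  have hroot : (g ^ p) ^ 2 - t * g ^ p + w = 0 := by
    have h2 := C.scalar_of_gt hH hc0 hϖp σ₀ (quad t w) (hr x₁ hx₁) (by
      rw [hquad]; exact RGt.zero)
    rwa [hratio, aeval_quad_field] at h2
  have hroot' : g ^ 2 - t * g + w = 0 := by
    have h2 := root_frob (p := p) hroot
    have h3 : (g ^ p) ^ p = g := by
      rw [← pow_mul, ← pow_two]
      have : p ^ 2 = e + 1 := by
        have : 1 ≤ p ^ 2 := Nat.one_le_pow _ _ hp.out.pos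
        omega
      rw [this, pow_succ, hgprim.pow_eq_one, one_mul]
    rwa [h3] at h2
  have hgne : g ^ p ≠ g := by
    intro h2
    have hg0 : g ≠ 0 := hgprim.ne_zero he0
    have h3 : g ^ (p - 1) = 1 := by
      have : g ^ (p - 1) * g = 1 * g := by
        rw [← pow_succ, Nat.sub_add_cancel hp.out.one_lt.le, h2, one_mul]
      exact mul_right_cancel₀ hg0 this
    have h4 := hgprim.dvd_of_pow_eq_one _ h3
    have h5 := Nat.le_of_dvd (by omega) h4
    have h6 : e = (p + 1) * (p - 1) := e_factor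
    rw [h6] at h5
    have h7 : 1 * (p - 1) < (p + 1) * (p - 1) := Nat.mul_lt_mul_of_pos_right (by omega) (by omega)
    omega
  have hsum : g + g ^ p = t := by
    have h3 : (g - g ^ p) * (g + g ^ p - t) = 0 := by linear_combination hroot' - hroot
    exact sub_eq_zero.mp ((mul_eq_zero.mp h3).resolve_left (sub_ne_zero.mpr (Ne.symm hgne)))
  -- the Fourier coefficients
  let ι : ZMod p →+* κ := ZMod.castHom (dvd_refl p) κ
  have hι : ∀ a : ZMod p, ((a.val : ℕ) : κ) = ι a := fun a => by simp [ι]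
  let F : ℕ → Module.Dual (ZMod p) V → V → κ := fun k l x =>
    ∑ u : Θ.range, (C.r ((u : Kˣ) : K))⁻¹ ^ k * ι (l (ρ (lft u) x))
  have hF1 : ∀ k l x (σ : G), F k l (ρ σ x) = C.r (σ • ϖ / ϖ) ^ k * F k l x := by
    intro k l x σ
    simp only [F]
    rw [Finset.mul_sum]
    let e' : Θ.range ≃ Θ.range := Equiv.mulRight ⟨Θ σ, σ, rfl⟩
    conv_rhs => rw [← e'.sum_comp]
    refine Finset.sum_congr rfl fun u _ => ?_
    have h2 : ((e' u : Θ.range) : Kˣ) = u * Θ σ := rfl
    have h3 : ρ (lft (e' u)) x = ρ (lft u) (ρ σ x) := by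
      have h4 : Θ ((lft u * σ)⁻¹ * lft (e' u)) = 1 := by
        rw [map_mul, map_inv, map_mul, lft_spec, lft_spec, h2, inv_mul_cancel]
      have h5 := htriv _ h4 x
      have h6 : ρ (lft (e' u)) x = ρ (lft u * σ) (ρ ((lft u * σ)⁻¹ * lft (e' u)) x) := by
        have : ρ (lft (e' u)) = ρ (lft u * σ) * ρ ((lft u * σ)⁻¹ * lft (e' u)) := by
          rw [← map_mul, mul_inv_cancel_left]
        rw [this]; rfl
      rw [h6, h5, map_mul]
      rfl
    have h4 : C.r (((u : Kˣ) * Θ σ : Kˣ) : K) = C.r ((u : Kˣ) : K) * C.r (σ • ϖ / ϖ) := by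
      have hEq0 : C.v.Eq 0 ((Θ σ : Kˣ) : K) := by rw [hΘ]; exact C.eq_ratio h1 σ
      rw [Units.val_mul, C.r_mul _ _ (hru u).ge hEq0.ge, hΘ]
    rw [h3, h2, h4, mul_inv, mul_pow, ← mul_assoc, ← mul_assoc]
    have h5 : C.r (σ • ϖ / ϖ) ^ k * ((C.r ((u : Kˣ) : K))⁻¹ ^ k * (C.r (σ • ϖ / ϖ))⁻¹ ^ k) =
        (C.r ((u : Kˣ) : K))⁻¹ ^ k := by
      have h6 := C.r_ne_zero (C.eq_ratio h1 σ)
      rw [inv_pow (C.r (σ • ϖ / ϖ))]
      field_simp
    rw [mul_assoc (C.r (σ • ϖ / ϖ) ^ k), h5]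
  have hFadd : ∀ k l x y, F k l (x + y) = F k l x + F k l y := by
    intro k l x y
    simp only [F, map_add, mul_add, Finset.sum_add_distrib]
  let Fh : ℕ → Module.Dual (ZMod p) V → (V →+ κ) := fun k l => AddMonoidHom.mk' (F k l) (hFadd k l)
  have hquadF : ∀ k l x, ((g ^ k) ^ 2 - t * g ^ k + w) * F k l x = 0 := by
    intro k l x
    have h2 := congrArg (Fh k l) (hquad x)
    rw [aeval_quad_end, map_add, map_sub, map_zsmul, map_zsmul, map_zero] at h2
    change F k l (ρ σ₀ (ρ σ₀ x)) - t • F k l (ρ σ₀ x) + w • F k l x = 0 at h2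
    rw [hF1, hF1, zsmul_eq_mul, zsmul_eq_mul] at h2
    rw [← h2]
    ring
  -- vanishing of the first coefficient
  have hF5 : ∀ l x, F 1 l x = 0 := by
    intro l x
    obtain ⟨H', hH', a, b, ha, hb, hab⟩ := hH.exists_dual C.base C.ψ C.hψ C.ω C.hω
    have : Fintype V := Fintype.ofFinite V
    simp only [finsum_eq_sum_of_fintype] at hab
    have hz := eq_addChar_sub_one C.vp C.hψ (one_ne_zero (α := ZMod p))
    let S : K := ∑ u : Θ.range, (((u : Kˣ)⁻¹ : Kˣ) : K) * (C.ψ (l (ρ (lft u) x)) - 1)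
    have hS1 : S = ∑ k, a k l * cmp Θ 1 (b k x - b k 0) := by
      simp only [S, cmp, finsum_eq_sum_of_fintype, Finset.mul_sum]
      rw [Finset.sum_comm]
      refine Finset.sum_congr rfl fun u _ => ?_
      have h2 : C.ψ (l (ρ (lft u) x)) - 1 = ∑ k, a k l * (b k (ρ (lft u) x) - b k 0) := by
        have h3 := hab l 0
        rw [map_zero, AddChar.map_zero_eq_one] at h3
        rw [hab, h3, ← Finset.sum_sub_distrib]
        exact Finset.sum_congr rfl fun k _ => by ring
      rw [h2, Finset.mul_sum]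
      refine Finset.sum_congr rfl fun k _ => ?_
      have h4 : lft u • (b k x - b k 0) = b k (ρ (lft u) x) - b k 0 := by
        rw [smul_sub, ← hH.equiv _ (hb k), ← hH.equiv _ (hb k), map_zero]
      rw [h4, pow_one]
      ring
    have hcmp : ∀ k, C.v.Ge (1 + 1 / (e : ℝ)) (cmp Θ 1 (b k x - b k 0)) := by
      intro k
      have hy : ∀ τ, Θ τ = 1 → τ • (b k x - b k 0) = b k x - b k 0 := by
        intro τ hτ
        rw [smul_sub, ← hH.equiv _ (hb k), ← hH.equiv _ (hb k), map_zero, htriv τ hτ]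
      have h2 := fun σ => smul_cmp hΘfix hΘe (w := 1) hy σ
      have h3 := ge_cmp hΘe C.hv (hrge x (b k) (hb k)) 1
      set Y := cmp Θ 1 (b k x - b k 0) with hY
      by_cases hY0 : Y = 0
      · left; exact hY0
      have hne : Y / ϖ ≠ 0 := div_ne_zero hY0 hϖ0
      obtain ⟨n, hn⟩ := C.int_val (Y / ϖ) hne (by
        intro σ
        have h4 : σ • ϖ = (Θ σ : K) * ϖ := by rw [hΘ, div_mul_cancel₀ _ hϖ0]
        have h5 : σ • (Y / ϖ) = σ • Y / σ • ϖ := smul_div₀' _ _ _
        rw [h5, h2, h4, pow_one, mul_div_mul_left _ _ (Θ σ).ne_zero])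
      have h6 : C.v.ord Y = n + 1 / e := by
        have h7 : Y = Y / ϖ * ϖ := by rw [div_mul_cancel₀ _ hϖ0]
        rw [h7, OrdFn.ord_mul hne hϖ0, hn, h1.2]
      rw [OrdFn.ge_iff hY0, h6, hc] at h3
      rw [OrdFn.ge_iff hY0, h6]
      have h8 : (0 : ℝ) < n := by
        have h9 : (n : ℝ) ≥ (p - 1) / e := by
          have : (p : ℝ) / e - 1 / e = (p - 1) / e := by ring
          linarith
        have : (0 : ℝ) < (p - 1) / e := div_pos (by linarith) hepos
        linarith
      have h9 : (1 : ℤ) ≤ n := by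
        have : (0 : ℤ) < n := by exact_mod_cast h8
        omega
      have h10 : (1 : ℝ) ≤ n := by exact_mod_cast h9
      linarith
    have hSge : C.v.Ge (1 + 1 / (e : ℝ)) S := by
      rw [hS1]
      refine ge_sum _ _ fun k _ => ?_
      have := (hH'.val_ge C.hRv (ha k) l).mul (hcmp k)
      rwa [zero_add] at this
    have hSz : C.r (S / (C.ψ 1 - 1)) = 0 := by
      have h2 : C.v.Gt 0 (S / (C.ψ 1 - 1)) := by
        have h3 := hSge.mul hz.inv.ge
        rw [← div_eq_mul_inv] at h3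
        refine h3.gt ?_
        have h4 : (1 : ℝ) / ((p : ℝ) - 1) = (p + 1) / e := by
          rw [heR]
          have h5 : (p : ℝ) - 1 ≠ 0 := by linarith
          have h6 : (p : ℝ) + 1 ≠ 0 := by linarith
          field_simp
        have h5 : (p : ℝ) / e < 1 := by
          rw [div_lt_one hepos, heR]
          have h6 : (3 : ℝ) ≤ p := by exact_mod_cast hp2
          nlinarith
        have h6 : ((p : ℝ) + 1) / e = p / e + 1 / e := by ring
        rw [h4, h6]
        linarith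
      exact (C.r_eq_zero _ h2.ge).mpr h2
    have hSr : C.r (S / (C.ψ 1 - 1)) = F 1 l x := by
      simp only [S, F, Finset.sum_div]
      have h2 : ∀ u : Θ.range, (((u : Kˣ)⁻¹ : Kˣ) : K) * (C.ψ (l (ρ (lft u) x)) - 1) / (C.ψ 1 - 1) =
          (((u : Kˣ)⁻¹ : Kˣ) : K) * ((C.ψ (l (ρ (lft u) x)) - 1) / (C.ψ 1 - 1)) := fun u => by ring
      simp_rw [h2]
      have h3 : ∀ u : Θ.range, C.v.Eq 0 (((u : Kˣ)⁻¹ : Kˣ) : K) := fun u => by
        rw [Units.val_inv_eq_inv_val]; simpa using (hru u).inv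
      rw [C.r_sum _ _ fun u _ => by simpa using (h3 u).ge.mul (C.psi_ratio _).1]
      refine Finset.sum_congr rfl fun u _ => ?_
      rw [C.r_mul _ _ (h3 u).ge (C.psi_ratio _).1, (C.psi_ratio _).2, hι, pow_one]
      congr 1
      have h4 := C.r_mul _ _ (hru u).ge (h3 u).ge
      rw [← Units.val_mul, mul_inv_cancel, Units.val_one, C.r_one] at h4
      exact eq_inv_of_mul_eq_one_right h4.symm
    rw [← hSr, hSz]
  -- all coefficients vanish
  have hF0 : ∀ k, k < e → ∀ l x, F k l x = 0 := by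
    intro k hk l x
    rcases mul_eq_zero.mp (hquadF k l x) with h2 | h2
    · -- `g ^ k` is a root
      have h3 : (g ^ k - g) * (g ^ k - g ^ p) = 0 := by
        have h4 : (w : κ) = g * g ^ p := by
          rw [← hsum] at hroot'
          linear_combination hroot'
        rw [← hsum, h4] at h2
        linear_combination h2
      rcases mul_eq_zero.mp h3 with h4 | h4
      · have h5 : g ^ k = g ^ 1 := by rw [pow_one]; exact sub_eq_zero.mp h4
        have h6 := hgprim.pow_inj hk (by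
          have : 8 ≤ e := by
            have : 3 ≤ p := hp2
            have h7 : e = (p + 1) * (p - 1) := e_factor
            rw [h7]
            calc 8 = 4 * 2 := rfl
              _ ≤ (p + 1) * (p - 1) := Nat.mul_le_mul (by omega) (by omega)
          omega) h5
        rw [h6]; exact hF5 l x
      · have h5 : g ^ k = g ^ p := sub_eq_zero.mp h4
        have hpe' : p < e := by
          have : 3 ≤ p := hp2
          have h7 : e = (p + 1) * (p - 1) := e_factor
          rw [h7]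
          calc p < (p + 1) * 1 := by omega
            _ ≤ (p + 1) * (p - 1) := Nat.mul_le_mul le_rfl (by omega)
        have h6 := hgprim.pow_inj hk hpe' h5
        rw [h6]
        have h7 : F p l x = (F 1 l x) ^ p := by
          simp only [F]
          have h8 : (∑ u : Θ.range, (C.r ((u : Kˣ) : K))⁻¹ ^ 1 * ι (l (ρ (lft u) x))) ^ p =
              frobenius κ p (∑ u : Θ.range, (C.r ((u : Kˣ) : K))⁻¹ ^ 1 * ι (l (ρ (lft u) x))) := rfl
          rw [h8, map_sum]
          refine Finset.sum_congr rfl fun u _ => ?_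
          rw [map_mul, map_pow, frobenius_def, frobenius_def, pow_one, ← map_pow, ZMod.pow_card]
        rw [h7, hF5, zero_pow hp.out.ne_zero]
    · exact h2
  -- conclusion
  obtain ⟨l, hl⟩ : ∃ l : Module.Dual (ZMod p) V, l x₁ ≠ 0 := by
    by_contra hcon
    push Not at hcon
    exact hx₁ ((Module.forall_dual_apply_eq_zero_iff (ZMod p) x₁).mp hcon)
  have hsumF : ∑ k ∈ Finset.range e, F k l x₁ = e * ι (l x₁) := by
    simp only [F]
    rw [Finset.sum_comm]
    simp_rw [← Finset.sum_mul]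
    rw [Finset.sum_eq_single 1]
    · have h2 : ρ (lft (1 : Θ.range)) x₁ = x₁ := htriv _ (by rw [lft_spec]; rfl) _
      rw [h2]
      have h3 : C.r (((1 : Θ.range) : Kˣ) : K) = 1 := by
        have : (((1 : Θ.range) : Kˣ) : K) = 1 := rfl
        rw [this, C.r_one]
      rw [h3]
      simp
    · intro u _ hu
      have h2 : ∑ k ∈ Finset.range e, (C.r ((u : Kˣ) : K))⁻¹ ^ k = 0 := by
        have h3 := mul_geom_sum (C.r ((u : Kˣ) : K))⁻¹ e
        have hue : ((u : Kˣ) : K) ^ e = 1 := by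
          obtain ⟨_, σ, rfl⟩ := u
          rw [← Units.val_pow_eq_pow_val]; simp only; rw [hΘe, Units.val_one]
        have h4 : (C.r ((u : Kˣ) : K))⁻¹ ^ e = 1 := by
          rw [inv_pow, ← C.r_pow (hru u).ge, hue, C.r_one, inv_one]
        rw [h4, sub_self, mul_eq_zero] at h3
        refine h3.resolve_left fun h5 => hu ?_
        have h6 : C.r ((u : Kˣ) : K) = C.r 1 := by
          rw [C.r_one]; exact inv_eq_one.mp (sub_eq_zero.mp h5)
        have h7 := C.root_inj hpe hue (one_pow e) h6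
        exact Subtype.ext (Units.ext h7)
      rw [h2, zero_mul]
    · intro h; exact absurd (Finset.mem_univ _) h
  rw [Finset.sum_eq_zero fun k hk => hF0 k (Finset.mem_range.mp hk) l x₁] at hsumF
  have h2 : (e : κ) ≠ 0 := fun h => hpe ((CharP.cast_eq_zero_iff κ p e).mp h)
  have h3 := (mul_eq_zero.mp hsumF.symm).resolve_left h2
  exact hl ((map_eq_zero ι).mp h3)

end level2

end Ctx

end Fermat.Agent.FlatLoc
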