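import Fermat.Agent.FlatLoc.Classify

/-!
# Classification of two-dimensional flat representations of inertia, II
-/

set_option autoImplicit false
set_option linter.unusedSectionVars false

namespace Fermat.Agent.FlatLoc

open Fermat.Agent.ECRed
open scoped Polynomial

variable {K : Type*} [Field K] {κ : Type*} [Field κ] {G : Type*} [Group G]
  [MulSemiringAction G K] {p : ℕ} [hp : Fact p.Prime] (C : Ctx K κ G p)
variable {V : Type*} [AddCommGroup V] [Module (ZMod p) V] [Finite V]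
variable {ρ : G →* AddMonoid.End V} {H : Subalgebra C.R (V → K)}

namespace Ctx

include C

/-- the integrality of the maximal radius -/
theorem rad_denominator (hH : IsOrder C.R ρ H) {e : ℕ} (he : e ≠ 0) {c : ℝ} (hc : 0 < c)
    {x : V} (hx : REq C.v H c x) (hmax : ∀ y, RGt C.v H c y → y = 0)
    (hroot : ∀ {ϖ : K}, C.v.Eq c ϖ → ∀ σ : G, C.r (σ • ϖ / ϖ) ^ e = 1) :
    ∃ n : ℤ, (e : ℝ) * c = n := by
  classical
  obtain ⟨hxge, f, hf, hfe⟩ := id hx
  set ϖ := f x - f 0 with hϖ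
  -- residual character
  let Θ : G →* κˣ :=
    { toFun := fun σ => Units.mk0 (C.r (σ • ϖ / ϖ)) (C.r_ne_zero (C.eq_ratio hfe σ))
      map_one' := by
        apply Units.ext
        simp [C.r_one, div_self hfe.1]
      map_mul' := fun σ τ => by
        apply Units.ext
        change C.r ((σ * τ) • ϖ / ϖ) = C.r (σ • ϖ / ϖ) * C.r (τ • ϖ / ϖ)
        have h1 : (σ * τ) • ϖ / ϖ = (σ • ϖ / ϖ) * (σ • (τ • ϖ / ϖ)) := by
          have h2 : τ • ϖ = (τ • ϖ / ϖ) * ϖ := by rw [div_mul_cancel₀ _ hfe.1]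
          rw [mul_smul]
          conv_lhs => rw [h2]
          rw [smul_mul']
          ring
        have h3 := C.eq_ratio hfe τ
        rw [h1, C.r_mul _ _ (C.eq_ratio hfe σ).ge ((ge_smul C.hv σ).mpr h3.ge), C.r_smul σ h3.ge] }
  have hΘ : ∀ σ, ((Θ σ : κˣ) : κ) = C.r (σ • ϖ / ϖ) := fun σ => rfl
  have hle : Θ.range ≤ rootsOfUnity e κ := by
    rintro _ ⟨σ, rfl⟩
    rw [mem_rootsOfUnity]
    exact Units.ext (hroot hfe σ)
  have : NeZero e := ⟨he⟩
  have : Finite Θ.range :=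
    Finite.of_injective (Subgroup.inclusion hle) (Subgroup.inclusion_injective hle)
  have : Fintype Θ.range := Fintype.ofFinite _
  have : IsCyclic Θ.range := isCyclic_of_injective_ringHom (Units.coeHom κ |>.comp Θ.range.subtype)
    (fun a b h => Subtype.ext (Units.ext h))
  have hdvd : Fintype.card Θ.range ∣ e := by
    rw [← Nat.card_eq_fintype_card, ← IsCyclic.exponent_eq_card]
    apply Monoid.exponent_dvd_of_forall_pow_eq_one
    rintro ⟨u, hu⟩
    apply Subtype.ext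
    exact (mem_rootsOfUnity _ _).mp (hle hu)
  -- elements of the kernel fix `ϖ`
  have hker : ∀ τ, Θ τ = 1 → τ • ϖ = ϖ := by
    intro τ hτ
    have h1 : C.r (τ • ϖ / ϖ) = 1 := by rw [← hΘ, hτ, Units.val_one]
    have h2 := C.scalar_gt hH hc hfe τ (Polynomial.X - Polynomial.C 1) hxge (by
      rw [h1]; simp)
    have h3 := hmax _ h2
    rw [aeval_X_sub_end, one_smul, sub_eq_zero] at h3
    rw [hϖ, smul_sub, ← hH.equiv f hf, ← hH.equiv f hf, map_zero, h3]
  let L : Θ.range → G := fun u => u.2.choose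
  have hL : ∀ u, Θ (L u) = u := fun u => u.2.choose_spec
  have hN : ∀ σ : G, σ • (∏ u : Θ.range, L u • ϖ) = ∏ u : Θ.range, L u • ϖ := by
    intro σ
    rw [Finset.smul_prod']
    let e' : Θ.range ≃ Θ.range := Equiv.mulLeft ⟨Θ σ, σ, rfl⟩
    conv_rhs => rw [← e'.prod_comp]
    refine Finset.prod_congr rfl fun u _ => ?_
    have h1 : ((e' u : Θ.range) : κˣ) = Θ σ * u := rfl
    have h3 : Θ ((σ * L u)⁻¹ * L (e' u)) = 1 := by
      rw [map_mul, map_inv, map_mul, hL, hL, h1, inv_mul_cancel]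
    have h4 := hker _ h3
    rw [mul_smul, inv_smul_eq_iff, mul_smul] at h4
    exact h4.symm
  have hne : ∀ u : Θ.range, C.v.Eq c (L u • ϖ) := fun u => (eq_smul C.hv _).mpr hfe
  have hprod : ∀ s : Finset Θ.range, (∏ u ∈ s, L u • ϖ ≠ 0) ∧
      C.v.ord (∏ u ∈ s, L u • ϖ) = s.card * c := by
    intro s
    induction s using Finset.induction_on with
    | empty => simp [OrdFn.ord_one]
    | insert a s ha ih =>
      rw [Finset.prod_insert ha, Finset.card_insert_of_notMem ha]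
      refine ⟨mul_ne_zero (hne a).1 ih.1, ?_⟩
      rw [OrdFn.ord_mul (hne a).1 ih.1, (hne a).2, ih.2]
      push_cast; ring
  obtain ⟨n, hn⟩ := C.int_val _ (hprod Finset.univ).1 hN
  rw [(hprod Finset.univ).2, Finset.card_univ] at hn
  obtain ⟨k, hk⟩ := hdvd
  refine ⟨k * n, ?_⟩
  rw [hk]
  push_cast
  rw [← hn]
  ring

/-- **Classification** of 2-dimensional flat `𝔽_p`-representations of inertia with cyclotomic
determinant. -/
theorem classify (hH : IsOrder C.R ρ H) (hfin : Module.finrank (ZMod p) V = 2)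
    (hdet : ∀ σ, LinearMap.det (lin p ρ σ) = C.ω σ) {ϖ : K} (hϖ : ϖ ^ (p ^ 2 - 1) = p) :
    (∃ x : V, x ≠ 0 ∧ ∀ σ, ρ σ x = (C.ω σ : ZMod p) • x) ∨
    ((∀ x : V, x ≠ 0 → REq C.v H (1 / ((p ^ 2 - 1 : ℕ) : ℝ)) x) ∧
      ¬ ∃ x : V, x ≠ 0 ∧ ∀ σ, ∃ a : ZMod p, ρ σ x = a • x) := by
  classical
  have := C.char
  have hp1 := one_lt (p := p)
  have hp2 := C.two_lt_nat
  set e := p ^ 2 - 1 with he
  have he0 : e ≠ 0 := e_ne_zero
  have hpe : ¬ p ∣ e := not_dvd_e
  have heR : (e : ℝ) = (p + 1) * (p - 1) := e_cast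
  have hefac : e = (p + 1) * (p - 1) := e_factor
  have hepos : (0 : ℝ) < e := by exact_mod_cast Nat.pos_of_ne_zero he0
  have h1 := C.eq_varpi hϖ he0
  have hϖ0 := C.varpi_ne hϖ he0
  have hV : Nontrivial V := Module.nontrivial_of_finrank_pos (R := ZMod p) (by omega)
  have hquad := fun σ => exists_quad (ρ := ρ) hfin σ
  have hdet' : ∀ σ, ∃ t w : ℤ, (w : ZMod p) = C.ω σ ∧
      ∀ x, Polynomial.aeval (ρ σ) (quad t w) x = 0 := by
    intro σ
    obtain ⟨t, w, h, h'⟩ := hquad σ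
    exact ⟨t, w, by rw [h, hdet], h'⟩
  -- casts
  let ι : ZMod p →+* κ := ZMod.castHom (dvd_refl p) κ
  have hι : ∀ a : ZMod p, ((a.val : ℕ) : κ) = ι a := fun a => by simp [ι]
  have hιi : ∀ w : ℤ, ((w : ℤ) : κ) = ι (w : ZMod p) := fun w => by simp [ι]
  obtain ⟨σ₀, hσ₀⟩ := C.exists_theta_primitive hpe hϖ
  set g : κ := C.r (σ₀ • ϖ / ϖ) with hg
  have hgprim : IsPrimitiveRoot g e := by
    refine ⟨?_, fun l hl => ?_⟩
    · rw [hg, ← C.r_pow (C.eq_ratio h1 σ₀).ge, C.theta_pow hϖ he0, C.r_one]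
    · apply hσ₀.dvd_of_pow_eq_one
      refine C.root_inj hpe (n := e) ?_ (one_pow e) ?_
      · rw [← pow_mul, mul_comm, pow_mul, C.theta_pow hϖ he0, one_pow]
      · rw [C.r_pow (C.eq_ratio h1 σ₀).ge, C.r_one]; exact hl
  have hω₀ : ι (C.ω σ₀) = g ^ (p + 1) := by
    rw [← hι, ← C.r_omega_eq hϖ σ₀]
  -- maximal radius
  have : Fintype V := Fintype.ofFinite V
  choose rad hrad0 hrad using fun x : {x : V // x ≠ 0} => hH.exists_rad C.hRv x.2
  obtain ⟨x₀, hx₀⟩ := exists_ne (0 : V)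
  obtain ⟨⟨x₁, hx₁⟩, -, hmax⟩ := Finset.exists_max_image Finset.univ rad ⟨⟨x₀, hx₀⟩, Finset.mem_univ _⟩
  set c := rad ⟨x₁, hx₁⟩ with hc
  have hxc : REq C.v H c x₁ := hrad ⟨x₁, hx₁⟩
  have hmax' : ∀ y, RGt C.v H c y → y = 0 := by
    intro y hy
    by_contra hy0
    exact absurd (hmax ⟨y, hy0⟩ (Finset.mem_univ _)) (not_le.mpr ((hrad ⟨y, hy0⟩).lt_of_gt hy))
  -- positivity
  have hω₀ne : (C.ω σ₀ : ZMod p) ≠ 1 := by
    intro h
    rw [h, map_one] at hω₀
    have h2 := hgprim.dvd_of_pow_eq_one _ hω₀.symm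
    have h3 := Nat.le_of_dvd (by omega) h2
    rw [hefac] at h3
    have : (p + 1) * 1 < (p + 1) * (p - 1) := Nat.mul_lt_mul_of_pos_left (by omega) (by omega)
    omega
  have hc0 : 0 < c := by
    refine lt_of_le_of_ne (hrad0 _) fun h0 => hω₀ne ?_
    have h2 : ∀ x, ρ σ₀ x = x := fun x => by
      have h3 : RGt C.v H c (ρ σ₀ x - x) := by
        rw [← h0]; exact hH.scalar_zero C.hv C.hRv (C.inert σ₀) x
      exact sub_eq_zero.mp (hmax' _ h3)
    rw [← hdet]
    have : lin p ρ σ₀ = LinearMap.id := LinearMap.ext h2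
    rw [this, LinearMap.det_id]
  have hcle : c ≤ 1 / ((p : ℝ) - 1) := hH.rad_le C.base C.hRv C.vp C.hψ C.ω C.hω hxc.1 hx₁
  have hwne : ∀ σ (w : ℤ), (w : ZMod p) = C.ω σ → (w : κ) ≠ 0 := by
    intro σ w hw h0
    rw [hιi, hw, map_eq_zero] at h0
    exact (C.ω σ).ne_zero h0
  -- the eigenvalue
  have heig : ∀ {ϖ' : K}, C.v.Eq c ϖ' → ∀ σ : G, ∀ t w : ℤ,
      (∀ x, Polynomial.aeval (ρ σ) (quad t w) x = 0) →
      C.r (σ • ϖ' / ϖ') ^ 2 - t * C.r (σ • ϖ' / ϖ') + w = 0 := by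
    intro ϖ' hϖ' σ t w hq
    have h2 := C.scalar_of_gt hH hc0 hϖ' σ (quad t w) hxc (by rw [hq]; exact RGt.zero)
    rwa [aeval_quad_field] at h2
  obtain ⟨n, hn⟩ := C.rad_denominator hH he0 hc0 hxc hmax' (by
    intro ϖ' hϖ' σ
    obtain ⟨t, w, hw, hq⟩ := hdet' σ
    have h2 := heig hϖ' σ t w hq
    set a := C.r (σ • ϖ' / ϖ') with ha
    have ha0 : a ≠ 0 := C.r_ne_zero (C.eq_ratio hϖ' σ)
    have h3 := root_frob_sq (p := p) h2
    have h4 : a ^ e * a = 1 * a := by
      rw [← pow_succ, one_mul]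
      have : e + 1 = p * p := by
        have : 1 ≤ p ^ 2 := Nat.one_le_pow _ _ hp.out.pos
        rw [← pow_two]; omega
      rw [this, pow_mul]; exact h3
    exact mul_right_cancel₀ ha0 h4)
  have hn0 : 0 < n := by
    have : (0 : ℝ) < n := by rw [← hn]; positivity
    exact_mod_cast this
  obtain ⟨j, rfl⟩ : ∃ j : ℕ, n = j := ⟨n.toNat, (Int.toNat_of_nonneg hn0.le).symm⟩
  have hj0 : 0 < j := by exact_mod_cast hn0
  have hcj : c = j / e := by
    rw [eq_div_iff hepos.ne', mul_comm, hn]; push_cast; rfl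
  have hjle : j ≤ p + 1 := by
    have h2 : (j : ℝ) ≤ p + 1 := by
      have h3 : (j : ℝ) = e * c := by rw [hn]; push_cast; rfl
      rw [h3, heR]
      have h4 : (p : ℝ) - 1 > 0 := by linarith
      calc ((p : ℝ) + 1) * (p - 1) * c ≤ (p + 1) * (p - 1) * (1 / (p - 1)) :=
            mul_le_mul_of_nonneg_left hcle (by positivity)
        _ = p + 1 := by field_simp
    exact_mod_cast h2
  have hϖj : C.v.Eq c (ϖ ^ j) := by
    have := h1.pow j
    convert this using 1
    rw [hcj]; ring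
  have hratio : ∀ σ : G, C.r (σ • (ϖ ^ j) / ϖ ^ j) = C.r (σ • ϖ / ϖ) ^ j := by
    intro σ
    rw [smul_pow', ← div_pow, C.r_pow (C.eq_ratio h1 σ).ge]
  obtain ⟨t, w, hw, hq⟩ := hdet' σ₀
  have hroot := heig hϖj σ₀ t w hq
  rw [hratio, ← hg] at hroot
  have hwκ : (w : κ) = g ^ (p + 1) := by rw [hιi, hw, hω₀]
  have hg0 : g ≠ 0 := hgprim.ne_zero he0
  by_cases hcase : (g ^ j) ^ p = g ^ j
  · -- the eigenvalue is in the prime field
    left
    have h2 : g ^ (j * (p - 1)) = 1 := by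
      have h3 : g ^ (j * (p - 1)) * g ^ j = 1 * g ^ j := by
        rw [← pow_add, one_mul]
        have : j * (p - 1) + j = j * p := by
          rw [← Nat.mul_succ]; congr 1; omega
        rw [this, pow_mul, hcase]
      exact mul_right_cancel₀ (pow_ne_zero _ hg0) h3
    have h3 := hgprim.dvd_of_pow_eq_one _ h2
    rw [hefac] at h3
    have h4 : p + 1 ∣ j := Nat.dvd_of_mul_dvd_mul_right (by omega) h3
    have hj : j = p + 1 := le_antisymm hjle (Nat.le_of_dvd hj0 h4)
    refine ⟨x₁, hx₁, fun σ => ?_⟩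
    have h5 := C.scalar_gt hH hc0 hϖj σ (Polynomial.X - Polynomial.C (((C.ω σ : ZMod p).val : ℕ) : ℤ))
      hxc.1 (by
        rw [hratio, hj, C.r_omega_eq hϖ σ, map_sub, Polynomial.aeval_X, Polynomial.aeval_C,
          eq_intCast, Int.cast_natCast, sub_self])
    have h6 := hmax' _ h5
    rw [aeval_X_sub_end, sub_eq_zero, val_zsmul] at h6
    exact h6
  · right
    set a := g ^ j with ha
    have hroot2 := root_frob (p := p) hroot
    have hsum : a + a ^ p = t := by
      have h3 : (a - a ^ p) * (a + a ^ p - t) = 0 := by linear_combination hroot - hroot2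
      exact sub_eq_zero.mp ((mul_eq_zero.mp h3).resolve_left (sub_ne_zero.mpr (Ne.symm hcase)))
    have hprod : a * a ^ p = w := by
      rw [← hsum] at hroot
      linear_combination (-1 : κ) * hroot
    -- congruence for j
    have h2 : g ^ (j * (p + 1)) = g ^ (p + 1) := by
      rw [← hwκ, ← hprod, pow_mul, ← ha]
      rw [pow_succ]; ring
    have h3 : g ^ ((j - 1) * (p + 1)) = 1 := by
      have h4 : g ^ ((j - 1) * (p + 1)) * g ^ (p + 1) = 1 * g ^ (p + 1) := by
        rw [← pow_add, one_mul]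
        have : (j - 1) * (p + 1) + (p + 1) = j * (p + 1) := by
          rw [← Nat.succ_mul]; congr 1; omega
        rw [this, h2]
      exact mul_right_cancel₀ (pow_ne_zero _ hg0) h4
    have h4 := hgprim.dvd_of_pow_eq_one _ h3
    rw [hefac, mul_comm (p + 1)] at h4
    have h5 : p - 1 ∣ j - 1 := Nat.dvd_of_mul_dvd_mul_right (by omega) h4
    have hj : j = 1 ∨ j = p := by
      obtain ⟨k, hk⟩ := h5
      rcases Nat.eq_zero_or_pos k with h6 | h6
      · left; rw [h6] at hk; omega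
      · right
        have h7 : k = 1 := by
          by_contra hk1
          have h8 : 2 ≤ k := by omega
          have h9 : (p - 1) * 2 ≤ (p - 1) * k := Nat.mul_le_mul le_rfl h8
          have h10 : j - 1 ≤ p := by omega
          have h11 : (p - 1) * 2 ≤ p := by omega
          have : p ≤ 2 := by omega
          omega
        rw [h7, mul_one] at hk
        omega
    -- no eigenline
    have hnoline : ∀ n : ℤ, ρ σ₀ x₁ ≠ n • x₁ := by
      intro n hn
      have h6 := C.scalar_of_gt hH hc0 hϖj σ₀ (Polynomial.X - Polynomial.C n) hxc (by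
        rw [aeval_X_sub_end, hn, sub_self]; exact RGt.zero)
      rw [hratio, ← hg, ← ha, map_sub, Polynomial.aeval_X, Polynomial.aeval_C, eq_intCast] at h6
      apply hcase
      have h7 : a = n := sub_eq_zero.mp h6
      rw [h7, hιi, ← map_pow, ZMod.pow_card]
    have hli : LinearIndependent (ZMod p) ![x₁, ρ σ₀ x₁] := by
      rw [LinearIndependent.pair_iff' hx₁]
      intro b hb
      exact hnoline (b.val : ℕ) (by rw [val_zsmul]; exact hb.symm)
    have hspan : ∀ y, RGe C.v H c y := by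
      intro y
      have h6 : Submodule.span (ZMod p) (Set.range ![x₁, ρ σ₀ x₁]) = ⊤ :=
        hli.span_eq_top_of_card_eq_finrank (by rw [hfin]; simp)
      have h7 : y ∈ Submodule.span (ZMod p) (Set.range ![x₁, ρ σ₀ x₁]) := by rw [h6]; trivial
      rw [Matrix.range_cons, Matrix.range_cons, Matrix.range_empty, Set.union_empty,
        Set.singleton_union, Submodule.mem_span_pair] at h7
      obtain ⟨a', b', hab⟩ := h7
      have h8 : ∀ (m : ZMod p) (z : V), RGe C.v H c z → RGe C.v H c (m • z) := by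
        intro m z hz
        rw [← val_zsmul]
        exact (hH.geSub C.hRv c).zsmul_mem hz _
      rw [← hab]
      exact hH.rge_add C.hRv (h8 _ _ hxc.1) (h8 _ _ ((hH.rge_act C.hv σ₀).mpr hxc.1))
    have hall : ∀ y, y ≠ 0 → REq C.v H c y := fun y hy =>
      (hspan y).of_not_gt fun h => hy (hmax' y h)
    rcases hj with hj | hj
    · rw [hj, Nat.cast_one] at hcj
      rw [← hcj]
      refine ⟨hall, ?_⟩
      rintro ⟨x, hx, hxe⟩
      obtain ⟨n, hn⟩ := hxe σ₀
      have h6 := C.scalar_of_gt hH hc0 hϖj σ₀ (Polynomial.X - Polynomial.C ((n.val : ℕ) : ℤ)) (hall x hx) (by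
        rw [aeval_X_sub_end, val_zsmul, hn, sub_self]; exact RGt.zero)
      rw [hratio, ← hg, ← ha, map_sub, Polynomial.aeval_X, Polynomial.aeval_C, eq_intCast] at h6
      apply hcase
      have h7 : a = (((n.val : ℕ) : ℤ) : κ) := sub_eq_zero.mp h6
      rw [h7, hιi, ← map_pow, ZMod.pow_card]
    · exfalso
      rw [hj] at hcj
      refine C.excl_p hϖ hH hV hdet' (fun x hx => ?_)
      rw [← hcj]
      exact hall x hx

end Ctx

end Fermat.Agent.FlatLoc
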