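import Fermat.Agent.FlatLoc.CountB

/-!
# The count
-/

set_option autoImplicit false
set_option linter.unusedSectionVars false

namespace Fermat.Agent.FlatLoc

open Fermat.Agent.ECRed
open scoped Polynomial

variable {K : Type*} [Field K] {κ : Type*} [Field κ] {D : Type*} [Group D]
  [MulSemiringAction D K] {p : ℕ} [hp : Fact p.Prime] {ϖ : K} (DC : DCtx K κ D p ϖ)

namespace DCtx

variable {ρ : D →* Matrix (Fin 2) (Fin 2) (ZMod p)}

lemma omega_ne_one {σ₀ : DC.I} (hσ₀ : IsPrimitiveRoot (DC.C.Th DC.hϖ σ₀) (p ^ 2 - 1)) :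
    DC.C.ω σ₀ ≠ 1 := by
  intro h
  have h1 := DC.C.r_omega_eq DC.hϖ σ₀
  have hp2 := DC.C.two_lt_nat
  rw [h, Units.val_one, ZMod.val_one'' (by omega), Nat.cast_one, ← DC.C.Th_apply DC.hϖ] at h1
  have h2 := Nat.le_of_dvd (by omega) ((DC.C.r_Th_prim DC.hϖ hσ₀).dvd_of_pow_eq_one _ h1)
  have hp9 : 3 * p ≤ p ^ 2 := by nlinarith
  omega

/-- **The flat bound** -/
theorem rank_le_four [IsAlgClosed κ] (hdet : ∀ σ : DC.I, (ρ σ).det = DC.C.ω σ)
    {Z : Submodule (ZMod p) (D → Matrix (Fin 2) (Fin 2) (ZMod p))} (hZ : IsFlatSpace DC ρ Z) :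
    Module.rank (ZMod p) Z ≤ (4 : ℕ) := by
  classical
  have hflat : IsFlatMod DC.C.R (vb (ρ.comp DC.I.subtype)) := (hZ.flat 0 Z.zero_mem).flat
  by_cases hord : ∃ x : Fin 2 → ZMod p, x ≠ 0 ∧ ∀ σ : DC.I, (ρ σ).mulVec x = (DC.C.ω σ : ZMod p) • x
  swap
  · obtain ⟨σ₀, S⟩ := exists_ss DC.hϖ hflat hdet hord
    exact DC.rankB S hZ
  obtain ⟨x, hx, hxω⟩ := hord
  obtain ⟨σ₀, hσ₀⟩ := DC.C.Th_surj DC.hϖ
  have hω := DC.omega_ne_one hσ₀
  have hω' : (DC.C.ω σ₀ : ZMod p) ≠ 1 := fun h => hω (Units.ext h)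
  have hω0 : (DC.C.ω σ₀ : ZMod p) ≠ 0 := (DC.C.ω σ₀).ne_zero
  set s := ρ σ₀ with hs
  set d : ZMod p := ((DC.C.ω σ₀ : (ZMod p)ˣ) : ZMod p) with hd
  have hsx : s.mulVec x = d • x := hxω σ₀
  have hsdet : s.det = d := hdet σ₀
  -- the trace
  have htr : s.trace = d + 1 := by
    have h1 : s.mulVec (s.mulVec x) - s.trace • s.mulVec x + s.det • x = 0 := by
      ext i
      fin_cases i <;>
      simp [Matrix.mulVec, dotProduct, Fin.sum_univ_two, Matrix.det_fin_two,
        Matrix.trace_fin_two] <;> ring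
    rw [hsx, Matrix.mulVec_smul, hsx, hsdet, smul_smul, smul_smul, ← sub_smul, ← add_smul] at h1
    have h2 := (smul_eq_zero.mp h1).resolve_right hx
    have h3 : d * (d + 1 - s.trace) = 0 := by linear_combination h2
    exact (sub_eq_zero.mp ((mul_eq_zero.mp h3).resolve_left hω0)).symm
  obtain ⟨v, hv, hsv⟩ : ∃ v : Fin 2 → ZMod p, v ≠ 0 ∧ s.mulVec v = v := by
    have h1 : (s - 1).det = 0 := by
      have : (s - 1).det = 1 - s.trace + s.det := by
        simp [Matrix.det_fin_two, Matrix.trace_fin_two]; ring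
      rw [this, htr, hsdet]; ring
    obtain ⟨v, hv, hv0⟩ := Matrix.exists_mulVec_eq_zero_iff.mpr h1
    refine ⟨v, hv, ?_⟩
    rwa [Matrix.sub_mulVec, Matrix.one_mulVec, sub_eq_zero] at hv0
  set P : Matrix (Fin 2) (Fin 2) (ZMod p) := !![x 0, v 0; x 1, v 1] with hP
  have hPdet : P.det ≠ 0 := by
    intro h0
    rw [hP, Matrix.det_fin_two_of] at h0
    -- x 0 * v 1 = v 0 * x 1
    have h1 : ∃ a b : ZMod p, (a ≠ 0 ∨ b ≠ 0) ∧ a • x + b • v = 0 := by
      by_cases hx0 : x 0 = 0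
      · have hx1 : x 1 ≠ 0 := by
          intro h; apply hx; ext i; fin_cases i
          · exact hx0
          · exact h
        have hv0 : v 0 = 0 := by
          rw [hx0, zero_mul, zero_sub, neg_eq_zero] at h0
          exact (mul_eq_zero.mp h0).resolve_right hx1
        refine ⟨v 1, -x 1, Or.inr (neg_ne_zero.mpr hx1), ?_⟩
        ext i; fin_cases i
        · simp [hx0, hv0]
        · simp; ring
      · refine ⟨v 0, -x 0, Or.inr (neg_ne_zero.mpr hx0), ?_⟩
        ext i; fin_cases i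
        · simp; ring
        · simp; linear_combination -h0
    obtain ⟨a, b, hab, h2⟩ := h1
    have h3 := congrArg s.mulVec h2
    rw [Matrix.mulVec_add, Matrix.mulVec_smul, Matrix.mulVec_smul, hsx, hsv, Matrix.mulVec_zero] at h3
    have h4 : (a * (d - 1)) • x = 0 := by
      have : (a * (d - 1)) • x = (a • d • x + b • v) - (a • x + b • v) := by
        rw [smul_smul]; module
      rw [this, h3, h2, sub_zero]
    have h5 := (smul_eq_zero.mp h4).resolve_right hx
    have ha : a = 0 := (mul_eq_zero.mp h5).resolve_right (sub_ne_zero.mpr hω')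
    rw [ha, zero_smul, zero_add] at h2
    have hb : b = 0 := (smul_eq_zero.mp h2).resolve_right hv
    rcases hab with h | h
    · exact h ha
    · exact h hb
  have hPu : IsUnit P.det := isUnit_iff_ne_zero.mpr hPdet
  have hP1 : P * P⁻¹ = 1 := Matrix.mul_nonsing_inv P hPu
  have hP2 : P⁻¹ * P = 1 := Matrix.nonsing_inv_mul P hPu
  let ρ' : D →* Matrix (Fin 2) (Fin 2) (ZMod p) :=
    { toFun := fun σ => P⁻¹ * ρ σ * P
      map_one' := by rw [map_one, mul_one, hP2]
      map_mul' := fun σ τ => by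
        rw [map_mul]
        calc P⁻¹ * (ρ σ * ρ τ) * P = P⁻¹ * ρ σ * 1 * ρ τ * P := by simp only [mul_assoc, one_mul, mul_one]
          _ = P⁻¹ * ρ σ * (P * P⁻¹) * ρ τ * P := by rw [hP1]
          _ = P⁻¹ * ρ σ * P * (P⁻¹ * ρ τ * P) := by simp only [mul_assoc] }
  have hρ' : ∀ σ, ρ' σ = P⁻¹ * ρ σ * P := fun σ => rfl
  have hcomm : ∀ σ, ρ' σ * P⁻¹ = P⁻¹ * ρ σ := by
    intro σ
    rw [hρ', mul_assoc, hP1, mul_one]
  have hPcol : ∀ (M : Matrix (Fin 2) (Fin 2) (ZMod p)), P * M = P → M = 1 := by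
    intro M hM
    have := congrArg (P⁻¹ * ·) hM
    simp only [← mul_assoc, hP2, one_mul] at this
    exact this
  -- columns of `ρ'`
  have hcol0 : ∀ σ : DC.I, (ρ' σ) 0 0 = DC.C.ω σ ∧ (ρ' σ) 1 0 = 0 := by
    intro σ
    have h1 : P.mulVec ![1, 0] = x := by
      ext i; fin_cases i <;> simp [hP]
    have h2 : (ρ' σ).mulVec ![1, 0] = (DC.C.ω σ : ZMod p) • ![1, 0] := by
      rw [hρ', ← Matrix.mulVec_mulVec, ← Matrix.mulVec_mulVec, h1, hxω, Matrix.mulVec_smul, ← h1,
        Matrix.mulVec_mulVec, hP2, Matrix.one_mulVec]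
    have e0 := congrFun h2 0
    have e1 := congrFun h2 1
    simp [Matrix.mulVec, dotProduct, Fin.sum_univ_two] at e0 e1
    exact ⟨e0, e1⟩
  have hdet' : ∀ σ : DC.I, (ρ' σ).det = DC.C.ω σ := by
    intro σ
    rw [hρ', Matrix.det_mul, Matrix.det_mul, hdet, mul_right_comm, ← Matrix.det_mul, hP2,
      Matrix.det_one, one_mul]
  have hord : IsOrd DC.C (ρ'.comp DC.I.subtype) :=
    { h00 := fun σ => (hcol0 σ).1
      h10 := fun σ => (hcol0 σ).2
      h11 := fun σ => by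
        have h1 := hdet' σ
        rw [Matrix.det_fin_two, (hcol0 σ).1, (hcol0 σ).2, mul_zero, sub_zero] at h1
        have h2 : (DC.C.ω σ : ZMod p) ≠ 0 := (DC.C.ω σ).ne_zero
        exact mul_left_cancel₀ h2 (h1.trans (mul_one _).symm) }
  have hs' : ρ' σ₀ 0 1 = 0 := by
    have h1 : P.mulVec ![0, 1] = v := by
      ext i; fin_cases i <;> simp [hP]
    have h2 : (ρ' σ₀).mulVec ![0, 1] = ![0, 1] := by
      rw [hρ', ← Matrix.mulVec_mulVec, ← Matrix.mulVec_mulVec, h1, hsv, ← h1,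
        Matrix.mulVec_mulVec, hP2, Matrix.one_mulVec]
    have e0 := congrFun h2 0
    simp [Matrix.mulVec, dotProduct, Fin.sum_univ_two] at e0
    exact e0
  let L : (D → Matrix (Fin 2) (Fin 2) (ZMod p)) →ₗ[ZMod p] (D → Matrix (Fin 2) (Fin 2) (ZMod p)) :=
    { toFun := fun c σ => P⁻¹ * c σ * P
      map_add' := fun c c' => by
        funext σ
        simp only [Pi.add_apply, mul_add, add_mul]
      map_smul' := fun a c => by
        funext σ
        simp only [Pi.smul_apply, mul_smul_comm, smul_mul_assoc, RingHom.id_apply] }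
  have hLinj : Function.Injective L := by
    intro c c' h
    funext σ
    have h1 : P⁻¹ * c σ * P = P⁻¹ * c' σ * P := congrFun h σ
    have h2 : P * (P⁻¹ * c σ * P) * P⁻¹ = P * (P⁻¹ * c' σ * P) * P⁻¹ := by rw [h1]
    have h3 : ∀ M : Matrix (Fin 2) (Fin 2) (ZMod p), P * (P⁻¹ * M * P) * P⁻¹ = M := by
      intro M
      calc P * (P⁻¹ * M * P) * P⁻¹ = (P * P⁻¹) * M * (P * P⁻¹) := by simp only [mul_assoc]
        _ = M := by rw [hP1, one_mul, mul_one]
    rwa [h3, h3] at h2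
  have hZ' : IsFlatSpace DC ρ' (Z.map L) :=
    { coc := by
        rintro _ ⟨c, hc, rfl⟩
        exact (hZ.coc c hc).conj (t := P⁻¹) (t' := P) hP1 hcomm
      tr := by
        rintro _ ⟨c, hc, rfl⟩ σ
        change (P⁻¹ * c σ * P).trace = 0
        rw [mul_assoc, Matrix.trace_mul_comm, mul_assoc, hP1, mul_one, hZ.tr c hc]
      flat := by
        rintro _ ⟨c, hc, rfl⟩
        exact (hZ.flat c hc).conj (t := P⁻¹) (t' := P) hP1 fun σ => hcomm σ
      gen := by
        rintro _ ⟨c, hc, rfl⟩ hI hφ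
        have h3 : ∀ M : Matrix (Fin 2) (Fin 2) (ZMod p), P⁻¹ * M * P = 0 → M = 0 := by
          intro M hM
          have h2 := congrArg (fun M => P * M * P⁻¹) hM
          simp only [mul_zero, zero_mul] at h2
          calc M = (P * P⁻¹) * M * (P * P⁻¹) := by rw [hP1, one_mul, mul_one]
            _ = P * (P⁻¹ * M * P) * P⁻¹ := by simp only [mul_assoc]
            _ = 0 := h2
        have h4 : c = 0 := hZ.gen c hc (fun σ hσ => h3 _ (hI σ hσ)) (h3 _ hφ)
        rw [h4, map_zero] }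
  have h1 := DC.rankA hord hσ₀ hω hs' hZ'
  have h2 : Module.rank (ZMod p) Z = Module.rank (ZMod p) (Z.map L) :=
    LinearEquiv.rank_eq (Submodule.equivMapOfInjective L hLinj Z)
  rw [h2]
  exact h1

end DCtx

end Fermat.Agent.FlatLoc
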