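import Fermat.Agent.FlatLoc.TriLev

/-!
# The ordinary case: the count
-/

set_option autoImplicit false
set_option linter.unusedSectionVars false

namespace Fermat.Agent.FlatLoc

open Fermat.Agent.ECRed
open scoped Polynomial

/-- the decomposition context -/
structure DCtx (K : Type*) [Field K] (κ : Type*) [Field κ] (D : Type*) [Group D]
    [MulSemiringAction D K] (p : ℕ) [Fact p.Prime] (ϖ : K) where
  I : Subgroup D
  C : Ctx K κ I p
  hϖ : ϖ ^ (p ^ 2 - 1) = p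
  φ : D
  norm : ∀ σ ∈ I, φ⁻¹ * σ * φ ∈ I
  hφ : φ • ϖ = ϖ
  ord : ∀ z, C.v.ord (φ • z) = C.v.ord z
  r_eq : ∀ z, C.v.Ge 0 z → C.r (φ • z) = C.r z ^ p
  u : (ZMod p)ˣ
  hu : ∀ a, φ • C.ψ a = C.ψ (u * a)

variable {K : Type*} [Field K] {κ : Type*} [Field κ] {D : Type*} [Group D]
  [MulSemiringAction D K] {p : ℕ} [hp : Fact p.Prime] {ϖ : K} (DC : DCtx K κ D p ϖ)

namespace DCtx

/-- conjugation by Frobenius -/
def conj (σ : DC.I) : DC.I := ⟨DC.φ⁻¹ * σ * DC.φ, DC.norm σ σ.2⟩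

lemma conj_coe (σ : DC.I) : (DC.conj σ : D) = DC.φ⁻¹ * σ * DC.φ := rfl

/-- the Frobenius -/
def frob : Frob DC.C ϖ where
  φ := MulSemiringAction.toRingEquiv D K DC.φ
  hφ := DC.hφ
  ord := DC.ord
  r_eq := DC.r_eq
  conj := DC.conj
  conj_spec σ z := by
    change (σ : D) • DC.φ • z = DC.φ • (DC.conj σ : D) • z
    rw [conj_coe, ← mul_smul, ← mul_smul]; congr 1; group
  u := DC.u
  hu := DC.hu

lemma omega_conj (σ : DC.I) : DC.C.ω (DC.conj σ) = DC.C.ω σ := by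
  have h1 := DC.frob.conj_spec σ (DC.C.ψ 1)
  have h2 : (DC.frob).φ (DC.C.ψ 1) = DC.C.ψ (DC.u * 1) := DC.hu 1
  have h3 : DC.frob.conj σ = DC.conj σ := rfl
  rw [h2, DC.C.hω, h3, DC.C.hω] at h1
  have h4 : (DC.frob).φ (DC.C.ψ (DC.C.ω (DC.conj σ) * 1)) = DC.C.ψ (DC.u * (DC.C.ω (DC.conj σ) * 1)) :=
    DC.hu _
  rw [h4] at h1
  have h5 := DC.C.hψ h1
  apply Units.ext
  have h6 : (DC.u : ZMod p) ≠ 0 := DC.u.ne_zero
  refine mul_left_cancel₀ h6 ?_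
  linear_combination -h5

lemma exists_JJ_mul {σ₀ : DC.I} (hσ₀ : IsPrimitiveRoot (DC.C.Th DC.hϖ σ₀) (p ^ 2 - 1)) (σ : DC.I) :
    ∃ (τ : DC.I) (k : ℕ), τ ∈ JJ DC.I ϖ ∧ σ = τ * σ₀ ^ k := by
  have he : NeZero (p ^ 2 - 1) := ⟨Ctx.e_ne_zero⟩
  obtain ⟨k, -, hk⟩ := hσ₀.eq_pow_of_mem_rootsOfUnity (ξ := DC.C.Th DC.hϖ σ)
    ((mem_rootsOfUnity _ _).mpr (DC.C.Th_pow DC.hϖ σ))
  refine ⟨σ * (σ₀ ^ k)⁻¹, k, ?_, by group⟩
  rw [DC.C.mem_JJ_iff DC.hϖ, map_mul, map_inv, map_pow, hk, mul_inv_cancel]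

variable {ρ : D →* Matrix (Fin 2) (Fin 2) (ZMod p)}

/-- the space of flat cocycles -/
structure IsFlatSpace (DC : DCtx K κ D p ϖ) (ρ : D →* Matrix (Fin 2) (Fin 2) (ZMod p))
    (Z : Submodule (ZMod p) (D → Matrix (Fin 2) (Fin 2) (ZMod p))) : Prop where
  coc : ∀ c ∈ Z, IsCoc ρ c
  tr : ∀ c ∈ Z, ∀ σ, (c σ).trace = 0
  flat : ∀ c ∈ Z, FlatC DC.C (ρ.comp DC.I.subtype) (fun σ => c σ)
  gen : ∀ c ∈ Z, (∀ σ ∈ DC.I, c σ = 0) → c DC.φ = 0 → c = 0

/-- **The count in the ordinary case** -/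
theorem rankA [IsAlgClosed κ] (hρ : IsOrd DC.C (ρ.comp DC.I.subtype)) {σ₀ : DC.I}
    (hσ₀ : IsPrimitiveRoot (DC.C.Th DC.hϖ σ₀) (p ^ 2 - 1)) (hω : DC.C.ω σ₀ ≠ 1)
    (hs : ρ σ₀ 0 1 = 0)
    {Z : Submodule (ZMod p) (D → Matrix (Fin 2) (Fin 2) (ZMod p))} (hZ : IsFlatSpace DC ρ Z) :
    Module.rank (ZMod p) Z ≤ (4 : ℕ) := by
  have := DC.C.char
  set φ := DC.φ with hφ
  have hmul : ∀ (A B : Matrix (Fin 2) (Fin 2) (ZMod p)) i j, (A * B) i j = A i 0 * B 0 j + A i 1 * B 1 j :=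
    fun A B i j => by rw [Matrix.mul_apply, Fin.sum_univ_two]
  have h00 : ∀ σ : DC.I, ρ σ 0 0 = DC.C.ω σ := hρ.h00
  have h10 : ∀ σ : DC.I, ρ σ 1 0 = 0 := hρ.h10
  have h11 : ∀ σ : DC.I, ρ σ 1 1 = 1 := hρ.h11
  have hω' : (DC.C.ω σ₀ : ZMod p) ≠ 1 := fun h => hω (Units.ext h)
  -- `ρ φ` is upper triangular
  have hconj : ∀ σ : DC.I, (σ : D) * φ = φ * (DC.conj σ : D) := fun σ => by
    rw [conj_coe, ← hφ]; group
  have hρconj : ∀ σ : DC.I, ρ σ * ρ φ = ρ φ * ρ (DC.conj σ) := fun σ => by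
    rw [← map_mul, hconj, map_mul]
  have hφ10 : ρ φ 1 0 = 0 := by
    have h1 := congrFun (congrFun (hρconj σ₀) 1) 0
    rw [hmul, hmul, h10, h10, h11, h00, DC.omega_conj] at h1
    have h2 : ρ φ 1 0 * ((DC.C.ω σ₀ : ZMod p) - 1) = 0 := by linear_combination -h1
    exact (mul_eq_zero.mp h2).resolve_right (sub_ne_zero.mpr hω')
  have hdetφ : ρ φ 0 0 * ρ φ 1 1 ≠ 0 := by
    have h1 : (ρ φ).det * (ρ φ⁻¹).det = 1 := by rw [← Matrix.det_mul, rho_mul_inv, Matrix.det_one]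
    have h2 := left_ne_zero_of_mul_eq_one h1
    rw [Matrix.det_fin_two, hφ10, mul_zero, sub_zero] at h2
    exact h2
  have hφ00 := left_ne_zero_of_mul hdetφ
  have hφ11 := right_ne_zero_of_mul hdetφ
  -- the filtration
  let L1 : Z →ₗ[ZMod p] (ZMod p × ZMod p) :=
    { toFun := fun c => (c.1 σ₀ 0 1, c.1 σ₀ 1 0)
      map_add' := fun c d => rfl
      map_smul' := fun a c => rfl }
  let L2 : LinearMap.ker L1 →ₗ[ZMod p] ZMod p :=
    { toFun := fun c => c.1.1 φ 0 0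
      map_add' := fun c d => rfl
      map_smul' := fun a c => rfl }
  let c : LinearMap.ker L2 → D → Matrix (Fin 2) (Fin 2) (ZMod p) := fun x => x.1.1.1
  have hcZ : ∀ x, c x ∈ Z := fun x => x.1.1.2
  have hc1 : ∀ x, c x σ₀ 0 1 = 0 ∧ c x σ₀ 1 0 = 0 := fun x =>
    Prod.mk.inj (LinearMap.mem_ker.mp x.1.2)
  have hc2 : ∀ x, c x φ 0 0 = 0 := fun x => LinearMap.mem_ker.mp x.2
  have hord := fun x => (hZ.flat _ (hcZ x)).ord hρ (fun σ => hZ.tr _ (hcZ x) σ) hω (hc1 x).2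
  choose hsh hμ hfl using hord
  have hlev : ∀ x, Lev DC.C ϖ (fun σ : DC.I => AddMonoidHom.mulRight (c x σ 0 1)) (p ^ 2 - 1) :=
    fun x => DC.C.tri_lev DC.hϖ (hfl x) hσ₀ (hc1 x).1
  have hp1 := hp.out.one_lt
  have he4 : 4 ≤ p ^ 2 := by
    have : 2 ^ 2 ≤ p ^ 2 := Nat.pow_le_pow_left hp.out.two_le 2
    omega
  have hφtr : ∀ x, c x φ 1 1 = 0 := by
    intro x
    have h1 := hZ.tr _ (hcZ x) φ
    rw [Matrix.trace_fin_two] at h1
    rw [hc2 x, zero_add] at h1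
    exact h1
  -- the Frobenius relation
  have hrel : ∀ x, ∀ σ : DC.I, c x σ * ρ σ * ρ φ + ρ σ * (c x φ * ρ φ) =
      c x φ * ρ φ * ρ (DC.conj σ) + ρ φ * (c x (DC.conj σ) * ρ (DC.conj σ)) := by
    intro x σ
    rw [← (hZ.coc _ (hcZ x)).mul_rho, ← (hZ.coc _ (hcZ x)).mul_rho, hconj]
  have hfrob : ∀ x, ∀ σ ∈ JJ DC.I ϖ, c x σ 0 1 * ρ φ 1 1 = ρ φ 0 0 * c x (DC.conj σ) 0 1 := by
    intro x σ hσ
    have hσ' : DC.conj σ ∈ JJ DC.I ϖ := DC.frob.conj_mem hσ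
    have hωσ : (DC.C.ω σ : ZMod p) = 1 := by rw [DC.C.omega_JJ DC.hϖ hσ, Units.val_one]
    have e00 := congrFun (congrFun (hrel x σ) 0) 0
    have e01 := congrFun (congrFun (hrel x σ) 0) 1
    simp only [Matrix.add_apply, hmul, hφ10, h10, h11, h00, DC.omega_conj, hωσ,
      hc2 x, hφtr x, (hsh x σ).1, (hsh x σ).2.1, (hsh x σ).2.2,
      (hsh x (DC.conj σ)).1, (hsh x (DC.conj σ)).2.1, (hsh x (DC.conj σ)).2.2] at e00 e01
    have h1 : ρ σ 0 1 * c x φ 1 0 = 0 := by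
      have : (ρ σ 0 1 * c x φ 1 0) * ρ φ 0 0 = 0 := by linear_combination e00
      exact (mul_eq_zero.mp this).resolve_right hφ00
    linear_combination e01 - ρ φ 0 1 * h1
  obtain ⟨B, a, hB, hB0⟩ := DC.C.exists_B DC.hϖ (F := LinearMap.ker L2)
    (f := fun x (σ : DC.I) => AddMonoidHom.mulRight (c x σ 0 1))
    (fun x x' σ => by
      refine AddMonoidHom.ext fun m => ?_
      change m * (c x σ 0 1 + c x' σ 0 1) = m * c x σ 0 1 + m * c x' σ 0 1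
      ring)
    (i := p ^ 2 - 1) (by omega) (by nlinarith [Nat.sub_le (p ^ 2) 1]) Ctx.not_dvd_e hlev
    (σ₀ := σ₀) (T := 1) (fun x => DC.C.tri_hT DC.hϖ (hβ := hμ x) (hc1 x).1)
    (Q := Polynomial.X - 1) (by simp)
    (fun k hk hk' => Or.inr (by
      rw [map_sub, Polynomial.aeval_X, map_one]
      intro h3
      have h4 := (DC.C.r_Th_prim DC.hϖ hσ₀).dvd_of_pow_eq_one k (sub_eq_zero.mp h3)
      obtain ⟨m, hm⟩ := h4
      have hm2 : 2 ≤ m := by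
        by_contra hcon
        push Not at hcon
        have : (p ^ 2 - 1) * m ≤ (p ^ 2 - 1) * 1 := Nat.mul_le_mul_left _ (by omega)
        omega
      have h5 : (p ^ 2 - 1) * 2 ≤ (p ^ 2 - 1) * m := Nat.mul_le_mul_left _ hm2
      have h6 := DC.C.two_lt_nat
      have h7 : p * (p + 1) = p ^ 2 + p := by ring
      have h8 : 3 * p ≤ p ^ 2 := by nlinarith
      omega))
    (β₀ := 1) (fun β => ⟨Polynomial.C (β.val : ℤ), by
      rw [Polynomial.aeval_C, Algebra.algebraMap_eq_smul_one]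
      change ((β.val : ℤ)) • (1 : ZMod p) = β
      simp⟩)
    DC.frob (β₁ := DC.u * (ρ φ 1 1 / ρ φ 0 0)) (fun x σ hσ => by
      change DC.u * (ρ φ 1 1 / ρ φ 0 0) * c x σ 0 1 = DC.u * (1 * c x (DC.conj σ) 0 1)
      have := hfrob x σ hσ
      field_simp
      linear_combination this)
  obtain ⟨L3, hL3⟩ := exists_linear hB
  have hker : ∀ x, L3 x = 0 → x = 0 := by
    intro x hx
    have hBx : B x = 0 := by rw [← hL3, hx]; rfl
    have hJ : ∀ σ ∈ JJ DC.I ϖ, c x σ 0 1 = 0 := by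
      intro σ hσ
      have h1 := DFunLike.congr_fun (hB0 x hBx σ hσ) (1 : ZMod p)
      change 1 * c x σ 0 1 = 0 at h1
      rwa [one_mul] at h1
    have hpow : ∀ k : ℕ, c x ((σ₀ ^ k : DC.I) : D) 0 1 = 0 := by
      intro k
      induction k with
      | zero =>
        rw [pow_zero, OneMemClass.coe_one, (hZ.coc _ (hcZ x)).one]; rfl
      | succ k ih =>
        have h1 := hμ x (σ₀ ^ k) σ₀
        rw [pow_succ]
        rw [h1, (hc1 x).1, ih]; simp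
    have hI01 : ∀ σ : DC.I, c x σ 0 1 = 0 := by
      intro σ
      obtain ⟨τ, k, hτ, rfl⟩ := DC.exists_JJ_mul hσ₀ σ
      rw [hμ x τ (σ₀ ^ k), hpow, hJ τ hτ]; simp
    have hI : ∀ σ : DC.I, c x σ = 0 := by
      intro σ
      ext i j
      fin_cases i <;> fin_cases j
      · exact (hsh x σ).2.2
      · exact hI01 σ
      · exact (hsh x σ).1
      · exact (hsh x σ).2.1
    have hφ0 : c x φ = 0 := by
      have h1 := hrel x σ₀
      rw [hI, hI] at h1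
      simp only [zero_mul, mul_zero, zero_add, add_zero] at h1
      have e01 := congrFun (congrFun h1 0) 1
      have e10 := congrFun (congrFun h1 1) 0
      simp only [hmul, hφ10, h10, h11, h00, DC.omega_conj, hc2 x, hφtr x, hs] at e01 e10
      have k1 : c x φ 0 1 = 0 := by
        have : (c x φ 0 1 * ρ φ 1 1) * ((DC.C.ω σ₀ : ZMod p) - 1) = 0 := by linear_combination e01
        exact (mul_eq_zero.mp ((mul_eq_zero.mp this).resolve_right (sub_ne_zero.mpr hω'))).resolve_right hφ11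
      have k2 : c x φ 1 0 = 0 := by
        have : (c x φ 1 0 * ρ φ 0 0) * ((DC.C.ω σ₀ : ZMod p) - 1) = 0 := by linear_combination -e10
        exact (mul_eq_zero.mp ((mul_eq_zero.mp this).resolve_right (sub_ne_zero.mpr hω'))).resolve_right hφ00
      ext i j
      fin_cases i <;> fin_cases j
      · exact hc2 x
      · exact k1
      · exact k2
      · exact hφtr x
    have h1 : c x = 0 := hZ.gen _ (hcZ x) (fun σ hσ => hI ⟨σ, hσ⟩) hφ0
    apply Subtype.ext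
    apply Subtype.ext
    apply Subtype.ext
    exact h1
  have hr3 : Module.rank (ZMod p) (LinearMap.ker L3) ≤ (0 : ℕ) := by
    have : LinearMap.ker L3 = ⊥ := by
      rw [eq_bot_iff]
      intro x hx
      exact (Submodule.mem_bot _).mpr (hker x hx)
    rw [this]; simp
  have hr2 : Module.rank (ZMod p) (LinearMap.ker L2) ≤ (1 + 0 : ℕ) :=
    rank_le_add L3 ((Submodule.rank_le _).trans (by simpa using rank_frobSub a)) hr3
  have hr1 : Module.rank (ZMod p) (LinearMap.ker L1) ≤ (1 + (1 + 0) : ℕ) :=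
    rank_le_add L2 ((Submodule.rank_le _).trans (by simp)) hr2
  exact rank_le_add L1 (a := 2) (b := 1 + (1 + 0)) ((Submodule.rank_le _).trans (by
    rw [rank_prod']; simp; norm_num)) hr1

end DCtx

end Fermat.Agent.FlatLoc
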