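import Fermat.Agent.FlatLoc.SS4

/-!
# The supersingular case: the count
-/

set_option autoImplicit false
set_option linter.unusedSectionVars false

namespace Fermat.Agent.FlatLoc

open Fermat.Agent.ECRed
open scoped Polynomial

variable {K : Type*} [Field K] {κ : Type*} [Field κ] {D : Type*} [Group D]
  [MulSemiringAction D K] {p : ℕ} [hp : Fact p.Prime] {ϖ : K} (DC : DCtx K κ D p ϖ)

namespace DCtx

variable {ρ : D →* Matrix (Fin 2) (Fin 2) (ZMod p)}

/-- **The count in the supersingular case** -/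
theorem rankB [IsAlgClosed κ] {σ₀ : DC.I} (S : SS DC.C DC.hϖ (ρ.comp DC.I.subtype) σ₀)
    {Z : Submodule (ZMod p) (D → Matrix (Fin 2) (Fin 2) (ZMod p))} (hZ : IsFlatSpace DC ρ Z) :
    Module.rank (ZMod p) Z ≤ (4 : ℕ) := by
  have := DC.C.char
  set φ := DC.φ with hφ
  set ρI := ρ.comp DC.I.subtype with hρI
  have hρIa : ∀ σ : DC.I, ρI σ = ρ σ := fun σ => rfl
  have hconj : ∀ σ : DC.I, (σ : D) * φ = φ * (DC.conj σ : D) := fun σ => by
    rw [conj_coe, ← hφ]; group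
  have hρconj : ∀ σ : DC.I, ρ σ * ρ φ = ρ φ * ρ (DC.conj σ) := fun σ => by
    rw [← map_mul, hconj, map_mul]
  -- the filtration
  let L1 : Z →ₗ[ZMod p] (Fin 2 → ZMod p) :=
    { toFun := fun c => (c.1 σ₀).mulVec e₁
      map_add' := fun c d => Matrix.add_mulVec _ _ _
      map_smul' := fun a c => by
        change (a • c.1 σ₀).mulVec e₁ = a • (c.1 σ₀).mulVec e₁
        exact Matrix.smul_mulVec _ _ _ }
  let c : LinearMap.ker L1 → D → Matrix (Fin 2) (Fin 2) (ZMod p) := fun x => x.1.1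
  have hcZ : ∀ x, c x ∈ Z := fun x => x.1.2
  have hc1 : ∀ x, (c x σ₀).mulVec e₁ = 0 := fun x => LinearMap.mem_ker.mp x.2
  have hanti : ∀ x, ∀ σ : DC.I, c x σ * tt ρI σ₀ = -(tt ρI σ₀ * c x σ) := fun x =>
    S.anti (hZ.flat _ (hcZ x)) (fun σ => hZ.tr _ (hcZ x) σ)
  have hlev : ∀ x, Lev DC.C ϖ (ff fun σ : DC.I => c x σ) (p ^ 2 + 1) := fun x =>
    S.lev_flat (hZ.flat _ (hcZ x)) (hanti x)
  have hp2 := DC.C.two_lt_nat
  have hp9 : 3 * p ≤ p ^ 2 := by nlinarith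
  have hpp : p * (p + 1) = p ^ 2 + p := by ring
  have hrel : ∀ x, ∀ σ : DC.I, c x σ * ρ σ * ρ φ + ρ σ * (c x φ * ρ φ) =
      c x φ * ρ φ * ρ (DC.conj σ) + ρ φ * (c x (DC.conj σ) * ρ (DC.conj σ)) := by
    intro x σ
    rw [← (hZ.coc _ (hcZ x)).mul_rho, ← (hZ.coc _ (hcZ x)).mul_rho, hconj]
  have hfrob : ∀ x, ∀ σ ∈ JJ DC.I ϖ, c x σ * ρ φ = ρ φ * c x (DC.conj σ) := by
    intro x σ hσ
    have hσ' : DC.conj σ ∈ JJ DC.I ϖ := DC.frob.conj_mem hσ
    have h1 := hrel x σ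
    rw [← hρIa, ← hρIa, S.triv σ hσ, S.triv _ hσ', mul_one, mul_one, mul_one, one_mul,
      add_comm] at h1
    exact add_left_cancel h1
  obtain ⟨a', b', hab⟩ := S.vec_form ((ρ φ).mulVec e₁)
  set β₀ : WW p := Pi.evalAddMonoidHom (fun _ : Fin 2 => ZMod p) 0 with hβ₀
  set N : Matrix (Fin 2) (Fin 2) (ZMod p) :=
    ρ φ⁻¹ * (a' • (1 : Matrix (Fin 2) (Fin 2) (ZMod p)) - b' • tt ρI σ₀) with hN
  have hNe : ∀ x, ∀ σ ∈ JJ DC.I ϖ, (c x (DC.conj σ)).mulVec e₁ = N.mulVec ((c x σ).mulVec e₁) := by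
    intro x σ hσ
    have h1 : c x (DC.conj σ) = ρ φ⁻¹ * (c x σ * ρ φ) := by
      rw [hfrob x σ hσ, ← mul_assoc, rho_inv_mul, one_mul]
    have h2 : c x σ * (a' • (1 : Matrix (Fin 2) (Fin 2) (ZMod p)) + b' • tt ρI σ₀) =
        (a' • (1 : Matrix (Fin 2) (Fin 2) (ZMod p)) - b' • tt ρI σ₀) * c x σ := by
      rw [mul_add, sub_mul, mul_smul_comm, mul_smul_comm, hanti, mul_one, smul_mul_assoc, one_mul,
        smul_mul_assoc, smul_neg, sub_eq_add_neg]
    rw [h1, ← Matrix.mulVec_mulVec, ← Matrix.mulVec_mulVec, hab, Matrix.mulVec_mulVec _ (c x σ), h2,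
      hN, Matrix.mulVec_mulVec, Matrix.mulVec_mulVec, mul_assoc]
  obtain ⟨B, a, hB, hB0⟩ := DC.C.exists_B DC.hϖ (F := LinearMap.ker L1)
    (f := fun x (σ : DC.I) => ff (fun σ : DC.I => c x σ) σ)
    (fun x x' σ => by
      refine AddMonoidHom.ext fun β => ?_
      change β ((c x σ + c x' σ).mulVec e₁) = β ((c x σ).mulVec e₁) + β ((c x' σ).mulVec e₁)
      rw [Matrix.add_mulVec, map_add])
    (i := p ^ 2 + 1) (by omega) (by omega) (by
      intro h
      have h1 : p ∣ p ^ 2 := dvd_pow_self p (by norm_num)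
      have := (Nat.dvd_add_right h1).mp h
      have := Nat.le_of_dvd one_pos this
      omega) hlev
    (σ₀ := σ₀) (T := preM (AA ρI σ₀)) (fun x => S.kum_T (hZ.flat _ (hcZ x)).coc (hanti x))
    (aeval_preM (AA ρI σ₀))
    (fun k hk hk' => Or.inr (S.aeval_Q_ne (by omega) (by omega) (by omega) (by omega)))
    (β₀ := β₀) (fun β => S.cyclic β)
    DC.frob (β₁ := (AddMonoidHom.mulLeft (DC.u : ZMod p)).comp (preM N β₀)) (fun x σ hσ => by
      change (DC.u : ZMod p) * β₀ (N.mulVec ((c x σ).mulVec e₁)) =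
        DC.u * β₀ ((c x (DC.conj σ)).mulVec e₁)
      rw [hNe x σ hσ])
  obtain ⟨L3, hL3⟩ := exists_linear hB
  let L4 : LinearMap.ker L3 →ₗ[ZMod p] ZMod p :=
    { toFun := fun x => (c x.1) φ 1 0
      map_add' := fun c d => rfl
      map_smul' := fun a c => rfl }
  have hker : ∀ x, L4 x = 0 → x = 0 := by
    intro x hx
    set d : D → Matrix (Fin 2) (Fin 2) (ZMod p) := c x.1 with hd
    have hBx : B x.1 = 0 := by
      have : L3 x.1 = 0 := LinearMap.mem_ker.mp x.2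
      rw [← hL3, this]; rfl
    have hJ : ∀ σ ∈ JJ DC.I ϖ, d σ = 0 := fun σ hσ =>
      S.ff_zero (hanti x.1) (hB0 x.1 hBx σ hσ)
    have h0 : d σ₀ = 0 := S.anti_zero (hanti x.1 σ₀) (hc1 x.1)
    have hcoc : IsCoc ρ d := hZ.coc _ (hcZ x.1)
    have hpow : ∀ k : ℕ, d ((σ₀ ^ k : DC.I) : D) = 0 := by
      intro k
      induction k with
      | zero =>
        rw [pow_zero, OneMemClass.coe_one, hcoc.one]
      | succ k ih =>
        rw [pow_succ, Subgroup.coe_mul, hcoc, ih, h0, mul_zero, zero_mul, add_zero]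
    have hI : ∀ σ : DC.I, d σ = 0 := by
      intro σ
      obtain ⟨τ, k, hτ, rfl⟩ := DC.exists_JJ_mul S.prim σ
      rw [Subgroup.coe_mul, hcoc, hpow, hJ τ hτ, mul_zero, zero_mul, add_zero]
    have hφ0 : d φ = 0 := by
      have h1 := hrel x.1 σ₀
      rw [← hd, hI, hI] at h1
      simp only [zero_mul, mul_zero, zero_add, add_zero] at h1
      rw [mul_assoc (d φ), ← hρconj, ← mul_assoc, ← mul_assoc] at h1
      have h2 : ρ σ₀ * d φ = d φ * ρ σ₀ := by
        have h3 := congrArg (· * ρ φ⁻¹) h1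
        simp only [mul_assoc, rho_mul_inv, mul_one] at h3
        exact h3
      have h4 : d φ * tt ρI σ₀ = tt ρI σ₀ * d φ := by
        rw [tt, mul_sub, sub_mul, hρIa, h2, mul_smul_comm, smul_mul_assoc, mul_one, one_mul]
      have h5 := S.comm_tr h4 (hZ.tr _ (hcZ x.1) φ)
      have h6 : d φ 1 0 = 0 := hx
      rw [h6, zero_div, zero_smul] at h5
      exact h5
    have h1 : d = 0 := hZ.gen _ (hcZ x.1) (fun σ hσ => hI ⟨σ, hσ⟩) hφ0
    apply Subtype.ext
    apply Subtype.ext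
    apply Subtype.ext
    exact h1
  have hr4 : Module.rank (ZMod p) (LinearMap.ker L4) ≤ (0 : ℕ) := by
    have : LinearMap.ker L4 = ⊥ := by
      rw [eq_bot_iff]
      intro x hx
      exact (Submodule.mem_bot _).mpr (hker x hx)
    rw [this]; simp
  have hr3 : Module.rank (ZMod p) (LinearMap.ker L3) ≤ (1 + 0 : ℕ) :=
    rank_le_add L4 ((Submodule.rank_le _).trans (by simp)) hr4
  have hr1 : Module.rank (ZMod p) (LinearMap.ker L1) ≤ (1 + (1 + 0) : ℕ) :=
    rank_le_add L3 ((Submodule.rank_le _).trans (by simpa using rank_frobSub a)) hr3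
  exact rank_le_add L1 (a := 2) (b := 1 + (1 + 0)) ((Submodule.rank_le _).trans (by simp)) hr1

end DCtx

end Fermat.Agent.FlatLoc
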