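import Fermat.Agent.FlatLoc.Zeta

/-!
# The local context: inertia group at `p` acting on `ℚ̄`
-/

set_option autoImplicit false
set_option linter.unusedSectionVars false

namespace Fermat.Agent.FlatLoc

open Fermat.Agent.ECRed
open scoped Polynomial

/-- the inertia context -/
structure Ctx (K : Type*) [Field K] (κ : Type*) [Field κ] (G : Type*) [Group G]
    [MulSemiringAction G K] (p : ℕ) [Fact p.Prime] where
  v : OrdFn K
  R : Subring K
  base : IsBase G R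
  mem_R : ∀ z, z ∈ R ↔ (∀ σ : G, σ • z = z) ∧ v.Ge 0 z
  hv : ∀ (σ : G) (z : K), v.ord (σ • z) = v.ord z
  vp : v.ord (p : K) = 1
  int_val : ∀ z : K, z ≠ 0 → (∀ σ : G, σ • z = z) → ∃ n : ℤ, v.ord z = n
  inert : ∀ (σ : G) (z : K), v.Ge 0 z → v.Gt 0 (σ • z - z)
  r : K → κ
  r_add : ∀ x y, v.Ge 0 x → v.Ge 0 y → r (x + y) = r x + r y
  r_mul : ∀ x y, v.Ge 0 x → v.Ge 0 y → r (x * y) = r x * r y
  r_one : r 1 = 1
  r_eq_zero : ∀ x, v.Ge 0 x → (r x = 0 ↔ v.Gt 0 x)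
  r_surj : ∀ a : κ, ∃ x ∈ R, r x = a
  char : CharP κ p
  ψ : AddChar (ZMod p) K
  hψ : Function.Injective ψ
  ω : G →* (ZMod p)ˣ
  hω : ∀ (σ : G) (a : ZMod p), σ • ψ a = ψ (ω σ * a)
  p_ne_two : p ≠ 2
  charZero : CharZero K

namespace Ctx

variable {K : Type*} [Field K] {κ : Type*} [Field κ] {G : Type*} [Group G]
  [MulSemiringAction G K] {p : ℕ} [Fact p.Prime] (C : Ctx K κ G p)

include C

lemma hRv : ∀ r ∈ C.R, C.v.Ge 0 r := fun r hr => ((C.mem_R r).mp hr).2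

omit C in
lemma one_lt : (1 : ℝ) < p := by exact_mod_cast (Fact.out : p.Prime).one_lt

lemma two_lt_nat : 2 < p := lt_of_le_of_ne (Fact.out : p.Prime).two_le C.p_ne_two.symm

lemma r_zero : C.r 0 = 0 := (C.r_eq_zero 0 OrdFn.Ge.zero).mpr OrdFn.Gt.zero

lemma r_neg {x : K} (hx : C.v.Ge 0 x) : C.r (-x) = - C.r x := by
  have h := C.r_add x (-x) hx hx.neg
  rw [add_neg_cancel, C.r_zero] at h
  exact (neg_eq_of_add_eq_zero_right h.symm).symm

lemma r_sub {x y : K} (hx : C.v.Ge 0 x) (hy : C.v.Ge 0 y) : C.r (x - y) = C.r x - C.r y := by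
  rw [sub_eq_add_neg, C.r_add _ _ hx hy.neg, C.r_neg hy, sub_eq_add_neg]

lemma r_eq_iff {x y : K} (hx : C.v.Ge 0 x) (hy : C.v.Ge 0 y) :
    C.r x = C.r y ↔ C.v.Gt 0 (x - y) := by
  rw [← C.r_eq_zero _ (hx.sub hy), C.r_sub hx hy, sub_eq_zero]

lemma r_pow {x : K} (hx : C.v.Ge 0 x) (n : ℕ) : C.r (x ^ n) = C.r x ^ n := by
  induction n with
  | zero => rw [pow_zero, pow_zero, C.r_one]
  | succ n ih => rw [pow_succ, pow_succ, C.r_mul _ _ (Ge.pow_aux hx n) hx, ih]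

lemma r_sum {ι : Type*} (s : Finset ι) (f : ι → K) (h : ∀ i ∈ s, C.v.Ge 0 (f i)) :
    C.r (∑ i ∈ s, f i) = ∑ i ∈ s, C.r (f i) := by
  classical
  induction s using Finset.induction_on with
  | empty => simpa using C.r_zero
  | insert a s ha ih =>
    have h1 : ∀ i ∈ s, C.v.Ge 0 (f i) := fun i hi => h i (Finset.mem_insert_of_mem hi)
    rw [Finset.sum_insert ha, Finset.sum_insert ha,
      C.r_add _ _ (h a (Finset.mem_insert_self _ _)) (ge_sum _ _ h1), ih h1]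

lemma r_natCast (n : ℕ) : C.r (n : K) = n := by
  induction n with
  | zero => simpa using C.r_zero
  | succ n ih =>
    push_cast
    rw [C.r_add _ _ (OrdFn.ge_natCast n) OrdFn.eq_one.ge, ih, C.r_one]

lemma r_intCast (n : ℤ) : C.r (n : K) = n := by
  cases n with
  | ofNat n => simpa using C.r_natCast n
  | negSucc n =>
    rw [Int.cast_negSucc, Int.cast_negSucc, C.r_neg (OrdFn.ge_natCast _), C.r_natCast]

lemma r_ne_zero {x : K} (hx : C.v.Eq 0 x) : C.r x ≠ 0 := by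
  intro h
  exact hx.not_gt ((C.r_eq_zero x hx.ge).mp h)

lemma r_smul (σ : G) {x : K} (hx : C.v.Ge 0 x) : C.r (σ • x) = C.r x :=
  (C.r_eq_iff ((ge_smul C.hv σ).mpr hx) hx).mpr (C.inert σ x hx)

lemma r_aeval (P : ℤ[X]) {x : K} (hx : C.v.Ge 0 x) : C.v.Ge 0 (Polynomial.aeval x P) ∧
    C.r (Polynomial.aeval x P) = Polynomial.aeval (C.r x) P := by
  induction P using Polynomial.induction_on' with
  | add P Q hP hQ =>
    rw [map_add, map_add]
    exact ⟨hP.1.add hQ.1, by rw [C.r_add _ _ hP.1 hQ.1, hP.2, hQ.2]⟩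
  | monomial n a =>
    rw [Polynomial.aeval_monomial, Polynomial.aeval_monomial, eq_intCast, eq_intCast]
    have h1 := (OrdFn.ge_intCast (v := C.v) a)
    have h2 := Ge.pow_aux hx n
    refine ⟨by simpa using h1.mul h2, ?_⟩
    rw [C.r_mul _ _ h1 h2, C.r_intCast, C.r_pow hx]

/-- roots of unity of order prime to `p` with the same residue are equal -/
lemma root_inj {n : ℕ} (hn : ¬ p ∣ n) {z w : K} (hz : z ^ n = 1) (hw : w ^ n = 1)
    (h : C.r z = C.r w) : z = w := by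
  have hn0 : n ≠ 0 := by rintro rfl; exact hn (dvd_zero _)
  have hz0 := ord_root_of_unity (v := C.v) hn0 hz
  have hw0 := ord_root_of_unity (v := C.v) hn0 hw
  by_contra hne
  -- u = z / w, u ^ n = 1, u ≠ 1, r u = 1
  set u := z / w with hu
  have hu0 : C.v.Eq 0 u := by
    have := hz0.mul hw0.inv
    rw [hu, div_eq_mul_inv]
    simpa using this
  have hun : u ^ n = 1 := by rw [hu, div_pow, hz, hw, div_one]
  have hu1 : u ≠ 1 := fun h1 => hne ((div_eq_one_iff_eq hw0.1).mp h1)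
  have hgs : ∑ i ∈ Finset.range n, u ^ i = 0 := by
    have h1 := mul_geom_sum u n
    rw [hun, sub_self, mul_eq_zero] at h1
    exact h1.resolve_left (sub_ne_zero.mpr hu1)
  have hru : C.r u = 1 := by
    have h1 : C.r (u * w) = C.r w := by rw [hu, div_mul_cancel₀ _ hw0.1, h]
    rw [C.r_mul _ _ hu0.ge hw0.ge] at h1
    exact mul_right_cancel₀ (C.r_ne_zero hw0) (h1.trans (one_mul _).symm)
  have h2 : C.r (∑ i ∈ Finset.range n, u ^ i) = n := by
    rw [C.r_sum _ _ fun i _ => Ge.pow_aux hu0.ge i]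
    rw [Finset.sum_congr rfl fun i _ => by rw [C.r_pow hu0.ge, hru, one_pow]]
    simp
  rw [hgs, C.r_zero] at h2
  have := C.char
  exact hn ((CharP.cast_eq_zero_iff κ p n).mp h2.symm)

/-- roots of unity of order prime to `p` are fixed -/
lemma root_fixed {n : ℕ} (hn : ¬ p ∣ n) {z : K} (hz : z ^ n = 1) (σ : G) : σ • z = z := by
  have hn0 : n ≠ 0 := by rintro rfl; exact hn (dvd_zero _)
  refine C.root_inj hn ?_ hz (C.r_smul σ (ord_root_of_unity (v := C.v) hn0 hz).ge)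
  rw [← smul_pow', hz, smul_one]

lemma root_mem_R {n : ℕ} (hn : ¬ p ∣ n) {z : K} (hz : z ^ n = 1) : z ∈ C.R := by
  have hn0 : n ≠ 0 := by rintro rfl; exact hn (dvd_zero _)
  exact (C.mem_R z).mpr ⟨C.root_fixed hn hz, (ord_root_of_unity (v := C.v) hn0 hz).ge⟩

lemma eq_ratio {c : ℝ} {x : K} (hx : C.v.Eq c x) (σ : G) : C.v.Eq 0 (σ • x / x) := by
  have h1 := ((eq_smul C.hv σ).mpr hx).mul hx.inv
  rwa [add_neg_cancel, ← div_eq_mul_inv] at h1

/-- the residue of `σx/x` only depends on `ord x` -/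
lemma r_ratio {c : ℝ} {x y : K} (hx : C.v.Eq c x) (hy : C.v.Eq c y) (σ : G) :
    C.r (σ • x / x) = C.r (σ • y / y) := by
  have hu : C.v.Eq 0 (x / y) := by
    have := hx.mul hy.inv
    rwa [add_neg_cancel, ← div_eq_mul_inv] at this
  have h1 : σ • x / x * (x / y) = (σ • y / y) * (σ • (x / y)) := by
    have e1 : σ • x = σ • y * σ • (x / y) := by
      rw [← smul_mul', mul_div_cancel₀ _ hy.1]
    rw [e1]
    field_simp [hx.1, hy.1]
  have h2 := congrArg C.r h1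
  rw [C.r_mul _ _ (C.eq_ratio hx σ).ge hu.ge,
    C.r_mul _ _ (C.eq_ratio hy σ).ge ((ge_smul C.hv σ).mpr hu.ge), C.r_smul σ hu.ge] at h2
  exact mul_right_cancel₀ (C.r_ne_zero hu) h2

/-- the cyclotomic character on residues -/
lemma r_omega (σ : G) : C.r (σ • (C.ψ 1 - 1) / (C.ψ 1 - 1)) = ((C.ω σ : ZMod p).val : κ) := by
  have hz := eq_addChar_sub_one C.vp C.hψ (one_ne_zero (α := ZMod p))
  have hz0 : C.v.Eq 0 (C.ψ 1) := by
    refine ord_root_of_unity (v := C.v) (n := p) (Fact.out : p.Prime).ne_zero ?_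
    rw [← AddChar.map_nsmul_eq_pow]; simp
  have hpos : (0 : ℝ) < 1 / ((p : ℝ) - 1) := by
    have := one_lt (p := p)
    exact one_div_pos.mpr (by linarith)
  set n := (C.ω σ : ZMod p).val with hn
  have h1 : σ • (C.ψ 1 - 1) = (C.ψ 1) ^ n - 1 := by
    rw [smul_sub, smul_one, C.hω, mul_one, ← AddChar.map_nsmul_eq_pow]
    congr 2
    simp [hn]
  have h2 : σ • (C.ψ 1 - 1) / (C.ψ 1 - 1) = ∑ i ∈ Finset.range n, (C.ψ 1) ^ i := by
    rw [h1, ← geom_sum_mul, mul_div_cancel_right₀ _ hz.1]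
  rw [h2, C.r_sum _ _ fun i _ => Ge.pow_aux hz0.ge i]
  have h3 : C.r (C.ψ 1) = 1 := by
    rw [← C.r_one, C.r_eq_iff hz0.ge OrdFn.eq_one.ge]
    exact hz.gt hpos
  rw [Finset.sum_congr rfl fun i _ => by rw [C.r_pow hz0.ge, h3, one_pow]]
  simp

section tame

variable {e : ℕ} (he : ¬ p ∣ e) {ϖ : K} (hϖ : ϖ ^ e = p)

include he hϖ

omit he in
lemma varpi_ne (he0 : e ≠ 0) : ϖ ≠ 0 := by
  rintro rfl
  have := C.charZero
  rw [zero_pow he0] at hϖ
  exact (Fact.out : p.Prime).ne_zero (by exact_mod_cast hϖ.symm)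

omit he in
lemma eq_varpi (he0 : e ≠ 0) : C.v.Eq (1 / e) ϖ := by
  have h0 := C.varpi_ne hϖ he0
  refine ⟨h0, ?_⟩
  have h1 : (e : ℝ) * C.v.ord ϖ = 1 := by
    rw [← OrdFn.ord_pow h0, hϖ, C.vp]
  have h2 : (e : ℝ) ≠ 0 := by exact_mod_cast he0
  field_simp
  linarith

omit he in
lemma theta_pow (he0 : e ≠ 0) (σ : G) : (σ • ϖ / ϖ) ^ e = 1 := by
  have h0 := C.varpi_ne hϖ he0
  have h1 : σ • (p : K) = p := by
    rw [← MulSemiringAction.toRingHom_apply, map_natCast]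
  rw [div_pow, ← smul_pow', hϖ, h1, div_self]
  rw [← hϖ]; exact pow_ne_zero _ h0

lemma theta_mul (σ τ : G) : ((σ * τ) • ϖ / ϖ) = (σ • ϖ / ϖ) * (τ • ϖ / ϖ) := by
  have he0 : e ≠ 0 := by rintro rfl; exact he (dvd_zero _)
  have h0 := C.varpi_ne hϖ he0
  have h1 : σ • (τ • ϖ / ϖ) = τ • ϖ / ϖ := C.root_fixed he (C.theta_pow hϖ he0 τ) σ
  have h2 : τ • ϖ = (τ • ϖ / ϖ) * ϖ := by rw [div_mul_cancel₀ _ h0]
  rw [mul_smul]
  conv_lhs => rw [h2]
  rw [smul_mul', h1]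
  field_simp

/-- the tame character as a homomorphism -/
noncomputable def thetaHom : G →* Kˣ where
  toFun σ := Units.mk0 (σ • ϖ / ϖ) (by
    have he0 : e ≠ 0 := by rintro rfl; exact he (dvd_zero _)
    exact left_ne_zero_of_mul_eq_one (b := (σ • ϖ / ϖ) ^ (e - 1)) (by
      rw [← pow_succ', Nat.sub_add_cancel (Nat.one_le_iff_ne_zero.mpr he0), C.theta_pow hϖ he0]))
  map_one' := by
    have he0 : e ≠ 0 := by rintro rfl; exact he (dvd_zero _)
    apply Units.ext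
    simp [C.varpi_ne hϖ he0]
  map_mul' σ τ := by
    apply Units.ext
    simpa using C.theta_mul he hϖ σ τ

lemma thetaHom_apply (σ : G) : ((C.thetaHom he hϖ σ : Kˣ) : K) = σ • ϖ / ϖ := rfl

/-- **the tame character is surjective onto the roots of unity** -/
theorem exists_theta_primitive : ∃ σ : G, IsPrimitiveRoot (σ • ϖ / ϖ) e := by
  classical
  have he0 : e ≠ 0 := by rintro rfl; exact he (dvd_zero _)
  have h0 := C.varpi_ne hϖ he0
  let Θ := C.thetaHom he hϖ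
  have hle : Θ.range ≤ rootsOfUnity e K := by
    rintro _ ⟨σ, rfl⟩
    rw [mem_rootsOfUnity]
    apply Units.ext
    exact C.theta_pow hϖ he0 σ
  have : NeZero e := ⟨he0⟩
  have : Finite Θ.range := Finite.of_injective (Subgroup.inclusion hle) (Subgroup.inclusion_injective hle)
  have : IsCyclic Θ.range := isCyclic_of_injective_ringHom (Units.coeHom K |>.comp Θ.range.subtype)
    (fun a b h => Subtype.ext (Units.ext h))
  obtain ⟨⟨_, σ, rfl⟩, hσ⟩ := IsCyclic.exists_generator (α := Θ.range)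
  set m := orderOf (Θ σ) with hm
  have hme : m ∣ e := by
    rw [hm]
    exact orderOf_dvd_of_pow_eq_one (by
      have := hle ⟨σ, rfl⟩
      rwa [mem_rootsOfUnity] at this)
  -- `ϖ ^ m` is fixed
  have hfix : ∀ τ : G, τ • (ϖ ^ m) = ϖ ^ m := by
    intro τ
    obtain ⟨k, hk⟩ := hσ ⟨Θ τ, τ, rfl⟩
    have h1 : Θ τ = Θ σ ^ k := by
      have := congrArg Subtype.val hk
      simpa using this.symm
    have h2 : Θ τ ^ m = 1 := by
      rw [h1, ← zpow_natCast, ← zpow_mul, mul_comm, zpow_mul, zpow_natCast, hm, pow_orderOf_eq_one,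
        one_zpow]
    have h3 : (τ • ϖ / ϖ) ^ m = 1 := by
      have := congrArg Units.val h2
      rw [Units.val_pow_eq_pow_val, Units.val_one] at this
      exact this
    rw [smul_pow']
    rwa [div_pow, div_eq_one_iff_eq (pow_ne_zero _ h0)] at h3
  obtain ⟨n, hn⟩ := C.int_val _ (pow_ne_zero m h0) hfix
  rw [OrdFn.ord_pow h0, (C.eq_varpi hϖ he0).2] at hn
  have he0' : (e : ℝ) ≠ 0 := by exact_mod_cast he0
  have hm0 : 0 < m := Nat.pos_of_ne_zero (fun h => he0 (by rw [h] at hme; exact zero_dvd_iff.mp hme))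
  have h4 : (m : ℝ) = n * e := by field_simp at hn; linarith
  have h5 : (m : ℤ) = n * e := by exact_mod_cast h4
  have h6 : (e : ℤ) ∣ m := ⟨n, by rw [h5]; ring⟩
  have h7 : e ∣ m := by exact_mod_cast h6
  have h8 : m = e := Nat.dvd_antisymm hme h7
  refine ⟨σ, ?_⟩
  have h9 : IsPrimitiveRoot (Θ σ) e := by rw [← h8]; exact IsPrimitiveRoot.orderOf (Θ σ)
  exact (IsPrimitiveRoot.coe_units_iff).mpr h9

end tame

end Ctx

end Fermat.Agent.FlatLoc
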