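import Fermat.Agent.FlatLoc.Closure

/-!
# Duality for orders in function algebras of `p`-torsion modules
-/

set_option autoImplicit false
set_option linter.unusedSectionVars false

namespace Fermat.Agent.FlatLoc

variable {K : Type*} [Field K] {G : Type*} [Group G] [MulSemiringAction G K]
variable {p : ℕ} [Fact p.Prime] {V : Type*} [AddCommGroup V] [Module (ZMod p) V]
variable {R : Subring K}

/-- the dual action, twisted by the cyclotomic character -/
def dualRep (ρ : G →* AddMonoid.End V) (ω : G →* (ZMod p)ˣ) :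
    G →* AddMonoid.End (Module.Dual (ZMod p) V) where
  toFun σ :=
    { toFun := fun l => (ω σ : ZMod p) • (l ∘ₗ (AddMonoidHom.toZModLinearMap p (ρ σ⁻¹)))
      map_zero' := by ext; simp
      map_add' := fun l m => by ext; simp [mul_add] }
  map_one' := by
    apply AddMonoidHom.ext
    intro l
    apply LinearMap.ext
    intro x
    change ((ω 1 : (ZMod p)ˣ) : ZMod p) * l (ρ 1⁻¹ x) = l x
    rw [map_one, inv_one, map_one, Units.val_one, one_mul]
    rfl
  map_mul' σ τ := by
    apply AddMonoidHom.ext
    intro l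
    apply LinearMap.ext
    intro x
    change ((ω (σ * τ) : (ZMod p)ˣ) : ZMod p) * l (ρ (σ * τ)⁻¹ x) =
      (ω σ : ZMod p) * ((ω τ : ZMod p) * l (ρ τ⁻¹ (ρ σ⁻¹ x)))
    rw [map_mul, mul_inv_rev, map_mul, Units.val_mul, mul_assoc]
    rfl

lemma dualRep_apply (ρ : G →* AddMonoid.End V) (ω : G →* (ZMod p)ˣ) (σ : G)
    (l : Module.Dual (ZMod p) V) (x : V) :
    dualRep ρ ω σ l x = (ω σ : ZMod p) * l (ρ σ⁻¹ x) := rfl

theorem IsOrder.exists_dual [Finite V] (hR : IsBase G R) {ρ : G →* AddMonoid.End V}
    {H : Subalgebra R (V → K)} (hH : IsOrder R ρ H) (ψ : AddChar (ZMod p) K)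
    (hψ : Function.Injective ψ) (ω : G →* (ZMod p)ˣ)
    (hω : ∀ (σ : G) (a : ZMod p), σ • ψ a = ψ (ω σ * a)) :
    ∃ H' : Subalgebra R (Module.Dual (ZMod p) V → K), IsOrder R (dualRep ρ ω) H' ∧
      ∃ (a : V → Module.Dual (ZMod p) V → K) (b : V → V → K), (∀ k, a k ∈ H') ∧
        (∀ k, b k ∈ H) ∧ ∀ l x, ψ (l x) = ∑ᶠ k, a k l * b k x := by
  classical
  cases nonempty_fintype V
  obtain ⟨b, hb, hbl, hbs⟩ := hH.exists_basis hR
  simp only [finsum_eq_sum_of_fintype] at hbs ⊢
  let B : Module.Basis V K (V → K) := basisOfLinearIndependentOfCardEqFinrank hbl (by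
    rw [Module.finrank_fintype_fun_eq_card])
  have hB : ∀ k, B k = b k := fun k => by simp [B]
  let a : V → Module.Dual (ZMod p) V → K := fun k l => B.repr (fun x => ψ (l x)) k
  have ha : ∀ (l : Module.Dual (ZMod p) V) (x : V), ψ (l x) = ∑ k, a k l * b k x := by
    intro l x
    have h1 := B.sum_repr (fun x => ψ (l x))
    have h2 := congrFun h1 x
    rw [Finset.sum_apply] at h2
    rw [← h2]
    exact Finset.sum_congr rfl fun k _ => by rw [hB]; rfl
  have huniq : ∀ (u w : V → K), (∀ x, ∑ k, u k * b k x = ∑ k, w k * b k x) → ∀ k, u k = w k := by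
    intro u w h k
    have h1 : ∑ k, (u k - w k) • b k = 0 := by
      ext x
      simp only [Finset.sum_apply, Pi.smul_apply, smul_eq_mul, sub_mul, Finset.sum_sub_distrib,
        Pi.zero_apply, h x, sub_self]
    exact sub_eq_zero.mp ((Fintype.linearIndependent_iff.mp hbl) _ h1 k)
  -- structure constants
  have hbox : ∀ F ∈ box H H, ∃ c : V → V → R, ∀ x y, F (x, y) = ∑ i, ∑ j, (c i j : K) * b i x * b j y := by
    intro F hF
    obtain ⟨n, g, h, hg, hh, e⟩ := mem_box.mp hF
    choose r hr using fun i => hbs (g i) (hg i)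
    choose s hs using fun i => hbs (h i) (hh i)
    refine ⟨fun i j => ∑ m, r m i * s m j, fun x y => ?_⟩
    rw [e]
    simp_rw [hr, hs, Finset.sum_mul_sum]
    rw [Finset.sum_comm]
    refine Finset.sum_congr rfl fun i _ => ?_
    rw [Finset.sum_comm]
    refine Finset.sum_congr rfl fun j _ => ?_
    push_cast
    rw [Finset.sum_mul, Finset.sum_mul]
    exact Finset.sum_congr rfl fun m _ => by ring
  choose c hc using fun k => hbox _ (hH.comul (b k) (hb k))
  simp only at hc
  choose d hd using fun i j => hbs (b i * b j) (mul_mem (hb i) (hb j))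
  simp only [Pi.mul_apply] at hd
  have hb0 : ∀ k, b k 0 ∈ R := by
    intro k
    refine hR.int _ (fun σ => ?_) (hH.isIntegral (hb k) 0)
    rw [← hH.equiv _ (hb k), map_zero]
  -- relations among the dual coordinates
  have hone : ∀ l, ∑ k, b k 0 * a k l = 1 := by
    intro l
    have := ha l 0
    rw [map_zero, AddChar.map_zero_eq_one] at this
    rw [this]
    exact Finset.sum_congr rfl fun k _ => mul_comm _ _
  have hmul : ∀ i j l, a i l * a j l = ∑ k, (c k i j : K) * a k l := by
    intro i j l
    have h1 : ∀ x y, ∑ i, (∑ j, (∑ k, (c k i j : K) * a k l) * b j y) * b i x =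
        ∑ i, (∑ j, (a i l * a j l) * b j y) * b i x := by
      intro x y
      have h2 : ψ (l (x + y)) = ψ (l x) * ψ (l y) := by
        rw [map_add, AddChar.map_add_eq_mul]
      have h3 : ψ (l (x + y)) = ∑ i, (∑ j, (∑ k, (c k i j : K) * a k l) * b j y) * b i x := by
        rw [ha]
        simp_rw [hc, Finset.mul_sum, Finset.sum_mul]
        rw [Finset.sum_comm]
        refine Finset.sum_congr rfl fun i _ => ?_
        rw [Finset.sum_comm]
        exact Finset.sum_congr rfl fun j _ => Finset.sum_congr rfl fun k _ => by ring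
      have h4 : ψ (l x) * ψ (l y) = ∑ i, (∑ j, (a i l * a j l) * b j y) * b i x := by
        rw [ha l x, ha l y, Finset.sum_mul_sum]
        simp_rw [Finset.sum_mul]
        exact Finset.sum_congr rfl fun i _ => Finset.sum_congr rfl fun j _ => by ring
      rw [← h3, ← h4, h2]
    have h3 : ∀ y i, ∑ j, (∑ k, (c k i j : K) * a k l) * b j y = ∑ j, (a i l * a j l) * b j y :=
      fun y => huniq _ _ fun x => h1 x y
    exact (huniq _ _ (fun y => h3 y i) j).symm
  have hadd : ∀ k l m, a k (l + m) = ∑ i, ∑ j, (d i j k : K) * a i l * a j m := by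
    intro k l m
    refine huniq (fun k => a k (l + m)) (fun k => ∑ i, ∑ j, (d i j k : K) * a i l * a j m)
      (fun x => ?_) k
    rw [← ha, LinearMap.add_apply, AddChar.map_add_eq_mul, ha l x, ha m x, Finset.sum_mul_sum]
    simp_rw [Finset.sum_mul]
    calc ∑ i, ∑ j, a i l * b i x * (a j m * b j x)
        = ∑ i, ∑ j, ∑ k, (d i j k : K) * a i l * a j m * b k x := by
          refine Finset.sum_congr rfl fun i _ => Finset.sum_congr rfl fun j _ => ?_
          have h1 : a i l * b i x * (a j m * b j x) = a i l * a j m * (b i x * b j x) := by ring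
          rw [h1, hd, Finset.mul_sum]
          exact Finset.sum_congr rfl fun k _ => by ring
      _ = ∑ i, ∑ k, ∑ j, (d i j k : K) * a i l * a j m * b k x :=
          Finset.sum_congr rfl fun i _ => Finset.sum_comm
      _ = _ := Finset.sum_comm
  have hact : ∀ k (σ : G) l, a k (dualRep ρ ω σ l) = σ • a k l := by
    intro k σ l
    refine huniq (fun k => a k (dualRep ρ ω σ l)) (fun k => σ • a k l) (fun x => ?_) k
    rw [← ha, dualRep_apply, ← hω, ha, Finset.smul_sum]
    refine Finset.sum_congr rfl fun k _ => ?_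
    rw [smul_mul', ← hH.equiv _ (hb k), rho_inv_apply]
  -- the dual algebra
  let S : Submodule R (Module.Dual (ZMod p) V → K) := Submodule.span R (Set.range a)
  have hSmul : ∀ f ∈ S, ∀ g ∈ S, f * g ∈ S := by
    intro f hf g hg
    have h1 : S * S ≤ S := by
      rw [Submodule.span_mul_span, Submodule.span_le]
      rintro _ ⟨_, ⟨i, rfl⟩, _, ⟨j, rfl⟩, rfl⟩
      have : a i * a j = ∑ k, c k i j • a k := by
        ext l
        rw [Pi.mul_apply, hmul, Finset.sum_apply]
        rfl
      change a i * a j ∈ S
      rw [this]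
      exact Submodule.sum_mem _ fun k _ => Submodule.smul_mem _ _ (Submodule.subset_span ⟨k, rfl⟩)
    exact h1 (Submodule.mul_mem_mul hf hg)
  have hSone : (1 : Module.Dual (ZMod p) V → K) ∈ S := by
    have : (1 : Module.Dual (ZMod p) V → K) = ∑ k, (⟨b k 0, hb0 k⟩ : R) • a k := by
      ext l
      rw [Finset.sum_apply, Pi.one_apply, ← hone l]
      rfl
    rw [this]
    exact Submodule.sum_mem _ fun k _ => Submodule.smul_mem _ _ (Submodule.subset_span ⟨k, rfl⟩)
  let H' : Subalgebra R (Module.Dual (ZMod p) V → K) := S.toSubalgebra hSone (fun f g hf hg => hSmul f hf g hg)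
  refine ⟨H', ⟨?_, ?_, ?_, ?_⟩, a, b, fun k => Submodule.subset_span ⟨k, rfl⟩, hb, ha⟩
  · change S.FG
    exact Submodule.fg_span (Set.finite_range a)
  · intro f hf σ l
    change f ∈ S at hf
    induction hf using Submodule.span_induction with
    | mem f hf => obtain ⟨k, rfl⟩ := hf; exact hact k σ l
    | zero => simp
    | add f g _ _ h1 h2 => simp [h1, h2]
    | smul r f _ h1 =>
      change (r : K) * f (dualRep ρ ω σ l) = σ • ((r : K) * f l)
      rw [h1, smul_mul', hR.fixed _ r.2]
  · -- span
    have hcard : Nat.card (Module.Dual (ZMod p) V) = Nat.card V := by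
      haveI : Finite (Module.Dual (ZMod p) V) := Module.finite_of_finite (ZMod p)
      rw [Module.natCard_eq_pow_finrank (K := ZMod p) (V := Module.Dual (ZMod p) V),
        Module.natCard_eq_pow_finrank (K := ZMod p) (V := V), Subspace.dual_finrank_eq]
    haveI : Finite (Module.Dual (ZMod p) V) := Module.finite_of_finite (ZMod p)
    haveI : Fintype (Module.Dual (ZMod p) V) := Fintype.ofFinite _
    -- characters of the dual
    let χ : V → (Multiplicative (Module.Dual (ZMod p) V) →* K) := fun x =>
      { toFun := fun l => ψ ((Multiplicative.toAdd l) x)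
        map_one' := by simp
        map_mul' := fun l m => by simp [AddChar.map_add_eq_mul] }
    have hχ : Function.Injective χ := by
      intro x y hxy
      have h1 : ∀ l : Module.Dual (ZMod p) V, l x = l y := fun l =>
        hψ (DFunLike.congr_fun hxy (Multiplicative.ofAdd l))
      rw [← sub_eq_zero, ← Module.forall_dual_apply_eq_zero_iff (ZMod p)]
      intro l
      rw [map_sub, h1, sub_self]
    have hli : LinearIndependent K (fun x : V => (χ x : Multiplicative (Module.Dual (ZMod p) V) → K)) :=
      (linearIndependent_monoidHom (Multiplicative (Module.Dual (ZMod p) V)) K).comp χ hχ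
    have hspan : Submodule.span K (Set.range fun (x : V) (l : Module.Dual (ZMod p) V) => ψ (l x)) = ⊤ := by
      have h1 : LinearIndependent K (fun (x : V) (l : Module.Dual (ZMod p) V) => ψ (l x)) := hli
      apply h1.span_eq_top_of_card_eq_finrank
      rw [Module.finrank_fintype_fun_eq_card, ← Nat.card_eq_fintype_card, ← Nat.card_eq_fintype_card,
        hcard]
    rw [eq_top_iff, ← hspan, Submodule.span_le]
    rintro _ ⟨x, rfl⟩
    have h2 : (fun l : Module.Dual (ZMod p) V => ψ (l x)) = ∑ k, b k x • a k := by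
      ext l
      rw [ha, Finset.sum_apply]
      exact Finset.sum_congr rfl fun k _ => mul_comm _ _
    change (fun l : Module.Dual (ZMod p) V => ψ (l x)) ∈ _
    rw [h2]
    exact Submodule.sum_mem _ fun k _ => Submodule.smul_mem _ _
      (Submodule.subset_span (Submodule.subset_span (R := R) ⟨k, rfl⟩))
  · -- comultiplication
    have hmemH' : ∀ k, a k ∈ H' := fun k => Submodule.subset_span ⟨k, rfl⟩
    intro f hf
    change f ∈ S at hf
    induction hf using Submodule.span_induction with
    | mem f hf =>
      obtain ⟨k, rfl⟩ := hf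
      have h1 : (fun q : Module.Dual (ZMod p) V × Module.Dual (ZMod p) V => a k (q.1 + q.2)) =
          ∑ i, ∑ j, d i j k • (pull R Prod.fst (a i) * pull R Prod.snd (a j)) := by
        ext ⟨l, m⟩
        rw [hadd]
        simp only [Finset.sum_apply]
        refine Finset.sum_congr rfl fun i _ => Finset.sum_congr rfl fun j _ => ?_
        change (d i j k : K) * a i l * a j m = (d i j k : K) * (a i l * a j m)
        ring
      rw [h1]
      refine Subalgebra.sum_mem _ fun i _ => Subalgebra.sum_mem _ fun j _ =>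
        Subalgebra.smul_mem _ (mul_mem ?_ ?_) _
      · exact (le_sup_left : H'.map (pull R Prod.fst) ≤ box H' H') ⟨_, hmemH' i, rfl⟩
      · exact (le_sup_right : H'.map (pull R Prod.snd) ≤ box H' H') ⟨_, hmemH' j, rfl⟩
    | zero => exact Subalgebra.zero_mem (box H' H')
    | add f g _ _ h1 h2 => exact Subalgebra.add_mem (box H' H') h1 h2
    | smul r f _ h1 => exact Subalgebra.smul_mem (box H' H') h1 r

end Fermat.Agent.FlatLoc
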