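import Fermat.Agent.FlatLoc.Ramif2

/-!
# Extension modules attached to cocycles
-/

set_option autoImplicit false
set_option linter.unusedSectionVars false

namespace Fermat.Agent.FlatLoc

open Fermat.Agent.ECRed
open scoped Polynomial

section subquot

variable {K : Type*} [Field K] {G : Type*} [Group G] [MulSemiringAction G K]
  {R : Subring K} {V : Type*} [AddCommGroup V] {W : Type*} [AddCommGroup W]
  {ρ : G →* AddMonoid.End V} {ρ' : G →* AddMonoid.End W}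

/-- the action on a stable subgroup -/
def subRep (ρ : G →* AddMonoid.End V) (S : AddSubgroup V) (hS : ∀ σ, ∀ x ∈ S, ρ σ x ∈ S) :
    G →* AddMonoid.End S where
  toFun σ := ((ρ σ).comp S.subtype).codRestrict S fun x => hS σ x x.2
  map_one' := by
    ext x
    change ρ 1 (x : V) = x
    rw [map_one]; rfl
  map_mul' σ τ := by
    ext x
    change ρ (σ * τ) (x : V) = ρ σ (ρ τ x)
    rw [map_mul]; rfl

lemma subRep_apply (S : AddSubgroup V) (hS : ∀ σ, ∀ x ∈ S, ρ σ x ∈ S) (σ : G) (x : S) :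
    (subRep ρ S hS σ x : V) = ρ σ x := rfl

/-- **Subquotients** -/
theorem IsFlatMod.subquot (hR : IsBase G R) [Finite V] (h : IsFlatMod R ρ) (S : AddSubgroup V)
    (hS : ∀ σ, ∀ x ∈ S, ρ σ x ∈ S) (g : V →+ W) (hg : ∀ σ, ∀ x ∈ S, g (ρ σ x) = ρ' σ (g x))
    (hsurj : ∀ w, ∃ x ∈ S, g x = w) : IsFlatMod R ρ' := by
  have h1 : IsFlatMod R (subRep ρ S hS) := h.sub S.subtype S.subtype_injective fun σ x => rfl
  refine h1.quotient hR (g.comp S.subtype) (fun w => ?_) fun σ x => ?_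
  · obtain ⟨x, hx, rfl⟩ := hsurj w
    exact ⟨⟨x, hx⟩, rfl⟩
  · exact hg σ x x.2

/-- radii in subobjects -/
lemma req_restrict {H : Subalgebra R (V → K)} {v : OrdFn K} {c : ℝ} (ι : W →+ V) (x : W) :
    REq v (H.map (pull R ι)) c x ↔ REq v H c (ι x) := by
  unfold REq RGe
  constructor
  · rintro ⟨h1, _, ⟨f, hf, rfl⟩, h2⟩
    refine ⟨fun f hf => ?_, f, hf, ?_⟩
    · have := h1 _ ⟨f, hf, rfl⟩
      change v.Ge c (f (ι x) - f (ι 0)) at this
      rwa [map_zero] at this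
    · change v.Eq c (f (ι x) - f (ι 0)) at h2
      rwa [map_zero] at h2
  · rintro ⟨h1, f, hf, h2⟩
    refine ⟨?_, _, ⟨f, hf, rfl⟩, ?_⟩
    · rintro _ ⟨f, hf, rfl⟩
      change v.Ge c (f (ι x) - f (ι 0))
      rw [map_zero]; exact h1 f hf
    · change v.Eq c (f (ι x) - f (ι 0))
      rw [map_zero]; exact h2

end subquot

/-! ### cocycles -/

section cocycles

variable {p : ℕ} {Γ : Type*} [Group Γ]

/-- cocycles with values in `M₂(𝔽_p)` -/
def IsCoc (ρ : Γ →* Matrix (Fin 2) (Fin 2) (ZMod p)) (c : Γ → Matrix (Fin 2) (Fin 2) (ZMod p)) :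
    Prop := ∀ σ τ, c (σ * τ) = c σ + ρ σ * c τ * ρ σ⁻¹

variable {ρ : Γ →* Matrix (Fin 2) (Fin 2) (ZMod p)} {c c' : Γ → Matrix (Fin 2) (Fin 2) (ZMod p)}

lemma rho_mul_inv (ρ : Γ →* Matrix (Fin 2) (Fin 2) (ZMod p)) (σ : Γ) : ρ σ * ρ σ⁻¹ = 1 := by
  rw [← map_mul, mul_inv_cancel, map_one]

lemma rho_inv_mul (ρ : Γ →* Matrix (Fin 2) (Fin 2) (ZMod p)) (σ : Γ) : ρ σ⁻¹ * ρ σ = 1 := by
  rw [← map_mul, inv_mul_cancel, map_one]

lemma IsCoc.one (hc : IsCoc ρ c) : c 1 = 0 := by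
  have := hc 1 1
  rw [mul_one, inv_one, map_one, one_mul, mul_one, left_eq_add] at this
  exact this

lemma IsCoc.mul_rho (hc : IsCoc ρ c) (σ τ : Γ) :
    c (σ * τ) * ρ (σ * τ) = c σ * ρ σ * ρ τ + ρ σ * (c τ * ρ τ) := by
  rw [hc, map_mul, add_mul]
  congr 1
  · rw [mul_assoc]
  · rw [mul_assoc (ρ σ * c τ), ← mul_assoc (ρ σ⁻¹), rho_inv_mul, one_mul, mul_assoc]

lemma IsCoc.add (hc : IsCoc ρ c) (hc' : IsCoc ρ c') : IsCoc ρ (c + c') := by
  intro σ τ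
  simp only [Pi.add_apply, hc σ τ, hc' σ τ, mul_add, add_mul]
  abel

lemma IsCoc.inv (hc : IsCoc ρ c) (σ : Γ) : c σ⁻¹ = - (ρ σ⁻¹ * c σ * ρ σ) := by
  have h := hc σ⁻¹ σ
  rw [inv_mul_cancel, hc.one, inv_inv] at h
  exact (neg_eq_of_add_eq_zero_left h.symm).symm

lemma IsCoc.conj {ρ' : Γ →* Matrix (Fin 2) (Fin 2) (ZMod p)} (hc : IsCoc ρ c)
    {t t' : Matrix (Fin 2) (Fin 2) (ZMod p)}
    (ht' : t' * t = 1) (hcomm : ∀ σ, ρ' σ * t = t * ρ σ) :
    IsCoc ρ' (fun σ => t * c σ * t') := by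
  have ht : t * t' = 1 := mul_eq_one_comm.mp ht'
  have hcomm' : ∀ σ, t' * ρ' σ = ρ σ * t' := by
    intro σ
    calc t' * ρ' σ = t' * ρ' σ * (t * t') := by rw [ht, mul_one]
      _ = t' * (ρ' σ * t) * t' := by simp only [mul_assoc]
      _ = t' * (t * ρ σ) * t' := by rw [hcomm]
      _ = (t' * t) * ρ σ * t' := by simp only [mul_assoc]
      _ = ρ σ * t' := by rw [ht', one_mul]
  intro σ τ
  simp only [hc σ τ, mul_add, add_mul]
  congr 1
  calc t * (ρ σ * c τ * ρ σ⁻¹) * t' = (t * ρ σ) * c τ * (ρ σ⁻¹ * t') := by simp only [mul_assoc]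
    _ = (ρ' σ * t) * c τ * (t' * ρ' σ⁻¹) := by rw [hcomm, hcomm']
    _ = ρ' σ * (t * c τ * t') * ρ' σ⁻¹ := by simp only [mul_assoc]

/-- the standard representation -/
def vb (ρ : Γ →* Matrix (Fin 2) (Fin 2) (ZMod p)) : Γ →* AddMonoid.End (Fin 2 → ZMod p) where
  toFun σ := (Matrix.mulVecLin (ρ σ)).toAddMonoidHom
  map_one' := by
    ext1 x
    change (ρ 1).mulVec x = x
    rw [map_one, Matrix.one_mulVec]
  map_mul' σ τ := by
    ext1 x
    change (ρ (σ * τ)).mulVec x = (ρ σ).mulVec ((ρ τ).mulVec x)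
    rw [map_mul, Matrix.mulVec_mulVec]

@[simp] lemma vb_apply (σ : Γ) (x : Fin 2 → ZMod p) : vb ρ σ x = (ρ σ).mulVec x := rfl

/-- the extension attached to a cocycle -/
def extRep (ρ : Γ →* Matrix (Fin 2) (Fin 2) (ZMod p)) (c : Γ → Matrix (Fin 2) (Fin 2) (ZMod p))
    (hc : IsCoc ρ c) : Γ →* AddMonoid.End ((Fin 2 → ZMod p) × (Fin 2 → ZMod p)) where
  toFun σ := AddMonoidHom.mk' (fun x => ((ρ σ).mulVec x.1, (c σ * ρ σ).mulVec x.1 + (ρ σ).mulVec x.2))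
    fun x y => by
      ext1
      · simp [Matrix.mulVec_add]
      · simp only [Prod.fst_add, Prod.snd_add, Matrix.mulVec_add]; abel
  map_one' := by
    ext1 x
    change ((ρ 1).mulVec x.1, (c 1 * ρ 1).mulVec x.1 + (ρ 1).mulVec x.2) = x
    rw [map_one, hc.one]; simp
  map_mul' σ τ := by
    ext1 x
    change ((ρ (σ * τ)).mulVec x.1, (c (σ * τ) * ρ (σ * τ)).mulVec x.1 + (ρ (σ * τ)).mulVec x.2) =
      ((ρ σ).mulVec ((ρ τ).mulVec x.1), (c σ * ρ σ).mulVec ((ρ τ).mulVec x.1) +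
        (ρ σ).mulVec ((c τ * ρ τ).mulVec x.1 + (ρ τ).mulVec x.2))
    rw [hc.mul_rho, map_mul]
    simp only [Matrix.mulVec_mulVec, Matrix.add_mulVec, Matrix.mulVec_add, add_assoc]

lemma extRep_apply (hc : IsCoc ρ c) (σ : Γ) (x : (Fin 2 → ZMod p) × (Fin 2 → ZMod p)) :
    extRep ρ c hc σ x = ((ρ σ).mulVec x.1, (c σ * ρ σ).mulVec x.1 + (ρ σ).mulVec x.2) := rfl

end cocycles

variable {K : Type*} [Field K] {κ : Type*} [Field κ] {G : Type*} [Group G]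
  [MulSemiringAction G K] {p : ℕ} [hp : Fact p.Prime] (C : Ctx K κ G p)

/-- flat cocycles -/
def FlatC (C : Ctx K κ G p) (ρ : G →* Matrix (Fin 2) (Fin 2) (ZMod p))
    (c : G → Matrix (Fin 2) (Fin 2) (ZMod p)) : Prop :=
  ∃ hc : IsCoc ρ c, IsFlatMod C.R (extRep ρ c hc)

variable {C} {ρ : G →* Matrix (Fin 2) (Fin 2) (ZMod p)} {c c' : G → Matrix (Fin 2) (Fin 2) (ZMod p)}

lemma FlatC.coc (h : FlatC C ρ c) : IsCoc ρ c := h.1

lemma FlatC.add (h : FlatC C ρ c) (h' : FlatC C ρ c') : FlatC C ρ (c + c') := by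
  obtain ⟨hc, hf⟩ := h
  obtain ⟨hc', hf'⟩ := h'
  refine ⟨hc.add hc', ?_⟩
  let g : ((Fin 2 → ZMod p) × (Fin 2 → ZMod p)) × ((Fin 2 → ZMod p) × (Fin 2 → ZMod p)) →+
      (Fin 2 → ZMod p) × (Fin 2 → ZMod p) :=
    AddMonoidHom.mk' (fun x => (x.1.1, x.1.2 + x.2.2)) fun x y => by
      ext1
      · rfl
      · simp only [Prod.fst_add, Prod.snd_add]; abel
  let S : AddSubgroup (((Fin 2 → ZMod p) × (Fin 2 → ZMod p)) × ((Fin 2 → ZMod p) × (Fin 2 → ZMod p))) :=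
    { carrier := {x | x.1.1 = x.2.1}
      add_mem' := fun {x y} hx hy => by
        change x.1.1 + y.1.1 = x.2.1 + y.2.1
        rw [show x.1.1 = x.2.1 from hx, show y.1.1 = y.2.1 from hy]
      zero_mem' := rfl
      neg_mem' := fun {x} hx => by
        change -x.1.1 = -x.2.1
        rw [show x.1.1 = x.2.1 from hx] }
  refine (hf.prod C.base hf').subquot C.base S ?_ g ?_ ?_
  · intro σ x hx
    change (ρ σ).mulVec x.1.1 = (ρ σ).mulVec x.2.1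
    rw [show x.1.1 = x.2.1 from hx]
  · intro σ x hx
    have hx' : x.1.1 = x.2.1 := hx
    change ((ρ σ).mulVec x.1.1, ((c σ * ρ σ).mulVec x.1.1 + (ρ σ).mulVec x.1.2) +
      ((c' σ * ρ σ).mulVec x.2.1 + (ρ σ).mulVec x.2.2)) =
      ((ρ σ).mulVec x.1.1, ((c + c') σ * ρ σ).mulVec x.1.1 + (ρ σ).mulVec (x.1.2 + x.2.2))
    rw [← hx', Pi.add_apply, add_mul, Matrix.add_mulVec, Matrix.mulVec_add]
    congr 1
    abel
  · intro w
    exact ⟨((w.1, w.2), (w.1, 0)), rfl, by change (w.1, w.2 + 0) = w; rw [add_zero]⟩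

lemma FlatC.conj {ρ' : G →* Matrix (Fin 2) (Fin 2) (ZMod p)} (h : FlatC C ρ c)
    {t t' : Matrix (Fin 2) (Fin 2) (ZMod p)}
    (ht' : t' * t = 1) (hcomm : ∀ σ, ρ' σ * t = t * ρ σ) : FlatC C ρ' (fun σ => t * c σ * t') := by
  obtain ⟨hc, hf⟩ := h
  have ht : t * t' = 1 := mul_eq_one_comm.mp ht'
  refine ⟨hc.conj ht' hcomm, ?_⟩
  let g : ((Fin 2 → ZMod p) × (Fin 2 → ZMod p)) →+ (Fin 2 → ZMod p) × (Fin 2 → ZMod p) :=
    AddMonoidHom.mk' (fun x => (t.mulVec x.1, t.mulVec x.2)) fun x y => by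
      ext1 <;> simp [Matrix.mulVec_add]
  refine hf.subquot C.base ⊤ (fun _ _ _ => trivial) g ?_ ?_
  · intro σ x _
    change (t.mulVec ((ρ σ).mulVec x.1), t.mulVec ((c σ * ρ σ).mulVec x.1 + (ρ σ).mulVec x.2)) =
      ((ρ' σ).mulVec (t.mulVec x.1), (t * c σ * t' * ρ' σ).mulVec (t.mulVec x.1) +
        (ρ' σ).mulVec (t.mulVec x.2))
    simp only [Matrix.mulVec_mulVec, Matrix.mulVec_add, hcomm]
    have e : t * c σ * t' * (ρ' σ * t) = t * (c σ * ρ σ) := by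
      rw [hcomm]
      calc t * c σ * t' * (t * ρ σ) = t * c σ * (t' * t) * ρ σ := by simp only [mul_assoc]
        _ = _ := by rw [ht', mul_one, mul_assoc]
    congr 2
    rw [← e]; simp only [mul_assoc, hcomm]
  · intro w
    refine ⟨(t'.mulVec w.1, t'.mulVec w.2), trivial, ?_⟩
    change (t.mulVec (t'.mulVec w.1), t.mulVec (t'.mulVec w.2)) = w
    rw [Matrix.mulVec_mulVec, Matrix.mulVec_mulVec, ht, Matrix.one_mulVec, Matrix.one_mulVec]

/-- the sub `V̄` -/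
def inrHom : (Fin 2 → ZMod p) →+ (Fin 2 → ZMod p) × (Fin 2 → ZMod p) := AddMonoidHom.inr _ _

lemma inr_equivar (hc : IsCoc ρ c) : Equivar (vb ρ) (extRep ρ c hc) inrHom := by
  intro σ x
  change (0, (ρ σ).mulVec x) = ((ρ σ).mulVec 0, (c σ * ρ σ).mulVec 0 + (ρ σ).mulVec x)
  simp

lemma inr_inj : Function.Injective (inrHom (p := p)) := fun x y h => (Prod.mk.inj h).2

lemma FlatC.flat (h : FlatC C ρ c) : IsFlatMod C.R (vb ρ) := by
  obtain ⟨hc, hf⟩ := h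
  exact hf.sub inrHom inr_inj (inr_equivar hc)

end Fermat.Agent.FlatLoc
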