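import Fermat.Agent.FlatLoc.Inst2
import Fermat.Agent.FlatLoc.BaseChange

/-!
# The flat bound for representations of `G_ℚ`
-/

set_option autoImplicit false
set_option linter.unusedSectionVars false

noncomputable section

namespace Fermat.Agent.FlatLoc

open Fermat.Agent.ECRed IsLocalRing
open scoped Polynomial Pointwise

/-! ### cocycles with values in `M₂(k)` -/

section ext2

variable {k : Type*} [CommRing k] {Γ : Type*} [Group Γ]

/-- cocycles with values in `M₂(k)` -/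
def IsCock (ρ : Γ →* Matrix (Fin 2) (Fin 2) k) (c : Γ → Matrix (Fin 2) (Fin 2) k) :
    Prop := ∀ σ τ, c (σ * τ) = c σ + ρ σ * c τ * ρ σ⁻¹

variable {ρ : Γ →* Matrix (Fin 2) (Fin 2) k} {c c' : Γ → Matrix (Fin 2) (Fin 2) k}

lemma IsCock.one (hc : IsCock ρ c) : c 1 = 0 := by
  have := hc 1 1
  rw [mul_one, inv_one, map_one, one_mul, mul_one, left_eq_add] at this
  exact this

lemma IsCock.mul_rho (hc : IsCock ρ c) (σ τ : Γ) :
    c (σ * τ) * ρ (σ * τ) = c σ * ρ σ * ρ τ + ρ σ * (c τ * ρ τ) := by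
  have h1 : ρ σ⁻¹ * ρ σ = 1 := by rw [← map_mul, inv_mul_cancel, map_one]
  rw [hc, map_mul, add_mul]
  congr 1
  · rw [mul_assoc]
  · rw [mul_assoc (ρ σ * c τ), ← mul_assoc (ρ σ⁻¹), h1, one_mul, mul_assoc]

/-- the extension attached to a cocycle -/
def ext2 (ρ : Γ →* Matrix (Fin 2) (Fin 2) k) (c : Γ → Matrix (Fin 2) (Fin 2) k)
    (hc : IsCock ρ c) : Γ →* AddMonoid.End ((Fin 2 → k) × (Fin 2 → k)) where
  toFun σ := AddMonoidHom.mk' (fun x => ((ρ σ).mulVec x.1, (c σ * ρ σ).mulVec x.1 + (ρ σ).mulVec x.2))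
    fun x y => by
      ext1
      · simp [Matrix.mulVec_add]
      · simp only [Prod.fst_add, Prod.snd_add, Matrix.mulVec_add]; abel
  map_one' := by
    ext1 x
    change ((ρ 1).mulVec x.1, (c 1 * ρ 1).mulVec x.1 + (ρ 1).mulVec x.2) = x
    rw [map_one, hc.one]; simp
  map_mul' σ τ := by
    ext1 x
    change ((ρ (σ * τ)).mulVec x.1, (c (σ * τ) * ρ (σ * τ)).mulVec x.1 + (ρ (σ * τ)).mulVec x.2) =
      ((ρ σ).mulVec ((ρ τ).mulVec x.1), (c σ * ρ σ).mulVec ((ρ τ).mulVec x.1) +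
        (ρ σ).mulVec ((c τ * ρ τ).mulVec x.1 + (ρ τ).mulVec x.2))
    rw [hc.mul_rho, map_mul]
    simp only [Matrix.mulVec_mulVec, Matrix.add_mulVec, Matrix.mulVec_add, add_assoc]

lemma ext2_apply (hc : IsCock ρ c) (σ : Γ) (x : (Fin 2 → k) × (Fin 2 → k)) :
    ext2 ρ c hc σ x = ((ρ σ).mulVec x.1, (c σ * ρ σ).mulVec x.1 + (ρ σ).mulVec x.2) := rfl

end ext2

/-! ### closure properties over a base ring -/

section closure

variable {K : Type*} [Field K] {G : Type*} [Group G] [MulSemiringAction G K] {p : ℕ}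
  [hp : Fact p.Prime] {R : Subring K} {ρ : G →* Matrix (Fin 2) (Fin 2) (ZMod p)}
  {c c' : G → Matrix (Fin 2) (Fin 2) (ZMod p)}

/-- flat cocycles over `R` -/
def FlatR (R : Subring K) (ρ : G →* Matrix (Fin 2) (Fin 2) (ZMod p))
    (c : G → Matrix (Fin 2) (Fin 2) (ZMod p)) : Prop :=
  ∃ hc : IsCoc ρ c, IsFlatMod R (extRep ρ c hc)

lemma FlatR.add (hR : IsBase G R) (h : FlatR R ρ c) (h' : FlatR R ρ c') : FlatR R ρ (c + c') := by
  obtain ⟨hc, hf⟩ := h
  obtain ⟨hc', hf'⟩ := h'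
  refine ⟨hc.add hc', ?_⟩
  let g : ((Fin 2 → ZMod p) × (Fin 2 → ZMod p)) × ((Fin 2 → ZMod p) × (Fin 2 → ZMod p)) →+
      (Fin 2 → ZMod p) × (Fin 2 → ZMod p) :=
    AddMonoidHom.mk' (fun x => (x.1.1, x.1.2 + x.2.2)) fun x y => by
      ext1
      · rfl
      · simp only [Prod.fst_add, Prod.snd_add]; abel
  let S : AddSubgroup (((Fin 2 → ZMod p) × (Fin 2 → ZMod p)) × ((Fin 2 → ZMod p) × (Fin 2 → ZMod p))) :=
    { carrier := {x | x.1.1 = x.2.1}
      add_mem' := fun {x y} hx hy => by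
        change x.1.1 + y.1.1 = x.2.1 + y.2.1
        rw [show x.1.1 = x.2.1 from hx, show y.1.1 = y.2.1 from hy]
      zero_mem' := rfl
      neg_mem' := fun {x} hx => by
        change -x.1.1 = -x.2.1
        rw [show x.1.1 = x.2.1 from hx] }
  refine (hf.prod hR hf').subquot hR S ?_ g ?_ ?_
  · intro σ x hx
    change (ρ σ).mulVec x.1.1 = (ρ σ).mulVec x.2.1
    rw [show x.1.1 = x.2.1 from hx]
  · intro σ x hx
    have hx' : x.1.1 = x.2.1 := hx
    change ((ρ σ).mulVec x.1.1, ((c σ * ρ σ).mulVec x.1.1 + (ρ σ).mulVec x.1.2) +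
      ((c' σ * ρ σ).mulVec x.2.1 + (ρ σ).mulVec x.2.2)) =
      ((ρ σ).mulVec x.1.1, ((c + c') σ * ρ σ).mulVec x.1.1 + (ρ σ).mulVec (x.1.2 + x.2.2))
    rw [← hx', Pi.add_apply, add_mul, Matrix.add_mulVec, Matrix.mulVec_add]
    congr 1
    abel
  · intro w
    exact ⟨((w.1, w.2), (w.1, 0)), rfl, by change (w.1, w.2 + 0) = w; rw [add_zero]⟩

lemma isCoc_neg (hc : IsCoc ρ c) : IsCoc ρ (-c) := by
  intro σ τ
  simp only [Pi.neg_apply, hc σ τ, mul_neg, neg_mul, neg_add]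

lemma isCoc_zero : IsCoc ρ 0 := by
  intro σ τ
  simp

lemma FlatR.neg (hR : IsBase G R) (h : FlatR R ρ c) : FlatR R ρ (-c) := by
  obtain ⟨hc, hf⟩ := h
  refine ⟨isCoc_neg hc, ?_⟩
  let g : ((Fin 2 → ZMod p) × (Fin 2 → ZMod p)) →+ (Fin 2 → ZMod p) × (Fin 2 → ZMod p) :=
    AddMonoidHom.mk' (fun x => (x.1, -x.2)) fun x y => by
      ext1
      · rfl
      · simp only [Prod.snd_add, neg_add]
  refine hf.subquot hR ⊤ (fun _ _ _ => trivial) g ?_ ?_
  · intro σ x _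
    change ((ρ σ).mulVec x.1, -((c σ * ρ σ).mulVec x.1 + (ρ σ).mulVec x.2)) =
      ((ρ σ).mulVec x.1, ((-c) σ * ρ σ).mulVec x.1 + (ρ σ).mulVec (-x.2))
    rw [Pi.neg_apply, neg_mul, Matrix.neg_mulVec, Matrix.mulVec_neg, neg_add]
  · intro w
    exact ⟨(w.1, -w.2), trivial, by change (w.1, - -w.2) = w; rw [neg_neg]⟩

lemma FlatR.zero (hR : IsBase G R) (h : IsFlatMod R (vb ρ)) : FlatR R ρ 0 := by
  refine ⟨isCoc_zero, ?_⟩
  refine (h.prod hR h).subquot hR ⊤ (fun _ _ _ => trivial) (AddMonoidHom.id _) ?_ ?_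
  · intro σ x _
    change ((ρ σ).mulVec x.1, (ρ σ).mulVec x.2) =
      ((ρ σ).mulVec x.1, ((0 : G → Matrix (Fin 2) (Fin 2) (ZMod p)) σ * ρ σ).mulVec x.1 +
        (ρ σ).mulVec x.2)
    rw [Pi.zero_apply, zero_mul, Matrix.zero_mulVec, zero_add]
  · intro w
    exact ⟨w, trivial, rfl⟩

lemma FlatR.flat (h : FlatR R ρ c) : IsFlatMod R (vb ρ) := by
  obtain ⟨hc, hf⟩ := h
  exact hf.sub inrHom inr_inj (inr_equivar hc)

section components

variable {k : Type*} [Field k] [Algebra (ZMod p) k]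

/-- coefficients in `k` -/
abbrev rk (k : Type*) [Field k] [Algebra (ZMod p) k] {Γ : Type*} [Group Γ]
    (ρ : Γ →* Matrix (Fin 2) (Fin 2) (ZMod p)) : Γ →* Matrix (Fin 2) (Fin 2) k :=
  (RingHom.mapMatrix (algebraMap (ZMod p) k)).toMonoidHom.comp ρ

/-- the inclusion -/
def iotaHom (k : Type*) [Field k] [Algebra (ZMod p) k] : (Fin 2 → ZMod p) →+ (Fin 2 → k) :=
  AddMonoidHom.mk' (fun x i => algebraMap (ZMod p) k (x i)) fun x y => by ext i; simp

lemma iota_inj : Function.Injective (iotaHom (p := p) k) := fun x y h => by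
  ext i
  exact (algebraMap (ZMod p) k).injective (congrFun h i)

lemma rk_mulVec {Γ : Type*} [Group Γ] (ρ : Γ →* Matrix (Fin 2) (Fin 2) (ZMod p)) (σ : Γ)
    (y : Fin 2 → ZMod p) : (rk k ρ σ).mulVec (iotaHom k y) = iotaHom k ((ρ σ).mulVec y) := by
  ext i
  change ((ρ σ).map (algebraMap (ZMod p) k)).mulVec (iotaHom k y) i =
    algebraMap (ZMod p) k ((ρ σ).mulVec y i)
  simp only [Matrix.mulVec, dotProduct, Matrix.map_apply, map_sum, map_mul]
  rfl

lemma key_mul (L : k →ₗ[ZMod p] ZMod p) (M : Matrix (Fin 2) (Fin 2) k)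
    (N : Matrix (Fin 2) (Fin 2) (ZMod p)) :
    (M * N.map (algebraMap (ZMod p) k)).map L = M.map L * N := by
  ext i j
  simp only [Matrix.map_apply, Matrix.mul_apply, map_sum]
  refine Finset.sum_congr rfl fun x _ => ?_
  rw [← Algebra.commutes, ← Algebra.smul_def, L.map_smul, smul_eq_mul, mul_comm]

lemma key_mul' (L : k →ₗ[ZMod p] ZMod p) (M : Matrix (Fin 2) (Fin 2) k)
    (N : Matrix (Fin 2) (Fin 2) (ZMod p)) :
    (N.map (algebraMap (ZMod p) k) * M).map L = N * M.map L := by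
  ext i j
  simp only [Matrix.map_apply, Matrix.mul_apply, map_sum]
  refine Finset.sum_congr rfl fun x _ => ?_
  rw [← Algebra.smul_def, L.map_smul, smul_eq_mul]

lemma key_v (L : k →ₗ[ZMod p] ZMod p) (N : Matrix (Fin 2) (Fin 2) (ZMod p)) (y : Fin 2 → k) (i) :
    L ((N.map (algebraMap (ZMod p) k)).mulVec y i) = N.mulVec (fun i => L (y i)) i := by
  simp only [Matrix.mulVec, dotProduct, Matrix.map_apply, map_sum]
  refine Finset.sum_congr rfl fun x _ => ?_
  rw [← Algebra.smul_def, L.map_smul, smul_eq_mul]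

lemma key_w (L : k →ₗ[ZMod p] ZMod p) (M : Matrix (Fin 2) (Fin 2) k) (x : Fin 2 → ZMod p) (i) :
    L (M.mulVec (iotaHom k x) i) = (M.map L).mulVec x i := by
  simp only [Matrix.mulVec, dotProduct, Matrix.map_apply, map_sum]
  refine Finset.sum_congr rfl fun j _ => ?_
  change L (M i j * algebraMap (ZMod p) k (x j)) = _
  rw [← Algebra.commutes, ← Algebra.smul_def, L.map_smul, smul_eq_mul, mul_comm]

lemma isCoc_comp {Γ : Type*} [Group Γ] {ρ : Γ →* Matrix (Fin 2) (Fin 2) (ZMod p)}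
    {C : Γ → Matrix (Fin 2) (Fin 2) k} (hC : IsCock (rk k ρ) C) (L : k →ₗ[ZMod p] ZMod p) :
    IsCoc ρ (fun σ => (C σ).map L) := by
  intro σ τ
  change (C (σ * τ)).map L = _
  rw [hC σ τ, Matrix.map_add _ (map_add L)]
  congr 1
  change ((ρ σ).map (algebraMap (ZMod p) k) * C τ * (ρ σ⁻¹).map (algebraMap (ZMod p) k)).map L = _
  rw [key_mul, key_mul']

/-- the residual representation of a flat extension over `k` is flat -/
lemma IsFlatMod.of_ext2_res {C : G → Matrix (Fin 2) (Fin 2) k} {hC : IsCock (rk k ρ) C}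
    (hf : IsFlatMod R (ext2 _ C hC)) : IsFlatMod R (vb ρ) := by
  refine hf.sub ((AddMonoidHom.inr _ _).comp (iotaHom k)) ?_ ?_
  · intro x y h
    exact iota_inj (Prod.mk.inj h).2
  · intro σ x
    change (0, iotaHom k ((ρ σ).mulVec x)) =
      ((rk k ρ σ).mulVec 0, (C σ * rk k ρ σ).mulVec 0 + (rk k ρ σ).mulVec (iotaHom k x))
    rw [rk_mulVec]; simp

/-- components of flat cocycles over extension fields -/
lemma FlatR.of_ext2 (hR : IsBase G R) [Finite k]
    {C : G → Matrix (Fin 2) (Fin 2) k} {hC : IsCock (rk k ρ) C}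
    (hf : IsFlatMod R (ext2 _ C hC)) (L : k →ₗ[ZMod p] ZMod p) :
    FlatR R ρ (fun σ => (C σ).map L) := by
  by_cases hL : L = 0
  · have h0 : (fun σ => (C σ).map L) = (0 : G → Matrix (Fin 2) (Fin 2) (ZMod p)) := by
      funext σ
      ext i j
      simp [hL]
    rw [h0]
    exact FlatR.zero hR hf.of_ext2_res
  obtain ⟨a, ha⟩ : ∃ a, L a = 1 := by
    obtain ⟨b, hb⟩ : ∃ b, L b ≠ 0 := by
      by_contra hcon
      push Not at hcon
      exact hL (LinearMap.ext hcon)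
    exact ⟨(L b)⁻¹ • b, by rw [L.map_smul, smul_eq_mul, inv_mul_cancel₀ hb]⟩
  refine ⟨isCoc_comp hC L, ?_⟩
  let S : AddSubgroup ((Fin 2 → k) × (Fin 2 → k)) :=
    (iotaHom (p := p) k).range.comap (AddMonoidHom.fst _ _)
  have hS : ∀ σ, ∀ x ∈ S, ext2 _ C hC σ x ∈ S := by
    rintro σ x ⟨y, hy⟩
    refine ⟨(ρ σ).mulVec y, ?_⟩
    rw [← rk_mulVec, hy]; rfl
  have hfS : IsFlatMod R (subRep (ext2 _ C hC) S hS) :=
    hf.sub S.subtype S.subtype_injective fun σ x => rfl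
  choose inv hinv using fun x : S => x.2
  let g : S →+ (Fin 2 → ZMod p) × (Fin 2 → ZMod p) :=
    AddMonoidHom.mk' (fun x => (inv x, fun i => L ((x : (Fin 2 → k) × (Fin 2 → k)).2 i)))
      fun x y => by
        ext1
        · apply iota_inj (k := k)
          change iotaHom k (inv (x + y)) = iotaHom k (inv x + inv y)
          rw [map_add, hinv, hinv, hinv]; rfl
        · ext i
          simp
  refine hfS.quotient hR g ?_ ?_
  · rintro ⟨x, y⟩
    refine ⟨⟨(iotaHom k x, fun i => y i • a), ⟨x, rfl⟩⟩, ?_⟩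
    ext1
    · apply iota_inj (k := k)
      change iotaHom k (inv _) = _
      rw [hinv]; rfl
    · ext i
      change L (y i • a) = y i
      rw [L.map_smul, ha, smul_eq_mul, mul_one]
  · intro σ x
    ext1
    · apply iota_inj (k := k)
      change iotaHom k (inv _) = iotaHom k ((ρ σ).mulVec (inv x))
      rw [hinv, ← rk_mulVec, hinv]; rfl
    · ext i
      change L (((C σ * rk k ρ σ).mulVec (x : (Fin 2 → k) × (Fin 2 → k)).1 +
        (rk k ρ σ).mulVec (x : (Fin 2 → k) × (Fin 2 → k)).2) i) =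
        (((C σ).map L * ρ σ).mulVec (inv x) +
          (ρ σ).mulVec (fun i => L ((x : (Fin 2 → k) × (Fin 2 → k)).2 i))) i
      rw [Pi.add_apply, Pi.add_apply, map_add]
      have h1 : (x : (Fin 2 → k) × (Fin 2 → k)).1 = iotaHom k (inv x) := (hinv x).symm
      rw [h1]
      congr 1
      · rw [key_w]
        change ((C σ * (ρ σ).map (algebraMap (ZMod p) k)).map L).mulVec _ _ = _
        rw [key_mul]
      · exact key_v L _ _ _

end components

end closure

end Fermat.Agent.FlatLoc
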