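import Fermat.Agent.FlatLoc.Levels

/-!
# Counting with Frobenius
-/

set_option autoImplicit false
set_option linter.unusedSectionVars false

namespace Fermat.Agent.FlatLoc

open Fermat.Agent.ECRed
open scoped Polynomial

universe u w

variable {K : Type*} [Field K] {κ : Type*} [Field κ] {G : Type*} [Group G]
  [MulSemiringAction G K] {p : ℕ} [hp : Fact p.Prime] (C : Ctx K κ G p)

/-- the solutions of `z ^ p = a z` -/
def frobSub [CharP κ p] (a : κ) : AddSubgroup κ where
  carrier := {z | z ^ p = a * z}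
  add_mem' {x y} hx hy := by
    change (x + y) ^ p = a * (x + y)
    have h1 : x ^ p = a * x := hx
    have h2 : y ^ p = a * y := hy
    rw [add_pow_char, h1, h2]; ring
  zero_mem' := by
    change (0 : κ) ^ p = a * 0
    rw [zero_pow hp.out.ne_zero, mul_zero]
  neg_mem' {x} hx := by
    change (-x) ^ p = a * (-x)
    have h1 : x ^ p = a * x := hx
    rw [neg_pow, h1]
    have : (-1 : κ) ^ p = -1 := by
      have h2 := add_pow_char (-1 : κ) 1 p
      rw [neg_add_cancel, zero_pow hp.out.ne_zero, one_pow] at h2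
      exact (neg_eq_of_add_eq_zero_left h2.symm).symm
    rw [this]; ring

lemma card_frobSub [CharP κ p] (a : κ) : Finite (frobSub (p := p) a) ∧
    Nat.card (frobSub (p := p) a) ≤ p := by
  classical
  let P : κ[X] := Polynomial.X ^ p - Polynomial.C a * Polynomial.X
  have hp1 := hp.out.one_lt
  have hdeg : P.natDegree = p := by
    have h1 : (Polynomial.C a * Polynomial.X : κ[X]).natDegree < (Polynomial.X ^ p : κ[X]).natDegree := by
      rw [Polynomial.natDegree_X_pow]
      exact lt_of_le_of_lt (Polynomial.natDegree_C_mul_le _ _) (by rw [Polynomial.natDegree_X]; exact hp1)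
    rw [Polynomial.natDegree_sub_eq_left_of_natDegree_lt h1, Polynomial.natDegree_X_pow]
  have hP0 : P ≠ 0 := by
    intro h
    rw [h, Polynomial.natDegree_zero] at hdeg
    exact hp.out.ne_zero hdeg.symm
  have hsub : ((frobSub (p := p) a : AddSubgroup κ) : Set κ) ⊆ (P.roots.toFinset : Set κ) := by
    intro z hz
    have h1 : z ^ p = a * z := hz
    simp only [Finset.mem_coe, Multiset.mem_toFinset, Polynomial.mem_roots hP0, Polynomial.IsRoot.def]
    simp [P, h1]
  have hfin : ((frobSub (p := p) a : AddSubgroup κ) : Set κ).Finite :=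
    (Finset.finite_toSet _).subset hsub
  refine ⟨hfin.to_subtype, ?_⟩
  have h1 : Nat.card (frobSub (p := p) a) = Set.ncard ((frobSub (p := p) a : AddSubgroup κ) : Set κ) := by
    rfl
  rw [h1]
  refine (Set.ncard_le_ncard hsub (Finset.finite_toSet _)).trans ?_
  rw [Set.ncard_coe_finset]
  refine (Multiset.toFinset_card_le _).trans ?_
  rw [← hdeg]
  exact Polynomial.card_roots' P

lemma rank_le_one_of_card {V : Type*} [AddCommGroup V] [Module (ZMod p) V] [Finite V]
    (h : Nat.card V ≤ p) : Module.rank (ZMod p) V ≤ 1 := by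
  have : Module.Finite (ZMod p) V := Module.Finite.of_finite
  have h1 : Module.finrank (ZMod p) V ≤ 1 := by
    by_contra hcon
    push Not at hcon
    have h2 := Module.natCard_eq_pow_finrank (K := ZMod p) (V := V)
    rw [Nat.card_zmod] at h2
    have h3 : p ^ 2 ≤ p ^ Module.finrank (ZMod p) V := Nat.pow_le_pow_right hp.out.pos hcon
    have h4 : p ^ 2 ≤ p := by rw [← h2] at h3; exact h3.trans h
    have := hp.out.one_lt
    nlinarith
  rw [← Module.finrank_eq_rank]
  exact_mod_cast h1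

noncomputable instance [CharP κ p] (a : κ) : Module (ZMod p) (frobSub (p := p) a) :=
  AddCommGroup.zmodModule (n := p) fun x => Subtype.ext (by
    rw [AddSubgroup.coe_nsmul, nsmul_eq_mul, CharP.cast_eq_zero κ p, zero_mul]; rfl)

lemma exists_linear [CharP κ p] {F : Type*} [AddCommGroup F] [Module (ZMod p) F] {B : F →+ κ}
    {a : κ} (hB : ∀ x, B x ^ p = a * B x) :
    ∃ L : F →ₗ[ZMod p] frobSub (p := p) a, ∀ x, (L x : κ) = B x := by
  let B' : F →+ frobSub (p := p) a :=
    { toFun := fun x => ⟨B x, hB x⟩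
      map_zero' := Subtype.ext (map_zero B)
      map_add' := fun x y => Subtype.ext (map_add B x y) }
  exact ⟨AddMonoidHom.toZModLinearMap p B', fun x => rfl⟩

lemma rank_frobSub [CharP κ p] (a : κ) : Module.rank (ZMod p) (frobSub (p := p) a) ≤ 1 := by
  have := (card_frobSub (p := p) a).1
  exact rank_le_one_of_card (card_frobSub (p := p) a).2

/-- ranks add up -/
lemma rank_le_add {V : Type u} {W : Type w} [AddCommGroup V] [Module (ZMod p) V] [AddCommGroup W]
    [Module (ZMod p) W] (L : V →ₗ[ZMod p] W) {a b : ℕ}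
    (ha : Module.rank (ZMod p) (LinearMap.range L) ≤ a)
    (hb : Module.rank (ZMod p) (LinearMap.ker L) ≤ b) : Module.rank (ZMod p) V ≤ (a + b : ℕ) := by
  have h := LinearMap.lift_rank_range_add_rank_ker L
  have h1 := add_le_add (Cardinal.lift_le_nat_iff.{w, u}.mpr ha) (Cardinal.lift_le_nat_iff.{u, w}.mpr hb)
  rw [h] at h1
  rw [← Cardinal.lift_le_nat_iff.{u, w}]
  push_cast
  exact h1

namespace Ctx

variable {ϖ : K} (hϖ : ϖ ^ (p ^ 2 - 1) = p)
variable {W : Type*} [AddCommGroup W]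

include C hϖ

/-- **the leading coefficient at an exceptional level takes at most `p` values** -/
theorem exists_B [IsAlgClosed κ] {F : Type*} [AddCommGroup F] {f : F → G → (W →+ ZMod p)}
    (hadd : ∀ x x' σ, f (x + x') σ = f x σ + f x' σ) {i : ℕ} (hi : 1 ≤ i)
    (hi' : i < p * (p + 1)) (hpi : ¬ p ∣ i) (hlev : ∀ x, Lev C ϖ (f x) i)
    {σ₀ : G} {T : AddMonoid.End W}
    (hT : ∀ x β y, Kum C ϖ (fun σ => f x σ β) y → Kum C ϖ (fun σ => f x σ (T β)) (σ₀ • y))
    {Q : ℤ[X]} (hQ : Polynomial.aeval T Q = 0)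
    (hne : ∀ k, i < k → k < p * (p + 1) →
      (p ∣ k ∨ Polynomial.aeval (C.r (C.Th hϖ σ₀ : K) ^ k) Q ≠ 0))
    {β₀ : W} (hcyc : ∀ β, ∃ P : ℤ[X], Polynomial.aeval T P β₀ = β)
    (Φ : Frob C ϖ) {β₁ : W}
    (hφ : ∀ x, ∀ σ ∈ JJ G ϖ, f x σ β₁ = Φ.u * f x (Φ.conj σ) β₀) :
    ∃ (B : F →+ κ) (a : κ), (∀ x, B x ^ p = a * B x) ∧
      ∀ x, B x = 0 → ∀ σ ∈ JJ G ϖ, f x σ = 0 := by
  choose ℓ hℓ using fun x => C.exists_leadHom hϖ hi hi' hpi (hlev x)
  set g := C.r (C.Th hϖ σ₀ : K) ^ i with hg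
  have heig : ∀ x β, ℓ x (T β) = g * ℓ x β := fun x β =>
    C.lead_eigen hϖ (hlev x) (hℓ x) (hT x) β
  obtain ⟨P, hP⟩ := hcyc β₁
  refine ⟨AddMonoidHom.mk' (fun x => ℓ x β₀) fun x x' => ?_, Polynomial.aeval g P, fun x => ?_,
    fun x hx => ?_⟩
  · obtain ⟨y, hy, hyl⟩ := hlev x β₀
    obtain ⟨y', hy', hyl'⟩ := hlev x' β₀
    rw [hℓ x β₀ y hy hyl, hℓ x' β₀ y' hy' hyl', ← C.lead_mul hϖ hi hyl hyl']
    refine hℓ _ _ _ ?_ (C.lv_mul hyl hyl')
    refine C.kum_congr (C.kum_mul hy hy') fun σ _ => ?_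
    rw [hadd]; rfl
  · change ℓ x β₀ ^ p = Polynomial.aeval g P * ℓ x β₀
    rw [← hom_aeval (heig x) P β₀, hP]
    obtain ⟨y, hy, hyl⟩ := hlev x β₀
    rw [hℓ x β₀ y hy hyl, ← Φ.lead_eq hϖ hyl]
    exact (hℓ x β₁ _ (Φ.kum hy (hφ x)) (Φ.lv hϖ hyl)).symm
  · have h1 : ℓ x = 0 := by
      ext β
      obtain ⟨P', hP'⟩ := hcyc β
      have h2 : ℓ x β₀ = 0 := hx
      rw [← hP', hom_aeval (heig x) P' β₀, h2, mul_zero]; rfl
    have h2 := C.lev_succ_of_hom hϖ (hlev x) (hℓ x) h1
    have h3 := C.lev_up hϖ (hT x) hQ (by omega) h2 (j := p * (p + 1)) (by omega) le_rfl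
      fun k hk hk' => hne k (by omega) hk'
    exact C.eq_zero_of_lev hϖ h3

end Ctx

end Fermat.Agent.FlatLoc
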