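import Fermat.Agent.FlatLoc.FrobCount

/-!
# Frobenius-semi-invariant homomorphisms
-/

set_option autoImplicit false
set_option linter.unusedSectionVars false

namespace Fermat.Agent.FlatLoc

open Fermat.Agent.ECRed
open scoped Polynomial

section AS

variable {p : ℕ} [hp : Fact p.Prime] {κ : Type*} [Field κ] [CharP κ p]
  {W : Type*} [AddCommGroup W] [Module (ZMod p) W] [Finite W]

variable (p κ) in
/-- homomorphisms `ℓ` with `ℓ ∘ S = ℓ ^ p` -/
def FSol (S : W → W) : AddSubgroup (W →+ κ) where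
  carrier := {ℓ | ∀ β, ℓ (S β) = ℓ β ^ p}
  add_mem' {ℓ ℓ'} h h' := fun β => by
    rw [AddMonoidHom.add_apply, AddMonoidHom.add_apply, add_pow_char, h β, h' β]
  zero_mem' := fun β => by
    rw [AddMonoidHom.zero_apply, AddMonoidHom.zero_apply, zero_pow hp.out.ne_zero]
  neg_mem' {ℓ} h := fun β => by
    rw [AddMonoidHom.neg_apply, AddMonoidHom.neg_apply, h β]
    rcases hp.out.eq_two_or_odd' with h2 | h2
    · subst h2
      have := CharTwo.neg_eq (ℓ β ^ 2)
      rw [this, neg_pow_two]
    · rw [Odd.neg_pow h2]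

lemma mem_FSol {S : W → W} {ℓ : W →+ κ} : ℓ ∈ FSol p κ S ↔ ∀ β, ℓ (S β) = ℓ β ^ p := Iff.rfl

noncomputable instance instModFSol (S : W → W) : Module (ZMod p) (FSol p κ S) :=
  AddCommGroup.zmodModule (n := p) fun x => Subtype.ext (by
    rw [AddSubgroup.coe_nsmul]
    ext β
    change p • ((x : W →+ κ) β) = 0
    rw [nsmul_eq_mul, CharP.cast_eq_zero κ p, zero_mul])

lemma coe_smul_FSol (S : W → W) (a : ZMod p) (x : FSol p κ S) (β : W) :
    ((a • x : FSol p κ S) : W →+ κ) β = ZMod.castHom (dvd_refl p) κ a * (x : W →+ κ) β := by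
  have h1 : a • x = a.val • x := by
    conv_lhs => rw [← ZMod.natCast_zmod_val a]
    rw [Nat.cast_smul_eq_nsmul]
  rw [h1, AddSubgroup.coe_nsmul]
  change a.val • ((x : W →+ κ) β) = _
  rw [nsmul_eq_mul]
  congr 1
  simp

/-- `𝔽_p`-independent solutions are `κ`-independent -/
theorem FSol_indep {S : W → W} (hS : Function.Surjective S) {ι : Type*} {ℓ : ι → FSol p κ S}
    (hℓ : LinearIndependent (ZMod p) ℓ) (s : Finset ι) :
    ∀ c : ι → κ, (∀ β, ∑ i ∈ s, c i * (ℓ i : W →+ κ) β = 0) → ∀ i ∈ s, c i = 0 := by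
  classical
  induction s using Finset.strongInduction with
  | H s ih =>
    intro c hc i₀ hi₀
    by_contra h0
    set d : ι → κ := fun i => c i / c i₀ with hd
    have hd0 : d i₀ = 1 := div_self h0
    have h1 : ∀ β, ∑ i ∈ s, d i * (ℓ i : W →+ κ) β = 0 := by
      intro β
      have : ∑ i ∈ s, d i * (ℓ i : W →+ κ) β = (c i₀)⁻¹ * ∑ i ∈ s, c i * (ℓ i : W →+ κ) β := by
        rw [Finset.mul_sum]
        refine Finset.sum_congr rfl fun i _ => ?_
        rw [hd]; ring
      rw [this, hc, mul_zero]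
    have h2 : ∀ β, ∑ i ∈ s, d i ^ p * (ℓ i : W →+ κ) β = 0 := by
      intro β
      obtain ⟨β', rfl⟩ := hS β
      have h3 := congrArg (frobenius κ p) (h1 β')
      rw [map_sum, map_zero] at h3
      rw [← h3]
      refine Finset.sum_congr rfl fun i _ => ?_
      rw [frobenius_def, mul_pow, mem_FSol.mp (ℓ i).2 β']
    have h3 : ∀ i ∈ s, d i ^ p = d i := by
      have h4 : ∀ β, ∑ i ∈ s.erase i₀, (d i ^ p - d i) * (ℓ i : W →+ κ) β = 0 := by
        intro β
        have h5 : ∑ i ∈ s, (d i ^ p - d i) * (ℓ i : W →+ κ) β = 0 := by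
          simp only [sub_mul, Finset.sum_sub_distrib, h1, h2, sub_zero]
        rw [← Finset.add_sum_erase _ _ hi₀, hd0, one_pow, sub_self, zero_mul, zero_add] at h5
        exact h5
      intro i hi
      by_cases hii : i = i₀
      · rw [hii, hd0, one_pow]
      · exact sub_eq_zero.mp (ih _ (Finset.erase_ssubset hi₀) _ h4 i (Finset.mem_erase.mpr ⟨hii, hi⟩))
    have h4 : ∀ i ∈ s, ∃ a : ZMod p, ZMod.castHom (dvd_refl p) κ a = d i := by
      intro i hi
      let _ := ZMod.algebra κ p
      have h6 : d i ∈ (Algebra.ofId (ZMod p) κ).range := by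
        have : (d i) ^ p = d i := h3 i hi
        -- roots of `X ^ p - X`
        by_contra hcon
        have hinj : Function.Injective (algebraMap (ZMod p) κ) := (algebraMap (ZMod p) κ).injective
        let T : Finset κ := insert (d i) (Finset.univ.image (algebraMap (ZMod p) κ))
        have hT : T.card = p + 1 := by
          rw [Finset.card_insert_of_notMem, Finset.card_image_of_injective _ hinj, Finset.card_univ,
            ZMod.card]
          intro h7
          obtain ⟨a, -, ha⟩ := Finset.mem_image.mp h7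
          exact hcon ⟨a, ha⟩
        have hroots : T ⊆ (Polynomial.X ^ p - Polynomial.X : κ[X]).roots.toFinset := by
          intro z hz
          rw [Multiset.mem_toFinset, Polynomial.mem_roots
            (FiniteField.X_pow_card_sub_X_ne_zero κ hp.out.one_lt)]
          rw [Polynomial.IsRoot, Polynomial.eval_sub, Polynomial.eval_pow, Polynomial.eval_X,
            sub_eq_zero]
          rcases Finset.mem_insert.mp hz with h7 | h7
          · rw [h7]; exact this
          · obtain ⟨a, -, ha⟩ := Finset.mem_image.mp h7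
            rw [← ha, ← map_pow, ZMod.pow_card]
        have h8 := (Finset.card_le_card hroots).trans (Multiset.toFinset_card_le _)
        have h9 := Polynomial.card_roots' (Polynomial.X ^ p - Polynomial.X : κ[X])
        rw [FiniteField.X_pow_card_sub_X_natDegree_eq κ hp.out.one_lt] at h9
        omega
      obtain ⟨a, ha⟩ := h6
      exact ⟨a, by rw [← ha]; congr 1⟩
    choose! a ha using h4
    have h5 : ∑ i ∈ s, a i • ℓ i = 0 := by
      apply Subtype.ext
      ext β
      rw [AddSubgroup.val_finset_sum, AddMonoidHom.finset_sum_apply]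
      change _ = (0 : κ)
      rw [← h1 β]
      refine Finset.sum_congr rfl fun i hi => ?_
      rw [coe_smul_FSol, ha i hi]
    have h6 := linearIndependent_iff'.mp hℓ s a h5 i₀ hi₀
    have h7 := ha i₀ hi₀
    rw [h6, map_zero, hd0] at h7
    exact zero_ne_one h7

theorem rank_FSol {S : W → W} (hS : Function.Surjective S) :
    Module.rank (ZMod p) (FSol p κ S) ≤ Module.finrank (ZMod p) W := by
  classical
  have : Module.Finite (ZMod p) W := Module.Finite.of_finite
  have hfree : Module.Free (ZMod p) W := Module.Free.of_divisionRing _ _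
  let b := Module.finBasis (ZMod p) W
  refine rank_le fun s hs => ?_
  -- evaluation on the basis
  let ev : s → (Fin (Module.finrank (ZMod p) W) → κ) := fun x j => ((x : FSol p κ S) : W →+ κ) (b j)
  have hli : LinearIndependent κ ev := by
    rw [Fintype.linearIndependent_iff]
    intro c hc
    have h1 := FSol_indep hS hs Finset.univ c (fun β => by
      -- extend by additivity
      have h2 : ∀ j, ∑ i, c i * ((i : FSol p κ S) : W →+ κ) (b j) = 0 := by
        intro j
        have := congrFun hc j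
        rw [Finset.sum_apply] at this
        simpa [ev, Pi.smul_apply, smul_eq_mul] using this
      let L : W →+ κ := ∑ i, (AddMonoidHom.mulLeft (c i)).comp ((i : FSol p κ S) : W →+ κ)
      have hL : ∀ z, L z = ∑ i, c i * ((i : FSol p κ S) : W →+ κ) z := fun z => by
        rw [AddMonoidHom.finset_sum_apply]; rfl
      rw [← hL]
      have h3 : β = ∑ j, b.repr β j • b j := (b.sum_repr β).symm
      rw [h3, map_sum]
      refine Finset.sum_eq_zero fun j _ => ?_
      have h4 : b.repr β j • b j = (b.repr β j).val • b j := by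
        conv_lhs => rw [← ZMod.natCast_zmod_val (b.repr β j)]
        rw [Nat.cast_smul_eq_nsmul]
      rw [h4, map_nsmul, hL, h2, smul_zero])
    exact fun i => h1 i (Finset.mem_univ i)
  have := hli.fintype_card_le_finrank
  rw [Module.finrank_fin_fun, Fintype.card_coe] at this
  exact this

end AS

namespace Ctx

variable {K : Type*} [Field K] {κ : Type*} [Field κ] {G : Type*} [Group G]
  [MulSemiringAction G K] {p : ℕ} [hp : Fact p.Prime] (C : Ctx K κ G p)
variable {ϖ : K} (hϖ : ϖ ^ (p ^ 2 - 1) = p)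
variable {W : Type*} [AddCommGroup W] [Module (ZMod p) W]

include C hϖ

/-- **leading coefficients at an exceptional level, with coefficients** -/
theorem exists_Bk [IsAlgClosed κ] [CharP κ p] {F : Type*} [AddCommGroup F] [Module (ZMod p) F]
    {f : F → G → (W →+ ZMod p)}
    (hadd : ∀ x x' σ, f (x + x') σ = f x σ + f x' σ) {i : ℕ} (hi : 1 ≤ i)
    (hi' : i < p * (p + 1)) (hpi : ¬ p ∣ i) (hlev : ∀ x, Lev C ϖ (f x) i)
    {σ₀ : G} {T : AddMonoid.End W}
    (hT : ∀ x β y, Kum C ϖ (fun σ => f x σ β) y → Kum C ϖ (fun σ => f x σ (T β)) (σ₀ • y))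
    {Q : ℤ[X]} (hQ : Polynomial.aeval T Q = 0)
    (hne : ∀ k, i < k → k < p * (p + 1) →
      (p ∣ k ∨ Polynomial.aeval (C.r (C.Th hϖ σ₀ : K) ^ k) Q ≠ 0))
    (Φ : Frob C ϖ) {S : W → W}
    (hφ : ∀ x β, ∀ σ ∈ JJ G ϖ, f x σ (S β) = Φ.u * f x (Φ.conj σ) β) :
    ∃ L : F →ₗ[ZMod p] FSol p κ S, ∀ x, L x = 0 → ∀ σ ∈ JJ G ϖ, f x σ = 0 := by
  choose ℓ hℓ using fun x => C.exists_leadHom hϖ hi hi' hpi (hlev x)
  have hmem : ∀ x, ℓ x ∈ FSol p κ S := by
    intro x β
    obtain ⟨y, hy, hyl⟩ := hlev x β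
    rw [hℓ x β y hy hyl, ← Φ.lead_eq hϖ hyl]
    exact hℓ x (S β) _ (Φ.kum hy (hφ x β)) (Φ.lv hϖ hyl)
  let B : F →+ FSol p κ S := AddMonoidHom.mk' (fun x => ⟨ℓ x, hmem x⟩) fun x x' => by
    apply Subtype.ext
    ext β
    change ℓ (x + x') β = ℓ x β + ℓ x' β
    obtain ⟨y, hy, hyl⟩ := hlev x β
    obtain ⟨y', hy', hyl'⟩ := hlev x' β
    rw [hℓ x β y hy hyl, hℓ x' β y' hy' hyl', ← C.lead_mul hϖ hi hyl hyl']
    refine hℓ _ _ _ ?_ (C.lv_mul hyl hyl')
    refine C.kum_congr (C.kum_mul hy hy') fun σ _ => ?_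
    rw [hadd]; rfl
  refine ⟨AddMonoidHom.toZModLinearMap p B, fun x hx => ?_⟩
  have h1 : ℓ x = 0 := congrArg Subtype.val hx
  have h2 := C.lev_succ_of_hom hϖ (hlev x) (hℓ x) h1
  have h3 := C.lev_up hϖ (hT x) hQ (by omega) h2 (j := p * (p + 1)) (by omega) le_rfl
    fun k hk hk' => hne k (by omega) hk'
  exact C.eq_zero_of_lev hϖ h3

end Ctx

end Fermat.Agent.FlatLoc
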