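import Mathlib

/-!
# Traces of `p`-th powers of two by two matrices
-/

set_option autoImplicit false

namespace Fermat.Agent.FlatLoc

variable {k : Type*} [Field k] {p : ℕ} [hp : Fact p.Prime] [CharP k p]

lemma two_ne_zero_of_char (hp2 : p ≠ 2) : (2 : k) ≠ 0 := by
  intro h
  have h1 : ((2 : ℕ) : k) = 0 := by exact_mod_cast h
  rw [CharP.cast_eq_zero_iff k p] at h1
  exact hp2 ((Nat.prime_dvd_prime_iff_eq hp.out Nat.prime_two).mp h1)

theorem trace_pow_char (hp2 : p ≠ 2) (M : Matrix (Fin 2) (Fin 2) k) :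
    (M ^ p).trace = M.trace ^ p := by
  have h2 : (2 : k) ≠ 0 := two_ne_zero_of_char hp2
  set a : k := M.trace / 2 with ha
  set N : Matrix (Fin 2) (Fin 2) k := M - a • 1 with hN
  have hM : M = a • 1 + N := by rw [hN]; abel
  have htr : N.trace = 0 := by
    rw [hN, Matrix.trace_sub, Matrix.trace_smul, Matrix.trace_one, Fintype.card_fin, ha]
    simp only [smul_eq_mul]
    push_cast
    field_simp
    ring
  have hsq : N ^ 2 = (-N.det) • (1 : Matrix (Fin 2) (Fin 2) k) := by
    rw [Matrix.trace_fin_two] at htr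
    have h11 : N 1 1 = - N 0 0 := by linear_combination htr
    rw [pow_two]
    ext i j
    rw [Matrix.mul_apply, Fin.sum_univ_two, Matrix.det_fin_two]
    fin_cases i <;> fin_cases j <;> simp [h11] <;> ring
  obtain ⟨m, hm⟩ : ∃ m, p = 2 * m + 1 := by
    rcases hp.out.eq_two_or_odd' with h | h
    · exact absurd h hp2
    · exact h
  have hNp : (N ^ p).trace = 0 := by
    rw [hm, pow_succ, pow_mul, hsq, smul_pow, one_pow, smul_mul_assoc, one_mul,
      Matrix.trace_smul, htr, smul_zero]
  have hcomm : Commute (a • (1 : Matrix (Fin 2) (Fin 2) k)) N :=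
    (Commute.one_left N).smul_left a
  conv_lhs => rw [hM]
  rw [add_pow_char_of_commute _ hcomm, Matrix.trace_add, hNp, add_zero, smul_pow, one_pow,
    Matrix.trace_smul, Matrix.trace_one, Fintype.card_fin, ha, smul_eq_mul, div_pow]
  have h3 : (2 : k) ^ p = 2 := by
    have := frobenius_def p (2 : k)
    rw [← this]
    have h4 : frobenius k p ((2 : ℕ) : k) = ((2 : ℕ) : k) := map_natCast _ _
    exact_mod_cast h4
  rw [h3]
  push_cast
  field_simp

end Fermat.Agent.FlatLoc
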