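import Fermat.Agent.FlatLoc.KCount
import Fermat.Agent.FlatLoc.KTrace
import Fermat.Agent.FlatLoc.BaseChange

/-!
# Classification of flat representations with coefficients
-/

set_option autoImplicit false
set_option linter.unusedSectionVars false

namespace Fermat.Agent.FlatLoc

open Fermat.Agent.ECRed
open scoped Polynomial

section vk

variable {k : Type*} [CommRing k] {Γ : Type*} [Group Γ]

/-- the standard representation -/
def vk (ρ : Γ →* Matrix (Fin 2) (Fin 2) k) : Γ →* AddMonoid.End (Fin 2 → k) where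
  toFun σ := (Matrix.mulVecLin (ρ σ)).toAddMonoidHom
  map_one' := by
    ext1 x
    change (ρ 1).mulVec x = x
    rw [map_one, Matrix.one_mulVec]
  map_mul' σ τ := by
    ext1 x
    change (ρ (σ * τ)).mulVec x = (ρ σ).mulVec ((ρ τ).mulVec x)
    rw [map_mul, Matrix.mulVec_mulVec]

@[simp] lemma vk_apply (ρ : Γ →* Matrix (Fin 2) (Fin 2) k) (σ : Γ) (x : Fin 2 → k) :
    vk ρ σ x = (ρ σ).mulVec x := rfl

end vk

/-- roots of `X ^ p - X` -/
lemma exists_of_pow_eq {p : ℕ} [hp : Fact p.Prime] {k : Type*} [Field k] [Algebra (ZMod p) k]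
    {z : k} (hz : z ^ p = z) : ∃ a : ZMod p, algebraMap (ZMod p) k a = z := by
  classical
  have hinj : Function.Injective (algebraMap (ZMod p) k) := (algebraMap (ZMod p) k).injective
  by_contra hcon
  push Not at hcon
  let T : Finset k := insert z (Finset.univ.image (algebraMap (ZMod p) k))
  have hT : T.card = p + 1 := by
    rw [Finset.card_insert_of_notMem, Finset.card_image_of_injective _ hinj, Finset.card_univ,
      ZMod.card]
    intro h7
    obtain ⟨a, -, ha⟩ := Finset.mem_image.mp h7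
    exact hcon a ha
  have hroots : T ⊆ (Polynomial.X ^ p - Polynomial.X : k[X]).roots.toFinset := by
    intro y hy
    rw [Multiset.mem_toFinset, Polynomial.mem_roots
      (FiniteField.X_pow_card_sub_X_ne_zero k hp.out.one_lt)]
    rw [Polynomial.IsRoot, Polynomial.eval_sub, Polynomial.eval_pow, Polynomial.eval_X,
      sub_eq_zero]
    rcases Finset.mem_insert.mp hy with h7 | h7
    · rw [h7]; exact hz
    · obtain ⟨a, -, ha⟩ := Finset.mem_image.mp h7
      rw [← ha, ← map_pow, ZMod.pow_card]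
  have h8 := (Finset.card_le_card hroots).trans (Multiset.toFinset_card_le _)
  have h9 := Polynomial.card_roots' (Polynomial.X ^ p - Polynomial.X : k[X])
  rw [FiniteField.X_pow_card_sub_X_natDegree_eq k hp.out.one_lt] at h9
  omega

variable {K : Type*} [Field K] {κ : Type*} [Field κ] {D : Type*} [Group D]
  [MulSemiringAction D K] {p : ℕ} [hp : Fact p.Prime] {ϖ : K} (DC : DCtx K κ D p ϖ)
  {k : Type*} [Field k] [Algebra (ZMod p) k] [Finite k]

/-- radii after base change -/
lemma rge_bc {V : Type*} [AddCommGroup V] {R R' : Subring K} {v : OrdFn K}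
    (hRv : ∀ r ∈ R', v.Ge 0 r) (H : Subalgebra R (V → K)) {c : ℝ} {x : V} :
    RGe v (bc R' H) c x ↔ ∀ f ∈ H, v.Ge c (f x - f 0) := by
  constructor
  · intro h f hf
    exact h f (mem_bc.mpr (Submodule.subset_span hf))
  · intro h f hf
    rw [mem_bc] at hf
    induction hf using Submodule.span_induction with
    | mem f hf => exact h f hf
    | zero => simpa using OrdFn.Ge.zero
    | add f g _ _ hf hg =>
      have e : (f + g) x - (f + g) 0 = (f x - f 0) + (g x - g 0) := by
        simp only [Pi.add_apply]; ring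
      rw [e]; exact hf.add hg
    | smul a f _ hf =>
      have e : (a • f) x - (a • f) 0 = (a : K) * (f x - f 0) := by
        change (a : K) * f x - (a : K) * f 0 = _
        ring
      rw [e]
      have := (hRv a a.2).mul hf
      rwa [zero_add] at this

namespace DCtx

/-- flatness over a base fixed by the full group -/
structure DFlat (DC : DCtx K κ D p ϖ) (R₀ : Subring K) (ρ : D →* Matrix (Fin 2) (Fin 2) k) :
    Prop where
  le : R₀ ≤ DC.C.R
  flat : IsFlatMod R₀ (vk ρ)

variable {R₀ : Subring K} {ρ : D →* Matrix (Fin 2) (Fin 2) k}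

lemma ge_frob {c : ℝ} {z : K} : DC.C.v.Ge c (DC.φ • z) ↔ DC.C.v.Ge c z := by
  unfold OrdFn.Ge
  rw [DC.ord, smul_eq_zero_iff_eq]

/-- **classification, with coefficients** -/
theorem kclass (h : DFlat DC R₀ ρ)
    (hdet : ∀ σ : DC.I, (ρ σ).det = algebraMap (ZMod p) k (DC.C.ω σ)) {σ₀ : DC.I}
    (hσ₀ : IsPrimitiveRoot (DC.C.Th DC.hϖ σ₀) (p ^ 2 - 1)) :
    (∃ x : Fin 2 → k, x ≠ 0 ∧ ∀ σ : DC.I,
      (ρ σ).mulVec x = algebraMap (ZMod p) k (DC.C.ω σ) • x) ∨
    ((∀ σ ∈ JJ DC.I ϖ, ρ σ = 1) ∧ ∃ t : ZMod p, (ρ σ₀).trace = algebraMap (ZMod p) k t ∧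
      (∀ a : ZMod p, a ^ 2 - t * a + DC.C.ω σ₀ ≠ 0) ∧
      ρ (DC.conj σ₀) = algebraMap (ZMod p) k t • 1 - ρ σ₀) := by
  classical
  have hch := DC.C.char
  have : CharP k p := charP_of_injective_algebraMap (algebraMap (ZMod p) k).injective p
  obtain ⟨hle, H₀, hH₀⟩ := h
  set C := DC.C with hC
  set H : Subalgebra C.R ((Fin 2 → k) → K) := bc C.R H₀ with hHdef
  have hR' : ∀ r ∈ C.R, ∀ σ : DC.I, σ • r = r := fun r hr => ((C.mem_R r).mp hr).1
  have hH : IsOrder C.R ((vk ρ).comp DC.I.subtype) H :=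
    hH₀.baseChange hle DC.I.subtype (fun σ z => rfl) hR'
  have hp1 := Ctx.one_lt (p := p)
  have hp2 := C.two_lt_nat
  have hpne : p ≠ 2 := C.p_ne_two
  set e := p ^ 2 - 1 with he
  have he0 : e ≠ 0 := Ctx.e_ne_zero
  have hepos : (0 : ℝ) < e := by exact_mod_cast Nat.pos_of_ne_zero he0
  have heR : (e : ℝ) = (p + 1) * (p - 1) := Ctx.e_cast
  have hefac : e = (p + 1) * (p - 1) := Ctx.e_factor
  have h1 := C.eq_varpi DC.hϖ he0
  have hϖ0 := C.varpi_ne DC.hϖ he0
  -- casts
  let ι : ZMod p →+* κ := ZMod.castHom (dvd_refl p) κ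
  have hιi : ∀ w : ℤ, ((w : ℤ) : κ) = ι (w : ZMod p) := fun w => by simp [ι]
  have hιv : ∀ a : ZMod p, ((((a.val : ℕ) : ℤ)) : κ) = ι a := fun a => by
    rw [hιi]; congr 1; simp
  have hvs : ∀ (a : ZMod p) (y : Fin 2 → k), ((a.val : ℕ) : ℤ) • y = algebraMap (ZMod p) k a • y := by
    intro a y
    rw [Ctx.val_zsmul, algebraMap_smul]
  -- maximal radius
  have : Fintype (Fin 2 → k) := Fintype.ofFinite _
  have hnt : ∃ x : Fin 2 → k, x ≠ 0 := ⟨![1, 0], fun h => one_ne_zero (congrFun h 0)⟩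
  choose rad hrad0 hrad using fun x : {x : Fin 2 → k // x ≠ 0} => hH.exists_rad C.hRv x.2
  obtain ⟨x₀, hx₀⟩ := hnt
  obtain ⟨⟨x₁, hx₁⟩, -, hmax⟩ := Finset.exists_max_image Finset.univ rad ⟨⟨x₀, hx₀⟩, Finset.mem_univ _⟩
  set c := rad ⟨x₁, hx₁⟩ with hc
  have hxc : REq C.v H c x₁ := hrad ⟨x₁, hx₁⟩
  have hmax' : ∀ y, RGt C.v H c y → y = 0 := by
    intro y hy
    by_contra hy0
    exact absurd (hmax ⟨y, hy0⟩ (Finset.mem_univ _)) (not_le.mpr ((hrad ⟨y, hy0⟩).lt_of_gt hy))
  have hωne : C.ω σ₀ ≠ 1 := DC.omega_ne_one hσ₀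
  -- positivity
  have hc0 : 0 < c := by
    refine lt_of_le_of_ne (hrad0 _) fun h0 => hωne ?_
    have h2 : ∀ x, (ρ σ₀).mulVec x = x := fun x => by
      have h3 : RGt C.v H c (((vk ρ).comp DC.I.subtype) σ₀ x - x) := by
        rw [← h0]; exact hH.scalar_zero C.hv C.hRv (C.inert σ₀) x
      exact sub_eq_zero.mp (hmax' _ h3)
    have h3 : ρ σ₀ = 1 := by
      apply Matrix.ext_of_mulVec_single
      intro i
      rw [h2, Matrix.one_mulVec]
    have h4 := hdet σ₀
    rw [h3, Matrix.det_one] at h4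
    apply Units.ext
    apply (algebraMap (ZMod p) k).injective
    rw [← h4, Units.val_one, map_one]
  have hcle : c ≤ 1 / ((p : ℝ) - 1) := hH.rad_le C.base C.hRv C.vp C.hψ C.ω C.hω hxc.1 hx₁
  -- the residual character
  obtain ⟨hxge, f, hf, hfe⟩ := id hxc
  set π := f x₁ - f 0 with hπ
  have hπ0 : π ≠ 0 := hfe.1
  set Θ : DC.I → κ := fun σ => C.r (σ • π / π) with hΘ
  have hΘmul : ∀ σ τ, Θ (σ * τ) = Θ σ * Θ τ := by
    intro σ τ
    have h1 : (σ * τ) • π / π = (σ • π / π) * (σ • (τ • π / π)) := by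
      have h2 : τ • π = (τ • π / π) * π := by rw [div_mul_cancel₀ _ hπ0]
      rw [mul_smul]
      conv_lhs => rw [h2]
      rw [smul_mul']
      ring
    have h3 := C.eq_ratio hfe τ
    change C.r ((σ * τ) • π / π) = C.r (σ • π / π) * C.r (τ • π / π)
    rw [h1, C.r_mul _ _ (C.eq_ratio hfe σ).ge ((ge_smul C.hv σ).mpr h3.ge), C.r_smul σ h3.ge]
  have hΘone : Θ 1 = 1 := by
    change C.r ((1 : DC.I) • π / π) = 1
    rw [one_smul, div_self hπ0, C.r_one]
  have hΘ0 : ∀ σ, Θ σ ≠ 0 := fun σ => C.r_ne_zero (C.eq_ratio hfe σ)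
  have hΘpow : ∀ σ (n : ℕ), Θ (σ ^ n) = Θ σ ^ n := by
    intro σ n
    induction n with
    | zero => rw [pow_zero, hΘone, pow_zero]
    | succ n ih => rw [pow_succ, hΘmul, ih, pow_succ]
  have hΘinv : ∀ σ, Θ σ⁻¹ * Θ σ = 1 := fun σ => by rw [← hΘmul, inv_mul_cancel, hΘone]
  have hΘfrob : ∀ σ : DC.I, Θ σ = Θ (DC.conj σ) ^ p := by
    intro σ
    have h2 : C.v.Eq c (DC.φ • π) := ⟨by rw [ne_eq, smul_eq_zero_iff_eq]; exact hπ0, by
      rw [DC.ord]; exact hfe.2⟩
    have h3 : Θ σ = C.r (σ • (DC.φ • π) / (DC.φ • π)) := C.r_ratio hfe h2 σ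
    have h4 : σ • (DC.φ • π) / (DC.φ • π) = DC.φ • ((DC.conj σ) • π / π) := by
      have h5 := DC.frob.conj_spec σ π
      change σ • DC.φ • π = DC.φ • (DC.conj σ • π) at h5
      rw [h5, smul_div₀']
    rw [h3, h4, DC.r_eq _ (C.eq_ratio hfe _).ge]
  -- action on the subspace of maximal radius
  have hscal : ∀ (σ : DC.I) (P : ℤ[X]), Polynomial.aeval (Θ σ) P = 0 → ∀ x, RGe C.v H c x →
      Polynomial.aeval (((vk ρ).comp DC.I.subtype) σ) P x = 0 := by
    intro σ P hP x hx
    exact hmax' _ (C.scalar_gt hH hc0 hfe σ P hx hP)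
  have hscal' : ∀ (σ : DC.I) (P : ℤ[X]), Polynomial.aeval (((vk ρ).comp DC.I.subtype) σ) P x₁ = 0 →
      Polynomial.aeval (Θ σ) P = 0 := by
    intro σ P hP
    exact C.scalar_of_gt hH hc0 hfe σ P hxc (by rw [hP]; exact RGt.zero)
  have htriv : ∀ σ : DC.I, Θ σ = 1 → ∀ x, RGe C.v H c x → (ρ σ).mulVec x = x := by
    intro σ hσ x hx
    have h2 := hscal σ (Polynomial.X - Polynomial.C 1) (by rw [hσ]; simp) x hx
    rw [Ctx.aeval_X_sub_end, one_smul, sub_eq_zero] at h2
    exact h2
  -- stability of the subspace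
  have hstabI : ∀ (σ : DC.I) x, RGe C.v H c x → RGe C.v H c ((ρ σ).mulVec x) := by
    intro σ x hx
    exact (hH.rge_act C.hv σ).mpr hx
  have hstabφ : ∀ x, RGe C.v H c x → RGe C.v H c ((ρ DC.φ).mulVec x) := by
    intro x hx
    rw [hHdef, rge_bc C.hRv] at hx ⊢
    intro g hg
    have h2 := hH₀.equiv g hg DC.φ x
    have h3 := hH₀.equiv g hg DC.φ 0
    rw [map_zero] at h3
    change g ((ρ DC.φ).mulVec x) = _ at h2
    rw [h2, h3, ← smul_sub]
    exact (DC.ge_frob).mpr (hx g hg)
  -- the span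
  set W : Submodule k (Fin 2 → k) := Submodule.span k {x | RGe C.v H c x} with hW
  have hx₁W : x₁ ∈ W := Submodule.subset_span hxc.1
  have htrivW : ∀ σ : DC.I, Θ σ = 1 → ∀ x ∈ W, (ρ σ).mulVec x = x := by
    intro σ hσ x hx
    induction hx using Submodule.span_induction with
    | mem x hx => exact htriv σ hσ x hx
    | zero => rw [Matrix.mulVec_zero]
    | add x y _ _ hx hy => rw [Matrix.mulVec_add, hx, hy]
    | smul a x _ hx => rw [Matrix.mulVec_smul, hx]
  have hrelW : ∀ σ : DC.I, ∀ x ∈ W, (ρ σ).mulVec x = (ρ (DC.conj σ) ^ p).mulVec x := by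
    intro σ x hx
    have h2 : Θ (σ⁻¹ * DC.conj σ ^ p) = 1 := by
      rw [hΘmul, hΘpow, ← hΘfrob, hΘinv]
    have h3 := htrivW _ h2 x hx
    have h4 : ρ ((DC.conj σ ^ p : DC.I) : D) = ρ σ * ρ ((σ⁻¹ * DC.conj σ ^ p : DC.I) : D) := by
      rw [← map_mul]; congr 1
      push_cast
      group
    rw [← map_pow]
    have h5 : ((DC.conj σ ^ p : DC.I) : D) = (DC.conj σ : D) ^ p := rfl
    rw [← h5, h4, ← Matrix.mulVec_mulVec, h3]
  have hρconj : ∀ σ : DC.I, ρ σ * ρ DC.φ = ρ DC.φ * ρ (DC.conj σ) := fun σ => by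
    rw [← map_mul, ← map_mul]
    congr 1
    rw [conj_coe]; group
  have hφinv : ρ DC.φ * ρ DC.φ⁻¹ = 1 := by rw [← map_mul, mul_inv_cancel, map_one]
  have hφinv' : ρ DC.φ⁻¹ * ρ DC.φ = 1 := by rw [← map_mul, inv_mul_cancel, map_one]
  have hg0 := DC.C.r_Th_prim DC.hϖ hσ₀
  set g := C.r (C.Th DC.hϖ σ₀ : K) with hgdef
  have hω₀ : ι (C.ω σ₀) = g ^ (p + 1) := by
    have := C.r_omega_eq DC.hϖ σ₀
    rw [← C.Th_apply DC.hϖ] at this
    rw [hgdef, this]
    simp [ι]
  have hg0' : g ≠ 0 := hg0.ne_zero he0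
  have hΘeq : ∀ {π' : K}, C.v.Eq c π' → ∀ σ : DC.I, C.r (σ • π' / π') = Θ σ :=
    fun h7 σ => (C.r_ratio hfe h7 σ).symm
  -- from `Θ ^ e = 1` to the exponent
  have hexp : (∀ σ : DC.I, Θ σ ^ e = 1) →
      ∃ j : ℕ, 0 < j ∧ j ≤ p + 1 ∧ ∀ σ : DC.I, Θ σ = C.r (σ • ϖ / ϖ) ^ j := by
    intro hroot
    obtain ⟨n, hn⟩ := C.rad_denominator hH he0 hc0 hxc hmax'
      (fun h7 σ => by rw [hΘeq h7]; exact hroot σ)
    have hn0 : 0 < n := by
      have : (0 : ℝ) < n := by rw [← hn]; positivity
      exact_mod_cast this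
    obtain ⟨j, rfl⟩ : ∃ j : ℕ, n = j := ⟨n.toNat, (Int.toNat_of_nonneg hn0.le).symm⟩
    have hj0 : 0 < j := by exact_mod_cast hn0
    have hcj : c = j / e := by
      rw [eq_div_iff hepos.ne', mul_comm, hn]; push_cast; rfl
    have hjle : j ≤ p + 1 := by
      have h2 : (j : ℝ) ≤ p + 1 := by
        have h3 : (j : ℝ) = e * c := by rw [hn]; push_cast; rfl
        rw [h3, heR]
        have h4 : (p : ℝ) - 1 > 0 := by linarith
        calc ((p : ℝ) + 1) * (p - 1) * c ≤ (p + 1) * (p - 1) * (1 / (p - 1)) :=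
              mul_le_mul_of_nonneg_left hcle (by positivity)
          _ = p + 1 := by field_simp
      exact_mod_cast h2
    have hϖj : C.v.Eq c (ϖ ^ j) := by
      have := h1.pow j
      convert this using 1
      rw [hcj]; ring
    refine ⟨j, hj0, hjle, fun σ => ?_⟩
    rw [← hΘeq hϖj, smul_pow', ← div_pow, C.r_pow (C.eq_ratio h1 σ).ge]
  have hgΘ : C.r (σ₀ • ϖ / ϖ) = g := by rw [hgdef, C.Th_apply DC.hϖ]
  -- the ordinary case
  have hleft : (∀ σ : DC.I, Θ σ ^ e = 1) → Θ σ₀ ^ p = Θ σ₀ → ∀ σ : DC.I,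
      (ρ σ).mulVec x₁ = algebraMap (ZMod p) k (C.ω σ) • x₁ := by
    intro hroot hcase σ
    obtain ⟨j, hj0, hjle, hj⟩ := hexp hroot
    rw [hj, hgΘ] at hcase
    have h2 : g ^ (j * (p - 1)) = 1 := by
      have h3 : g ^ (j * (p - 1)) * g ^ j = 1 * g ^ j := by
        rw [← pow_add, one_mul]
        have : j * (p - 1) + j = j * p := by
          rw [← Nat.mul_succ]; congr 1; omega
        rw [this, pow_mul, hcase]
      exact mul_right_cancel₀ (pow_ne_zero _ hg0') h3
    have h3 := hg0.dvd_of_pow_eq_one _ h2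
    rw [← he, hefac] at h3
    have h4 : p + 1 ∣ j := Nat.dvd_of_mul_dvd_mul_right (by omega) h3
    have hjp : j = p + 1 := le_antisymm hjle (Nat.le_of_dvd hj0 h4)
    have h5 := hscal σ (Polynomial.X - Polynomial.C (((C.ω σ : ZMod p).val : ℕ) : ℤ)) (by
        rw [hj, hjp, C.r_omega_eq DC.hϖ σ, map_sub, Polynomial.aeval_X, Polynomial.aeval_C,
          eq_intCast, Int.cast_natCast, sub_self]) x₁ hxc.1
    rw [Ctx.aeval_X_sub_end, sub_eq_zero, hvs] at h5
    exact h5
  -- roots in the prime field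
  have hpe1 : ∀ z : κ, z ≠ 0 → z ^ p = z → z ^ e = 1 := by
    intro z hz0 hz
    have h2 : z ^ e * z = 1 * z := by
      rw [← pow_succ, one_mul]
      have : e + 1 = p * p := by
        have : 1 ≤ p ^ 2 := Nat.one_le_pow _ _ hp.out.pos
        rw [← pow_two]; omega
      rw [this, pow_mul, hz, hz]
    exact mul_right_cancel₀ hz0 h2
  have hpe2 : ∀ z : κ, z ≠ 0 → (z ^ p) ^ p = z → z ^ e = 1 := by
    intro z hz0 hz
    have h2 : z ^ e * z = 1 * z := by
      rw [← pow_succ, one_mul]
      have : e + 1 = p * p := by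
        have : 1 ≤ p ^ 2 := Nat.one_le_pow _ _ hp.out.pos
        rw [← pow_two]; omega
      rw [this, pow_mul, hz]
    exact mul_right_cancel₀ hz0 h2
  by_cases hWt : W = ⊤
  · -- the full space
    have hW' : ∀ x, x ∈ W := fun x => by rw [hWt]; trivial
    have hMN : ∀ σ : DC.I, ρ σ = ρ (DC.conj σ) ^ p := fun σ => by
      apply Matrix.ext_of_mulVec_single
      intro i
      exact hrelW σ _ (hW' _)
    have hdetφ : (ρ DC.φ).det ≠ 0 := fun h0 => by
      have h7 := congrArg Matrix.det hφinv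
      rw [Matrix.det_mul, h0, zero_mul, Matrix.det_one] at h7
      exact zero_ne_one h7
    have hdconj : ∀ σ : DC.I, (ρ (DC.conj σ)).det = (ρ σ).det := fun σ => by
      have h7 := congrArg Matrix.det (hρconj σ)
      rw [Matrix.det_mul, Matrix.det_mul, mul_comm] at h7
      exact (mul_left_cancel₀ hdetφ h7).symm
    have htconj : ∀ σ : DC.I, (ρ (DC.conj σ)).trace = (ρ σ).trace := fun σ => by
      have h7 : ρ (DC.conj σ) = ρ DC.φ⁻¹ * ρ σ * ρ DC.φ := by
        rw [mul_assoc, hρconj, ← mul_assoc, hφinv', one_mul]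
      rw [h7, Matrix.trace_mul_comm, ← mul_assoc, hφinv, one_mul]
    have htp : ∀ σ : DC.I, (ρ σ).trace ^ p = (ρ σ).trace := fun σ => by
      conv_rhs => rw [hMN σ, trace_pow_char hpne, htconj]
    have htr : ∀ σ : DC.I, ∃ t : ZMod p, algebraMap (ZMod p) k t = (ρ σ).trace :=
      fun σ => exists_of_pow_eq (htp σ)
    -- Cayley-Hamilton
    have hCH : ∀ M : Matrix (Fin 2) (Fin 2) k, M * M = M.trace • M - M.det • 1 := by
      intro M
      rw [Matrix.trace_fin_two, Matrix.det_fin_two]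
      ext i j
      rw [Matrix.mul_apply, Fin.sum_univ_two]
      fin_cases i <;> fin_cases j <;> simp <;> ring
    have hquad : ∀ σ : DC.I, ∀ t : ZMod p, algebraMap (ZMod p) k t = (ρ σ).trace →
        Θ σ ^ 2 - ι t * Θ σ + ι (C.ω σ) = 0 := by
      intro σ t ht
      have h7 := hscal' σ (quad ((t.val : ℕ) : ℤ) (((C.ω σ : ZMod p).val : ℕ) : ℤ)) (by
        rw [aeval_quad_end, hvs, hvs]
        change (ρ σ).mulVec ((ρ σ).mulVec x₁) - algebraMap (ZMod p) k t • (ρ σ).mulVec x₁ +
          algebraMap (ZMod p) k (C.ω σ) • x₁ = 0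
        rw [Matrix.mulVec_mulVec, hCH, ht, ← hdet, Matrix.sub_mulVec, Matrix.smul_mulVec,
          Matrix.smul_mulVec, Matrix.one_mulVec]
        abel)
      rw [aeval_quad_field, hιv, hιv] at h7
      exact h7
    have hroot : ∀ σ : DC.I, Θ σ ^ e = 1 := by
      intro σ
      obtain ⟨t, ht⟩ := htr σ
      have h7 := hquad σ t ht
      rw [← hιv, ← hιv] at h7
      exact hpe2 _ (hΘ0 σ) (root_frob_sq (p := p) h7)
    by_cases hcase : Θ σ₀ ^ p = Θ σ₀
    · exact Or.inl ⟨x₁, hx₁, hleft hroot hcase⟩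
    · right
      obtain ⟨j, hj0, hjle, hj⟩ := hexp hroot
      refine ⟨fun σ hσ => ?_, ?_⟩
      · have h7 : Θ σ = 1 := by
          have h8 := (C.mem_JJ_iff DC.hϖ).mp hσ
          rw [hj, ← C.Th_apply DC.hϖ, h8, Units.val_one, C.r_one, one_pow]
        apply Matrix.ext_of_mulVec_single
        intro i
        rw [htrivW σ h7 _ (hW' _), Matrix.one_mulVec]
      · obtain ⟨t, ht⟩ := htr σ₀
        have h7 := hquad σ₀ t ht
        have hnF : ∀ a : ZMod p, Θ σ₀ ≠ ι a := by
          intro a ha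
          apply hcase
          rw [ha, ← map_pow, ZMod.pow_card]
        refine ⟨t, ht.symm, fun a ha => ?_, ?_⟩
        · have h8 : (Θ σ₀ - ι a) * (Θ σ₀ - ι (t - a)) = 0 := by
            have h9 := congrArg ι ha
            rw [map_add, map_sub, map_mul, map_pow, map_zero] at h9
            rw [map_sub]
            linear_combination h7 - h9
          rcases mul_eq_zero.mp h8 with h9 | h9
          · exact hnF a (sub_eq_zero.mp h9)
          · exact hnF _ (sub_eq_zero.mp h9)
        · -- reduce `X ^ p`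
          set w : ZMod p := (C.ω σ₀ : ZMod p) with hw
          let P₀ : (ZMod p)[X] := Polynomial.X ^ 2 - Polynomial.C t * Polynomial.X + Polynomial.C w
          have hP₀ : P₀.Monic := by
            have : P₀ = Polynomial.X ^ 2 + (- Polynomial.C t * Polynomial.X + Polynomial.C w) := by
              simp only [P₀]; ring
            rw [this]
            apply Polynomial.monic_X_pow_add
            have : (- Polynomial.C t * Polynomial.X + Polynomial.C w : (ZMod p)[X]) =
              Polynomial.C (-t) * Polynomial.X + Polynomial.C w := by simp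
            rw [this]
            exact lt_of_le_of_lt Polynomial.degree_linear_le (by norm_num)
          have hdeg : P₀.natDegree = 2 := by
            simp only [P₀]
            compute_degree!
          have hr : (Polynomial.X ^ p %ₘ P₀).natDegree ≤ 1 := by
            have h8 := Polynomial.natDegree_modByMonic_lt (Polynomial.X ^ p) hP₀ (by
              intro h9
              rw [h9, Polynomial.natDegree_one] at hdeg
              omega)
            rw [hdeg] at h8
            omega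
          obtain ⟨a, b, hab⟩ := Polynomial.exists_eq_X_add_C_of_natDegree_le_one hr
          have hdiv := Polynomial.modByMonic_add_div (Polynomial.X ^ p) P₀
          rw [hab] at hdiv
          -- evaluate at Θ
          have e1 := congrArg (Polynomial.eval₂ ι (Θ σ₀)) hdiv
          have e2 : Polynomial.eval₂ ι (Θ σ₀) P₀ = 0 := by
            simp only [P₀, Polynomial.eval₂_add, Polynomial.eval₂_sub, Polynomial.eval₂_mul,
              Polynomial.eval₂_pow, Polynomial.eval₂_X, Polynomial.eval₂_C]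
            exact h7
          rw [Polynomial.eval₂_add, Polynomial.eval₂_mul, e2, zero_mul, add_zero,
            Polynomial.eval₂_add, Polynomial.eval₂_mul, Polynomial.eval₂_C, Polynomial.eval₂_C,
            Polynomial.eval₂_X, Polynomial.eval₂_pow, Polynomial.eval₂_X] at e1
          have e3 : Θ σ₀ ^ p = ι t - Θ σ₀ := by
            have h8 := h7
            rw [← hιv t, ← hιv w] at h8
            have h9 := root_frob (p := p) h8
            rw [hιv, hιv] at h9
            have h10 : (Θ σ₀ - Θ σ₀ ^ p) * (Θ σ₀ + Θ σ₀ ^ p - ι t) = 0 := by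
              linear_combination h7 - h9
            have h11 := (mul_eq_zero.mp h10).resolve_left (sub_ne_zero.mpr (Ne.symm hcase))
            linear_combination h11
          have ha1 : a = -1 := by
            by_contra hne
            have h8 : a + 1 ≠ 0 := fun h0 => hne (by linear_combination h0)
            apply hnF ((t - b) / (a + 1))
            rw [map_div₀, eq_div_iff (by rw [ne_eq, map_eq_zero]; exact h8), map_sub, map_add,
              map_one]
            linear_combination e1 + e3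
          have hb1 : b = t := by
            apply ι.injective
            rw [ha1, map_neg, map_one] at e1
            linear_combination e1 + e3
          -- evaluate at the matrix
          have e4 := congrArg (Polynomial.aeval (ρ (DC.conj σ₀))) hdiv
          have e5 : Polynomial.aeval (ρ (DC.conj σ₀)) P₀ = 0 := by
            simp only [P₀, map_add, map_sub, map_mul, map_pow, Polynomial.aeval_X,
              Polynomial.aeval_C, Algebra.algebraMap_eq_smul_one, smul_mul_assoc, one_mul]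
            rw [pow_two, hCH, htconj, hdconj, ← ht, hdet, algebraMap_smul, algebraMap_smul]
            abel
          rw [map_add, map_mul, e5, zero_mul, add_zero, map_add, map_mul, Polynomial.aeval_C,
            Polynomial.aeval_X, Polynomial.aeval_C, map_pow, Polynomial.aeval_X, ← hMN, ha1, hb1,
            map_neg, map_one, neg_one_mul, Algebra.algebraMap_eq_smul_one] at e4
          rw [← e4, algebraMap_smul]
          abel
  · -- a line
    left
    have hfr : Module.finrank k W = 1 := by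
      have h2 : Module.finrank k W < 2 := by
        have := Submodule.finrank_lt hWt
        rwa [Module.finrank_fin_fun] at this
      have h3 : 0 < Module.finrank k W := by
        rw [Module.finrank_pos_iff_exists_ne_zero]
        exact ⟨⟨x₁, hx₁W⟩, fun h0 => hx₁ (congrArg Subtype.val h0)⟩
      omega
    have hline : ∀ y ∈ W, ∃ b : k, y = b • x₁ := by
      intro y hy
      obtain ⟨b, hb⟩ := (finrank_eq_one_iff_of_nonzero' (⟨x₁, hx₁W⟩ : W)
        (fun h0 => hx₁ (congrArg Subtype.val h0))).mp hfr ⟨y, hy⟩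
      exact ⟨b, (congrArg Subtype.val hb).symm⟩
    have hχ : ∀ σ : DC.I, ∃ b : k, (ρ σ).mulVec x₁ = b • x₁ := fun σ =>
      hline _ (Submodule.subset_span (hstabI σ _ hxc.1))
    obtain ⟨β, hβ⟩ : ∃ b : k, (ρ DC.φ).mulVec x₁ = b • x₁ :=
      hline _ (Submodule.subset_span (hstabφ _ hxc.1))
    have hβ0 : β ≠ 0 := by
      intro h0
      apply hx₁
      have h7 : (ρ DC.φ⁻¹).mulVec ((ρ DC.φ).mulVec x₁) = x₁ := by
        rw [Matrix.mulVec_mulVec, hφinv', Matrix.one_mulVec]
      rw [hβ, h0, zero_smul, Matrix.mulVec_zero] at h7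
      exact h7.symm
    have hΘp : ∀ σ : DC.I, Θ σ ^ p = Θ σ := by
      intro σ
      obtain ⟨b, hb⟩ := hχ σ
      obtain ⟨b', hb'⟩ := hχ (DC.conj σ)
      have h7 : b = b' := by
        have h8 := congrArg (fun M => M.mulVec x₁) (hρconj σ)
        simp only [← Matrix.mulVec_mulVec] at h8
        rw [hβ, hb', Matrix.mulVec_smul, Matrix.mulVec_smul, hb, hβ, smul_smul, smul_smul] at h8
        have h9 := smul_left_injective k hx₁ h8
        rw [mul_comm β b] at h9
        have h10 : b * β = b' * β := h9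
        exact mul_right_cancel₀ hβ0 h10
      have hpw : ∀ n : ℕ, (ρ (DC.conj σ) ^ n).mulVec x₁ = b' ^ n • x₁ := by
        intro n
        induction n with
        | zero => simp
        | succ n ih => rw [pow_succ, ← Matrix.mulVec_mulVec, hb', Matrix.mulVec_smul, ih,
            smul_smul, pow_succ, mul_comm]
      have h8 := hrelW σ x₁ hx₁W
      rw [hb, hpw, ← h7] at h8
      have h9 : b = b ^ p := smul_left_injective k hx₁ h8
      obtain ⟨a, ha⟩ := exists_of_pow_eq (p := p) h9.symm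
      have h10 := hscal' σ (Polynomial.X - Polynomial.C ((a.val : ℕ) : ℤ)) (by
        rw [Ctx.aeval_X_sub_end, hvs, ha, ← hb]; exact sub_self _)
      rw [map_sub, Polynomial.aeval_X, Polynomial.aeval_C, eq_intCast, hιv, sub_eq_zero] at h10
      rw [h10, ← map_pow, ZMod.pow_card]
    exact ⟨x₁, hx₁, hleft (fun σ => hpe1 _ (hΘ0 σ) (hΘp σ)) (hΘp σ₀)⟩

end DCtx

end Fermat.Agent.FlatLoc
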