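import Fermat.Agent.FlatLoc.KOrd

/-!
# The count in the ordinary case, with coefficients
-/

set_option autoImplicit false
set_option linter.unusedSectionVars false

universe u v w

namespace Fermat.Agent.FlatLoc

open Fermat.Agent.ECRed
open scoped Polynomial

variable {K : Type*} [Field K] {κ : Type*} [Field κ] {D : Type*} [Group D]
  [MulSemiringAction D K] {p : ℕ} [hp : Fact p.Prime] {ϖ : K} (DC : DCtx K κ D p ϖ)
  {k : Type*} [Field k] [Algebra (ZMod p) k] [Finite k]

/-- ranks add up -/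
lemma rank_le_addK {k : Type v} [Field k] {V : Type u} {W : Type w} [AddCommGroup V] [Module k V]
    [AddCommGroup W] [Module k W] (L : V →ₗ[k] W) {a b : ℕ}
    (ha : Module.rank k (LinearMap.range L) ≤ a)
    (hb : Module.rank k (LinearMap.ker L) ≤ b) : Module.rank k V ≤ (a + b : ℕ) := by
  have h := LinearMap.lift_rank_range_add_rank_ker L
  have h1 := add_le_add (Cardinal.lift_le_nat_iff.{w, u}.mpr ha) (Cardinal.lift_le_nat_iff.{u, w}.mpr hb)
  rw [h] at h1
  rw [← Cardinal.lift_le_nat_iff.{u, w}]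
  push_cast
  exact h1

namespace DCtx

variable {ρ : D →* Matrix (Fin 2) (Fin 2) k}

/-- restriction of a cocycle -/
lemma _root_.Fermat.Agent.FlatLoc.IsCock.res {ρ : D →* Matrix (Fin 2) (Fin 2) k}
    {c : D → Matrix (Fin 2) (Fin 2) k} (hc : IsCock ρ c) (I : Subgroup D) :
    IsCock (ρ.comp I.subtype) (fun σ : I => c σ) := fun σ τ => hc σ τ

/-- the space of flat cocycles -/
structure IsFlatSpaceK (DC : DCtx K κ D p ϖ) (ρ : D →* Matrix (Fin 2) (Fin 2) k)
    (Z : Submodule k (D → Matrix (Fin 2) (Fin 2) k)) : Prop where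
  coc : ∀ c ∈ Z, IsCock ρ c
  tr : ∀ c ∈ Z, ∀ σ, (c σ).trace = 0
  flat : ∀ c (hc : c ∈ Z), IsFlatMod DC.C.R (ext2 (ρ.comp DC.I.subtype) (fun σ => c σ)
    ((coc c hc).res DC.I))
  gen : ∀ c ∈ Z, (∀ σ ∈ DC.I, c σ = 0) → c DC.φ = 0 → c = 0

/-- **The count in the ordinary case** -/
theorem rankAK [IsAlgClosed κ] (hρ : IsOrdK DC.C (ρ.comp DC.I.subtype)) {σ₀ : DC.I}
    (hσ₀ : IsPrimitiveRoot (DC.C.Th DC.hϖ σ₀) (p ^ 2 - 1)) (hω : DC.C.ω σ₀ ≠ 1)
    (hs : ρ σ₀ 0 1 = 0)
    {Z : Submodule k (D → Matrix (Fin 2) (Fin 2) k)} (hZ : IsFlatSpaceK DC ρ Z) :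
    Module.rank k Z ≤ (4 : ℕ) := by
  have := DC.C.char
  set φ := DC.φ with hφ
  have hmul : ∀ (A B : Matrix (Fin 2) (Fin 2) k) i j, (A * B) i j = A i 0 * B 0 j + A i 1 * B 1 j :=
    fun A B i j => by rw [Matrix.mul_apply, Fin.sum_univ_two]
  have h00 : ∀ σ : DC.I, ρ σ 0 0 = algebraMap (ZMod p) k (DC.C.ω σ) := hρ.h00
  have h10 : ∀ σ : DC.I, ρ σ 1 0 = 0 := hρ.h10
  have h11 : ∀ σ : DC.I, ρ σ 1 1 = 1 := hρ.h11
  have hω' : algebraMap (ZMod p) k (DC.C.ω σ₀) ≠ 1 := fun h => hω (Units.ext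
    ((algebraMap (ZMod p) k).injective (by rw [h, Units.val_one, map_one])))
  -- `ρ φ` is upper triangular
  have hconj : ∀ σ : DC.I, (σ : D) * φ = φ * (DC.conj σ : D) := fun σ => by
    rw [conj_coe, ← hφ]; group
  have hρconj : ∀ σ : DC.I, ρ σ * ρ φ = ρ φ * ρ (DC.conj σ) := fun σ => by
    rw [← map_mul, hconj, map_mul]
  have hφ10 : ρ φ 1 0 = 0 := by
    have h1 := congrFun (congrFun (hρconj σ₀) 1) 0
    rw [hmul, hmul, h10, h10, h11, h00, DC.omega_conj] at h1
    have h2 : ρ φ 1 0 * (algebraMap (ZMod p) k (DC.C.ω σ₀) - 1) = 0 := by linear_combination -h1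
    exact (mul_eq_zero.mp h2).resolve_right (sub_ne_zero.mpr hω')
  have hdetφ : ρ φ 0 0 * ρ φ 1 1 ≠ 0 := by
    have h1 : (ρ φ).det * (ρ φ⁻¹).det = 1 := by
      rw [← Matrix.det_mul, ← map_mul, mul_inv_cancel, map_one, Matrix.det_one]
    have h2 := left_ne_zero_of_mul_eq_one h1
    rw [Matrix.det_fin_two, hφ10, mul_zero, sub_zero] at h2
    exact h2
  have hφ00 := left_ne_zero_of_mul hdetφ
  have hφ11 := right_ne_zero_of_mul hdetφ
  -- the filtration
  let L12 : Z →ₗ[k] ((k × k) × k) :=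
    { toFun := fun c => ((c.1 σ₀ 0 1, c.1 σ₀ 1 0), c.1 φ 0 0)
      map_add' := fun c d => rfl
      map_smul' := fun a c => rfl }
  let F := LinearMap.ker L12
  let _ : AddCommGroup F := Submodule.addCommGroup _
  let _ : Module k F := Submodule.module _
  have _ : IsScalarTower (ZMod p) k F := inferInstance
  let c : F → D → Matrix (Fin 2) (Fin 2) k := fun x => x.1.1
  have hcZ : ∀ x, c x ∈ Z := fun x => x.1.2
  have hc1 : ∀ x, c x σ₀ 0 1 = 0 ∧ c x σ₀ 1 0 = 0 := fun x =>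
    Prod.mk.inj (Prod.mk.inj (LinearMap.mem_ker.mp x.2)).1
  have hc2 : ∀ x, c x φ 0 0 = 0 := fun x => (Prod.mk.inj (LinearMap.mem_ker.mp x.2)).2
  have hord := fun x => ordK (hZ.flat _ (hcZ x)) hρ (fun σ => hZ.tr _ (hcZ x) σ) hω (hc1 x).2
  have hsh := fun x => (hord x).1
  choose hμ hfl using fun x => (hord x).2
  have hlev : ∀ x (L : k →ₗ[ZMod p] ZMod p),
      ∃ y, Kum DC.C ϖ (fun σ : DC.I => L (c x σ 0 1)) y ∧ Lv DC.C (p ^ 2 - 1) y := by
    intro x L
    by_cases hL : L = 0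
    · refine ⟨1, ⟨one_ne_zero, fun σ _ => ?_⟩, ?_⟩
      · rw [hL, smul_one]
        change (1 : K) = DC.C.ψ 0 * 1
        rw [AddChar.map_zero_eq_one, one_mul]
      · unfold Lv
        rw [one_pow, sub_self]
        exact OrdFn.Ge.zero
    · have h1 := DC.C.tri_lev DC.hϖ (hfl x L hL) hσ₀ (by rw [(hc1 x).1, map_zero])
      obtain ⟨y, hy, hyl⟩ := h1 1
      refine ⟨y, DC.C.kum_congr hy fun σ _ => ?_, hyl⟩
      change 1 * L (c x σ 0 1) = L (c x σ 0 1)
      rw [one_mul]
  have hp1 := hp.out.one_lt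
  have he4 : 4 ≤ p ^ 2 := by
    have : 2 ^ 2 ≤ p ^ 2 := Nat.pow_le_pow_left hp.out.two_le 2
    omega
  have hφtr : ∀ x, c x φ 1 1 = 0 := by
    intro x
    have h1 := hZ.tr _ (hcZ x) φ
    rw [Matrix.trace_fin_two] at h1
    rw [hc2 x, zero_add] at h1
    exact h1
  -- the Frobenius relation
  have hrel : ∀ x, ∀ σ : DC.I, c x σ * ρ σ * ρ φ + ρ σ * (c x φ * ρ φ) =
      c x φ * ρ φ * ρ (DC.conj σ) + ρ φ * (c x (DC.conj σ) * ρ (DC.conj σ)) := by
    intro x σ
    rw [← (hZ.coc _ (hcZ x)).mul_rho, ← (hZ.coc _ (hcZ x)).mul_rho, hconj]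
  have hfrob : ∀ x, ∀ σ ∈ JJ DC.I ϖ, c x σ 0 1 * ρ φ 1 1 = ρ φ 0 0 * c x (DC.conj σ) 0 1 := by
    intro x σ hσ
    have hσ' : DC.conj σ ∈ JJ DC.I ϖ := DC.frob.conj_mem hσ
    have hωσ : algebraMap (ZMod p) k (DC.C.ω σ) = 1 := by
      rw [DC.C.omega_JJ DC.hϖ hσ, Units.val_one, map_one]
    have e00 := congrFun (congrFun (hrel x σ) 0) 0
    have e01 := congrFun (congrFun (hrel x σ) 0) 1
    simp only [Matrix.add_apply, hmul, hφ10, h10, h11, h00, DC.omega_conj, hωσ,
      hc2 x, hφtr x, (hsh x σ).1, (hsh x σ).2.1, (hsh x σ).2.2,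
      (hsh x (DC.conj σ)).1, (hsh x (DC.conj σ)).2.1, (hsh x (DC.conj σ)).2.2] at e00 e01
    have h1 : ρ σ 0 1 * c x φ 1 0 = 0 := by
      have : (ρ σ 0 1 * c x φ 1 0) * ρ φ 0 0 = 0 := by linear_combination e00
      exact (mul_eq_zero.mp this).resolve_right hφ00
    linear_combination e01 - ρ φ 0 1 * h1
  -- the dual space
  let W := k →ₗ[ZMod p] ZMod p
  have hfink : Module.Finite (ZMod p) k := Module.Finite.of_finite
  have hfinW : Module.Finite (ZMod p) W := inferInstance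
  have hfW : Finite W := Module.finite_of_finite (ZMod p)
  let f : F → DC.I → (W →+ ZMod p) := fun x σ =>
    AddMonoidHom.mk' (fun L => L (c x σ 0 1)) fun L L' => rfl
  let γ : k := ρ φ 1 1 / ρ φ 0 0
  have hγ : γ ≠ 0 := div_ne_zero hφ11 hφ00
  let S : W → W := fun L => (DC.u : ZMod p) • (L.comp (LinearMap.mulLeft (ZMod p) γ))
  have hS : Function.Surjective S := by
    intro L
    refine ⟨(DC.u⁻¹ : (ZMod p)ˣ) • (L.comp (LinearMap.mulLeft (ZMod p) γ⁻¹)), ?_⟩
    ext z
    change (DC.u : ZMod p) • ((DC.u⁻¹ : (ZMod p)ˣ) • (L (γ⁻¹ * (γ * z)))) = L z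
    rw [← mul_assoc, inv_mul_cancel₀ hγ, one_mul, Units.smul_def, smul_eq_mul, smul_eq_mul,
      ← mul_assoc, Units.mul_inv, one_mul]
  obtain ⟨L3, hL3⟩ := DC.C.exists_Bk DC.hϖ (F := F) (f := f)
    (fun x x' σ => by
      refine AddMonoidHom.ext fun L => ?_
      change L (c x σ 0 1 + c x' σ 0 1) = L (c x σ 0 1) + L (c x' σ 0 1)
      rw [map_add])
    (i := p ^ 2 - 1) (by omega) (by nlinarith [Nat.sub_le (p ^ 2) 1]) Ctx.not_dvd_e hlev
    (σ₀ := σ₀) (T := 1) (fun x L y hy => by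
      have h1 := DC.C.tri_hT DC.hϖ (β := fun σ : DC.I => L (c x σ 0 1)) (hβ := hμ x L) (σ₀ := σ₀) (by rw [(hc1 x).1, map_zero]) 1 y
        (DC.C.kum_congr hy fun σ _ => by
          change L (c x σ 0 1) = 1 * L (c x σ 0 1)
          rw [one_mul])
      exact DC.C.kum_congr h1 fun σ _ => by
        change 1 * L (c x σ 0 1) = L (c x σ 0 1)
        rw [one_mul])
    (Q := Polynomial.X - 1) (by simp)
    (fun k hk hk' => Or.inr (by
      rw [map_sub, Polynomial.aeval_X, map_one]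
      intro h3
      have h4 := (DC.C.r_Th_prim DC.hϖ hσ₀).dvd_of_pow_eq_one k (sub_eq_zero.mp h3)
      obtain ⟨m, hm⟩ := h4
      have hm2 : 2 ≤ m := by
        by_contra hcon
        push Not at hcon
        have : (p ^ 2 - 1) * m ≤ (p ^ 2 - 1) * 1 := Nat.mul_le_mul_left _ (by omega)
        omega
      have h5 : (p ^ 2 - 1) * 2 ≤ (p ^ 2 - 1) * m := Nat.mul_le_mul_left _ hm2
      have h6 := DC.C.two_lt_nat
      have h7 : p * (p + 1) = p ^ 2 + p := by ring
      have h8 : 3 * p ≤ p ^ 2 := by nlinarith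
      omega))
    DC.frob (S := S) (fun x L σ hσ => by
      change (DC.u : ZMod p) • L (γ * c x σ 0 1) = DC.u * L (c x (DC.conj σ) 0 1)
      have h1 := hfrob x σ hσ
      have h2 : γ * c x σ 0 1 = c x (DC.conj σ) 0 1 := by
        change ρ φ 1 1 / ρ φ 0 0 * c x σ 0 1 = _
        field_simp
        linear_combination h1
      rw [h2, smul_eq_mul])
  have hker : ∀ x, L3 x = 0 → x = 0 := by
    intro x hx
    have hJ : ∀ σ ∈ JJ DC.I ϖ, c x σ 0 1 = 0 := by
      intro σ hσ
      refine eq_zero_of_lin (p := p) fun L => ?_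
      exact DFunLike.congr_fun (hL3 x hx σ hσ) L
    have hμ' : ∀ σ τ : DC.I, c x (σ * τ : DC.I) 0 1 =
        algebraMap (ZMod p) k (DC.C.ω σ) * c x τ 0 1 + c x σ 0 1 := by
      intro σ τ
      rw [← sub_eq_zero]
      refine eq_zero_of_lin (p := p) fun L => ?_
      have h1 := hμ x L σ τ
      rw [MonoidHom.one_apply, Units.val_one, mul_one] at h1
      rw [map_sub, map_add, lin_alg_mul, sub_eq_zero]
      exact h1
    have hpow : ∀ k : ℕ, c x ((σ₀ ^ k : DC.I) : D) 0 1 = 0 := by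
      intro k
      induction k with
      | zero =>
        rw [pow_zero, OneMemClass.coe_one, (hZ.coc _ (hcZ x)).one]; rfl
      | succ k ih =>
        have h1 := hμ' (σ₀ ^ k) σ₀
        rw [pow_succ]
        rw [h1, (hc1 x).1, ih]; simp
    have hI01 : ∀ σ : DC.I, c x σ 0 1 = 0 := by
      intro σ
      obtain ⟨τ, k, hτ, rfl⟩ := DC.exists_JJ_mul hσ₀ σ
      rw [hμ' τ (σ₀ ^ k), hpow, hJ τ hτ]; simp
    have hI : ∀ σ : DC.I, c x σ = 0 := by
      intro σ
      ext i j
      fin_cases i <;> fin_cases j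
      · exact (hsh x σ).2.2
      · exact hI01 σ
      · exact (hsh x σ).1
      · exact (hsh x σ).2.1
    have hφ0 : c x φ = 0 := by
      have h1 := hrel x σ₀
      rw [hI, hI] at h1
      simp only [zero_mul, mul_zero, zero_add, add_zero] at h1
      have e01 := congrFun (congrFun h1 0) 1
      have e10 := congrFun (congrFun h1 1) 0
      simp only [hmul, hφ10, h10, h11, h00, DC.omega_conj, hc2 x, hφtr x, hs] at e01 e10
      have k1 : c x φ 0 1 = 0 := by
        have : (c x φ 0 1 * ρ φ 1 1) * (algebraMap (ZMod p) k (DC.C.ω σ₀) - 1) = 0 := by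
          linear_combination e01
        exact (mul_eq_zero.mp ((mul_eq_zero.mp this).resolve_right (sub_ne_zero.mpr hω'))).resolve_right hφ11
      have k2 : c x φ 1 0 = 0 := by
        have : (c x φ 1 0 * ρ φ 0 0) * (algebraMap (ZMod p) k (DC.C.ω σ₀) - 1) = 0 := by
          linear_combination -e10
        exact (mul_eq_zero.mp ((mul_eq_zero.mp this).resolve_right (sub_ne_zero.mpr hω'))).resolve_right hφ00
      ext i j
      fin_cases i <;> fin_cases j
      · exact hc2 x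
      · exact k1
      · exact k2
      · exact hφtr x
    have h1 : c x = 0 := hZ.gen _ (hcZ x) (fun σ hσ => hI ⟨σ, hσ⟩) hφ0
    apply Subtype.ext
    apply Subtype.ext
    exact h1
  -- the last step has rank at most one
  have hinj : Function.Injective L3 := by
    rw [injective_iff_map_eq_zero]
    exact hker
  have hrW : Module.finrank (ZMod p) W = Module.finrank (ZMod p) k := Subspace.dual_finrank_eq
  have hrS : Module.rank (ZMod p) (FSol p κ S) ≤ Module.finrank (ZMod p) W := rank_FSol hS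
  have hfS : Module.Finite (ZMod p) (FSol p κ S) := by
    have : Module.Free (ZMod p) (FSol p κ S) := Module.Free.of_divisionRing _ _
    rw [← Module.rank_lt_aleph0_iff]
    exact hrS.trans_lt Cardinal.natCast_lt_aleph0
  have hfF : Module.Finite (ZMod p) F := Module.Finite.of_injective L3 hinj
  have hrF : Module.finrank (ZMod p) F ≤ Module.finrank (ZMod p) k := by
    refine (LinearMap.finrank_le_finrank_of_injective hinj).trans ?_
    rw [← hrW]
    rw [← Module.finrank_eq_rank] at hrS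
    exact_mod_cast hrS
  have hfFk : Module.Finite k F := Module.Finite.of_restrictScalars_finite (ZMod p) k F
  have hFk : Module.rank k F ≤ (1 : ℕ) := by
    have h1 := Module.finrank_mul_finrank (ZMod p) k F
    have h2 : 0 < Module.finrank (ZMod p) k := Module.finrank_pos
    have h3 : Module.finrank k F ≤ 1 := by
      by_contra hcon
      push Not at hcon
      have h4 : Module.finrank (ZMod p) k * 2 ≤ Module.finrank (ZMod p) k * Module.finrank k F :=
        Nat.mul_le_mul_left _ hcon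
      omega
    rw [← Module.finrank_eq_rank]
    exact_mod_cast h3
  exact rank_le_addK L12 (a := 3) (b := 1) ((Submodule.rank_le _).trans (by
    rw [rank_prod', rank_prod']; simp; norm_num)) hFk

end DCtx

end Fermat.Agent.FlatLoc
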