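import Fermat.Agent.FlatLoc.KSS

/-!
# The flat bound for representations of `G_ℚ` over finite fields
-/

set_option autoImplicit false
set_option linter.unusedSectionVars false

noncomputable section

namespace Fermat.Agent.FlatLoc

open Fermat.Agent.ECRed IsLocalRing
open scoped Polynomial Pointwise

local notation "Qbar" => AlgebraicClosure ℚ
local notation "GQ" => (AlgebraicClosure ℚ ≃ₐ[ℚ] AlgebraicClosure ℚ)

variable {p : ℕ} [hp : Fact p.Prime]

/-- the levels of the decomposition group -/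
def levD {A : ValuationSubring Qbar} (hA : A.LiesOverPrime p) (hp2 : p ≠ 2) {ϖ : Qbar}
    (hϖ : ϖ ^ (p ^ 2 - 1) = p) {φ : DD A} (hφ : A.IsFrobeniusAt (φ : GQ) p) (hφϖ : φ • ϖ = ϖ) :
    (dctx hA hp2 hϖ hφ hφϖ).LevSys where
  L := {N | ∃ K₀ : IntermediateField ℚ Qbar, FiniteDimensional ℚ K₀ ∧
    ∀ σ : DD A, (∀ x ∈ K₀, (σ : GQ) x = x) ↔ σ ∈ N}
  ne := ⟨(⊥ : IntermediateField ℚ Qbar).fixingSubgroup.comap (A.decompositionSubgroup ℚ).subtype,
    ⊥, inferInstance, fun σ => by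
      rw [Subgroup.mem_comap, IntermediateField.mem_fixingSubgroup_iff]; rfl⟩
  inf := by
    rintro N ⟨K, hK, h⟩ N' ⟨K', hK', h'⟩
    refine ⟨K ⊔ K', inferInstance, fun σ => ?_⟩
    constructor
    · intro hσ
      exact ⟨(h σ).mp fun x hx => hσ x ((le_sup_left : K ≤ K ⊔ K') hx),
        (h' σ).mp fun x hx => hσ x ((le_sup_right : K' ≤ K ⊔ K') hx)⟩
    · rintro ⟨h1, h2⟩
      have e1 := (h σ).mpr h1
      have e2 := (h' σ).mpr h2
      have e3 : (σ : GQ) ∈ (K ⊔ K').fixingSubgroup := by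
        rw [IntermediateField.fixingSubgroup_sup]
        exact ⟨(IntermediateField.mem_fixingSubgroup_iff _ _).mpr e1,
          (IntermediateField.mem_fixingSubgroup_iff _ _).mpr e2⟩
      exact (IntermediateField.mem_fixingSubgroup_iff _ _).mp e3
  dec := by
    rintro N ⟨K₀, hK₀, h⟩ g
    obtain ⟨k, σ, hσ, hk⟩ := TWGal.exists_frob_mul_inertia hp.out hA hφ g.2 K₀
    obtain ⟨τ, hτ, rfl⟩ := hσ
    set Φ : DD A := (dctx hA hp2 hϖ hφ hφϖ).φ with hΦ
    refine ⟨k, τ, hτ, (Φ ^ k * τ)⁻¹ * g, (h _).mp fun x hx => ?_, by group⟩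
    change ((((φ : GQ) ^ k * (τ : GQ))⁻¹ * (g : GQ) : GQ)) x = x
    rw [AlgEquiv.mul_apply, ← hk x hx]
    exact inv_smul_smul ((φ : GQ) ^ k * (τ : GQ)) x

section k

variable {k : Type*} [Field k] [Algebra (ZMod p) k] [Finite k]

/-- global flat cocycles with values in `M₂(k)` -/
structure GFK (p : ℕ) (ρ : GQ →* Matrix (Fin 2) (Fin 2) k)
    (C : GQ → Matrix (Fin 2) (Fin 2) k) : Prop where
  coc : IsCock ρ C
  tr : ∀ σ, (C σ).trace = 0
  lev : FinLev C 0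
  flat : IsFlatMod (Zloc p) (ext2 ρ C coc)

/-- **The flat bound, general coefficients** -/
theorem flat_bound_gen (hp2 : p ≠ 2) {A : ValuationSubring Qbar} (hA : A.LiesOverPrime p)
    {ρ : GQ →* Matrix (Fin 2) (Fin 2) k}
    (hdet : ∀ σ : DD A, (ρ σ).det = algebraMap (ZMod p) k (cyc p (σ : GQ))) (hρ : FinLev ρ 1)
    (S : Submodule k (DD A → Matrix (Fin 2) (Fin 2) k))
    (hS : ∀ c ∈ S, ∃ C : GQ → Matrix (Fin 2) (Fin 2) k, GFK p ρ C ∧ ∀ σ : DD A, c σ = C σ) :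
    Module.rank k S ≤ (4 : ℕ) := by
  obtain ⟨ϖ, hϖ⟩ := exists_varpi p
  obtain ⟨φ, hφ, hφϖ⟩ := exists_frob_fix hA hp2 hϖ
  have : IsAlgClosed (ResidueField A) := GoodRed.isAlgClosed_residueField A
  set DC := dctx hA hp2 hϖ hφ hφϖ with hDC
  let Λ : DC.LevSys := levD hA hp2 hϖ hφ hφϖ
  have hlev : ∀ {X : Type _} (f : GQ → X) (a : X), FinLev f a → Λ.Lev (fun σ : DD A => f σ) a := by
    intro X f a hf
    obtain ⟨K₀, hK₀, h⟩ := hf
    refine ⟨K₀.fixingSubgroup.comap (A.decompositionSubgroup ℚ).subtype, ⟨K₀, hK₀, fun σ => ?_⟩,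
      fun g hg => ?_⟩
    · rw [Subgroup.mem_comap, IntermediateField.mem_fixingSubgroup_iff]; rfl
    · rw [Subgroup.mem_comap, IntermediateField.mem_fixingSubgroup_iff] at hg
      exact h g hg
  have hle : Zloc p ≤ DC.RD := by
    intro z hz
    have h := (mem_Zloc_iff hp.out hA z).mp hz
    exact ⟨fun σ => h.1 ((σ : DD A) : GQ), h.2⟩
  refine DCtx.rank_le_fourK Λ (ρ := ρ.comp (A.decompositionSubgroup ℚ).subtype) ?_ ?_ ?_ ?_
  · intro σ
    exact hdet σ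
  · exact hlev _ _ hρ
  · exact ⟨_, hdet DC.φ⟩
  · intro c hc
    obtain ⟨C, hC, hcC⟩ := hS c hc
    obtain rfl : c = fun σ : DD A => C σ := funext hcC
    refine ⟨fun σ τ => hC.coc σ τ, fun σ => hC.tr σ, hlev _ _ hC.lev, ?_⟩
    exact hC.flat.baseChange hle (A.decompositionSubgroup ℚ).subtype (fun σ z => rfl)
      (fun r hr σ => hr.1 σ)

end k

end Fermat.Agent.FlatLoc
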