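import Fermat.Agent.FlatLoc.KClass
import Fermat.Agent.FlatLoc.Final2

/-!
# The flat bound with coefficients: reductions
-/

set_option autoImplicit false
set_option linter.unusedSectionVars false

namespace Fermat.Agent.FlatLoc

open Fermat.Agent.ECRed
open scoped Polynomial

section conj

variable {k : Type*} [Field k] {Γ : Type*} [Group Γ]

/-- change of basis -/
structure Chg (P Q : Matrix (Fin 2) (Fin 2) k) : Prop where
  pq : P * Q = 1
  qp : Q * P = 1

variable {P Q : Matrix (Fin 2) (Fin 2) k}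

lemma Chg.of_det (h : P.det ≠ 0) : Chg P P⁻¹ :=
  ⟨Matrix.mul_nonsing_inv P (isUnit_iff_ne_zero.mpr h),
    Matrix.nonsing_inv_mul P (isUnit_iff_ne_zero.mpr h)⟩

/-- conjugate representation -/
def Chg.rep (h : Chg P Q) (ρ : Γ →* Matrix (Fin 2) (Fin 2) k) :
    Γ →* Matrix (Fin 2) (Fin 2) k where
  toFun σ := Q * ρ σ * P
  map_one' := by rw [map_one, mul_one, h.qp]
  map_mul' σ τ := by
    rw [map_mul]
    calc Q * (ρ σ * ρ τ) * P = Q * ρ σ * 1 * ρ τ * P := by simp only [mul_one, mul_assoc]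
      _ = Q * ρ σ * (P * Q) * ρ τ * P := by rw [h.pq]
      _ = _ := by simp only [mul_assoc]

@[simp] lemma Chg.rep_apply (h : Chg P Q) (ρ : Γ →* Matrix (Fin 2) (Fin 2) k) (σ : Γ) :
    h.rep ρ σ = Q * ρ σ * P := rfl

lemma Chg.det (h : Chg P Q) (M : Matrix (Fin 2) (Fin 2) k) : (Q * M * P).det = M.det := by
  have h1 := congrArg Matrix.det h.pq
  rw [Matrix.det_mul, Matrix.det_one] at h1
  rw [Matrix.det_mul, Matrix.det_mul]
  linear_combination M.det * h1

lemma Chg.trace (h : Chg P Q) (M : Matrix (Fin 2) (Fin 2) k) : (Q * M * P).trace = M.trace := by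
  rw [Matrix.trace_mul_comm, ← mul_assoc, h.pq, one_mul]

variable {ρ : Γ →* Matrix (Fin 2) (Fin 2) k} {c : Γ → Matrix (Fin 2) (Fin 2) k}

lemma Chg.cock (h : Chg P Q) (hc : IsCock ρ c) : IsCock (h.rep ρ) (fun σ => Q * c σ * P) := by
  intro σ τ
  beta_reduce
  rw [hc σ τ, h.rep_apply, h.rep_apply, mul_add, add_mul]
  congr 1
  calc Q * (ρ σ * c τ * ρ σ⁻¹) * P = Q * ρ σ * 1 * c τ * 1 * ρ σ⁻¹ * P := by
        simp only [mul_one, mul_assoc]
    _ = Q * ρ σ * (P * Q) * c τ * (P * Q) * ρ σ⁻¹ * P := by rw [h.pq]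
    _ = _ := by simp only [mul_assoc]

/-- the linear equivalence on functions -/
def Chg.lin (h : Chg P Q) : (Γ → Matrix (Fin 2) (Fin 2) k) ≃ₗ[k] (Γ → Matrix (Fin 2) (Fin 2) k) where
  toFun c σ := Q * c σ * P
  invFun c σ := P * c σ * Q
  map_add' c c' := by
    funext σ
    simp only [Pi.add_apply, mul_add, add_mul]
  map_smul' a c := by
    funext σ
    simp only [Pi.smul_apply, RingHom.id_apply, Matrix.mul_smul, Matrix.smul_mul]
  left_inv c := by
    funext σ
    calc P * (Q * c σ * P) * Q = (P * Q) * c σ * (P * Q) := by simp only [mul_assoc]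
      _ = c σ := by rw [h.pq, one_mul, mul_one]
  right_inv c := by
    funext σ
    calc Q * (P * c σ * Q) * P = (Q * P) * c σ * (Q * P) := by simp only [mul_assoc]
      _ = c σ := by rw [h.qp, one_mul, mul_one]

@[simp] lemma Chg.lin_apply (h : Chg P Q) (c : Γ → Matrix (Fin 2) (Fin 2) k) (σ : Γ) :
    h.lin c σ = Q * c σ * P := rfl

variable {K : Type*} [Field K] [MulSemiringAction Γ K] {R : Subring K}

lemma Chg.flat (h : Chg P Q) {hc : IsCock ρ c} (hf : IsFlatMod R (ext2 ρ c hc)) :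
    IsFlatMod R (ext2 (h.rep ρ) (fun σ => Q * c σ * P) (h.cock hc)) := by
  refine hf.sub (AddMonoidHom.mk' (fun x => (P.mulVec x.1, P.mulVec x.2)) fun x y => by
    ext1 <;> simp [Matrix.mulVec_add]) ?_ ?_
  · intro x y hxy
    have h1 := Prod.mk.inj hxy
    ext1
    · have := congrArg Q.mulVec h1.1
      rwa [Matrix.mulVec_mulVec, Matrix.mulVec_mulVec, h.qp, Matrix.one_mulVec,
        Matrix.one_mulVec] at this
    · have := congrArg Q.mulVec h1.2
      rwa [Matrix.mulVec_mulVec, Matrix.mulVec_mulVec, h.qp, Matrix.one_mulVec,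
        Matrix.one_mulVec] at this
  · intro σ x
    have e1 : P * (Q * ρ σ * P) = ρ σ * P := by
      rw [← mul_assoc, ← mul_assoc, h.pq, one_mul]
    have e2 : P * (Q * c σ * P * (Q * ρ σ * P)) = c σ * ρ σ * P := by
      calc P * (Q * c σ * P * (Q * ρ σ * P)) = (P * Q) * c σ * (P * Q) * ρ σ * P := by
            simp only [mul_assoc]
        _ = _ := by rw [h.pq, one_mul, mul_one]
    change (P.mulVec ((Q * ρ σ * P).mulVec x.1), P.mulVec ((Q * c σ * P * (Q * ρ σ * P)).mulVec x.1 +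
      (Q * ρ σ * P).mulVec x.2)) = ((ρ σ).mulVec (P.mulVec x.1), (c σ * ρ σ).mulVec (P.mulVec x.1) +
      (ρ σ).mulVec (P.mulVec x.2))
    rw [Matrix.mulVec_add]
    simp only [Matrix.mulVec_mulVec]
    rw [e1, e2]

/-- the residual representation is flat -/
lemma flat_vk {hc : IsCock ρ c} (hf : IsFlatMod R (ext2 ρ c hc)) : IsFlatMod R (vk ρ) := by
  refine hf.sub (AddMonoidHom.inr _ _) ?_ ?_
  · intro x y hxy
    exact (Prod.mk.inj hxy).2
  · intro σ x
    change ((0 : Fin 2 → k), (ρ σ).mulVec x) = ((ρ σ).mulVec 0, (c σ * ρ σ).mulVec 0 + (ρ σ).mulVec x)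
    simp

end conj

variable {K : Type*} [Field K] {κ : Type*} [Field κ] {D : Type*} [Group D]
  [MulSemiringAction D K] {p : ℕ} [hp : Fact p.Prime] {ϖ : K} (DC : DCtx K κ D p ϖ)
  {k : Type*} [Field k] [Algebra (ZMod p) k] [Finite k]

namespace DCtx

/-- the base ring of the full group -/
def RD : Subring K where
  carrier := {z | (∀ σ : D, σ • z = z) ∧ DC.C.v.Ge 0 z}
  mul_mem' ha hb := ⟨fun σ => by rw [smul_mul', ha.1, hb.1], by
    have := OrdFn.Ge.mul ha.2 hb.2; rwa [add_zero] at this⟩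
  one_mem' := ⟨fun σ => smul_one σ, OrdFn.eq_one.ge⟩
  add_mem' ha hb := ⟨fun σ => by rw [smul_add, ha.1, hb.1], ha.2.add hb.2⟩
  zero_mem' := ⟨fun σ => smul_zero σ, OrdFn.Ge.zero⟩
  neg_mem' ha := ⟨fun σ => by rw [smul_neg, ha.1], ha.2.neg⟩

lemma mem_RD {z : K} : z ∈ DC.RD ↔ (∀ σ : D, σ • z = z) ∧ DC.C.v.Ge 0 z := Iff.rfl

lemma RD_le : DC.RD ≤ DC.C.R := fun z hz =>
  (DC.C.mem_R z).mpr ⟨fun σ => hz.1 σ, hz.2⟩

lemma isBase_RD : IsBase D DC.RD := by
  have := DC.C.charZero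
  exact isBase_of_val (v := DC.C.v) hp.out.ne_zero DC.C.vp (fun z => Iff.rfl)
    (fun z hz h => DC.C.int_val z hz fun σ => h σ)

/-- a system of levels -/
structure LevSys (DC : DCtx K κ D p ϖ) where
  L : Set (Subgroup D)
  ne : L.Nonempty
  inf : ∀ N ∈ L, ∀ N' ∈ L, N ⊓ N' ∈ L
  dec : ∀ N ∈ L, ∀ g : D, ∃ n : ℕ, ∃ σ ∈ DC.I, ∃ g' ∈ N, g = DC.φ ^ n * σ * g'

variable {DC}

/-- functions with a level -/
def LevSys.Lev (Λ : LevSys DC) {X : Type*} (f : D → X) (a : X) : Prop := ∃ N ∈ Λ.L, ∀ g ∈ N, f g = a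

lemma LevSys.Lev.prod {Λ : LevSys DC} {X Y : Type*} {f : D → X} {a : X} {g : D → Y} {b : Y}
    (hf : Λ.Lev f a) (hg : Λ.Lev g b) : Λ.Lev (fun σ => (f σ, g σ)) (a, b) := by
  obtain ⟨N, hN, h⟩ := hf
  obtain ⟨N', hN', h'⟩ := hg
  exact ⟨N ⊓ N', Λ.inf _ hN _ hN', fun σ hσ => Prod.ext (h σ hσ.1) (h' σ hσ.2)⟩

lemma LevSys.Lev.comp {Λ : LevSys DC} {X Y : Type*} {f : D → X} {a : X} (hf : Λ.Lev f a)
    (g : X → Y) : Λ.Lev (fun σ => g (f σ)) (g a) := by
  obtain ⟨N, hN, h⟩ := hf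
  exact ⟨N, hN, fun σ hσ => congrArg g (h σ hσ)⟩

lemma LevSys.Lev.const {Λ : LevSys DC} {X : Type*} (a : X) : Λ.Lev (fun _ : D => a) a := by
  obtain ⟨N, hN⟩ := Λ.ne
  exact ⟨N, hN, fun _ _ => rfl⟩

/-- flat cocycles with a level -/
structure FK (Λ : LevSys DC) (ρ : D →* Matrix (Fin 2) (Fin 2) k) (c : D → Matrix (Fin 2) (Fin 2) k) :
    Prop where
  coc : IsCock ρ c
  tr : ∀ σ, (c σ).trace = 0
  lev : Λ.Lev c 0
  flat : IsFlatMod DC.RD (ext2 ρ c coc)

/-- a cocycle is determined by its values on inertia and at Frobenius -/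
lemma FK.gen {Λ : LevSys DC} {ρ : D →* Matrix (Fin 2) (Fin 2) k}
    {c : D → Matrix (Fin 2) (Fin 2) k} (hc : IsCock ρ c) (hl : Λ.Lev c 0)
    (h1 : ∀ σ ∈ DC.I, c σ = 0) (h2 : c DC.φ = 0) : c = 0 := by
  obtain ⟨N, hN, h⟩ := hl
  funext g
  obtain ⟨n, σ, hσ, g', hg', rfl⟩ := Λ.dec N hN g
  have hcφ : ∀ n : ℕ, c (DC.φ ^ n) = 0 := by
    intro n
    induction n with
    | zero => rw [pow_zero]; exact hc.one
    | succ n ih => rw [pow_succ, hc, ih, h2]; simp
  rw [hc, hc, hcφ, h1 σ hσ, h g' hg']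
  simp

lemma FK.space {Λ : LevSys DC} {ρ : D →* Matrix (Fin 2) (Fin 2) k}
    {Z : Submodule k (D → Matrix (Fin 2) (Fin 2) k)} (hZ : ∀ c ∈ Z, FK Λ ρ c) :
    IsFlatSpaceK DC ρ Z where
  coc c hc := (hZ c hc).coc
  tr c hc := (hZ c hc).tr
  flat c hc := (hZ c hc).flat.baseChange DC.RD_le DC.I.subtype (fun σ z => rfl)
    (fun r hr σ => ((DC.C.mem_R r).mp hr).1 σ)
  gen c hc h1 h2 := FK.gen (hZ c hc).coc (hZ c hc).lev h1 h2

lemma FK.conj {Λ : LevSys DC} {ρ : D →* Matrix (Fin 2) (Fin 2) k}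
    {c : D → Matrix (Fin 2) (Fin 2) k} {P Q : Matrix (Fin 2) (Fin 2) k} (h : Chg P Q)
    (hc : FK Λ ρ c) : FK Λ (h.rep ρ) (h.lin c) where
  coc := h.cock hc.coc
  tr σ := by rw [Chg.lin_apply, h.trace, hc.tr]
  lev := by
    have h7 : Λ.Lev (h.lin c) (Q * 0 * P) := hc.lev.comp (fun M => Q * M * P)
    rwa [mul_zero, zero_mul] at h7
  flat := h.flat hc.flat

lemma rank_conj {Λ : LevSys DC} {ρ : D →* Matrix (Fin 2) (Fin 2) k}
    {Z : Submodule k (D → Matrix (Fin 2) (Fin 2) k)} (hZ : ∀ c ∈ Z, FK Λ ρ c)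
    {P Q : Matrix (Fin 2) (Fin 2) k} (h : Chg P Q) {n : ℕ}
    (H : ∀ Z' : Submodule k (D → Matrix (Fin 2) (Fin 2) k), (∀ c ∈ Z', FK Λ (h.rep ρ) c) →
      Module.rank k Z' ≤ n) : Module.rank k Z ≤ n := by
  have h1 := H (Z.map (h.lin (Γ := D)).toLinearMap) (by
    rintro _ ⟨c, hc, rfl⟩
    exact (hZ c hc).conj h)
  have h2 := LinearEquiv.rank_eq ((h.lin (Γ := D)).submoduleMap Z)
  rw [h2]
  exact h1

/-! ### representations over the prime field -/

/-- flat cocycles over the prime field -/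
structure F1 (Λ : LevSys DC) (ρ : D →* Matrix (Fin 2) (Fin 2) (ZMod p))
    (c : D → Matrix (Fin 2) (Fin 2) (ZMod p)) : Prop where
  tr : ∀ σ, (c σ).trace = 0
  lev : Λ.Lev c 0
  flat : FlatR DC.RD ρ c

/-- the group of flat cocycles -/
def F1G (Λ : LevSys DC) (ρ : D →* Matrix (Fin 2) (Fin 2) (ZMod p)) (hV : IsFlatMod DC.RD (vb ρ)) :
    AddSubgroup (D → Matrix (Fin 2) (Fin 2) (ZMod p)) where
  carrier := {c | F1 Λ ρ c}
  add_mem' {c c'} h h' :=
    { tr := fun σ => by
        have e1 : (c σ).trace = 0 := h.tr σ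
        have e2 : (c' σ).trace = 0 := h'.tr σ
        rw [Pi.add_apply, Matrix.trace_add, e1, e2, add_zero]
      lev := by
        have h7 : Λ.Lev (c + c') (0 + 0) := (LevSys.Lev.prod h.lev h'.lev).comp (fun q => q.1 + q.2)
        rwa [add_zero] at h7
      flat := h.flat.add DC.isBase_RD h'.flat }
  zero_mem' :=
    { tr := fun σ => by simp
      lev := LevSys.Lev.const 0
      flat := FlatR.zero DC.isBase_RD hV }
  neg_mem' {c} h :=
    { tr := fun σ => by
        have e1 : (c σ).trace = 0 := h.tr σ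
        rw [Pi.neg_apply, Matrix.trace_neg, e1, neg_zero]
      lev := by
        have h7 : Λ.Lev (-c) (-0) := h.lev.comp (fun q => -q)
        rwa [neg_zero] at h7
      flat := h.flat.neg DC.isBase_RD }

theorem rank_F1 [IsAlgClosed κ] (Λ : LevSys DC) {ρ : D →* Matrix (Fin 2) (Fin 2) (ZMod p)}
    (hdet : ∀ σ : DC.I, (ρ σ).det = DC.C.ω σ) (hV : IsFlatMod DC.RD (vb ρ)) :
    Module.rank (ZMod p) (AddSubgroup.toZModSubmodule p (F1G Λ ρ hV)) ≤ (4 : ℕ) := by
  refine DC.rank_le_four hdet ⟨?_, ?_, ?_, ?_⟩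
  · intro c hc
    have h : F1 Λ ρ c := hc
    exact h.flat.1
  · intro c hc
    have h : F1 Λ ρ c := hc
    exact h.tr
  · intro c hc
    have h : F1 Λ ρ c := hc
    obtain ⟨hcoc, hfl⟩ := h.flat
    refine ⟨fun σ τ => hcoc _ _, ?_⟩
    exact hfl.baseChange DC.RD_le DC.I.subtype (fun σ z => rfl)
      (fun r hr σ => ((DC.C.mem_R r).mp hr).1 σ)
  · intro c hc h1 h2
    have h : F1 Λ ρ c := hc
    obtain ⟨hcoc, -⟩ := h.flat
    obtain ⟨N, hN, hl⟩ := h.lev
    funext g
    obtain ⟨n, σ, hσ, g', hg', rfl⟩ := Λ.dec N hN g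
    have hcφ : ∀ n : ℕ, c (DC.φ ^ n) = 0 := by
      intro n
      induction n with
      | zero => rw [pow_zero]; exact hcoc.one
      | succ n ih => rw [pow_succ, hcoc, ih, h2]; simp
    rw [hcoc, hcoc, hcφ, h1 σ hσ, hl g' hg']
    simp

theorem rank_FpK [IsAlgClosed κ] (Λ : LevSys DC) {ρ : D →* Matrix (Fin 2) (Fin 2) (ZMod p)}
    (hdet : ∀ σ : DC.I, (ρ σ).det = DC.C.ω σ)
    {S : Submodule k (D → Matrix (Fin 2) (Fin 2) k)} (hS : ∀ c ∈ S, FK Λ (rk k ρ) c) :
    Module.rank k S ≤ (4 : ℕ) := by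
  classical
  have hV : IsFlatMod DC.RD (vb ρ) := (hS 0 S.zero_mem).flat.of_ext2_res
  have hb := rank_F1 Λ hdet hV
  set Z := AddSubgroup.toZModSubmodule p (F1G Λ ρ hV) with hZ
  have hfree : Module.Free (ZMod p) Z := Module.Free.of_divisionRing _ _
  have : Module.Finite (ZMod p) Z := by
    rw [← Module.rank_lt_aleph0_iff]
    exact hb.trans_lt (Cardinal.natCast_lt_aleph0)
  have hfr : Module.finrank (ZMod p) Z ≤ 4 := by
    rw [← Module.finrank_eq_rank] at hb
    exact_mod_cast hb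
  let b := Module.finBasis (ZMod p) Z
  let ι : (D → Matrix (Fin 2) (Fin 2) (ZMod p)) → (D → Matrix (Fin 2) (Fin 2) k) :=
    fun c σ => (c σ).map (algebraMap (ZMod p) k)
  have hfin : Module.Finite (ZMod p) k := Module.Finite.of_finite
  let e := Module.finBasis (ZMod p) k
  have hle : S ≤ Submodule.span k (Set.range fun i => ι (b i)) := by
    intro c hc
    have hC := hS c hc
    have h1 : ∀ i, (fun σ => (c σ).map (e.coord i)) ∈ Z := by
      intro i
      change F1 Λ ρ _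
      refine F1.mk (fun σ => ?_) ?_ (FlatR.of_ext2 DC.isBase_RD hC.flat (e.coord i))
      · rw [← AddMonoidHom.map_trace (e.coord i), hC.tr, map_zero]
      · have h7 : Λ.Lev (fun σ => (c σ).map (e.coord i)) ((0 : Matrix (Fin 2) (Fin 2) k).map (e.coord i)) :=
          hC.lev.comp (fun M => M.map (e.coord i))
        rwa [Matrix.map_zero _ (map_zero _)] at h7
    have h2 : c = ∑ i, e i • ι (fun σ => (c σ).map (e.coord i)) := by
      funext σ
      ext a a'
      rw [Finset.sum_apply, Matrix.sum_apply]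
      change c σ a a' = ∑ i, e i * algebraMap (ZMod p) k (e.coord i (c σ a a'))
      conv_lhs => rw [← e.sum_repr (c σ a a')]
      refine Finset.sum_congr rfl fun i _ => ?_
      rw [Algebra.smul_def, mul_comm]; rfl
    rw [h2]
    refine Submodule.sum_mem _ fun i _ => Submodule.smul_mem _ _ ?_
    have h3 : ∀ z : Z, ι z ∈ Submodule.span k (Set.range fun i => ι (b i)) := by
      intro z
      have h4 : ι z = ∑ j, algebraMap (ZMod p) k (b.repr z j) • ι (b j) := by
        have h5 : (z : D → Matrix (Fin 2) (Fin 2) (ZMod p)) =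
            ∑ j, b.repr z j • (b j : D → Matrix (Fin 2) (Fin 2) (ZMod p)) := by
          conv_lhs => rw [← b.sum_repr z]
          push_cast; rfl
        funext σ
        ext a a'
        rw [Finset.sum_apply, Matrix.sum_apply]
        change algebraMap (ZMod p) k ((z : D → Matrix (Fin 2) (Fin 2) (ZMod p)) σ a a') =
          ∑ j, algebraMap (ZMod p) k (b.repr z j) *
            algebraMap (ZMod p) k ((b j : D → Matrix (Fin 2) (Fin 2) (ZMod p)) σ a a')
        conv_lhs => rw [h5]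
        rw [Finset.sum_apply, Matrix.sum_apply, map_sum]
        refine Finset.sum_congr rfl fun j _ => ?_
        rw [← map_mul]; rfl
      rw [h4]
      exact Submodule.sum_mem _ fun j _ => Submodule.smul_mem _ _
        (Submodule.subset_span ⟨j, rfl⟩)
    exact h3 ⟨_, h1 i⟩
  refine (Submodule.rank_mono hle).trans ?_
  refine (rank_span_le _).trans ?_
  have h1 := Cardinal.mk_range_le_lift (f := fun i => ι (b i))
  rw [Cardinal.mk_fin, Cardinal.lift_natCast] at h1
  exact Cardinal.lift_le_nat_iff.mp (h1.trans (by exact_mod_cast hfr))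

/-! ### the ordinary case -/

theorem rank_ord [IsAlgClosed κ] (Λ : LevSys DC) {ρ : D →* Matrix (Fin 2) (Fin 2) k}
    (hdet : ∀ σ : DC.I, (ρ σ).det = algebraMap (ZMod p) k (DC.C.ω σ)) {σ₀ : DC.I}
    (hσ₀ : IsPrimitiveRoot (DC.C.Th DC.hϖ σ₀) (p ^ 2 - 1)) {x : Fin 2 → k} (hx : x ≠ 0)
    (hxω : ∀ σ : DC.I, (ρ σ).mulVec x = algebraMap (ZMod p) k (DC.C.ω σ) • x)
    {Z : Submodule k (D → Matrix (Fin 2) (Fin 2) k)} (hZ : ∀ c ∈ Z, FK Λ ρ c) :
    Module.rank k Z ≤ (4 : ℕ) := by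
  have hω := DC.omega_ne_one hσ₀
  set a : k := algebraMap (ZMod p) k (DC.C.ω σ₀) with ha
  have ha1 : a ≠ 1 := fun h => hω (Units.ext
    ((algebraMap (ZMod p) k).injective (by rw [← ha, h, Units.val_one, map_one])))
  have ha0 : a ≠ 0 := fun h => (DC.C.ω σ₀).ne_zero
    ((algebraMap (ZMod p) k).injective (by rw [← ha, h, map_zero]))
  set s := ρ σ₀ with hs
  -- an invariant vector
  have hsx : s.mulVec x = a • x := hxω σ₀
  have hdets : s.det = a := hdet σ₀
  have hCH : ∀ y : Fin 2 → k, s.mulVec (s.mulVec y) = s.trace • s.mulVec y - s.det • y := by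
    intro y
    have h1 : s * s = s.trace • s - s.det • 1 := by
      rw [Matrix.trace_fin_two, Matrix.det_fin_two]
      ext i j
      rw [Matrix.mul_apply, Fin.sum_univ_two]
      fin_cases i <;> fin_cases j <;> simp <;> ring
    rw [Matrix.mulVec_mulVec, h1, Matrix.sub_mulVec, Matrix.smul_mulVec, Matrix.smul_mulVec,
      Matrix.one_mulVec]
  have htr : s.trace = a + 1 := by
    have h1 := hCH x
    rw [hsx, Matrix.mulVec_smul, hsx, hdets] at h1
    obtain ⟨i, hi⟩ : ∃ i, x i ≠ 0 := by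
      by_contra hcon
      push Not at hcon
      exact hx (funext hcon)
    have h2 := congrFun h1 i
    simp only [Pi.smul_apply, Pi.sub_apply, smul_eq_mul] at h2
    have h3 : (s.trace - (a + 1)) * (a * x i) = 0 := by linear_combination -h2
    exact sub_eq_zero.mp ((mul_eq_zero.mp h3).resolve_right (mul_ne_zero ha0 hi))
  obtain ⟨y, hy⟩ : ∃ y : Fin 2 → k, s.mulVec y - a • y ≠ 0 := by
    by_contra hcon
    push Not at hcon
    have h1 : s = a • 1 := by
      apply Matrix.ext_of_mulVec_single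
      intro i
      rw [Matrix.smul_mulVec, Matrix.one_mulVec]
      exact sub_eq_zero.mp (hcon _)
    have h2 : s.trace = 2 * a := by
      rw [h1, Matrix.trace_smul, Matrix.trace_one, Fintype.card_fin, smul_eq_mul]
      push_cast; ring
    apply ha1
    linear_combination htr - h2
  set v : Fin 2 → k := s.mulVec y - a • y with hv
  have hsv : s.mulVec v = v := by
    rw [hv, Matrix.mulVec_sub, Matrix.mulVec_smul, hCH, htr, hdets]
    module
  -- the basis
  set P : Matrix (Fin 2) (Fin 2) k := !![x 0, v 0; x 1, v 1] with hP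
  have hdetP : P.det ≠ 0 := by
    intro h0
    rw [hP, Matrix.det_fin_two_of] at h0
    -- `x` and `v` are proportional
    have h1 : ∀ i, x i • v = v i • x := by
      intro i
      funext j
      simp only [Pi.smul_apply, smul_eq_mul]
      fin_cases i <;> fin_cases j
      · exact mul_comm _ _
      · change x 0 * v 1 = v 0 * x 1
        linear_combination h0
      · change x 1 * v 0 = v 1 * x 0
        linear_combination -h0
      · exact mul_comm _ _
    obtain ⟨i, hi⟩ : ∃ i, x i ≠ 0 := by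
      by_contra hcon
      push Not at hcon
      exact hx (funext hcon)
    have h2 := congrArg s.mulVec (h1 i)
    rw [Matrix.mulVec_smul, Matrix.mulVec_smul, hsv, hsx, h1 i, smul_comm] at h2
    have h3 : (a - 1) • (v i • x) = 0 := by
      rw [sub_smul, one_smul, ← h2, sub_self]
    rw [smul_eq_zero] at h3
    rcases h3 with h3 | h3
    · exact ha1 (sub_eq_zero.mp h3)
    · have h4 := h1 i
      rw [h3, smul_eq_zero] at h4
      exact h4.elim hi hy
  have hC : Chg P P⁻¹ := Chg.of_det hdetP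
  have hcol0 : ∀ M : Matrix (Fin 2) (Fin 2) k, ∀ i, (M * P) i 0 = M.mulVec x i := by
    intro M i
    rw [Matrix.mul_apply, Fin.sum_univ_two, hP]
    simp [Matrix.mulVec, dotProduct, Fin.sum_univ_two]
  have hcol1 : ∀ M : Matrix (Fin 2) (Fin 2) k, ∀ i, (M * P) i 1 = M.mulVec v i := by
    intro M i
    rw [Matrix.mul_apply, Fin.sum_univ_two, hP]
    simp [Matrix.mulVec, dotProduct, Fin.sum_univ_two]
  have hx' : (P⁻¹).mulVec x = ![1, 0] := by
    funext i
    have h1 := congrFun (congrFun hC.qp i) 0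
    rw [hcol0] at h1
    rw [h1]
    fin_cases i
    · exact Matrix.one_apply_eq _
    · exact Matrix.one_apply_ne (by decide)
  have hv' : (P⁻¹).mulVec v = ![0, 1] := by
    funext i
    have h1 := congrFun (congrFun hC.qp i) 1
    rw [hcol1] at h1
    rw [h1]
    fin_cases i
    · exact Matrix.one_apply_ne (by decide)
    · exact Matrix.one_apply_eq _
  refine rank_conj hZ hC fun Z' hZ' => ?_
  have h00 : ∀ σ : DC.I, hC.rep ρ σ 0 0 = algebraMap (ZMod p) k (DC.C.ω σ) ∧ hC.rep ρ σ 1 0 = 0 := by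
    intro σ
    rw [hC.rep_apply, hcol0, hcol0, ← Matrix.mulVec_mulVec, hxω, Matrix.mulVec_smul, hx']
    simp
  have hord : IsOrdK DC.C ((hC.rep ρ).comp DC.I.subtype) := by
    refine ⟨fun σ => (h00 σ).1, fun σ => (h00 σ).2, fun σ => ?_⟩
    have h1 := hdet σ
    rw [← hC.det, ← hC.rep_apply, Matrix.det_fin_two, (h00 σ).1, (h00 σ).2, mul_zero, sub_zero] at h1
    have h2 : algebraMap (ZMod p) k (DC.C.ω σ) ≠ 0 := fun h => (DC.C.ω σ).ne_zero
      ((algebraMap (ZMod p) k).injective (by rw [h, map_zero]))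
    exact mul_left_cancel₀ h2 (by rw [mul_one]; exact h1)
  refine rankAK DC hord hσ₀ hω ?_ (FK.space hZ')
  rw [hC.rep_apply, hcol1, ← Matrix.mulVec_mulVec, ← hs, hsv, hv']
  simp

end DCtx

end Fermat.Agent.FlatLoc
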