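import Fermat.Agent.FlatLoc.Count
import Fermat.Agent.FlatLoc.Final
import Fermat.Agent.FlatLoc.KAS

/-!
# The ordinary case with coefficients
-/

set_option autoImplicit false
set_option linter.unusedSectionVars false

namespace Fermat.Agent.FlatLoc

open Fermat.Agent.ECRed
open scoped Polynomial

section subquot2

variable {K : Type*} [Field K] {G : Type*} [Group G] [MulSemiringAction G K]
  {R : Subring K} {V : Type*} [AddCommGroup V] {W : Type*} [AddCommGroup W]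
  {ρ : G →* AddMonoid.End V} {ρ' : G →* AddMonoid.End W}

theorem IsFlatMod.subquot2 (hR : IsBase G R) [Finite V] (h : IsFlatMod R ρ) {T : Type*}
    [AddCommGroup T] (ι : T →+ V) (hι : Function.Injective ι) (act : G → T → T)
    (hact : ∀ σ t, ρ σ (ι t) = ι (act σ t)) (g : T →+ W)
    (hg : ∀ σ t, g (act σ t) = ρ' σ (g t)) (hsurj : Function.Surjective g) : IsFlatMod R ρ' := by
  have hS : ∀ σ, ∀ x ∈ ι.range, ρ σ x ∈ ι.range := by
    rintro σ _ ⟨t, rfl⟩
    exact ⟨act σ t, (hact σ t).symm⟩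
  have h1 : IsFlatMod R (subRep ρ ι.range hS) :=
    h.sub ι.range.subtype ι.range.subtype_injective fun σ x => rfl
  let e : T ≃+ ι.range := AddMonoidHom.ofInjective hι
  have he : ∀ t, ((e t : ι.range) : V) = ι t := fun t => rfl
  refine h1.quotient hR (g.comp e.symm.toAddMonoidHom) ?_ ?_
  · intro w
    obtain ⟨t, rfl⟩ := hsurj w
    refine ⟨e t, ?_⟩
    change g (e.symm (e t)) = g t
    rw [AddEquiv.symm_apply_apply]
  · intro σ x
    obtain ⟨t, rfl⟩ := e.surjective x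
    have h2 : subRep ρ ι.range hS σ (e t) = e (act σ t) := by
      apply Subtype.ext
      rw [subRep_apply, he, he, hact]
    change g (e.symm (subRep ρ ι.range hS σ (e t))) = ρ' σ (g (e.symm (e t)))
    rw [h2, AddEquiv.symm_apply_apply, AddEquiv.symm_apply_apply, hg]

end subquot2

variable {K : Type*} [Field K] {κ : Type*} [Field κ] {G : Type*} [Group G]
  [MulSemiringAction G K] {p : ℕ} [hp : Fact p.Prime] {C : Ctx K κ G p}
  {k : Type*} [Field k] [Algebra (ZMod p) k] [Finite k]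

/-- upper triangular representations of ordinary type -/
structure IsOrdK (C : Ctx K κ G p) (ρ : G →* Matrix (Fin 2) (Fin 2) k) : Prop where
  h00 : ∀ σ, ρ σ 0 0 = algebraMap (ZMod p) k (C.ω σ)
  h10 : ∀ σ, ρ σ 1 0 = 0
  h11 : ∀ σ, ρ σ 1 1 = 1

lemma mul_fin_two (A B : Matrix (Fin 2) (Fin 2) k) (i j : Fin 2) :
    (A * B) i j = A i 0 * B 0 j + A i 1 * B 1 j := by
  rw [Matrix.mul_apply, Fin.sum_univ_two]

lemma mulVec_fin_two (A : Matrix (Fin 2) (Fin 2) k) (x : Fin 2 → k) (i : Fin 2) :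
    A.mulVec x i = A i 0 * x 0 + A i 1 * x 1 := by
  simp [Matrix.mulVec, dotProduct, Fin.sum_univ_two]

omit [Finite k] in
lemma lin_mul_alg (L : k →ₗ[ZMod p] ZMod p) (b : k) (a : ZMod p) :
    L (b * algebraMap (ZMod p) k a) = L b * a := by
  rw [mul_comm, ← Algebra.smul_def, L.map_smul, smul_eq_mul, mul_comm]

omit [Finite k] in
lemma lin_alg_mul (L : k →ₗ[ZMod p] ZMod p) (b : k) (a : ZMod p) :
    L (algebraMap (ZMod p) k a * b) = a * L b := by
  rw [← Algebra.smul_def, L.map_smul, smul_eq_mul]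

omit [Finite k] in
lemma eq_zero_of_lin {b : k} (h : ∀ L : k →ₗ[ZMod p] ZMod p, L b = 0) : b = 0 :=
  (Module.forall_dual_apply_eq_zero_iff (ZMod p) b).mp h

omit [Finite k] in
lemma exists_lin_one {L : k →ₗ[ZMod p] ZMod p} (hL : L ≠ 0) (x : ZMod p) : ∃ b, L b = x := by
  obtain ⟨b, hb⟩ : ∃ b, L b ≠ 0 := by
    by_contra hcon
    push Not at hcon
    exact hL (LinearMap.ext hcon)
  exact ⟨(x * (L b)⁻¹) • b, by rw [L.map_smul, smul_eq_mul, mul_assoc, inv_mul_cancel₀ hb, mul_one]⟩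

omit [Finite k] in
lemma eq_zero_of_lin' {b : k} (h : ∀ L : k →ₗ[ZMod p] ZMod p, L ≠ 0 → L b = 0) : b = 0 :=
  eq_zero_of_lin (p := p) fun L => by
    by_cases hL : L = 0
    · rw [hL]; rfl
    · exact h L hL

variable {ρ : G →* Matrix (Fin 2) (Fin 2) k} {c : G → Matrix (Fin 2) (Fin 2) k}

/-- **The shape of flat cocycles in the ordinary case** -/
theorem ordK {hc : IsCock ρ c} (hf : IsFlatMod C.R (ext2 ρ c hc)) (hρ : IsOrdK C ρ)
    (htr : ∀ σ, (c σ).trace = 0) {σ₀ : G} (hω : C.ω σ₀ ≠ 1) (h10 : c σ₀ 1 0 = 0) :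
    (∀ σ, c σ 1 0 = 0 ∧ c σ 1 1 = 0 ∧ c σ 0 0 = 0) ∧
    ∀ L : k →ₗ[ZMod p] ZMod p,
    ∃ hμ : ∀ σ τ, L (c (σ * τ) 0 1) = C.ω σ * L (c τ 0 1) + L (c σ 0 1) * (1 : G →* (ZMod p)ˣ) τ,
      L ≠ 0 → IsFlatMod C.R (triRep C.ω 1 (fun σ => L (c σ 0 1)) hμ) := by
  have hcρ : ∀ σ i j, (c σ * ρ σ) i j = c σ i 0 * ρ σ 0 j + c σ i 1 * ρ σ 1 j := fun σ i j => by
    rw [mul_fin_two]
  -- the lower left entry
  have hμ1 : ∀ σ τ, (c (σ * τ) * ρ (σ * τ)) 1 0 = (c τ * ρ τ) 1 0 +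
      (c σ * ρ σ) 1 0 * algebraMap (ZMod p) k (C.ω τ) := by
    intro σ τ
    rw [hc.mul_rho, Matrix.add_apply, mul_fin_two (c σ * ρ σ), mul_fin_two (ρ σ), hρ.h00, hρ.h10, hρ.h10, hρ.h11]
    ring
  have hω0 : ∀ σ, algebraMap (ZMod p) k (C.ω σ) ≠ 0 := fun σ =>
    (map_ne_zero _).mpr (C.ω σ).ne_zero
  have hc10' : ∀ σ, (c σ * ρ σ) 1 0 = 0 := by
    intro σ
    refine eq_zero_of_lin' (p := p) fun L hL => ?_
    have hμL : ∀ σ τ, L ((c (σ * τ) * ρ (σ * τ)) 1 0) = (1 : G →* (ZMod p)ˣ) σ * L ((c τ * ρ τ) 1 0) +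
        L ((c σ * ρ σ) 1 0) * C.ω τ := by
      intro σ τ
      rw [hμ1, map_add, lin_mul_alg, MonoidHom.one_apply, Units.val_one, one_mul]
    have hflat1 : IsFlatMod C.R (triRep 1 C.ω (fun σ => L ((c σ * ρ σ) 1 0)) hμL) := by
      let ι : ZMod p × (Fin 2 → k) →+ (Fin 2 → k) × (Fin 2 → k) :=
        AddMonoidHom.mk' (fun t => (![algebraMap (ZMod p) k t.1, 0], t.2)) fun x y =>
          Prod.ext (funext fun i => by
            change ![algebraMap (ZMod p) k (x.1 + y.1), 0] i =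
              ![algebraMap (ZMod p) k x.1, 0] i + ![algebraMap (ZMod p) k y.1, 0] i
            fin_cases i <;> simp) rfl
      let act : G → ZMod p × (Fin 2 → k) → ZMod p × (Fin 2 → k) := fun σ t =>
        (C.ω σ * t.1, (c σ * ρ σ).mulVec ![algebraMap (ZMod p) k t.1, 0] + (ρ σ).mulVec t.2)
      let g : ZMod p × (Fin 2 → k) →+ ZMod p × ZMod p :=
        AddMonoidHom.mk' (fun t => (L (t.2 1), t.1)) fun x y =>
          Prod.ext (by
            change L (x.2 1 + y.2 1) = L (x.2 1) + L (y.2 1)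
            rw [map_add]) rfl
      refine hf.subquot2 C.base ι ?_ act ?_ g ?_ ?_
      · rintro ⟨a, y⟩ ⟨a', y'⟩ h
        have h1 := congrFun (Prod.mk.inj h).1 0
        exact Prod.ext ((algebraMap (ZMod p) k).injective (by simpa using h1)) (Prod.mk.inj h).2
      · rintro σ ⟨a, y⟩
        refine Prod.ext (funext fun i => ?_) rfl
        change (ρ σ).mulVec ![algebraMap (ZMod p) k a, 0] i =
          ![algebraMap (ZMod p) k (C.ω σ * a), 0] i
        rw [mulVec_fin_two]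
        fin_cases i
        · simp [hρ.h00]
        · simp [hρ.h10]
      · rintro σ ⟨a, y⟩
        refine Prod.ext ?_ rfl
        change L (((c σ * ρ σ).mulVec ![algebraMap (ZMod p) k a, 0] + (ρ σ).mulVec y) 1) =
          ((1 : G →* (ZMod p)ˣ) σ : ZMod p) * L (y 1) + L ((c σ * ρ σ) 1 0) * a
        rw [Pi.add_apply, mulVec_fin_two, mulVec_fin_two, hρ.h10, hρ.h11]
        simp only [Matrix.cons_val_zero, Matrix.cons_val_one, mul_zero, add_zero, zero_mul, one_mul,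
          zero_add, MonoidHom.one_apply, Units.val_one]
        rw [map_add, lin_mul_alg]; ring
      · rintro ⟨x, y⟩
        obtain ⟨b, hb⟩ := exists_lin_one hL x
        exact ⟨(y, ![0, b]), by change (L (![0, b] 1), y) = (x, y); simp [hb]⟩
    exact C.tri_one_omega hflat1 (σ₀ := σ₀) (by rw [hcρ, h10, hρ.h10]; simp) hω σ
  have hc10 : ∀ σ, c σ 1 0 = 0 := by
    intro σ
    have h1 := hc10' σ
    rw [hcρ, hρ.h10, hρ.h00, mul_zero, add_zero] at h1
    exact (mul_eq_zero.mp h1).resolve_right (hω0 σ)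
  -- the lower right entry
  have hμ2 : ∀ σ τ, (c (σ * τ) * ρ (σ * τ)) 1 1 = (c τ * ρ τ) 1 1 + (c σ * ρ σ) 1 1 := by
    intro σ τ
    rw [hc.mul_rho, Matrix.add_apply, mul_fin_two (c σ * ρ σ), mul_fin_two (ρ σ), hρ.h10, hρ.h11, hρ.h11, hc10']
    ring
  have hc11' : ∀ σ, (c σ * ρ σ) 1 1 = 0 := by
    intro σ
    refine eq_zero_of_lin' (p := p) fun L hL => ?_
    have hμL : ∀ σ τ, L ((c (σ * τ) * ρ (σ * τ)) 1 1) = (1 : G →* (ZMod p)ˣ) σ * L ((c τ * ρ τ) 1 1) +
        L ((c σ * ρ σ) 1 1) * (1 : G →* (ZMod p)ˣ) τ := by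
      intro σ τ
      rw [hμ2, map_add, MonoidHom.one_apply, MonoidHom.one_apply, Units.val_one, one_mul, mul_one]
    have hflat2 : IsFlatMod C.R (triRep 1 1 (fun σ => L ((c σ * ρ σ) 1 1)) hμL) := by
      let ι : (k × ZMod p) × (Fin 2 → k) →+ (Fin 2 → k) × (Fin 2 → k) :=
        AddMonoidHom.mk' (fun t => (![t.1.1, algebraMap (ZMod p) k t.1.2], t.2)) fun x y =>
          Prod.ext (funext fun i => by
            change ![x.1.1 + y.1.1, algebraMap (ZMod p) k (x.1.2 + y.1.2)] i =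
              ![x.1.1, algebraMap (ZMod p) k x.1.2] i + ![y.1.1, algebraMap (ZMod p) k y.1.2] i
            fin_cases i <;> simp) rfl
      let act : G → (k × ZMod p) × (Fin 2 → k) → (k × ZMod p) × (Fin 2 → k) := fun σ t =>
        ((algebraMap (ZMod p) k (C.ω σ) * t.1.1 + ρ σ 0 1 * algebraMap (ZMod p) k t.1.2, t.1.2),
          (c σ * ρ σ).mulVec ![t.1.1, algebraMap (ZMod p) k t.1.2] + (ρ σ).mulVec t.2)
      let g : (k × ZMod p) × (Fin 2 → k) →+ ZMod p × ZMod p :=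
        AddMonoidHom.mk' (fun t => (L (t.2 1), t.1.2)) fun x y =>
          Prod.ext (by
            change L (x.2 1 + y.2 1) = L (x.2 1) + L (y.2 1)
            rw [map_add]) rfl
      refine hf.subquot2 C.base ι ?_ act ?_ g ?_ ?_
      · rintro ⟨⟨b, a⟩, y⟩ ⟨⟨b', a'⟩, y'⟩ h
        have h0 := congrFun (Prod.mk.inj h).1 0
        have h1 := congrFun (Prod.mk.inj h).1 1
        refine Prod.ext (Prod.ext (by simpa using h0) ((algebraMap (ZMod p) k).injective
          (by simpa using h1))) (Prod.mk.inj h).2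
      · rintro σ ⟨⟨b, a⟩, y⟩
        refine Prod.ext (funext fun i => ?_) rfl
        change (ρ σ).mulVec ![b, algebraMap (ZMod p) k a] i =
          ![algebraMap (ZMod p) k (C.ω σ) * b + ρ σ 0 1 * algebraMap (ZMod p) k a,
            algebraMap (ZMod p) k a] i
        rw [mulVec_fin_two]
        fin_cases i
        · simp [hρ.h00]
        · simp [hρ.h10, hρ.h11]
      · rintro σ ⟨⟨b, a⟩, y⟩
        refine Prod.ext ?_ (by
          change a = ((1 : G →* (ZMod p)ˣ) σ : ZMod p) * a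
          rw [MonoidHom.one_apply, Units.val_one, one_mul])
        change L (((c σ * ρ σ).mulVec ![b, algebraMap (ZMod p) k a] + (ρ σ).mulVec y) 1) =
          ((1 : G →* (ZMod p)ˣ) σ : ZMod p) * L (y 1) + L ((c σ * ρ σ) 1 1) * a
        rw [Pi.add_apply, mulVec_fin_two, mulVec_fin_two, hρ.h10, hρ.h11, hc10']
        simp only [Matrix.cons_val_zero, Matrix.cons_val_one, zero_mul, one_mul,
          zero_add, MonoidHom.one_apply, Units.val_one]
        rw [map_add, lin_mul_alg]; ring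
      · rintro ⟨x, y⟩
        obtain ⟨b, hb⟩ := exists_lin_one hL x
        exact ⟨((0, y), ![0, b]), by change (L (![0, b] 1), y) = (x, y); simp [hb]⟩
    exact C.tri_one_one hflat2 σ
  have hc11 : ∀ σ, c σ 1 1 = 0 := by
    intro σ
    have h1 := hc11' σ
    rw [hcρ, hρ.h11, hc10, zero_mul, zero_add, mul_one] at h1
    exact h1
  have hc00 : ∀ σ, c σ 0 0 = 0 := by
    intro σ
    have h1 := htr σ
    rw [Matrix.trace_fin_two, hc11, add_zero] at h1
    exact h1
  refine ⟨fun σ => ⟨hc10 σ, hc11 σ, hc00 σ⟩, fun L => ?_⟩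
  have hc01 : ∀ σ, (c σ * ρ σ) 0 1 = c σ 0 1 := by
    intro σ
    rw [hcρ, hc00, hρ.h11]; ring
  have hc00' : ∀ σ, (c σ * ρ σ) 0 0 = 0 := by
    intro σ
    rw [hcρ, hc00, hρ.h10]; ring
  have hμ' : ∀ σ τ, c (σ * τ) 0 1 = algebraMap (ZMod p) k (C.ω σ) * c τ 0 1 + c σ 0 1 := by
    intro σ τ
    rw [← hc01 (σ * τ), hc.mul_rho, Matrix.add_apply, mul_fin_two (c σ * ρ σ), mul_fin_two (ρ σ),
      hc01, hc01, hc00', hc11', hρ.h00, hρ.h11]
    ring
  have hμ : ∀ σ τ, L (c (σ * τ) 0 1) = C.ω σ * L (c τ 0 1) + L (c σ 0 1) * (1 : G →* (ZMod p)ˣ) τ := by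
    intro σ τ
    rw [hμ', map_add, lin_alg_mul, MonoidHom.one_apply, Units.val_one, mul_one]
  refine ⟨hμ, fun hL => ?_⟩
  let ι : (k × ZMod p) × k →+ (Fin 2 → k) × (Fin 2 → k) :=
    AddMonoidHom.mk' (fun t => (![t.1.1, algebraMap (ZMod p) k t.1.2], ![t.2, 0])) fun x y =>
      Prod.ext (funext fun i => by
        change ![x.1.1 + y.1.1, algebraMap (ZMod p) k (x.1.2 + y.1.2)] i =
          ![x.1.1, algebraMap (ZMod p) k x.1.2] i + ![y.1.1, algebraMap (ZMod p) k y.1.2] i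
        fin_cases i <;> simp) (funext fun i => by
        change ![x.2 + y.2, 0] i = ![x.2, (0 : k)] i + ![y.2, (0 : k)] i
        fin_cases i <;> simp)
  let act : G → (k × ZMod p) × k → (k × ZMod p) × k := fun σ t =>
    ((algebraMap (ZMod p) k (C.ω σ) * t.1.1 + ρ σ 0 1 * algebraMap (ZMod p) k t.1.2, t.1.2),
      c σ 0 1 * algebraMap (ZMod p) k t.1.2 + algebraMap (ZMod p) k (C.ω σ) * t.2)
  let g : (k × ZMod p) × k →+ ZMod p × ZMod p :=
    AddMonoidHom.mk' (fun t => (L t.2, t.1.2)) fun x y =>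
      Prod.ext (by
        change L (x.2 + y.2) = L x.2 + L y.2
        rw [map_add]) rfl
  refine hf.subquot2 C.base ι ?_ act ?_ g ?_ ?_
  · rintro ⟨⟨b, a⟩, y⟩ ⟨⟨b', a'⟩, y'⟩ h
    have h0 := congrFun (Prod.mk.inj h).1 0
    have h1 := congrFun (Prod.mk.inj h).1 1
    have h2 := congrFun (Prod.mk.inj h).2 0
    refine Prod.ext (Prod.ext (by simpa using h0) ((algebraMap (ZMod p) k).injective
      (by simpa using h1))) (by simpa using h2)
  · rintro σ ⟨⟨b, a⟩, y⟩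
    refine Prod.ext (funext fun i => ?_) (funext fun i => ?_)
    · change (ρ σ).mulVec ![b, algebraMap (ZMod p) k a] i =
        ![algebraMap (ZMod p) k (C.ω σ) * b + ρ σ 0 1 * algebraMap (ZMod p) k a,
          algebraMap (ZMod p) k a] i
      rw [mulVec_fin_two]
      fin_cases i
      · simp [hρ.h00]
      · simp [hρ.h10, hρ.h11]
    · change ((c σ * ρ σ).mulVec ![b, algebraMap (ZMod p) k a] + (ρ σ).mulVec ![y, 0]) i =
        ![c σ 0 1 * algebraMap (ZMod p) k a + algebraMap (ZMod p) k (C.ω σ) * y, 0] i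
      rw [Pi.add_apply, mulVec_fin_two, mulVec_fin_two]
      fin_cases i
      · simp [hρ.h00, hc00', hc01]
      · simp [hρ.h10, hρ.h11, hc10', hc11']
  · rintro σ ⟨⟨b, a⟩, y⟩
    refine Prod.ext ?_ (by
      change a = ((1 : G →* (ZMod p)ˣ) σ : ZMod p) * a
      rw [MonoidHom.one_apply, Units.val_one, one_mul])
    change L (c σ 0 1 * algebraMap (ZMod p) k a + algebraMap (ZMod p) k (C.ω σ) * y) =
      (C.ω σ : ZMod p) * L y + L (c σ 0 1) * a
    rw [map_add, lin_mul_alg, lin_alg_mul]; ring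
  · rintro ⟨x, y⟩
    obtain ⟨b, hb⟩ := exists_lin_one hL x
    exact ⟨((0, y), b), by change (L b, y) = (x, y); rw [hb]⟩

end Fermat.Agent.FlatLoc
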