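import Fermat.Agent.FlatLoc.KGen

/-!
# The flat bound with coefficients: the supersingular case and the final statement
-/

set_option autoImplicit false
set_option linter.unusedSectionVars false

namespace Fermat.Agent.FlatLoc

open Fermat.Agent.ECRed
open scoped Polynomial

section alg

variable {k : Type*} [Field k]

lemma mat_ch (M : Matrix (Fin 2) (Fin 2) k) : M * M = M.trace • M - M.det • 1 := by
  rw [Matrix.trace_fin_two, Matrix.det_fin_two]
  ext i j
  rw [Matrix.mul_apply, Fin.sum_univ_two]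
  fin_cases i <;> fin_cases j <;> simp <;> ring

lemma exists_norm_eq {p : ℕ} [hp : Fact p.Prime] (hp2 : p ≠ 2) (t w η : ZMod p)
    (hirr : ∀ a : ZMod p, a ^ 2 - t * a + w ≠ 0) : ∃ a b : ZMod p, a ^ 2 + a * b * t + b ^ 2 * w = η := by
  have h2 : (2 : ZMod p) ≠ 0 := two_ne_zero_of_char hp2
  have hd : w - t ^ 2 / 4 ≠ 0 := by
    intro h
    apply hirr (t / 2)
    have h4 : (4 : ZMod p) ≠ 0 := by
      have : (4 : ZMod p) = 2 * 2 := by norm_num
      rw [this]; exact mul_ne_zero h2 h2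
    field_simp at h ⊢
    linear_combination h
  have hodd : Fintype.card (ZMod p) % 2 = 1 := by
    rw [ZMod.card]
    exact hp.out.eq_two_or_odd.resolve_left hp2
  let f : (ZMod p)[X] := Polynomial.X ^ 2
  let g : (ZMod p)[X] := Polynomial.C (w - t ^ 2 / 4) * Polynomial.X ^ 2 - Polynomial.C η
  have hf : f.degree = 2 := by simp [f]
  have hg : g.degree = 2 := by
    simp only [g]
    compute_degree!
  obtain ⟨a, b, hab⟩ := FiniteField.exists_root_sum_quadratic hf hg hodd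
  simp only [f, g, Polynomial.eval_sub, Polynomial.eval_mul, Polynomial.eval_pow,
    Polynomial.eval_X, Polynomial.eval_C] at hab
  refine ⟨a - b * t / 2, b, ?_⟩
  have h4 : (4 : ZMod p) ≠ 0 := by
    have : (4 : ZMod p) = 2 * 2 := by norm_num
    rw [this]; exact mul_ne_zero h2 h2
  field_simp at hab ⊢
  linear_combination hab

end alg

variable {K : Type*} [Field K] {κ : Type*} [Field κ] {D : Type*} [Group D]
  [MulSemiringAction D K] {p : ℕ} [hp : Fact p.Prime] {ϖ : K} {DC : DCtx K κ D p ϖ}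
  {k : Type*} [Field k] [Algebra (ZMod p) k] [Finite k]

namespace DCtx

theorem rank_ss [IsAlgClosed κ] (Λ : LevSys DC) {ρ : D →* Matrix (Fin 2) (Fin 2) k}
    (hdet : ∀ σ : DC.I, (ρ σ).det = algebraMap (ZMod p) k (DC.C.ω σ)) (hρl : Λ.Lev ρ 1)
    (hdφ : ∃ b : ZMod p, (ρ DC.φ).det = algebraMap (ZMod p) k b) {σ₀ : DC.I}
    (hσ₀ : IsPrimitiveRoot (DC.C.Th DC.hϖ σ₀) (p ^ 2 - 1))
    (hJ : ∀ σ ∈ JJ DC.I ϖ, ρ σ = 1) {t : ZMod p} (htr : (ρ σ₀).trace = algebraMap (ZMod p) k t)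
    (hirr : ∀ a : ZMod p, a ^ 2 - t * a + DC.C.ω σ₀ ≠ 0)
    (hcj : ρ (DC.conj σ₀) = algebraMap (ZMod p) k t • 1 - ρ σ₀)
    {Z : Submodule k (D → Matrix (Fin 2) (Fin 2) k)} (hZ : ∀ c ∈ Z, FK Λ ρ c) :
    Module.rank k Z ≤ (4 : ℕ) := by
  classical
  have hch := DC.C.char
  have hchk : CharP k p := charP_of_injective_algebraMap (algebraMap (ZMod p) k).injective p
  have hp2 := DC.C.p_ne_two
  have h2 : (2 : k) ≠ 0 := two_ne_zero_of_char hp2
  have h2' : (2 : ZMod p) ≠ 0 := two_ne_zero_of_char hp2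
  set A := algebraMap (ZMod p) k with hA
  have hAi : Function.Injective A := A.injective
  set w : ZMod p := (DC.C.ω σ₀ : ZMod p) with hw
  set s := ρ σ₀ with hs
  set Φ := ρ DC.φ with hΦ
  have hss : s * s = A t • s - A w • 1 := by rw [mat_ch, htr, hdet]
  have hsΦ : s * Φ = A t • Φ - Φ * s := by
    have h1 : ρ σ₀ * ρ DC.φ = ρ DC.φ * ρ (DC.conj σ₀) := by
      rw [← map_mul, ← map_mul]
      congr 1
      rw [conj_coe]; group
    rw [hs, hΦ, h1, hcj, mul_sub, Matrix.mul_smul, mul_one]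
  have hΦs : Φ * s = A t • Φ - s * Φ := by rw [hsΦ]; abel
  -- the discriminant
  have hdisc : A t ^ 2 - 4 * A w ≠ 0 := by
    intro h
    have h1 : t ^ 2 - 4 * w = 0 := hAi (by rw [map_sub, map_mul, map_pow, map_zero, map_ofNat]; exact h)
    apply hirr (t / 2)
    field_simp
    linear_combination -h1
  have hΦinv : Φ * ρ DC.φ⁻¹ = 1 := by rw [hΦ, ← map_mul, mul_inv_cancel, map_one]
  have hΦinv' : ρ DC.φ⁻¹ * Φ = 1 := by rw [hΦ, ← map_mul, inv_mul_cancel, map_one]
  have hΦ0 : Φ ≠ 0 := by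
    intro h
    rw [h, zero_mul] at hΦinv
    exact zero_ne_one hΦinv
  have hΦv : ∀ v : Fin 2 → k, Φ.mulVec v = 0 → v = 0 := by
    intro v hv
    have h1 : (ρ DC.φ⁻¹).mulVec (Φ.mulVec v) = v := by
      rw [Matrix.mulVec_mulVec, hΦinv', Matrix.one_mulVec]
    rw [← h1, hv, Matrix.mulVec_zero]
  -- the trace of Frobenius vanishes
  have htrΦ : Φ.trace = 0 := by
    have e1 : (s * Φ).trace = A t * Φ.trace - (s * Φ).trace := by
      conv_lhs => rw [hsΦ, Matrix.trace_sub, Matrix.trace_smul, Matrix.trace_mul_comm Φ s]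
      rw [smul_eq_mul]
    have e2 : s * Φ * s = A w • Φ := by
      rw [mul_assoc, hΦs, mul_sub, Matrix.mul_smul, ← mul_assoc, hss, sub_mul, smul_mul_assoc,
        smul_mul_assoc, one_mul]
      abel
    have e3 : (s * Φ * s).trace = A t * (s * Φ).trace - A w * Φ.trace := by
      rw [Matrix.trace_mul_comm, ← mul_assoc, hss, sub_mul, smul_mul_assoc, smul_mul_assoc, one_mul,
        Matrix.trace_sub, Matrix.trace_smul, Matrix.trace_smul, smul_eq_mul, smul_eq_mul]
    rw [e2, Matrix.trace_smul, smul_eq_mul] at e3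
    have e4 : (A t ^ 2 - 4 * A w) * Φ.trace = 0 := by
      linear_combination (-A t) * e1 - 2 * e3
    exact (mul_eq_zero.mp e4).resolve_left hdisc
  obtain ⟨b₀, hb₀⟩ := hdφ
  have hΦΦ : Φ * Φ = A (-b₀) • 1 := by
    rw [mat_ch, htrΦ, hb₀, zero_smul, zero_sub, map_neg, neg_smul]
  obtain ⟨a, b, hab⟩ := exists_norm_eq hp2 t w (-b₀) hirr
  have hab' : A a ^ 2 + A a * A b * A t + A b ^ 2 * A w = A (-b₀) := by
    rw [← hab]; simp only [map_add, map_mul, map_pow]
  -- the eigenvector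
  set B : Matrix (Fin 2) (Fin 2) k := A a • 1 + A b • s with hB
  set B' : Matrix (Fin 2) (Fin 2) k := (A a + A b * A t) • 1 - A b • s with hB'
  have hprod : (Φ - B) * (Φ + B') = 0 := by
    have e1 : Φ * B' = B * Φ := by
      rw [hB, hB', mul_sub, Matrix.mul_smul, Matrix.mul_smul, mul_one, add_mul, smul_mul_assoc,
        smul_mul_assoc, one_mul, hΦs]
      module
    have e2 : B * B' = A (-b₀) • 1 := by
      rw [hB, hB', ← hab', add_mul, mul_sub, mul_sub]
      simp only [Matrix.mul_smul, smul_mul_assoc, one_mul, mul_one, hss]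
      module
    rw [sub_mul, mul_add, mul_add, hΦΦ, e1, e2]
    abel
  have hne : Φ + B' ≠ 0 := by
    intro h
    have h1 : Φ = -B' := eq_neg_of_add_eq_zero_left h
    have h3 : s * Φ = Φ * s := by
      rw [h1, hB', mul_neg, neg_mul, mul_sub, sub_mul]
      simp only [Matrix.mul_smul, smul_mul_assoc, one_mul, mul_one]
    have h4 : (2 : k) • (s * Φ) = A t • Φ := by
      rw [two_smul]
      nth_rewrite 2 [h3]
      rw [hΦs]; abel
    have h5 : (A t ^ 2 - 4 * A w) • Φ = 0 := by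
      have h6 : (2 : k) • (s * (s * Φ)) = A t • (s * Φ) := by
        rw [← Matrix.mul_smul, h4, Matrix.mul_smul]
      rw [← mul_assoc, hss, sub_mul, smul_mul_assoc, smul_mul_assoc, one_mul] at h6
      have h7 : (2 : k) • ((2 : k) • (A t • (s * Φ) - A w • Φ)) = (2 : k) • A t • (s * Φ) := by
        rw [h6]
      have h8 : (2 : k) • A t • (s * Φ) = A t • A t • Φ := by rw [smul_comm, h4]
      have h9 : (A t ^ 2 - 4 * A w) • Φ = (2 : k) • ((2 : k) • (A t • (s * Φ) - A w • Φ)) -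
          (2 : k) • A t • (s * Φ) - ((2 : k) • A t • (s * Φ) - A t • A t • Φ) := by
        module
      rw [h9, h7, h8]; simp
    rw [smul_eq_zero] at h5
    exact h5.elim hdisc hΦ0
  obtain ⟨y, hy⟩ : ∃ y, (Φ + B').mulVec y ≠ 0 := by
    by_contra hcon
    push Not at hcon
    apply hne
    apply Matrix.ext_of_mulVec_single
    intro i
    rw [hcon, Matrix.zero_mulVec]
  set v := (Φ + B').mulVec y with hv
  have hΦv' : Φ.mulVec v = A a • v + A b • s.mulVec v := by
    have h1 : (Φ - B).mulVec v = 0 := by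
      rw [hv, Matrix.mulVec_mulVec, hprod, Matrix.zero_mulVec]
    rw [Matrix.sub_mulVec, sub_eq_zero] at h1
    rw [h1, hB, Matrix.add_mulVec, Matrix.smul_mulVec, Matrix.smul_mulVec, Matrix.one_mulVec]
  set v' := s.mulVec v with hv'
  have hsv' : s.mulVec v' = A t • v' - A w • v := by
    rw [hv', Matrix.mulVec_mulVec, hss, Matrix.sub_mulVec, Matrix.smul_mulVec, Matrix.smul_mulVec,
      Matrix.one_mulVec]
  have hΦsv : Φ.mulVec v' = (A t * A a + A b * A w) • v - A a • v' := by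
    rw [hv', Matrix.mulVec_mulVec, hΦs, Matrix.sub_mulVec, Matrix.smul_mulVec,
      ← Matrix.mulVec_mulVec, hΦv', Matrix.mulVec_add, Matrix.mulVec_smul, Matrix.mulVec_smul,
      ← hv', hsv']
    module
  set P : Matrix (Fin 2) (Fin 2) k := !![v 0, v' 0; v 1, v' 1] with hP
  have hdetP : P.det ≠ 0 := by
    intro h0
    rw [hP, Matrix.det_fin_two_of] at h0
    have h1 : ∀ i, v i • v' = v' i • v := by
      intro i
      funext j
      simp only [Pi.smul_apply, smul_eq_mul]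
      fin_cases i <;> fin_cases j
      · exact mul_comm _ _
      · change v 0 * v' 1 = v' 0 * v 1
        linear_combination h0
      · change v 1 * v' 0 = v' 1 * v 0
        linear_combination -h0
      · exact mul_comm _ _
    obtain ⟨i, hi⟩ : ∃ i, v i ≠ 0 := by
      by_contra hcon
      push Not at hcon
      exact hy (funext hcon)
    set l : k := v' i / v i with hl
    have h3 : v' = l • v := by
      rw [hl, div_eq_inv_mul, mul_smul, ← h1 i, smul_smul, inv_mul_cancel₀ hi, one_smul]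
    have h4 := hsv'
    rw [h3, Matrix.mulVec_smul, ← hv', h3] at h4
    have h5 := congrFun h4 i
    have h6 := congrFun hΦsv i
    rw [h3, Matrix.mulVec_smul, hΦv', h3] at h6
    simp only [Pi.smul_apply, Pi.sub_apply, Pi.add_apply, smul_eq_mul] at h5 h6
    have h7 : l ^ 2 - A t * l + A w = 0 := by
      have : (l ^ 2 - A t * l + A w) * v i = 0 := by linear_combination h5
      exact (mul_eq_zero.mp this).resolve_right hi
    have h8 : A a + A b * l ≠ 0 := by
      intro h9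
      have h10 : Φ.mulVec v = 0 := by
        rw [hΦv', h3, smul_smul, ← add_smul, h9, zero_smul]
      exact hy (hΦv v h10)
    have h9 : 2 * l - A t = 0 := by
      have : (2 * l - A t) * ((A a + A b * l) * v i) = 0 := by
        linear_combination h6 + (A b * v i) * h7
      exact (mul_eq_zero.mp this).resolve_right (mul_ne_zero h8 hi)
    have h10 : l = A (t / 2) := by
      rw [map_div₀, map_ofNat, eq_div_iff h2]
      linear_combination h9
    apply hirr (t / 2)
    apply hAi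
    rw [map_add, map_sub, map_pow, map_mul, ← h10, map_zero]
    exact h7
  have hC : Chg P P⁻¹ := Chg.of_det hdetP
  have hcol0 : ∀ M : Matrix (Fin 2) (Fin 2) k, ∀ i, (M * P) i 0 = M.mulVec v i := by
    intro M i
    rw [Matrix.mul_apply, Fin.sum_univ_two, hP]
    simp [Matrix.mulVec, dotProduct, Fin.sum_univ_two]
  have hcol1 : ∀ M : Matrix (Fin 2) (Fin 2) k, ∀ i, (M * P) i 1 = M.mulVec v' i := by
    intro M i
    rw [Matrix.mul_apply, Fin.sum_univ_two, hP]
    simp [Matrix.mulVec, dotProduct, Fin.sum_univ_two]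
  have e0 : (P⁻¹).mulVec v = ![1, 0] := by
    funext i
    have h1 := congrFun (congrFun hC.qp i) 0
    rw [hcol0] at h1
    rw [h1]
    fin_cases i
    · exact Matrix.one_apply_eq _
    · exact Matrix.one_apply_ne (by decide)
  have e1 : (P⁻¹).mulVec v' = ![0, 1] := by
    funext i
    have h1 := congrFun (congrFun hC.qp i) 1
    rw [hcol1] at h1
    rw [h1]
    fin_cases i
    · exact Matrix.one_apply_ne (by decide)
    · exact Matrix.one_apply_eq _
  have hrs : hC.rep ρ σ₀ = (!![0, -w; 1, t] : Matrix (Fin 2) (Fin 2) (ZMod p)).map A := by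
    ext i j
    fin_cases j
    · change (P⁻¹ * ρ σ₀ * P) i 0 = _
      rw [hcol0, ← Matrix.mulVec_mulVec, ← hs, ← hv', e1]
      fin_cases i <;> simp
    · change (P⁻¹ * ρ σ₀ * P) i 1 = _
      rw [hcol1, ← Matrix.mulVec_mulVec, ← hs, hsv', Matrix.mulVec_sub, Matrix.mulVec_smul,
        Matrix.mulVec_smul, e0, e1]
      fin_cases i <;> simp
  have hrΦ : hC.rep ρ DC.φ = (!![a, t * a + b * w; b, -a] : Matrix (Fin 2) (Fin 2) (ZMod p)).map A := by
    ext i j
    fin_cases j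
    · change (P⁻¹ * ρ DC.φ * P) i 0 = _
      rw [hcol0, ← Matrix.mulVec_mulVec, ← hΦ, hΦv', Matrix.mulVec_add, Matrix.mulVec_smul,
        Matrix.mulVec_smul, e0, e1]
      fin_cases i <;> simp
    · change (P⁻¹ * ρ DC.φ * P) i 1 = _
      rw [hcol1, ← Matrix.mulVec_mulVec, ← hΦ, hΦsv, Matrix.mulVec_sub, Matrix.mulVec_smul,
        Matrix.mulVec_smul, e0, e1]
      fin_cases i <;> simp
  -- rationality
  have hmul : ∀ g h : D, (∃ M : Matrix (Fin 2) (Fin 2) (ZMod p), hC.rep ρ g = M.map A) →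
      (∃ M : Matrix (Fin 2) (Fin 2) (ZMod p), hC.rep ρ h = M.map A) →
      ∃ M : Matrix (Fin 2) (Fin 2) (ZMod p), hC.rep ρ (g * h) = M.map A := by
    rintro g h ⟨M, hM⟩ ⟨N, hN⟩
    exact ⟨M * N, by rw [map_mul, hM, hN, Matrix.map_mul]⟩
  have hone : ∀ g : D, ρ g = 1 → ∃ M : Matrix (Fin 2) (Fin 2) (ZMod p), hC.rep ρ g = M.map A := by
    intro g hg
    refine ⟨1, ?_⟩
    rw [hC.rep_apply, hg, mul_one, hC.qp, Matrix.map_one A (map_zero A) (map_one A)]
  have hpow : ∀ g : D, (∃ M : Matrix (Fin 2) (Fin 2) (ZMod p), hC.rep ρ g = M.map A) → ∀ n : ℕ,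
      ∃ M : Matrix (Fin 2) (Fin 2) (ZMod p), hC.rep ρ (g ^ n) = M.map A := by
    intro g hg n
    induction n with
    | zero => exact hone _ (by rw [pow_zero, map_one])
    | succ n ih => rw [pow_succ]; exact hmul _ _ ih hg
  have hrat : ∀ g : D, ∃ M : Matrix (Fin 2) (Fin 2) (ZMod p), hC.rep ρ g = M.map A := by
    intro g
    obtain ⟨N, hN, hNρ⟩ := hρl
    obtain ⟨n, σ, hσ, g', hg', rfl⟩ := Λ.dec N hN g
    obtain ⟨τ, m, hτ, hm⟩ := DC.exists_JJ_mul hσ₀ ⟨σ, hσ⟩
    have hm' : σ = τ * (σ₀ : D) ^ m := congrArg Subtype.val hm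
    refine hmul _ _ (hmul _ _ (hpow _ ⟨_, hrΦ⟩ n) ?_) (hone _ (hNρ g' hg'))
    rw [hm']
    exact hmul _ _ (hone _ (hJ τ hτ)) (hpow _ ⟨_, hrs⟩ m)
  choose M₁ hM₁ using hrat
  have hmi : Function.Injective (fun M : Matrix (Fin 2) (Fin 2) (ZMod p) => M.map A) :=
    Matrix.map_injective hAi
  let ρ₁ : D →* Matrix (Fin 2) (Fin 2) (ZMod p) :=
    { toFun := M₁
      map_one' := hmi (by
        change (M₁ 1).map A = (1 : Matrix (Fin 2) (Fin 2) (ZMod p)).map A
        rw [← hM₁, map_one, Matrix.map_one A (map_zero A) (map_one A)])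
      map_mul' := fun g h => hmi (by
        change (M₁ (g * h)).map A = (M₁ g * M₁ h).map A
        rw [← hM₁, map_mul, hM₁, hM₁, Matrix.map_mul]) }
  have hρ₁ : rk k ρ₁ = hC.rep ρ := by
    ext1 g
    exact (hM₁ g).symm
  have hdet₁ : ∀ σ : DC.I, (ρ₁ σ).det = DC.C.ω σ := by
    intro σ
    apply hAi
    rw [← hdet σ, ← hC.det (ρ σ), ← hC.rep_apply, ← hρ₁]
    exact RingHom.map_det A (ρ₁ σ)
  refine rank_conj hZ hC fun Z' hZ' => ?_
  rw [← hρ₁] at hZ'
  exact rank_FpK Λ hdet₁ hZ'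

/-- **The flat bound, with coefficients, local form** -/
theorem rank_le_fourK [IsAlgClosed κ] (Λ : LevSys DC) {ρ : D →* Matrix (Fin 2) (Fin 2) k}
    (hdet : ∀ σ : DC.I, (ρ σ).det = algebraMap (ZMod p) k (DC.C.ω σ)) (hρl : Λ.Lev ρ 1)
    (hdφ : ∃ b : ZMod p, (ρ DC.φ).det = algebraMap (ZMod p) k b)
    {Z : Submodule k (D → Matrix (Fin 2) (Fin 2) k)} (hZ : ∀ c ∈ Z, FK Λ ρ c) :
    Module.rank k Z ≤ (4 : ℕ) := by
  obtain ⟨σ₀, hσ₀⟩ := DC.C.Th_surj DC.hϖ
  have hfl : DFlat DC DC.RD ρ := ⟨DC.RD_le, flat_vk (hZ 0 Z.zero_mem).flat⟩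
  rcases DC.kclass hfl hdet hσ₀ with ⟨x, hx, hxω⟩ | ⟨hJ, t, ht, hirr, hcj⟩
  · exact rank_ord Λ hdet hσ₀ hx hxω hZ
  · exact rank_ss Λ hdet hρl hdφ hσ₀ hJ ht hirr hcj hZ

end DCtx

end Fermat.Agent.FlatLoc
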