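import Fermat.Agent.FlatLoc.Classify2

/-!
# Kummer generators and their levels
-/

set_option autoImplicit false
set_option linter.unusedSectionVars false

namespace Fermat.Agent.FlatLoc

open Fermat.Agent.ECRed
open scoped Polynomial

variable {K : Type*} [Field K] {κ : Type*} [Field κ] {G : Type*} [Group G]
  [MulSemiringAction G K] {p : ℕ} [hp : Fact p.Prime] (C : Ctx K κ G p)

/-- the kernel of the fundamental character of level two -/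
def JJ (G : Type*) {K : Type*} [Field K] [Group G] [MulSemiringAction G K] (ϖ : K) : Subgroup G :=
  MulAction.stabilizer G ϖ

lemma mem_JJ {ϖ : K} {σ : G} : σ ∈ JJ G ϖ ↔ σ • ϖ = ϖ := MulAction.mem_stabilizer_iff

/-- the fixed field of `J` -/
def L0 (G : Type*) {K : Type*} [Field K] [Group G] [MulSemiringAction G K] (ϖ : K) : Subfield K where
  carrier := {z | ∀ σ ∈ JJ G ϖ, σ • z = z}
  mul_mem' ha hb σ hσ := by rw [smul_mul', ha σ hσ, hb σ hσ]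
  one_mem' σ _ := smul_one σ
  add_mem' ha hb σ hσ := by rw [smul_add, ha σ hσ, hb σ hσ]
  zero_mem' σ _ := smul_zero σ
  neg_mem' ha σ hσ := by rw [smul_neg, ha σ hσ]
  inv_mem' x ha σ hσ := by rw [smul_inv'', ha σ hσ]

lemma mem_L0 {ϖ z : K} : z ∈ L0 G ϖ ↔ ∀ σ ∈ JJ G ϖ, σ • z = z := Iff.rfl

namespace Ctx

variable {ϖ : K} (hϖ : ϖ ^ (p ^ 2 - 1) = p)

include C hϖ

/-- `Θ` -/
noncomputable def Th : G →* Kˣ := C.thetaHom not_dvd_e hϖ

lemma Th_apply (σ : G) : ((C.Th hϖ σ : Kˣ) : K) = σ • ϖ / ϖ := rfl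

lemma smul_varpi (σ : G) : σ • ϖ = (C.Th hϖ σ : K) * ϖ := by
  rw [C.Th_apply, div_mul_cancel₀ _ (C.varpi_ne hϖ e_ne_zero)]

lemma Th_pow (σ : G) : C.Th hϖ σ ^ (p ^ 2 - 1) = 1 :=
  Units.ext (by rw [Units.val_pow_eq_pow_val, C.Th_apply, Units.val_one]; exact C.theta_pow hϖ e_ne_zero σ)

lemma Th_fix (σ τ : G) : σ • ((C.Th hϖ τ : Kˣ) : K) = C.Th hϖ τ :=
  C.root_fixed not_dvd_e (by rw [C.Th_apply]; exact C.theta_pow hϖ e_ne_zero τ) σ

lemma Th_surj : ∃ σ, IsPrimitiveRoot (C.Th hϖ σ) (p ^ 2 - 1) := by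
  obtain ⟨σ, hσ⟩ := C.exists_theta_primitive not_dvd_e hϖ
  exact ⟨σ, IsPrimitiveRoot.coe_units_iff.mp hσ⟩

lemma Th_eq (σ : G) : C.v.Eq 0 (C.Th hϖ σ : K) := by
  rw [C.Th_apply]; exact C.eq_ratio (C.eq_varpi hϖ e_ne_zero) σ

lemma mem_JJ_iff {σ : G} : σ ∈ JJ G ϖ ↔ C.Th hϖ σ = 1 := by
  rw [mem_JJ, C.smul_varpi hϖ]
  have h0 := C.varpi_ne hϖ e_ne_zero
  constructor
  · intro h
    apply Units.ext
    have h1 : ((C.Th hϖ σ : Kˣ) : K) * ϖ = 1 * ϖ := by rw [h, one_mul]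
    exact mul_right_cancel₀ h0 h1
  · intro h
    rw [h, Units.val_one, one_mul]

lemma conj_mem_JJ {σ τ : G} (hσ : σ ∈ JJ G ϖ) : τ⁻¹ * σ * τ ∈ JJ G ϖ := by
  rw [C.mem_JJ_iff hϖ] at hσ ⊢
  rw [map_mul, map_mul, hσ, mul_one, ← map_mul, inv_mul_cancel, map_one]

lemma omega_JJ {σ : G} (hσ : σ ∈ JJ G ϖ) : C.ω σ = 1 := by
  have := C.char
  have h1 := C.r_omega_eq hϖ σ
  rw [mem_JJ.mp hσ, div_self (C.varpi_ne hϖ e_ne_zero), C.r_one, one_pow] at h1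
  have h2 : (ZMod.castHom (dvd_refl p) κ) (C.ω σ : ZMod p) = (ZMod.castHom (dvd_refl p) κ) 1 := by
    rw [map_one, h1]; simp
  exact Units.ext ((ZMod.castHom (dvd_refl p) κ).injective h2)

lemma smul_psi {σ : G} (hσ : σ ∈ JJ G ϖ) (a : ZMod p) : σ • C.ψ a = C.ψ a := by
  rw [C.hω, C.omega_JJ hϖ hσ, Units.val_one, one_mul]

lemma smul_mem_L0 {z : K} (hz : z ∈ L0 G ϖ) (τ : G) : τ • z ∈ L0 G ϖ := by
  intro σ hσ
  have h1 := hz _ (C.conj_mem_JJ hϖ (τ := τ) hσ)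
  rw [mul_smul, mul_smul, inv_smul_eq_iff] at h1
  exact h1

lemma varpi_mem_L0 : ϖ ∈ L0 G ϖ := fun _ hσ => mem_JJ.mp hσ

omit hϖ in
lemma fixed_mem_L0 {z : K} (hz : ∀ σ : G, σ • z = z) : z ∈ L0 G ϖ := fun σ _ => hz σ

omit hϖ in
lemma R_mem_L0 {z : K} (hz : z ∈ C.R) : z ∈ L0 G ϖ := fun σ _ => ((C.mem_R z).mp hz).1 σ

/-- values on `L₀` -/
lemma ord_L0 {z : K} (hz : z ∈ L0 G ϖ) (hz0 : z ≠ 0) : ∃ n : ℤ, C.v.ord z = n / ((p ^ 2 - 1 : ℕ) : ℝ) := by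
  classical
  have : NeZero (p ^ 2 - 1) := ⟨e_ne_zero⟩
  set e := p ^ 2 - 1 with he
  set Θ := C.Th hϖ with hΘ
  have := finite_range_of_pow (C.Th_pow hϖ)
  have : Fintype Θ.range := Fintype.ofFinite _
  have hcard : Fintype.card Θ.range = e := by
    rw [← Nat.card_eq_fintype_card]; exact card_range (C.Th_pow hϖ) (C.Th_surj hϖ)
  have hN : ∀ σ : G, σ • (∏ u : Θ.range, lft u • z) = ∏ u : Θ.range, lft u • z := by
    intro σ
    rw [Finset.smul_prod']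
    let e' : Θ.range ≃ Θ.range := Equiv.mulLeft ⟨Θ σ, σ, rfl⟩
    conv_rhs => rw [← e'.prod_comp]
    refine Finset.prod_congr rfl fun u _ => ?_
    have h1 : ((e' u : Θ.range) : Kˣ) = Θ σ * u := rfl
    have h3 : Θ ((σ * lft u)⁻¹ * lft (e' u)) = 1 := by
      rw [map_mul, map_inv, map_mul, lft_spec, lft_spec, h1, inv_mul_cancel]
    have h4 := hz _ ((C.mem_JJ_iff hϖ).mpr h3)
    rw [mul_smul, inv_smul_eq_iff, mul_smul] at h4
    exact h4.symm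
  have hne : ∀ u : Θ.range, C.v.Eq (C.v.ord z) (lft u • z) := fun u =>
    (eq_smul C.hv _).mpr (OrdFn.eq_self hz0)
  have hprod : ∀ s : Finset Θ.range, (∏ u ∈ s, lft u • z ≠ 0) ∧
      C.v.ord (∏ u ∈ s, lft u • z) = s.card * C.v.ord z := by
    intro s
    induction s using Finset.induction_on with
    | empty => simp [OrdFn.ord_one]
    | insert a s ha ih =>
      rw [Finset.prod_insert ha, Finset.card_insert_of_notMem ha]
      refine ⟨mul_ne_zero (hne a).1 ih.1, ?_⟩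
      rw [OrdFn.ord_mul (hne a).1 ih.1, (hne a).2, ih.2]
      push_cast; ring
  obtain ⟨n, hn⟩ := C.int_val _ (hprod Finset.univ).1 hN
  rw [(hprod Finset.univ).2, Finset.card_univ, hcard] at hn
  refine ⟨n, ?_⟩
  have he0 : (e : ℝ) ≠ 0 := by exact_mod_cast (NeZero.ne e)
  rw [eq_div_iff he0, mul_comm, hn]

/-- strict inequalities improve by `1/e` -/
lemma ge_of_gt_L0 {z : K} (hz : z ∈ L0 G ϖ) {i : ℤ} (h : C.v.Gt (i / ((p ^ 2 - 1 : ℕ) : ℝ)) z) :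
    C.v.Ge ((i + 1) / ((p ^ 2 - 1 : ℕ) : ℝ)) z := by
  by_cases hz0 : z = 0
  · left; exact hz0
  obtain ⟨n, hn⟩ := C.ord_L0 hϖ hz hz0
  rw [OrdFn.gt_iff hz0, hn] at h
  rw [OrdFn.ge_iff hz0, hn]
  have he : (0 : ℝ) < ((p ^ 2 - 1 : ℕ) : ℝ) := by exact_mod_cast Nat.pos_of_ne_zero e_ne_zero
  rw [div_lt_div_iff_of_pos_right he] at h
  rw [div_le_div_iff_of_pos_right he]
  have h1 : i < n := by exact_mod_cast h
  exact_mod_cast h1

end Ctx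

end Fermat.Agent.FlatLoc
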