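import Fermat.Agent.FlatLoc.Kummer

/-!
# Kummer generators and their levels, II
-/

set_option autoImplicit false
set_option linter.unusedSectionVars false

namespace Fermat.Agent.FlatLoc

open Fermat.Agent.ECRed
open scoped Polynomial

variable {K : Type*} [Field K] {κ : Type*} [Field κ] {G : Type*} [Group G]
  [MulSemiringAction G K] {p : ℕ} [hp : Fact p.Prime] (C : Ctx K κ G p)

/-- the integral elements -/
def intSub (v : OrdFn K) : Subring K where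
  carrier := {z | v.Ge 0 z}
  mul_mem' ha hb := by have := OrdFn.Ge.mul ha hb; rwa [add_zero] at this
  one_mem' := OrdFn.eq_one.ge
  add_mem' ha hb := ha.add hb
  zero_mem' := OrdFn.Ge.zero
  neg_mem' ha := ha.neg

lemma one_add_pow (v : OrdFn K) {a : K} (ha : v.Ge 0 a) :
    ∃ w, v.Ge 0 w ∧ (1 + a) ^ p = 1 + a ^ p + p * a * w := by
  obtain ⟨r, hr⟩ := exists_add_pow_prime_eq hp.out (1 : intSub v) ⟨a, ha⟩
  refine ⟨r, r.2, ?_⟩
  have := congrArg Subtype.val hr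
  simpa using this

/-- Kummer generators -/
def Kum (C : Ctx K κ G p) (ϖ : K) (a : G → ZMod p) (y : K) : Prop :=
  y ≠ 0 ∧ ∀ σ ∈ JJ G ϖ, σ • y = C.ψ (a σ) * y

/-- `y^p ∈ U^i` -/
def Lv (C : Ctx K κ G p) (i : ℕ) (y : K) : Prop :=
  C.v.Ge (i / ((p ^ 2 - 1 : ℕ) : ℝ)) (y ^ p - 1)

/-- leading coefficient -/
def lead (C : Ctx K κ G p) (ϖ : K) (i : ℕ) (y : K) : κ := C.r ((y ^ p - 1) / ϖ ^ i)

namespace Ctx

variable {ϖ : K} (hϖ : ϖ ^ (p ^ 2 - 1) = p)

include C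

omit hϖ in
lemma epos : (0 : ℝ) < ((p ^ 2 - 1 : ℕ) : ℝ) := by exact_mod_cast Nat.pos_of_ne_zero e_ne_zero

lemma kum_mul {a b : G → ZMod p} {y z : K} (hy : Kum C ϖ a y) (hz : Kum C ϖ b z) :
    Kum C ϖ (a + b) (y * z) := by
  refine ⟨mul_ne_zero hy.1 hz.1, fun σ hσ => ?_⟩
  rw [smul_mul', hy.2 σ hσ, hz.2 σ hσ, Pi.add_apply, AddChar.map_add_eq_mul]
  ring

lemma kum_L0 {a : G → ZMod p} {y q : K} (hy : Kum C ϖ a y) (hq : q ∈ L0 G ϖ) (hq0 : q ≠ 0) :
    Kum C ϖ a (y * q) := by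
  refine ⟨mul_ne_zero hy.1 hq0, fun σ hσ => ?_⟩
  rw [smul_mul', hy.2 σ hσ, hq σ hσ, mul_assoc]

lemma kum_congr {a b : G → ZMod p} {y : K} (hy : Kum C ϖ a y) (h : ∀ σ ∈ JJ G ϖ, a σ = b σ) :
    Kum C ϖ b y := ⟨hy.1, fun σ hσ => by rw [hy.2 σ hσ, h σ hσ]⟩

lemma kum_pow {a : G → ZMod p} {y : K} (hy : Kum C ϖ a y) : y ^ p ∈ L0 G ϖ := by
  intro σ hσ
  rw [smul_pow', hy.2 σ hσ, mul_pow, ← AddChar.map_nsmul_eq_pow]
  simp

lemma kum_div {a : G → ZMod p} {y z : K} (hy : Kum C ϖ a y) (hz : Kum C ϖ a z) :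
    z / y ∈ L0 G ϖ := by
  intro σ hσ
  rw [smul_div₀', hy.2 σ hσ, hz.2 σ hσ, mul_div_mul_left]
  intro h0
  have := hy.2 σ hσ
  rw [h0, zero_mul, smul_eq_zero_iff_eq] at this
  exact hy.1 this

lemma kum_zero_one : Kum C ϖ (fun _ => 0) 1 :=
  ⟨one_ne_zero, fun σ _ => by rw [smul_one, AddChar.map_zero_eq_one, one_mul]⟩

lemma lv_one (i : ℕ) : Lv C i 1 := by
  unfold Lv
  rw [one_pow, sub_self]; exact OrdFn.Ge.zero

lemma lv_mul {i : ℕ} {y z : K} (hy : Lv C i y) (hz : Lv C i z) : Lv C i (y * z) := by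
  unfold Lv at *
  have e : (y * z) ^ p - 1 = (y ^ p - 1) + (z ^ p - 1) + (y ^ p - 1) * (z ^ p - 1) := by
    rw [mul_pow]; ring
  have h0 : (0 : ℝ) ≤ i / ((p ^ 2 - 1 : ℕ) : ℝ) := by have := C.epos; positivity
  rw [e]
  exact (hy.add hz).add ((hy.mul hz).mono (by linarith))

include hϖ

lemma eq_varpi_pow (i : ℕ) : C.v.Eq (i / ((p ^ 2 - 1 : ℕ) : ℝ)) (ϖ ^ i) := by
  have := (C.eq_varpi hϖ e_ne_zero).pow i
  convert this using 1
  ring

lemma div_ge {i : ℕ} {w : K} (h : C.v.Ge (i / ((p ^ 2 - 1 : ℕ) : ℝ)) w) : C.v.Ge 0 (w / ϖ ^ i) := by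
  have := h.mul (C.eq_varpi_pow hϖ i).inv.ge
  rwa [add_neg_cancel, ← div_eq_mul_inv] at this

lemma div_gt {i : ℕ} {w : K} (h : C.v.Gt (i / ((p ^ 2 - 1 : ℕ) : ℝ)) w) : C.v.Gt 0 (w / ϖ ^ i) := by
  have := h.mul_ge (C.eq_varpi_pow hϖ i).inv.ge
  rwa [add_neg_cancel, ← div_eq_mul_inv] at this

lemma gt_of_div {i : ℕ} {w : K} (h : C.v.Gt 0 (w / ϖ ^ i)) :
    C.v.Gt (i / ((p ^ 2 - 1 : ℕ) : ℝ)) w := by
  have := h.mul_ge (C.eq_varpi_pow hϖ i).ge
  rwa [zero_add, div_mul_cancel₀ _ (C.eq_varpi_pow hϖ i).1] at this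

lemma lead_mul {i : ℕ} (hi : 1 ≤ i) {y z : K} (hy : Lv C i y) (hz : Lv C i z) :
    lead C ϖ i (y * z) = lead C ϖ i y + lead C ϖ i z := by
  unfold lead
  have e : ((y * z) ^ p - 1) / ϖ ^ i = ((y ^ p - 1) / ϖ ^ i + (z ^ p - 1) / ϖ ^ i) +
      (y ^ p - 1) * (z ^ p - 1) / ϖ ^ i := by
    rw [mul_pow, ← add_div, ← add_div]; congr 1; ring
  have h0 : (0 : ℝ) < i / ((p ^ 2 - 1 : ℕ) : ℝ) := by
    have := C.epos
    have : (0 : ℝ) < i := by exact_mod_cast hi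
    positivity
  have h1 : C.v.Gt 0 ((y ^ p - 1) * (z ^ p - 1) / ϖ ^ i) :=
    C.div_gt hϖ ((hy.mul hz).gt (by linarith))
  rw [e, C.r_add _ _ ((C.div_ge hϖ hy).add (C.div_ge hϖ hz)) h1.ge,
    C.r_add _ _ (C.div_ge hϖ hy) (C.div_ge hϖ hz), (C.r_eq_zero _ h1.ge).mpr h1, add_zero]

lemma lv_smul {i : ℕ} {y : K} (hy : Lv C i y) (τ : G) : Lv C i (τ • y) := by
  unfold Lv at *
  have e : (τ • y) ^ p - 1 = τ • (y ^ p - 1) := by rw [smul_sub, smul_pow', smul_one]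
  rw [e, ge_smul C.hv]
  exact hy

lemma lead_smul {i : ℕ} {y : K} (hy : Lv C i y) (τ : G) :
    lead C ϖ i (τ • y) = C.r (C.Th hϖ τ : K) ^ i * lead C ϖ i y := by
  unfold lead
  have h0 := C.varpi_ne hϖ e_ne_zero
  have hT := C.Th_eq hϖ τ
  have e : ((τ • y) ^ p - 1) / ϖ ^ i = (C.Th hϖ τ : K) ^ i * τ • ((y ^ p - 1) / ϖ ^ i) := by
    rw [smul_div₀', smul_pow' τ ϖ, C.smul_varpi hϖ, smul_sub, smul_pow', smul_one, mul_pow]
    field_simp [hT.1]
  have h1 := C.div_ge hϖ hy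
  rw [e, C.r_mul _ _ (Ge.pow_aux hT.ge i) ((ge_smul C.hv τ).mpr h1), C.r_pow hT.ge, C.r_smul τ h1]

lemma lv_succ {i : ℕ} {y : K} (hyL : y ^ p ∈ L0 G ϖ) (hy : Lv C i y) (h0 : lead C ϖ i y = 0) :
    Lv C (i + 1) y := by
  unfold Lv at *
  have h1 := C.div_ge hϖ hy
  have h2 : C.v.Gt 0 ((y ^ p - 1) / ϖ ^ i) := (C.r_eq_zero _ h1).mp h0
  have h3 := C.gt_of_div hϖ h2
  have h4 := C.ge_of_gt_L0 hϖ (z := y ^ p - 1) (i := i)
    ((L0 G ϖ).sub_mem hyL (L0 G ϖ).one_mem) (by simpa using h3)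
  simpa using h4

/-- `p`-th powers in `L₀` have no leading term in degrees prime to `p` -/
lemma lv_L0 {i : ℕ} (hi : 1 ≤ i) (hi' : i < p * (p + 1)) (hpi : ¬ p ∣ i) {q : K} (hq : q ∈ L0 G ϖ)
    (hq1 : Lv C i q) : Lv C (i + 1) q := by
  have := C.char
  have he := C.epos
  have heR : ((p ^ 2 - 1 : ℕ) : ℝ) = (p + 1) * (p - 1) := e_cast
  have hp1 := one_lt (p := p)
  set e : ℝ := ((p ^ 2 - 1 : ℕ) : ℝ) with hedef
  unfold Lv at *
  have hi0 : (0 : ℝ) < i / e := by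
    have : (0 : ℝ) < i := by exact_mod_cast hi
    positivity
  have h1 : C.v.Eq 0 (q ^ p) := by
    have := OrdFn.eq_one (v := C.v).add_gt (hq1.gt hi0)
    rwa [add_sub_cancel] at this
  have hq0 : q ≠ 0 := fun h => h1.1 (by rw [h, zero_pow hp.out.ne_zero])
  have hqv : C.v.Eq 0 q := by
    refine ⟨hq0, ?_⟩
    have h2 := h1.2
    rw [OrdFn.ord_pow hq0] at h2
    have : (p : ℝ) ≠ 0 := by linarith
    exact (mul_eq_zero.mp h2).resolve_left this
  have hrq : C.r q = 1 := by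
    have h2 : C.r (q ^ p) = 1 := by
      rw [← C.r_one, C.r_eq_iff h1.ge OrdFn.eq_one.ge]; exact hq1.gt hi0
    rw [C.r_pow hqv.ge] at h2
    have h3 : frobenius κ p (C.r q) = frobenius κ p 1 := by
      rw [frobenius_def, frobenius_def, h2, one_pow]
    exact frobenius_inj κ p h3
  have ha : C.v.Gt 0 (q - 1) := by
    rw [← C.r_eq_iff hqv.ge OrdFn.eq_one.ge, hrq, C.r_one]
  set a := q - 1 with hadef
  have haL : a ∈ L0 G ϖ := (L0 G ϖ).sub_mem hq (L0 G ϖ).one_mem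
  have hqa : q = 1 + a := by rw [hadef]; ring
  by_cases ha0 : a = 0
  · rw [hqa, ha0, add_zero, one_pow, sub_self]; exact OrdFn.Ge.zero
  obtain ⟨n, hn⟩ := C.ord_L0 hϖ haL ha0
  rw [← hedef] at hn
  have hn0 : 0 < n := by
    have h2 := (OrdFn.gt_iff ha0).mp ha
    rw [hn] at h2
    have : (0 : ℝ) < n := by
      by_contra h3
      push Not at h3
      exact absurd h2 (not_lt.mpr (div_nonpos_of_nonpos_of_nonneg h3 he.le))
    exact_mod_cast this
  have haeq : C.v.Eq (n / e) a := ⟨ha0, hn⟩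
  obtain ⟨w, hw, hexp⟩ := one_add_pow (p := p) C.v ha.ge
  have hexp' : q ^ p - 1 = a ^ p + p * a * w := by rw [hqa, hexp]; ring
  have hap : C.v.Eq (p * n / e) (a ^ p) := by
    have := haeq.pow p
    convert this using 1
    ring
  have hpaw : C.v.Ge (1 + n / e) ((p : K) * a * w) := by
    have hpv : C.v.Ge 1 (p : K) := by
      have := C.charZero
      exact Or.inr C.vp.ge
    have := (hpv.mul haeq.ge).mul hw
    rwa [add_zero] at this
  have hnR : (0 : ℝ) < n := by exact_mod_cast hn0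
  by_cases hcase : n < p + 1
  · -- leading term `a ^ p`
    have h3 : C.v.Eq (p * n / e) (q ^ p - 1) := by
      rw [hexp']
      refine hap.add_gt (hpaw.gt ?_)
      have h4 : ((n : ℝ)) < p + 1 := by exact_mod_cast hcase
      have h5 : (p : ℝ) * n / e = (p - 1) * n / e + n / e := by ring
      have h6 : ((p : ℝ) - 1) * n / e < 1 := by
        rw [div_lt_one he, heR, mul_comm]
        exact mul_lt_mul_of_pos_right h4 (by linarith)
      linarith
    have h4 : (i : ℝ) / e ≤ p * n / e := by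
      have := (OrdFn.ge_iff h3.1).mp hq1
      rwa [h3.2] at this
    rw [div_le_div_iff_of_pos_right he] at h4
    have h5 : (i : ℤ) ≤ p * n := by exact_mod_cast h4
    have h6 : (i : ℤ) ≠ p * n := fun h => hpi (by
      have : (p : ℤ) ∣ i := ⟨n, h⟩
      exact_mod_cast this)
    have h7 : (i : ℤ) + 1 ≤ p * n := by omega
    have h8 : ((i : ℝ) + 1) ≤ p * n := by exact_mod_cast h7
    refine h3.ge.mono ?_
    rw [div_le_div_iff_of_pos_right he]
    push_cast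
    exact h8
  · push Not at hcase
    have h4 : (p : ℝ) + 1 ≤ n := by exact_mod_cast hcase
    have h5 : ((i : ℝ) + 1) ≤ p * (p + 1) := by exact_mod_cast hi'
    have h6 : ((i + 1 : ℕ) : ℝ) / e ≤ p * n / e := by
      rw [div_le_div_iff_of_pos_right he]
      push_cast
      nlinarith
    have h7 : ((i + 1 : ℕ) : ℝ) / e ≤ 1 + n / e := by
      have h8 : (1 : ℝ) = e / e := by rw [div_self he.ne']
      rw [h8, ← add_div, div_le_div_iff_of_pos_right he, heR]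
      push_cast
      nlinarith
    rw [hexp']
    exact (hap.ge.mono h6).add (hpaw.mono h7)

/-- the leading coefficient only depends on the class -/
lemma lead_eq {i : ℕ} (hi : 1 ≤ i) (hi' : i < p * (p + 1)) (hpi : ¬ p ∣ i) {a : G → ZMod p}
    {y z : K} (hy : Kum C ϖ a y) (hz : Kum C ϖ a z) (hyl : Lv C i y) (hzl : Lv C i z) :
    lead C ϖ i y = lead C ϖ i z := by
  have hq := C.kum_div hy hz
  set q := z / y with hqdef
  have hzq : z = y * q := by rw [hqdef, mul_div_cancel₀ _ hy.1]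
  have h0 : (0 : ℝ) < i / ((p ^ 2 - 1 : ℕ) : ℝ) := by
    have := C.epos
    have : (0 : ℝ) < i := by exact_mod_cast hi
    positivity
  have hyp : C.v.Eq 0 (y ^ p) := by
    have := OrdFn.eq_one (v := C.v).add_gt (hyl.gt h0)
    rwa [add_sub_cancel] at this
  have hql : Lv C i q := by
    unfold Lv
    have e : q ^ p - 1 = ((z ^ p - 1) - (y ^ p - 1)) * (y ^ p)⁻¹ := by
      rw [hqdef, div_pow]
      field_simp [hyp.1]
      ring
    rw [e]
    have := (hzl.sub hyl).mul hyp.inv.ge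
    rwa [neg_zero, add_zero] at this
  have hql' := C.lv_L0 hϖ hi hi' hpi hq hql
  have h1 : lead C ϖ i q = 0 := by
    unfold lead
    refine (C.r_eq_zero _ (C.div_ge hϖ hql)).mpr (C.div_gt hϖ ?_)
    refine OrdFn.Ge.gt hql' ?_
    rw [div_lt_div_iff_of_pos_right C.epos]
    push_cast
    linarith
  rw [hzq, C.lead_mul hϖ hi hyl hql, h1, add_zero]

/-- removing leading terms in degrees divisible by `p` -/
lemma step_dvd [IsAlgClosed κ] {i : ℕ} (hi : 1 ≤ i) (hi' : i < p * (p + 1)) (hpi : p ∣ i) {a : G → ZMod p}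
    {y : K} (hy : Kum C ϖ a y) (hyl : Lv C i y) : ∃ z, Kum C ϖ a z ∧ Lv C (i + 1) z := by
  have he := C.epos
  have heR : ((p ^ 2 - 1 : ℕ) : ℝ) = (p + 1) * (p - 1) := e_cast
  have hp1 := one_lt (p := p)
  obtain ⟨j, rfl⟩ := hpi
  have hj0 : 0 < j := Nat.pos_of_ne_zero (by rintro rfl; simp at hi)
  have hj1 : j < p + 1 := Nat.lt_of_mul_lt_mul_left hi'
  obtain ⟨b, hb⟩ := IsAlgClosed.exists_pow_nat_eq (-(lead C ϖ (p * j) y)) hp.out.pos
  obtain ⟨b', hb'R, hb'⟩ := C.r_surj b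
  have hb'v : C.v.Ge 0 b' := C.hRv _ hb'R
  set t := b' * ϖ ^ j with ht
  have htv : C.v.Ge (j / ((p ^ 2 - 1 : ℕ) : ℝ)) t := by
    have := hb'v.mul (C.eq_varpi_pow hϖ j).ge
    rwa [zero_add] at this
  have hj0' : (0 : ℝ) < j / ((p ^ 2 - 1 : ℕ) : ℝ) := by
    have : (0 : ℝ) < j := by exact_mod_cast hj0
    positivity
  obtain ⟨w, hw, hexp⟩ := one_add_pow (p := p) C.v (htv.mono hj0'.le)
  have hrest : C.v.Gt (((p * j : ℕ) : ℝ) / ((p ^ 2 - 1 : ℕ) : ℝ)) ((p : K) * t * w) := by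
    have hpv : C.v.Ge 1 (p : K) := Or.inr C.vp.ge
    have := (hpv.mul htv).mul hw
    rw [add_zero] at this
    refine this.gt ?_
    have h4 : ((j : ℝ)) < p + 1 := by exact_mod_cast hj1
    have h5 : ((p * j : ℕ) : ℝ) / ((p ^ 2 - 1 : ℕ) : ℝ) =
        (p - 1) * j / ((p ^ 2 - 1 : ℕ) : ℝ) + j / ((p ^ 2 - 1 : ℕ) : ℝ) := by push_cast; ring
    have h6 : ((p : ℝ) - 1) * j / ((p ^ 2 - 1 : ℕ) : ℝ) < 1 := by
      rw [div_lt_one he, heR, mul_comm]
      exact mul_lt_mul_of_pos_right h4 (by linarith)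
    linarith
  have hqL : 1 + t ∈ L0 G ϖ := (L0 G ϖ).add_mem (L0 G ϖ).one_mem
    ((L0 G ϖ).mul_mem (C.R_mem_L0 hb'R) ((L0 G ϖ).pow_mem (C.varpi_mem_L0 hϖ) j))
  have hq0 : 1 + t ≠ 0 := by
    have := OrdFn.eq_one (v := C.v).add_gt (htv.gt hj0')
    exact this.1
  have e1 : (1 + t) ^ p - 1 = b' ^ p * ϖ ^ (p * j) + p * t * w := by
    rw [hexp, ht, mul_pow, ← pow_mul, mul_comm j p]; ring
  have hql : Lv C (p * j) (1 + t) := by
    unfold Lv
    rw [e1]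
    refine OrdFn.Ge.add ?_ hrest.ge
    have := (Ge.pow_aux hb'v p).mul (C.eq_varpi_pow hϖ (p * j)).ge
    rwa [zero_add] at this
  have hlead : lead C ϖ (p * j) (1 + t) = -(lead C ϖ (p * j) y) := by
    conv_lhs => unfold lead
    rw [e1, add_div, mul_div_cancel_right₀ _ (C.eq_varpi_pow hϖ (p * j)).1]
    have h2 := C.div_gt hϖ hrest
    rw [C.r_add _ _ (Ge.pow_aux hb'v p) h2.ge, (C.r_eq_zero _ h2.ge).mpr h2, add_zero,
      C.r_pow hb'v, hb', hb]
  refine ⟨y * (1 + t), C.kum_L0 hy hqL hq0, ?_⟩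
  have hk := C.kum_L0 hy hqL hq0
  refine C.lv_succ hϖ (C.kum_pow hk) (C.lv_mul hyl hql) ?_
  rw [C.lead_mul hϖ hi hyl hql, hlead, add_neg_cancel]

/-- at the last level the class is trivial -/
lemma step_last {a : G → ZMod p} {y : K} (hy : Kum C ϖ a y) (hyl : Lv C (p * (p + 1)) y) :
    ∀ σ ∈ JJ G ϖ, a σ = 0 := by
  classical
  have := C.char
  have := C.charZero
  have he := C.epos
  have heR : ((p ^ 2 - 1 : ℕ) : ℝ) = (p + 1) * (p - 1) := e_cast
  have hp1 := one_lt (p := p)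
  intro σ hσ
  have hprim : IsPrimitiveRoot (C.ψ 1) p := by
    refine IsPrimitiveRoot.mk_of_lt _ hp.out.pos ?_ ?_
    · rw [← AddChar.map_nsmul_eq_pow]; simp
    · intro l hl hlp h
      rw [← AddChar.map_nsmul_eq_pow, ← AddChar.map_zero_eq_one C.ψ] at h
      have h1 := C.hψ h
      rw [nsmul_one, ZMod.natCast_eq_zero_iff] at h1
      exact absurd (Nat.le_of_dvd hl h1) (not_le.mpr hlp)
  -- a root of unity close to `y`
  have hprod : y ^ p - 1 = ∏ z ∈ Polynomial.nthRootsFinset p (1 : K), (y - z) := by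
    have h1 := Polynomial.X_pow_sub_one_eq_prod hp.out.pos hprim
    have h2 := congrArg (Polynomial.eval y) h1
    rw [Polynomial.eval_prod] at h2
    simpa using h2
  obtain ⟨z, hz, hzy⟩ : ∃ z : K, z ^ p = 1 ∧ C.v.Ge (1 / ((p : ℝ) - 1)) (y - z) := by
    by_contra hcon
    push Not at hcon
    have hlt : ∀ s ⊆ Polynomial.nthRootsFinset p (1 : K), (∏ z ∈ s, (y - z)) ≠ 0 ∧
        (C.v.ord (∏ z ∈ s, (y - z)) ≤ s.card * (1 / ((p : ℝ) - 1))) ∧ (s.Nonempty →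
        C.v.ord (∏ z ∈ s, (y - z)) < s.card * (1 / ((p : ℝ) - 1))) := by
      intro s
      induction s using Finset.induction_on with
      | empty => intro _; simp [OrdFn.ord_one]
      | insert b s hb ih =>
        intro hs
        obtain ⟨h1, h2, -⟩ := ih fun x hx => hs (Finset.mem_insert_of_mem hx)
        have hb1 : b ^ p = 1 := (Polynomial.mem_nthRootsFinset hp.out.pos _).mp (hs (Finset.mem_insert_self _ _))
        have h3 := OrdFn.not_ge_iff.mp (hcon b hb1)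
        rw [Finset.prod_insert hb, Finset.card_insert_of_notMem hb]
        have h4 : C.v.ord ((y - b) * ∏ z ∈ s, (y - z)) <
            ((s.card + 1 : ℕ) : ℝ) * (1 / ((p : ℝ) - 1)) := by
          rw [OrdFn.ord_mul h3.1 h1]
          push_cast
          linarith [h3.2]
        exact ⟨mul_ne_zero h3.1 h1, h4.le, fun _ => h4⟩
    have hcard : (Polynomial.nthRootsFinset p (1 : K)).card = p := hprim.card_nthRootsFinset
    obtain ⟨h1, -, h3⟩ := hlt _ subset_rfl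
    have h4 := h3 ⟨1, (Polynomial.mem_nthRootsFinset hp.out.pos _).mpr (one_pow p)⟩
    rw [← hprod, hcard] at h4
    have h5 : y ^ p - 1 ≠ 0 := by rw [hprod]; exact h1
    have h6 := (OrdFn.ge_iff h5).mp hyl
    have h7 : ((p * (p + 1) : ℕ) : ℝ) / ((p ^ 2 - 1 : ℕ) : ℝ) = p * (1 / (p - 1)) := by
      rw [heR]
      have : (p : ℝ) - 1 ≠ 0 := by linarith
      have : (p : ℝ) + 1 ≠ 0 := by linarith
      push_cast
      field_simp
    rw [h7] at h6
    linarith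
  obtain ⟨k, -, hk⟩ := hprim.eq_pow_of_pow_eq_one hz
  have hzψ : z = C.ψ k := by
    rw [← hk, ← AddChar.map_nsmul_eq_pow, nsmul_one]
  have hzv : C.v.Eq 0 z := ord_root_of_unity hp.out.ne_zero hz
  have hσz : σ • z = z := by rw [hzψ]; exact C.smul_psi hϖ hσ _
  have h1 := eq_addChar_sub_one C.vp C.hψ (one_ne_zero (α := ZMod p))
  -- `t = (y - z)/(ψ 1 - 1)`
  set t := (y - z) / (C.ψ 1 - 1) with ht
  have htv : C.v.Ge 0 t := by
    have := hzy.mul h1.inv.ge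
    rwa [add_neg_cancel, ← div_eq_mul_inv] at this
  have hyv : C.v.Ge 0 y := by
    have h2 : C.v.Ge 0 (y - z) := hzy.mono (by
      have : (0 : ℝ) < 1 / ((p : ℝ) - 1) := one_div_pos.mpr (by linarith)
      exact this.le)
    have := h2.add hzv.ge
    rwa [sub_add_cancel] at this
  have hry : C.r y = C.r z := by
    rw [C.r_eq_iff hyv hzv.ge]
    exact hzy.gt (one_div_pos.mpr (by linarith))
  have h2 : σ • t = (C.ψ (a σ) - 1) / (C.ψ 1 - 1) * y + t := by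
    rw [ht, smul_div₀', smul_sub, hy.2 σ hσ, hσz, smul_sub, smul_one, C.smul_psi hϖ hσ]
    field_simp [h1.1]
    ring
  have h3 := C.psi_ratio (a σ)
  have h4 := C.r_smul σ htv
  rw [h2, C.r_add _ _ (by simpa using h3.1.mul hyv) htv, C.r_mul _ _ h3.1 hyv, h3.2, hry,
    add_eq_right] at h4
  have h5 := (mul_eq_zero.mp h4).resolve_right (C.r_ne_zero hzv)
  have h6 : (ZMod.castHom (dvd_refl p) κ) (a σ) = 0 := by
    rw [← h5]; simp
  exact (map_eq_zero _).mp h6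

end Ctx

end Fermat.Agent.FlatLoc
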