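import Fermat.Agent.FlatLoc.Kummer2

/-!
# Existence of Kummer generators; the level induction
-/

set_option autoImplicit false
set_option linter.unusedSectionVars false

namespace Fermat.Agent.FlatLoc

open Fermat.Agent.ECRed
open scoped Polynomial

variable {K : Type*} [Field K] {κ : Type*} [Field κ] {G : Type*} [Group G]
  [MulSemiringAction G K] {p : ℕ} [hp : Fact p.Prime] (C : Ctx K κ G p)
variable {V : Type*} [AddCommGroup V]
variable {ρ : G →* AddMonoid.End V} {H : Subalgebra C.R (V → K)}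

/-- the field of definition of points over `L₀` -/
def Fld (ρ : G →* AddMonoid.End V) (ϖ : K) : Subfield K where
  carrier := {z | ∀ σ ∈ JJ G ϖ, ρ σ = 1 → σ • z = z}
  mul_mem' ha hb σ hσ h := by rw [smul_mul', ha σ hσ h, hb σ hσ h]
  one_mem' σ _ _ := smul_one σ
  add_mem' ha hb σ hσ h := by rw [smul_add, ha σ hσ h, hb σ hσ h]
  zero_mem' σ _ _ := smul_zero σ
  neg_mem' ha σ hσ h := by rw [smul_neg, ha σ hσ h]
  inv_mem' x ha σ hσ h := by rw [smul_inv'', ha σ hσ h]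

lemma mem_Fld {ϖ z : K} : z ∈ Fld ρ ϖ ↔ ∀ σ ∈ JJ G ϖ, ρ σ = 1 → σ • z = z := Iff.rfl

lemma IsOrder.sep {R : Subring K} {v : OrdFn K} {H : Subalgebra R (V → K)} (hH : IsOrder R ρ H)
    (hRv : ∀ r ∈ R, v.Ge 0 r) {x y : V} (h : ∀ f ∈ H, f x = f y) : x = y := by
  by_contra hne
  obtain ⟨c, -, hc⟩ := hH.exists_rad hRv (sub_ne_zero.mpr hne)
  have h1 : RGe v H (c + 1) (x - y) := hH.rge_of_diff hRv fun f hf => by
    rw [h f hf, sub_self]; exact OrdFn.Ge.zero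
  have := hc.le_of_ge h1
  linarith

namespace Ctx

variable {ϖ : K} (hϖ : ϖ ^ (p ^ 2 - 1) = p)

include C hϖ

/-- **Existence of Kummer generators** -/
theorem exists_kum [Finite V] (hH : IsOrder C.R ρ H) {a : G → ZMod p}
    (ha : ∀ σ ∈ JJ G ϖ, ∀ τ ∈ JJ G ϖ, a (σ * τ) = a σ + a τ)
    (ha1 : ∀ σ ∈ JJ G ϖ, ρ σ = 1 → a σ = 0) : ∃ y ∈ Fld ρ ϖ, Kum C ϖ a y := by
  classical
  have : Finite (AddMonoid.End V) := Finite.of_injective (fun f : AddMonoid.End V => (f : V → V))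
    DFunLike.coe_injective
  let Q : Type _ := Set.range (fun σ : JJ G ϖ => ρ σ)
  have : Finite Q := Subtype.finite
  have : Fintype Q := Fintype.ofFinite Q
  let L : Q → G := fun q => (q.2.choose : JJ G ϖ)
  have hLJ : ∀ q, L q ∈ JJ G ϖ := fun q => (q.2.choose : JJ G ϖ).2
  have hL : ∀ q : Q, ρ (L q) = q := fun q => q.2.choose_spec
  let F := Fld ρ ϖ
  -- points are defined over `F`
  have hval : ∀ f ∈ H, ∀ x, f x ∈ F := by
    intro f hf x σ hσ h
    rw [← hH.equiv f hf, h]; rfl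
  have hinv : ∀ σ τ : G, ρ σ = ρ τ → ρ (σ⁻¹ * τ) = 1 := by
    intro σ τ h
    rw [map_mul, ← h, ← map_mul, inv_mul_cancel, map_one]
  have hdet : ∀ σ ∈ JJ G ϖ, ∀ τ ∈ JJ G ϖ, ρ σ = ρ τ → a σ = a τ := by
    intro σ hσ τ hτ h
    have h1 := ha1 _ ((JJ G ϖ).mul_mem ((JJ G ϖ).inv_mem hσ) hτ) (hinv σ τ h)
    have h2 := ha σ hσ _ ((JJ G ϖ).mul_mem ((JJ G ϖ).inv_mem hσ) hτ)
    rw [mul_inv_cancel_left, h1, add_zero] at h2
    exact h2.symm
  have hact : ∀ σ ∈ JJ G ϖ, ∀ τ ∈ JJ G ϖ, ρ σ = ρ τ → ∀ z ∈ F, σ • z = τ • z := by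
    intro σ hσ τ hτ h z hz
    have h1 := hz _ ((JJ G ϖ).mul_mem ((JJ G ϖ).inv_mem hσ) hτ) (hinv σ τ h)
    rw [mul_smul, inv_smul_eq_iff] at h1
    exact h1.symm
  have hfaith : ∀ σ ∈ JJ G ϖ, (∀ z ∈ F, σ • z = z) → ρ σ = 1 := by
    intro σ _ h
    apply AddMonoidHom.ext
    intro x
    refine hH.sep (v := C.v) C.hRv fun f hf => ?_
    have h1 : f (ρ σ x) = σ • f x := hH.equiv f hf σ x
    exact h1.trans (h _ (hval f hf x))
  -- the characters
  let χ : Q → (F →* K) := fun q =>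
    { toFun := fun z => L q • (z : K)
      map_one' := smul_one _
      map_mul' := fun z w => smul_mul' _ _ _ }
  have hχ : Function.Injective χ := by
    intro q q' h
    have h1 : ρ ((L q)⁻¹ * L q') = 1 := by
      refine hfaith _ ((JJ G ϖ).mul_mem ((JJ G ϖ).inv_mem (hLJ q)) (hLJ q')) fun z hz => ?_
      have h2 : L q • z = L q' • z := DFunLike.congr_fun h (⟨z, hz⟩ : F)
      rw [mul_smul, ← h2, inv_smul_smul]
    apply Subtype.ext
    rw [← hL q, ← hL q']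
    have h2 : ρ (L q) * ρ ((L q)⁻¹ * L q') = ρ (L q) := by rw [h1, mul_one]
    rw [← map_mul, mul_inv_cancel_left] at h2
    exact h2.symm
  have hli : LinearIndependent K (fun q : Q => (χ q : F → K)) :=
    (linearIndependent_monoidHom F K).comp χ hχ
  obtain ⟨z, hz⟩ : ∃ z : F, ∑ q : Q, C.ψ (-(a (L q))) * (L q • (z : K)) ≠ 0 := by
    by_contra hcon
    push Not at hcon
    have h1 : ∑ q : Q, C.ψ (-(a (L q))) • (χ q : F → K) = 0 := by
      ext z
      rw [Finset.sum_apply]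
      exact hcon z
    have h2 := (Fintype.linearIndependent_iff.mp hli) _ h1 ⟨1, 1, by simp⟩
    have h3 : C.ψ (-(a (L ⟨1, 1, by simp⟩))) * C.ψ (a (L ⟨1, 1, by simp⟩)) = 1 := by
      rw [← AddChar.map_add_eq_mul, neg_add_cancel, AddChar.map_zero_eq_one]
    rw [h2, zero_mul] at h3
    exact zero_ne_one h3
  refine ⟨∑ q : Q, C.ψ (-(a (L q))) * (L q • (z : K)), ?_, hz, fun σ hσ => ?_⟩
  · intro σ hσ h
    rw [Finset.smul_sum]
    refine Finset.sum_congr rfl fun q _ => ?_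
    rw [smul_mul', C.smul_psi hϖ hσ, ← mul_smul]
    congr 1
    refine hact _ ((JJ G ϖ).mul_mem hσ (hLJ q)) _ (hLJ q) ?_ _ z.2
    rw [map_mul, h, one_mul]
  · rw [Finset.smul_sum, Finset.mul_sum]
    let e' : Q ≃ Q :=
      { toFun := fun q => ⟨ρ σ * q, ⟨⟨σ, hσ⟩ * q.2.choose, by
          change ρ (σ * L q) = _
          rw [map_mul, hL]⟩⟩
        invFun := fun q => ⟨ρ σ⁻¹ * q, ⟨⟨σ⁻¹, (JJ G ϖ).inv_mem hσ⟩ * q.2.choose, by
          change ρ (σ⁻¹ * L q) = _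
          rw [map_mul, hL]⟩⟩
        left_inv := fun q => Subtype.ext (by
          change ρ σ⁻¹ * (ρ σ * q) = q
          rw [← mul_assoc, ← map_mul, inv_mul_cancel, map_one, one_mul])
        right_inv := fun q => Subtype.ext (by
          change ρ σ * (ρ σ⁻¹ * q) = q
          rw [← mul_assoc, ← map_mul, mul_inv_cancel, map_one, one_mul]) }
    conv_rhs => rw [← e'.sum_comp]
    refine Finset.sum_congr rfl fun q _ => ?_
    have h1 : ρ (L (e' q)) = ρ (σ * L q) := by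
      rw [hL, map_mul, hL]
      rfl
    have h2 : a (L (e' q)) = a σ + a (L q) := by
      rw [← ha σ hσ _ (hLJ q)]
      exact hdet _ (hLJ _) _ ((JJ G ϖ).mul_mem hσ (hLJ q)) h1
    have h3 : L (e' q) • (z : K) = σ • L q • (z : K) := by
      rw [← mul_smul]
      exact hact _ (hLJ _) _ ((JJ G ϖ).mul_mem hσ (hLJ q)) h1 _ z.2
    rw [smul_mul', C.smul_psi hϖ hσ, h2, h3, ← mul_assoc, ← AddChar.map_add_eq_mul]
    congr 2
    ring

end Ctx

/-- every class has a generator of level `≥ i` -/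
def Lev (C : Ctx K κ G p) (ϖ : K) {W : Type*} [AddCommGroup W] (f : G → (W →+ ZMod p)) (i : ℕ) :
    Prop := ∀ β : W, ∃ y, Kum C ϖ (fun σ => f σ β) y ∧ Lv C i y

namespace Ctx

variable {ϖ : K} (hϖ : ϖ ^ (p ^ 2 - 1) = p)
variable {W : Type*} [AddCommGroup W] {f : G → (W →+ ZMod p)}

include C hϖ

/-- the leading coefficient as a homomorphism -/
theorem exists_leadHom {i : ℕ} (hi : 1 ≤ i) (hi' : i < p * (p + 1)) (hpi : ¬ p ∣ i)
    (hlev : Lev C ϖ f i) : ∃ ℓ : W →+ κ, ∀ β y, Kum C ϖ (fun σ => f σ β) y → Lv C i y →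
      ℓ β = lead C ϖ i y := by
  choose y hy hyl using hlev
  have key : ∀ β z, Kum C ϖ (fun σ => f σ β) z → Lv C i z → lead C ϖ i (y β) = lead C ϖ i z :=
    fun β z hz hzl => C.lead_eq hϖ hi hi' hpi (hy β) hz (hyl β) hzl
  refine ⟨AddMonoidHom.mk' (fun β => lead C ϖ i (y β)) fun β β' => ?_, key⟩
  rw [← C.lead_mul hϖ hi (hyl β) (hyl β')]
  refine key _ _ ?_ (C.lv_mul (hyl β) (hyl β'))
  refine C.kum_congr (C.kum_mul (hy β) (hy β')) fun σ _ => ?_
  simp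

/-- **one step of the level induction** -/
theorem lev_step [IsAlgClosed κ] {i : ℕ} (hi : 1 ≤ i) (hi' : i < p * (p + 1))
    (hlev : Lev C ϖ f i) {σ₀ : G} {T : AddMonoid.End W}
    (hT : ∀ β y, Kum C ϖ (fun σ => f σ β) y → Kum C ϖ (fun σ => f σ (T β)) (σ₀ • y))
    {Q : ℤ[X]} (hQ : Polynomial.aeval T Q = 0)
    (hne : p ∣ i ∨ Polynomial.aeval (C.r (C.Th hϖ σ₀ : K) ^ i) Q ≠ 0) :
    Lev C ϖ f (i + 1) := by
  by_cases hpi : p ∣ i
  · intro β
    obtain ⟨y, hy, hyl⟩ := hlev β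
    exact C.step_dvd hϖ hi hi' hpi hy hyl
  have hne' := hne.resolve_left hpi
  obtain ⟨ℓ, hℓ⟩ := C.exists_leadHom hϖ hi hi' hpi hlev
  set g := C.r (C.Th hϖ σ₀ : K) ^ i with hg
  have h1 : ∀ β, ℓ (T β) = g * ℓ β := by
    intro β
    obtain ⟨y, hy, hyl⟩ := hlev β
    rw [hℓ β y hy hyl, hℓ _ _ (hT β y hy) (C.lv_smul hϖ hyl σ₀), C.lead_smul hϖ hyl]
  have h2 : ∀ (P : ℤ[X]) (β : W), ℓ (Polynomial.aeval T P β) = Polynomial.aeval g P * ℓ β := by
    intro P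
    induction P using Polynomial.induction_on' with
    | add P Q hP hQ =>
      intro β
      have e : Polynomial.aeval T (P + Q) β = Polynomial.aeval T P β + Polynomial.aeval T Q β := by
        rw [map_add]; rfl
      rw [e, map_add, map_add, add_mul, ← hP, ← hQ]
    | monomial n a =>
      intro β
      have e : Polynomial.aeval T (Polynomial.monomial n a) β = a • ((T ^ n) β) := by
        rw [Polynomial.aeval_monomial, Algebra.algebraMap_eq_smul_one, smul_mul_assoc, one_mul]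
        rfl
      have h3 : ∀ n : ℕ, ℓ ((T ^ n) β) = g ^ n * ℓ β := by
        intro n
        induction n with
        | zero => simp
        | succ n ih =>
          have : (T ^ (n + 1)) β = T ((T ^ n) β) := by rw [pow_succ']; rfl
          rw [this, h1, ih, pow_succ]; ring
      rw [e, map_zsmul, h3, Polynomial.aeval_monomial, zsmul_eq_mul, eq_intCast]
      ring
  intro β
  obtain ⟨y, hy, hyl⟩ := hlev β
  refine ⟨y, hy, C.lv_succ hϖ (C.kum_pow hy) hyl ?_⟩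
  rw [← hℓ β y hy hyl]
  have h3 := h2 Q β
  rw [hQ] at h3
  have h4 : ℓ ((0 : AddMonoid.End W) β) = 0 := by
    have : (0 : AddMonoid.End W) β = 0 := rfl
    rw [this, map_zero]
  rw [h4] at h3
  exact (mul_eq_zero.mp h3.symm).resolve_left hne'

/-- a generator whose valuation is divisible by `p` can be normalised to level one -/
theorem lv_one_of_ord [IsAlgClosed κ] {a : G → ZMod p} {y : K} (hy : Kum C ϖ a y) {m : ℤ}
    (hm : C.v.ord y = m / ((p ^ 2 - 1 : ℕ) : ℝ)) : ∃ z, Kum C ϖ a z ∧ Lv C 1 z := by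
  have h0 := C.varpi_ne hϖ e_ne_zero
  have he := C.epos
  set q : K := (ϖ ^ m)⁻¹ with hq
  have hq0 : q ≠ 0 := inv_ne_zero (zpow_ne_zero _ h0)
  have hqL : q ∈ L0 G ϖ := (L0 G ϖ).inv_mem (zpow_mem (C.varpi_mem_L0 hϖ) m)
  have h1 : C.v.Eq 0 (y * q) := by
    refine ⟨mul_ne_zero hy.1 hq0, ?_⟩
    rw [OrdFn.ord_mul hy.1 hq0, hm, hq, OrdFn.ord_inv _ (zpow_ne_zero _ h0), OrdFn.ord_zpow h0,
      (C.eq_varpi hϖ e_ne_zero).2]
    ring
  obtain ⟨b, hbR, hb⟩ := C.r_surj (C.r (y * q))⁻¹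
  have hbv := C.hRv _ hbR
  have hb0 : b ≠ 0 := by
    rintro rfl
    rw [C.r_zero] at hb
    exact inv_ne_zero (C.r_ne_zero h1) hb.symm
  set z := y * (q * b) with hz
  have hzk : Kum C ϖ a z := C.kum_L0 hy ((L0 G ϖ).mul_mem hqL (C.R_mem_L0 hbR)) (mul_ne_zero hq0 hb0)
  refine ⟨z, hzk, ?_⟩
  have hzv : C.v.Ge 0 z := by
    rw [hz, ← mul_assoc]; simpa using h1.ge.mul hbv
  have hrz : C.r z = 1 := by
    rw [hz, ← mul_assoc, C.r_mul _ _ h1.ge hbv, hb, mul_inv_cancel₀ (C.r_ne_zero h1)]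
  have h2 : C.v.Gt 0 (z ^ p - 1) := by
    rw [← C.r_eq_iff (Ge.pow_aux hzv p) OrdFn.eq_one.ge, C.r_pow hzv, hrz, one_pow, C.r_one]
  have h3 := C.ge_of_gt_L0 hϖ (z := z ^ p - 1) (i := 0)
    ((L0 G ϖ).sub_mem (C.kum_pow hzk) (L0 G ϖ).one_mem) (by simpa using h2)
  unfold Lv
  simpa using h3

end Ctx

end Fermat.Agent.FlatLoc
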