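import Fermat.Agent.FlatLoc.Kummer3

/-!
# Level zero, iteration of the levels
-/

set_option autoImplicit false
set_option linter.unusedSectionVars false

namespace Fermat.Agent.FlatLoc

open Fermat.Agent.ECRed
open scoped Polynomial

lemma hom_aeval {W A : Type*} [AddCommGroup W] [CommRing A] {T : AddMonoid.End W} {ℓ : W →+ A}
    {g : A} (h1 : ∀ β, ℓ (T β) = g * ℓ β) (P : ℤ[X]) :
    ∀ β : W, ℓ (Polynomial.aeval T P β) = Polynomial.aeval g P * ℓ β := by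
  induction P using Polynomial.induction_on' with
  | add P Q hP hQ =>
    intro β
    have e : Polynomial.aeval T (P + Q) β = Polynomial.aeval T P β + Polynomial.aeval T Q β := by
      rw [map_add]; rfl
    rw [e, map_add, map_add, add_mul, ← hP, ← hQ]
  | monomial n a =>
    intro β
    have e : Polynomial.aeval T (Polynomial.monomial n a) β = a • ((T ^ n) β) := by
      rw [Polynomial.aeval_monomial, Algebra.algebraMap_eq_smul_one, smul_mul_assoc, one_mul]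
      rfl
    have h3 : ∀ n : ℕ, ℓ ((T ^ n) β) = g ^ n * ℓ β := by
      intro n
      induction n with
      | zero => simp
      | succ n ih =>
        have : (T ^ (n + 1)) β = T ((T ^ n) β) := by rw [pow_succ']; rfl
        rw [this, h1, ih, pow_succ]; ring
    rw [e, map_zsmul, h3, Polynomial.aeval_monomial, zsmul_eq_mul, eq_intCast]
    ring

variable {K : Type*} [Field K] {κ : Type*} [Field κ] {G : Type*} [Group G]
  [MulSemiringAction G K] {p : ℕ} [hp : Fact p.Prime] (C : Ctx K κ G p)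

namespace Ctx

variable {ϖ : K} (hϖ : ϖ ^ (p ^ 2 - 1) = p)
variable {W : Type*} [AddCommGroup W] {f : G → (W →+ ZMod p)}

include C hϖ

lemma ord_kum {a : G → ZMod p} {y : K} (hy : Kum C ϖ a y) :
    ∃ m : ℤ, (p : ℝ) * C.v.ord y = m / ((p ^ 2 - 1 : ℕ) : ℝ) := by
  obtain ⟨n, hn⟩ := C.ord_L0 hϖ (C.kum_pow hy) (pow_ne_zero p hy.1)
  exact ⟨n, by rw [← hn, OrdFn.ord_pow hy.1]⟩

/-- the valuation of Kummer generators modulo `p` -/
theorem exists_ordHom (hK : ∀ β, ∃ y, Kum C ϖ (fun σ => f σ β) y) :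
    ∃ N : W →+ ZMod p, ∀ β y, Kum C ϖ (fun σ => f σ β) y → ∀ m : ℤ,
      (p : ℝ) * C.v.ord y = m / ((p ^ 2 - 1 : ℕ) : ℝ) → N β = m := by
  have he := C.epos
  choose y hy using hK
  choose m hm using fun β => C.ord_kum hϖ (hy β)
  have key : ∀ β z, Kum C ϖ (fun σ => f σ β) z → ∀ n : ℤ,
      (p : ℝ) * C.v.ord z = n / ((p ^ 2 - 1 : ℕ) : ℝ) → ((m β : ℤ) : ZMod p) = n := by
    intro β z hz n hn
    have hq := C.kum_div (hy β) hz
    have hq0 : z / y β ≠ 0 := div_ne_zero hz.1 (hy β).1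
    obtain ⟨k, hk⟩ := C.ord_L0 hϖ hq hq0
    have h1 : C.v.ord z = C.v.ord (z / y β) + C.v.ord (y β) := by
      rw [← OrdFn.ord_mul hq0 (hy β).1, div_mul_cancel₀ _ (hy β).1]
    have h2 : (n : ℝ) = p * k + m β := by
      have h3 := hm β
      rw [h1, mul_add, h3, hk] at hn
      field_simp at hn
      linarith
    have h3 : n = p * k + m β := by exact_mod_cast h2
    rw [h3]
    push_cast
    simp
  refine ⟨AddMonoidHom.mk' (fun β => ((m β : ℤ) : ZMod p)) fun β β' => ?_, key⟩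
  have h1 : Kum C ϖ (fun σ => f σ (β + β')) (y β * y β') :=
    C.kum_congr (C.kum_mul (hy β) (hy β')) fun σ _ => by simp
  have h2 := key _ _ h1 (m β + m β') (by
    rw [OrdFn.ord_mul (hy β).1 (hy β').1, mul_add, hm, hm]
    push_cast; ring)
  rw [h2]
  push_cast; rfl

/-- normalisation of the valuation -/
theorem lev_zero [IsAlgClosed κ] (hK : ∀ β, ∃ y, Kum C ϖ (fun σ => f σ β) y)
    (hN : ∀ N : W →+ ZMod p, (∀ β y, Kum C ϖ (fun σ => f σ β) y → ∀ m : ℤ,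
      (p : ℝ) * C.v.ord y = m / ((p ^ 2 - 1 : ℕ) : ℝ) → N β = m) → N = 0) : Lev C ϖ f 1 := by
  obtain ⟨N, hN'⟩ := C.exists_ordHom hϖ hK
  have hN0 := hN N hN'
  intro β
  obtain ⟨y, hy⟩ := hK β
  obtain ⟨m, hm⟩ := C.ord_kum hϖ hy
  have h1 := hN' β y hy m hm
  rw [hN0] at h1
  have h2 : (p : ℤ) ∣ m := (ZMod.intCast_zmod_eq_zero_iff_dvd m p).mp h1.symm
  obtain ⟨k, rfl⟩ := h2
  refine C.lv_one_of_ord hϖ hy (m := k) ?_
  have hp0 : (p : ℝ) ≠ 0 := by exact_mod_cast hp.out.ne_zero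
  have he := C.epos
  push_cast at hm
  field_simp at hm ⊢
  linarith

theorem lev_zero_of_poly [IsAlgClosed κ] (hK : ∀ β, ∃ y, Kum C ϖ (fun σ => f σ β) y)
    {σ₀ : G} {T : AddMonoid.End W}
    (hT : ∀ β y, Kum C ϖ (fun σ => f σ β) y → Kum C ϖ (fun σ => f σ (T β)) (σ₀ • y))
    {Q : ℤ[X]} (hQ : Polynomial.aeval T Q = 0) (hne : Polynomial.aeval (1 : κ) Q ≠ 0) :
    Lev C ϖ f 1 := by
  refine C.lev_zero hϖ hK fun N hN => ?_
  have := C.char
  have h1 : ∀ β, N (T β) = 1 * N β := by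
    intro β
    obtain ⟨y, hy⟩ := hK β
    obtain ⟨m, hm⟩ := C.ord_kum hϖ hy
    rw [hN β y hy m hm, one_mul]
    exact hN _ _ (hT β y hy) m (by rw [C.hv, hm])
  have h2 : Polynomial.aeval (1 : ZMod p) Q ≠ 0 := by
    intro h0
    apply hne
    have h3 : Polynomial.aeval ((ZMod.castHom (dvd_refl p) κ) 1) Q =
        (ZMod.castHom (dvd_refl p) κ) (Polynomial.aeval (1 : ZMod p) Q) := by
      have := Polynomial.aeval_algHom_apply ((ZMod.castHom (dvd_refl p) κ).toIntAlgHom) (1 : ZMod p) Q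
      simpa using this
    rw [map_one, h0, map_zero] at h3
    exact h3
  ext β
  have h3 := hom_aeval h1 Q β
  rw [hQ] at h3
  have h4 : N ((0 : AddMonoid.End W) β) = 0 := by
    have : (0 : AddMonoid.End W) β = 0 := rfl
    rw [this, map_zero]
  rw [h4] at h3
  exact (mul_eq_zero.mp h3.symm).resolve_left h2

/-- iteration of the level induction -/
theorem lev_up [IsAlgClosed κ] {σ₀ : G} {T : AddMonoid.End W}
    (hT : ∀ β y, Kum C ϖ (fun σ => f σ β) y → Kum C ϖ (fun σ => f σ (T β)) (σ₀ • y))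
    {Q : ℤ[X]} (hQ : Polynomial.aeval T Q = 0) {i : ℕ} (hi : 1 ≤ i) (hlev : Lev C ϖ f i)
    {j : ℕ} (hij : i ≤ j) (hj : j ≤ p * (p + 1))
    (hne : ∀ k, i ≤ k → k < j → (p ∣ k ∨ Polynomial.aeval (C.r (C.Th hϖ σ₀ : K) ^ k) Q ≠ 0)) :
    Lev C ϖ f j := by
  induction j, hij using Nat.le_induction with
  | base => exact hlev
  | succ j hij ih =>
    exact C.lev_step hϖ (hi.trans hij) (by omega)
      (ih (by omega) fun k hk hk' => hne k hk (by omega)) hT hQ (hne j hij (by omega))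

/-- at the exceptional level: if the leading coefficient vanishes one can go on -/
theorem lev_succ_of_hom {i : ℕ} {ℓ : W →+ κ} (hlev : Lev C ϖ f i)
    (hℓ : ∀ β y, Kum C ϖ (fun σ => f σ β) y → Lv C i y → ℓ β = lead C ϖ i y) (h0 : ℓ = 0) :
    Lev C ϖ f (i + 1) := by
  intro β
  obtain ⟨y, hy, hyl⟩ := hlev β
  refine ⟨y, hy, C.lv_succ hϖ (C.kum_pow hy) hyl ?_⟩
  rw [← hℓ β y hy hyl, h0]; rfl

theorem eq_zero_of_lev (hlev : Lev C ϖ f (p * (p + 1))) : ∀ σ ∈ JJ G ϖ, f σ = 0 := by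
  intro σ hσ
  ext β
  obtain ⟨y, hy, hyl⟩ := hlev β
  exact C.step_last hϖ hy hyl σ hσ

/-- lead homomorphisms are eigenfunctionals -/
theorem lead_eigen {i : ℕ} (hlev : Lev C ϖ f i) {ℓ : W →+ κ}
    (hℓ : ∀ β y, Kum C ϖ (fun σ => f σ β) y → Lv C i y → ℓ β = lead C ϖ i y)
    {σ₀ : G} {T : AddMonoid.End W}
    (hT : ∀ β y, Kum C ϖ (fun σ => f σ β) y → Kum C ϖ (fun σ => f σ (T β)) (σ₀ • y)) (β : W) :
    ℓ (T β) = C.r (C.Th hϖ σ₀ : K) ^ i * ℓ β := by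
  obtain ⟨y, hy, hyl⟩ := hlev β
  rw [hℓ β y hy hyl, hℓ _ _ (hT β y hy) (C.lv_smul hϖ hyl σ₀), C.lead_smul hϖ hyl]

end Ctx

/-- Frobenius-like automorphisms -/
structure Frob (C : Ctx K κ G p) (ϖ : K) where
  φ : K ≃+* K
  hφ : φ ϖ = ϖ
  ord : ∀ z, C.v.ord (φ z) = C.v.ord z
  r_eq : ∀ z, C.v.Ge 0 z → C.r (φ z) = C.r z ^ p
  conj : G → G
  conj_spec : ∀ (σ : G) (z : K), σ • φ z = φ (conj σ • z)
  u : (ZMod p)ˣ
  hu : ∀ a, φ (C.ψ a) = C.ψ (u * a)

namespace Frob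

variable {C} {ϖ : K} (hϖ : ϖ ^ (p ^ 2 - 1) = p) (F : Frob C ϖ)

lemma conj_mem {σ : G} (hσ : σ ∈ JJ G ϖ) : F.conj σ ∈ JJ G ϖ := by
  have h := F.conj_spec σ ϖ
  rw [F.hφ, mem_JJ.mp hσ] at h
  apply mem_JJ.mpr
  apply F.φ.injective
  rw [← h, F.hφ]

lemma kum {a b : G → ZMod p} {y : K} (hy : Kum C ϖ a y)
    (hab : ∀ σ ∈ JJ G ϖ, b σ = F.u * a (F.conj σ)) : Kum C ϖ b (F.φ y) := by
  refine ⟨fun h => hy.1 (by rwa [map_eq_zero] at h), fun σ hσ => ?_⟩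
  rw [F.conj_spec, hy.2 _ (F.conj_mem hσ), map_mul, F.hu, hab σ hσ]

lemma ge {c : ℝ} {z : K} (h : C.v.Ge c z) : C.v.Ge c (F.φ z) := by
  unfold OrdFn.Ge at *
  rw [F.ord, map_eq_zero]
  exact h

include hϖ

lemma lv {i : ℕ} {y : K} (hy : Lv C i y) : Lv C i (F.φ y) := by
  unfold Lv at *
  have e : (F.φ y) ^ p - 1 = F.φ (y ^ p - 1) := by rw [map_sub, map_pow, map_one]
  rw [e]
  exact F.ge hy

lemma lead_eq {i : ℕ} {y : K} (hy : Lv C i y) : lead C ϖ i (F.φ y) = lead C ϖ i y ^ p := by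
  unfold lead
  have e : ((F.φ y) ^ p - 1) / ϖ ^ i = F.φ ((y ^ p - 1) / ϖ ^ i) := by
    rw [map_div₀, map_sub, map_pow, map_one, map_pow, F.hφ]
  rw [e, F.r_eq _ (C.div_ge hϖ hy)]

end Frob

end Fermat.Agent.FlatLoc
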