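import Mathlib

/-!
# Orders in function algebras of finite Galois modules

`IsOrder R ρ H`: `H` is a finitely generated `R`-algebra of Galois-equivariant functions on the
finite Galois module `V`, spanning all functions, and stable under the group law (i.e. `H` is the
affine algebra of a finite flat commutative group scheme over `R` with points `V`).
-/

set_option autoImplicit false
set_option linter.unusedSectionVars false

namespace Fermat.Agent.FlatLoc

variable {K : Type*} [Field K]

/-- pull back of functions -/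
def pull (R : Subring K) {V W : Type*} (g : W → V) : (V → K) →ₐ[R] (W → K) where
  toFun f := f ∘ g
  map_one' := rfl
  map_mul' _ _ := rfl
  map_zero' := rfl
  map_add' _ _ := rfl
  commutes' _ := rfl

@[simp] lemma pull_apply (R : Subring K) {V W : Type*} (g : W → V) (f : V → K) (w : W) :
    pull R g f w = f (g w) := rfl

lemma pull_comp (R : Subring K) {V W X : Type*} (g : W → V) (h : X → W) :
    (pull R h).comp (pull R g) = pull R (g ∘ h) := rfl

/-- functions on a product which are sums of products -/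
def box {R : Subring K} {V W : Type*} (H : Subalgebra R (V → K)) (H' : Subalgebra R (W → K)) :
    Subalgebra R (V × W → K) :=
  H.map (pull R Prod.fst) ⊔ H'.map (pull R Prod.snd)

section box

variable {R : Subring K} {V W : Type*} {H : Subalgebra R (V → K)} {H' : Subalgebra R (W → K)}

lemma mem_box {F : V × W → K} : F ∈ box H H' ↔ ∃ (n : ℕ) (g : Fin n → V → K) (h : Fin n → W → K),
    (∀ i, g i ∈ H) ∧ (∀ i, h i ∈ H') ∧ ∀ x y, F (x, y) = ∑ i, g i x * h i y := by
  constructor
  · intro hF
    have h1 : F ∈ Subalgebra.toSubmodule (H.map (pull R (Prod.fst : V × W → V))) *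
        Subalgebra.toSubmodule (H'.map (pull R (Prod.snd : V × W → W))) := by
      rw [Subalgebra.mul_toSubmodule]
      exact hF
    refine Submodule.mul_induction_on h1 ?_ ?_
    · rintro _ ⟨g, hg, rfl⟩ _ ⟨h, hh, rfl⟩
      exact ⟨1, fun _ => g, fun _ => h, fun _ => hg, fun _ => hh, fun x y => by simp⟩
    · rintro F₁ F₂ ⟨n₁, g₁, h₁, hg₁, hh₁, e₁⟩ ⟨n₂, g₂, h₂, hg₂, hh₂, e₂⟩
      refine ⟨n₁ + n₂, Fin.append g₁ g₂, Fin.append h₁ h₂, ?_, ?_, ?_⟩
      · intro i
        refine Fin.addCases (fun i => ?_) (fun i => ?_) i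
        · rw [Fin.append_left]; exact hg₁ i
        · rw [Fin.append_right]; exact hg₂ i
      · intro i
        refine Fin.addCases (fun i => ?_) (fun i => ?_) i
        · rw [Fin.append_left]; exact hh₁ i
        · rw [Fin.append_right]; exact hh₂ i
      · intro x y
        rw [Fin.sum_univ_add, Pi.add_apply, e₁, e₂]
        simp [Fin.append_left, Fin.append_right]
  · rintro ⟨n, g, h, hg, hh, e⟩
    have h1 : F = ∑ i, pull R Prod.fst (g i) * pull R Prod.snd (h i) := by
      ext ⟨x, y⟩
      rw [e, Finset.sum_apply]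
      rfl
    rw [h1]
    refine Subalgebra.sum_mem _ fun i _ => mul_mem ?_ ?_
    · exact (le_sup_left : H.map (pull R Prod.fst) ≤ box H H') ⟨_, hg i, rfl⟩
    · exact (le_sup_right : H'.map (pull R Prod.snd) ≤ box H H') ⟨_, hh i, rfl⟩

lemma box_fg (h : (Subalgebra.toSubmodule H).FG) (h' : (Subalgebra.toSubmodule H').FG) :
    (Subalgebra.toSubmodule (box H H')).FG := by
  unfold box
  rw [← Subalgebra.mul_toSubmodule]
  refine Submodule.FG.mul ?_ ?_
  · rw [Subalgebra.map_toSubmodule]; exact h.map _
  · rw [Subalgebra.map_toSubmodule]; exact h'.map _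

end box

variable {G : Type*} [Group G] [MulSemiringAction G K]

/-- hypotheses on the base ring -/
structure IsBase (G : Type*) [Group G] [MulSemiringAction G K] (R : Subring K) : Prop where
  fixed : ∀ r ∈ R, ∀ σ : G, σ • r = r
  frac : ∀ z : K, (∀ σ : G, σ • z = z) → ∃ s ∈ R, s ≠ 0 ∧ s * z ∈ R
  int : ∀ z : K, (∀ σ : G, σ • z = z) → IsIntegral R z → z ∈ R
  pid : IsPrincipalIdealRing R

variable {V : Type*} [AddCommGroup V] {W : Type*} [AddCommGroup W]

/-- `H` is the affine algebra of a finite flat group scheme over `R` with points `V`. -/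
structure IsOrder (R : Subring K) (ρ : G →* AddMonoid.End V) (H : Subalgebra R (V → K)) :
    Prop where
  fg : (Subalgebra.toSubmodule H).FG
  equiv : ∀ f ∈ H, ∀ (σ : G) (x : V), f (ρ σ x) = σ • f x
  span : Submodule.span K (H : Set (V → K)) = ⊤
  comul : ∀ f ∈ H, (fun q : V × V => f (q.1 + q.2)) ∈ box H H

/-- the module `V` is flat over `R` -/
def IsFlatMod (R : Subring K) (ρ : G →* AddMonoid.End V) : Prop :=
  ∃ H : Subalgebra R (V → K), IsOrder R ρ H

section basis

variable {R : Subring K} {ρ : G →* AddMonoid.End V}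

/-- Galois descent of linear independence -/
lemma linearIndependent_of_fixed {ι : Type*} [Finite ι] {b : ι → V → K}
    (hb : ∀ i (σ : G) x, b i (ρ σ x) = σ • b i x)
    (h : ∀ a : ι → K, (∀ i (σ : G), σ • a i = a i) → (∀ x, ∑ᶠ i, a i * b i x = 0) → ∀ i, a i = 0) :
    LinearIndependent K b := by
  classical
  cases nonempty_fintype ι
  simp only [finsum_eq_sum_of_fintype] at h
  rw [Fintype.linearIndependent_iff]
  by_contra hcon
  push Not at hcon
  let S : Set ℕ := {n | ∃ a : ι → K, ∑ i, a i • b i = 0 ∧ (∃ i, a i ≠ 0) ∧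
    (Finset.univ.filter fun i => a i ≠ 0).card = n}
  have hS : S.Nonempty := by
    obtain ⟨a, ha, hi⟩ := hcon
    exact ⟨_, a, ha, hi, rfl⟩
  obtain ⟨a, ha, ⟨i, hi⟩, hcard⟩ := Nat.sInf_mem hS
  -- normalise
  set a' : ι → K := fun j => (a i)⁻¹ * a j with ha'
  have ha'0 : ∀ x, ∑ j, a' j * b j x = 0 := by
    intro x
    have h1 := congrFun ha x
    simp only [Finset.sum_apply, Pi.smul_apply, smul_eq_mul, Pi.zero_apply] at h1
    calc ∑ j, a' j * b j x = (a i)⁻¹ * ∑ j, a j * b j x := by
          rw [Finset.mul_sum]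
          exact Finset.sum_congr rfl fun j _ => by rw [ha']; ring
      _ = 0 := by rw [h1, mul_zero]
  have hne : ∀ j, a' j ≠ 0 ↔ a j ≠ 0 := by
    intro j
    rw [ha']
    simp [hi]
  have hfix : ∀ j (σ : G), σ • a' j = a' j := by
    intro j σ
    by_contra hj
    have h2 : ∑ k, (σ • a' k - a' k) • b k = 0 := by
      ext x
      simp only [Finset.sum_apply, Pi.smul_apply, smul_eq_mul, Pi.zero_apply, sub_mul,
        Finset.sum_sub_distrib]
      rw [ha'0, sub_zero]
      have h3 : ρ σ (ρ σ⁻¹ x) = x := by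
        have : (ρ σ * ρ σ⁻¹) x = x := by rw [← map_mul, mul_inv_cancel, map_one]; rfl
        exact this
      have h4 := congrArg (fun z => σ • z) (ha'0 (ρ σ⁻¹ x))
      simp only [smul_zero, Finset.smul_sum, smul_mul'] at h4
      rw [← h4]
      refine Finset.sum_congr rfl fun k _ => ?_
      rw [← hb, h3]
    have h5 : (Finset.univ.filter fun k => σ • a' k - a' k ≠ 0).card <
        (Finset.univ.filter fun k => a k ≠ 0).card := by
      refine Finset.card_lt_card ?_
      refine ⟨fun k hk => ?_, fun hsub => ?_⟩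
      · simp only [Finset.mem_filter, Finset.mem_univ, true_and] at hk ⊢
        rw [← hne]
        intro h0
        rw [h0, smul_zero, sub_zero] at hk
        exact hk rfl
      · have h6 : i ∈ Finset.univ.filter fun k => σ • a' k - a' k ≠ 0 :=
          hsub (by simpa using hi)
        simp only [Finset.mem_filter, Finset.mem_univ, true_and] at h6
        apply h6
        have : a' i = 1 := by rw [ha']; exact inv_mul_cancel₀ hi
        rw [this, smul_one, sub_self]
    have h7 : (Finset.univ.filter fun k => σ • a' k - a' k ≠ 0).card ∈ S :=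
      ⟨_, h2, ⟨j, sub_ne_zero.mpr hj⟩, rfl⟩
    have h8 := Nat.sInf_le h7
    omega
  have := h a' hfix ha'0 i
  exact (hne i).mpr hi this

/-- **Good bases**: a finitely generated `R`-module of equivariant functions has an `R`-basis
which is linearly independent over `K`. -/
theorem exists_basis (hR : IsBase G R) {H : Submodule R (V → K)} (fg : H.FG)
    (heq : ∀ f ∈ H, ∀ (σ : G) (x : V), f (ρ σ x) = σ • f x) :
    ∃ (n : ℕ) (b : Fin n → V → K), (∀ i, b i ∈ H) ∧ LinearIndependent K b ∧
      ∀ f ∈ H, ∃ r : Fin n → R, ∀ x, f x = ∑ i, (r i : K) * b i x := by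
  have := hR.pid
  have : Module.Finite R H := Module.Finite.iff_fg.mpr fg
  have hKt : Module.IsTorsionFree R K := inferInstance
  have : Module.IsTorsionFree R (V → K) := inferInstance
  have : Module.IsTorsionFree R H := inferInstance
  have : Module.Free R H := inferInstance
  let B := Module.finBasis R H
  have hval : ∀ (r : Fin (Module.finrank R H) → R) (x : V),
      ((∑ i, r i • B i : H) : V → K) x = ∑ i, (r i : K) * (B i : V → K) x := by
    intro r x
    rw [AddSubmonoidClass.coe_finsetSum, Finset.sum_apply]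
    rfl
  refine ⟨_, fun i => (B i : V → K), fun i => (B i).2, ?_, ?_⟩
  · refine linearIndependent_of_fixed (ρ := ρ) (fun i σ x => heq _ (B i).2 σ x) ?_
    intro a ha h0 i
    simp only [finsum_eq_sum_of_fintype] at h0
    choose s hs hs0 hsa using fun i => hR.frac (a i) (ha i)
    -- common denominator
    have hr : ∀ j, (∏ i, s i) * a j ∈ R := by
      intro j
      rw [← Finset.mul_prod_erase _ _ (Finset.mem_univ j), mul_comm (s j), mul_assoc]
      exact R.mul_mem (R.prod_mem fun i _ => hs i) (hsa j)
    have h1 : ∑ j, (⟨_, hr j⟩ : R) • B j = 0 := by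
      apply Subtype.ext
      ext x
      rw [hval]
      simp only [mul_assoc]
      rw [← Finset.mul_sum, h0, mul_zero]
      rfl
    have h2 := (Fintype.linearIndependent_iff.mp B.linearIndependent) _ h1 i
    have h3 : (∏ i, s i) * a i = 0 := congrArg Subtype.val h2
    exact (mul_eq_zero.mp h3).resolve_left (Finset.prod_ne_zero_iff.mpr fun i _ => hs0 i)
  · intro f hf
    refine ⟨fun i => B.repr ⟨f, hf⟩ i, fun x => ?_⟩
    rw [← hval, B.sum_repr]

/-- explicit comultiplication -/
lemma IsOrder.comul' {H : Subalgebra R (V → K)} (hH : IsOrder R ρ H) {f : V → K} (hf : f ∈ H) :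
    ∃ (n : ℕ) (g h : Fin n → V → K), (∀ i, g i ∈ H) ∧ (∀ i, h i ∈ H) ∧
      ∀ x y, f (x + y) = ∑ i, g i x * h i y :=
  mem_box.mp (hH.comul f hf)

/-- a basis of an order -/
theorem IsOrder.exists_basis [Finite V] (hR : IsBase G R) {H : Subalgebra R (V → K)}
    (hH : IsOrder R ρ H) :
    ∃ b : V → V → K, (∀ i, b i ∈ H) ∧ LinearIndependent K b ∧
      ∀ f ∈ H, ∃ r : V → R, ∀ x, f x = ∑ᶠ i, (r i : K) * b i x := by
  classical
  cases nonempty_fintype V
  obtain ⟨n, b, hb, hli, hr⟩ := FlatLoc.exists_basis hR hH.fg hH.equiv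
  have hspan : Submodule.span K (Set.range b) = ⊤ := by
    rw [eq_top_iff, ← hH.span, Submodule.span_le]
    intro f hf
    obtain ⟨r, hr⟩ := hr f hf
    have h1 : f = ∑ i, (r i : K) • b i := by
      ext x
      rw [hr, Finset.sum_apply]
      rfl
    rw [h1]
    exact Submodule.sum_mem _ fun i _ => Submodule.smul_mem _ _ (Submodule.subset_span ⟨i, rfl⟩)
  have hn : n = Fintype.card V := by
    have h1 := finrank_span_eq_card hli
    rw [hspan, finrank_top, Module.finrank_fintype_fun_eq_card, Fintype.card_fin] at h1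
    exact h1.symm
  let e : V ≃ Fin n := Fintype.equivOfCardEq (by rw [Fintype.card_fin, hn])
  refine ⟨fun v => b (e v), fun i => hb _, hli.comp e e.injective, fun f hf => ?_⟩
  obtain ⟨r, hr⟩ := hr f hf
  refine ⟨fun v => r (e v), fun x => ?_⟩
  rw [hr, finsum_eq_sum_of_fintype, ← e.sum_comp]

end basis

end Fermat.Agent.FlatLoc
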