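import Fermat.Agent.FlatLoc.Dual
import Fermat.Agent.ECRed.Ord

/-!
# The metric attached to an order
-/

set_option autoImplicit false
set_option linter.unusedSectionVars false

namespace Fermat.Agent.FlatLoc

open Fermat.Agent.ECRed Polynomial

section OrdLemmas

variable {K : Type*} [Field K] {v : OrdFn K} {c : ℝ}

lemma ge_sum {ι : Type*} (s : Finset ι) (f : ι → K) (h : ∀ i ∈ s, v.Ge c (f i)) :
    v.Ge c (∑ i ∈ s, f i) := by
  classical
  induction s using Finset.induction_on with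
  | empty => simpa using OrdFn.Ge.zero
  | insert a s ha ih =>
    rw [Finset.sum_insert ha]
    exact (h a (Finset.mem_insert_self _ _)).add (ih fun i hi => h i (Finset.mem_insert_of_mem hi))

lemma gt_sum {ι : Type*} (s : Finset ι) (f : ι → K) (h : ∀ i ∈ s, v.Gt c (f i)) :
    v.Gt c (∑ i ∈ s, f i) := by
  classical
  induction s using Finset.induction_on with
  | empty => simpa using OrdFn.Gt.zero
  | insert a s ha ih =>
    rw [Finset.sum_insert ha]
    exact (h a (Finset.mem_insert_self _ _)).add (ih fun i hi => h i (Finset.mem_insert_of_mem hi))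

/-- integral elements have nonnegative ord -/
lemma ge_of_isIntegral {R : Subring K} (hR : ∀ r ∈ R, v.Ge 0 r) {z : K} (hz : IsIntegral R z) :
    v.Ge 0 z := by
  by_contra hcon
  rw [OrdFn.not_ge_iff] at hcon
  obtain ⟨hz0, hlt⟩ := hcon
  obtain ⟨P, hP, hPz⟩ := hz
  have h1 : z ^ P.natDegree = - ∑ i ∈ Finset.range P.natDegree, (P.coeff i : K) * z ^ i := by
    rw [eval₂_eq_sum_range, Finset.sum_range_succ] at hPz
    have hlead : algebraMap R K (P.coeff P.natDegree) = 1 := by
      rw [coeff_natDegree, hP, map_one]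
    rw [hlead, one_mul] at hPz
    rw [eq_neg_iff_add_eq_zero, add_comm]
    exact hPz
  have hlt' : ∀ i < P.natDegree, v.Gt (v.ord (z ^ P.natDegree)) ((P.coeff i : K) * z ^ i) := by
    intro i hi
    have h2 := (hR _ (P.coeff i).2).mul (OrdFn.eq_self (v := v) (pow_ne_zero i hz0)).ge
    rw [zero_add] at h2
    refine h2.gt ?_
    rw [OrdFn.ord_pow hz0, OrdFn.ord_pow hz0]
    have : (i : ℝ) < P.natDegree := by exact_mod_cast hi
    nlinarith
  have h3 : v.Gt (v.ord (z ^ P.natDegree)) (z ^ P.natDegree) := by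
    conv_rhs => rw [h1]
    exact (gt_sum _ _ fun i hi => hlt' i (Finset.mem_range.mp hi)).neg
  exact (OrdFn.eq_self (pow_ne_zero _ hz0)).not_gt h3

end OrdLemmas

variable {K : Type*} [Field K] {v : OrdFn K} {G : Type*} [Group G] [MulSemiringAction G K]
variable {V : Type*} [AddCommGroup V] {R : Subring K} {ρ : G →* AddMonoid.End V}
variable {H : Subalgebra R (V → K)} {c d : ℝ} {x y : V}

/-- `r(x) ≥ c` -/
def RGe (v : OrdFn K) (H : Subalgebra R (V → K)) (c : ℝ) (x : V) : Prop :=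
  ∀ h ∈ H, v.Ge c (h x - h 0)

/-- `r(x) > c` -/
def RGt (v : OrdFn K) (H : Subalgebra R (V → K)) (c : ℝ) (x : V) : Prop :=
  ∀ h ∈ H, v.Gt c (h x - h 0)

/-- `r(x) = c` -/
def REq (v : OrdFn K) (H : Subalgebra R (V → K)) (c : ℝ) (x : V) : Prop :=
  RGe v H c x ∧ ∃ h ∈ H, v.Eq c (h x - h 0)

lemma REq.not_gt (h : REq v H c x) : ¬ RGt v H c x := by
  obtain ⟨-, f, hf, hfe⟩ := h
  exact fun h' => hfe.not_gt (h' f hf)

lemma RGe.of_not_gt (h : RGe v H c x) (h' : ¬ RGt v H c x) : REq v H c x := by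
  refine ⟨h, ?_⟩
  unfold RGt at h'
  push Not at h'
  obtain ⟨f, hf, hfn⟩ := h'
  rw [OrdFn.not_gt_iff] at hfn
  refine ⟨f, hf, hfn.1, le_antisymm hfn.2 ((OrdFn.ge_iff hfn.1).mp (h f hf))⟩

lemma RGt.ge (h : RGt v H c x) : RGe v H c x := fun f hf => (h f hf).ge

lemma RGe.mono (h : RGe v H c x) (hd : d ≤ c) : RGe v H d x := fun f hf => (h f hf).mono hd

lemma RGe.gt (h : RGe v H c x) (hd : d < c) : RGt v H d x := fun f hf => (h f hf).gt hd

lemma REq.le_of_ge (h : REq v H c x) (h' : RGe v H d x) : d ≤ c := by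
  by_contra hlt
  push Not at hlt
  exact h.not_gt (h'.gt hlt)

lemma REq.lt_of_gt (h : REq v H c x) (h' : RGt v H d x) : d < c := by
  by_contra hlt
  push Not at hlt
  obtain ⟨-, f, hf, hfe⟩ := h
  exact hfe.not_gt ((h' f hf).mono hlt)

lemma RGt.mono (h : RGt v H c x) (hd : d ≤ c) : RGt v H d x := fun f hf => (h f hf).mono hd

lemma REq.unique (h : REq v H c x) (h' : REq v H d x) : c = d :=
  le_antisymm (h'.le_of_ge h.1) (h.le_of_ge h'.1)

lemma RGe.zero : RGe v H c 0 := fun f _ => by rw [sub_self]; exact OrdFn.Ge.zero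

lemma RGt.zero : RGt v H c 0 := fun f _ => by rw [sub_self]; exact OrdFn.Gt.zero

section order

variable (hRv : ∀ r ∈ R, v.Ge 0 r) (hH : IsOrder R ρ H)

include hRv hH

lemma IsOrder.val_ge {f : V → K} (hf : f ∈ H) (x : V) : v.Ge 0 (f x) :=
  ge_of_isIntegral hRv (hH.isIntegral hf x)

/-- differences -/
lemma IsOrder.diff_ge (h : RGe v H c y) {f : V → K} (hf : f ∈ H) (x : V) :
    v.Ge c (f (x + y) - f x) := by
  obtain ⟨n, g, k, hg, hk, e⟩ := hH.comul' hf
  have h1 : f (x + y) - f x = ∑ i, g i x * (k i y - k i 0) := by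
    conv_lhs => rw [e, ← add_zero x, e, add_zero]
    rw [← Finset.sum_sub_distrib]
    exact Finset.sum_congr rfl fun i _ => by ring
  rw [h1]
  refine ge_sum _ _ fun i _ => ?_
  have := (hH.val_ge hRv (hg i) x).mul (h (k i) (hk i))
  rwa [zero_add] at this

lemma IsOrder.diff_gt (h : RGt v H c y) {f : V → K} (hf : f ∈ H) (x : V) :
    v.Gt c (f (x + y) - f x) := by
  obtain ⟨n, g, k, hg, hk, e⟩ := hH.comul' hf
  have h1 : f (x + y) - f x = ∑ i, g i x * (k i y - k i 0) := by
    conv_lhs => rw [e, ← add_zero x, e, add_zero]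
    rw [← Finset.sum_sub_distrib]
    exact Finset.sum_congr rfl fun i _ => by ring
  rw [h1]
  refine gt_sum _ _ fun i _ => ?_
  have := (hH.val_ge hRv (hg i) x).mul_gt (h (k i) (hk i))
  rwa [zero_add] at this

lemma IsOrder.rge_add (h : RGe v H c x) (h' : RGe v H c y) : RGe v H c (x + y) := by
  intro f hf
  have := (hH.diff_ge hRv h' hf x).add (h f hf)
  rwa [sub_add_sub_cancel] at this

lemma IsOrder.rgt_add (h : RGt v H c x) (h' : RGt v H c y) : RGt v H c (x + y) := by
  intro f hf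
  have := (hH.diff_gt hRv h' hf x).add (h f hf)
  rwa [sub_add_sub_cancel] at this

lemma IsOrder.rge_of_diff (h : ∀ f ∈ H, v.Ge c (f x - f y)) : RGe v H c (x - y) := by
  intro f hf
  obtain ⟨n, g, k, hg, hk, e⟩ := hH.comul' hf
  have h1 : f (x - y) - f 0 = ∑ i, (g i x - g i y) * k i (-y) := by
    have e0 : f 0 = f (y + -y) := by rw [add_neg_cancel]
    rw [sub_eq_add_neg x y, e0, e, e, ← Finset.sum_sub_distrib]
    exact Finset.sum_congr rfl fun i _ => by ring
  rw [h1]
  refine ge_sum _ _ fun i _ => ?_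
  have := (h (g i) (hg i)).mul (hH.val_ge hRv (hk i) (-y))
  rwa [add_zero] at this

lemma IsOrder.rgt_of_diff (h : ∀ f ∈ H, v.Gt c (f x - f y)) : RGt v H c (x - y) := by
  intro f hf
  obtain ⟨n, g, k, hg, hk, e⟩ := hH.comul' hf
  have h1 : f (x - y) - f 0 = ∑ i, (g i x - g i y) * k i (-y) := by
    have e0 : f 0 = f (y + -y) := by rw [add_neg_cancel]
    rw [sub_eq_add_neg x y, e0, e, e, ← Finset.sum_sub_distrib]
    exact Finset.sum_congr rfl fun i _ => by ring
  rw [h1]
  refine gt_sum _ _ fun i _ => ?_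
  have := (h (g i) (hg i)).mul_ge (hH.val_ge hRv (hk i) (-y))
  rwa [add_zero] at this

lemma IsOrder.rge_neg (h : RGe v H c x) : RGe v H c (-x) := by
  have h1 : RGe v H c (0 - x) := hH.rge_of_diff hRv fun f hf => by
    rw [← neg_sub]; exact (h f hf).neg
  rwa [zero_sub] at h1

lemma IsOrder.rgt_neg (h : RGt v H c x) : RGt v H c (-x) := by
  have h1 : RGt v H c (0 - x) := hH.rgt_of_diff hRv fun f hf => by
    rw [← neg_sub]; exact (h f hf).neg
  rwa [zero_sub] at h1

/-- the subgroup `r ≥ c` -/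
def IsOrder.geSub (c : ℝ) : AddSubgroup V where
  carrier := {x | RGe v H c x}
  add_mem' h h' := hH.rge_add hRv h h'
  zero_mem' := RGe.zero
  neg_mem' h := hH.rge_neg hRv h

/-- the subgroup `r > c` -/
def IsOrder.gtSub (c : ℝ) : AddSubgroup V where
  carrier := {x | RGt v H c x}
  add_mem' h h' := hH.rgt_add hRv h h'
  zero_mem' := RGt.zero
  neg_mem' h := hH.rgt_neg hRv h

lemma IsOrder.mem_geSub : x ∈ hH.geSub hRv c ↔ RGe v H c x := Iff.rfl

lemma IsOrder.mem_gtSub : x ∈ hH.gtSub hRv c ↔ RGt v H c x := Iff.rfl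

/-- near additivity -/
lemma IsOrder.add_approx (h : RGe v H c x) (h' : RGe v H d y) {f : V → K} (hf : f ∈ H) :
    v.Ge (c + d) ((f (x + y) - f 0) - ((f x - f 0) + (f y - f 0))) := by
  obtain ⟨n, g, k, hg, hk, e⟩ := hH.comul' hf
  have h1 : (f (x + y) - f 0) - ((f x - f 0) + (f y - f 0)) =
      ∑ i, (g i x - g i 0) * (k i y - k i 0) := by
    have e1 := e x y
    have e2 := e x 0
    have e3 := e 0 y
    have e4 := e 0 0
    rw [add_zero] at e2 e4
    rw [zero_add] at e3
    rw [e1, e2, e3, e4, ← Finset.sum_sub_distrib, ← Finset.sum_sub_distrib,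
      ← Finset.sum_sub_distrib, ← Finset.sum_add_distrib, ← Finset.sum_sub_distrib]
    exact Finset.sum_congr rfl fun i _ => by ring
  rw [h1]
  exact ge_sum _ _ fun i _ => (h (g i) (hg i)).mul (h' (k i) (hk i))

/-- existence of the radius -/
lemma IsOrder.exists_rad (hx : x ≠ 0) : ∃ c, 0 ≤ c ∧ REq v H c x := by
  classical
  obtain ⟨S, hS⟩ := hH.fg
  let T := S.filter fun g => g x ≠ g 0
  have hT : T.Nonempty := by
    by_contra hT
    rw [Finset.not_nonempty_iff_eq_empty, Finset.filter_eq_empty_iff] at hT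
    push Not at hT
    have h1 : ∀ h ∈ H, h x = h 0 := by
      intro h hh
      have : h ∈ Submodule.span R (S : Set (V → K)) := by rw [hS]; exact hh
      induction this using Submodule.span_induction with
      | mem g hg => exact hT hg
      | zero => rfl
      | add g k _ _ h1 h2 =>
        have e1 : g x = g 0 := h1 (by rw [← Subalgebra.mem_toSubmodule, ← hS]; assumption)
        have e2 : k x = k 0 := h2 (by rw [← Subalgebra.mem_toSubmodule, ← hS]; assumption)
        simp [e1, e2]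
      | smul r g _ h1 =>
        have e1 : g x = g 0 := h1 (by rw [← Subalgebra.mem_toSubmodule, ← hS]; assumption)
        simp [e1]
    have h2 : ∀ F : V → K, F x = F 0 := by
      intro F
      have : F ∈ Submodule.span K (H : Set (V → K)) := by rw [hH.span]; trivial
      induction this using Submodule.span_induction with
      | mem g hg => exact h1 g hg
      | zero => rfl
      | add g k _ _ e1 e2 => simp [e1, e2]
      | smul r g _ e1 => simp [e1]
    have h3 := h2 (fun y => if y = x then 1 else 0)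
    simp [hx.symm] at h3
  obtain ⟨g, hg, hmin⟩ := Finset.exists_min_image T (fun g => v.ord (g x - g 0)) hT
  have hgT := Finset.mem_filter.mp hg
  have hgH : g ∈ H := by rw [← Subalgebra.mem_toSubmodule, ← hS]; exact Submodule.subset_span hgT.1
  have hg0 : g x - g 0 ≠ 0 := sub_ne_zero.mpr hgT.2
  refine ⟨v.ord (g x - g 0), ?_, ?_, g, hgH, hg0, rfl⟩
  · have := (hH.val_ge hRv hgH x).sub (hH.val_ge hRv hgH 0)
    exact (OrdFn.ge_iff hg0).mp this
  · intro h hh
    have : h ∈ Submodule.span R (S : Set (V → K)) := by rw [hS]; exact hh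
    clear hh
    induction this using Submodule.span_induction with
    | mem k hk =>
      by_cases h1 : k x = k 0
      · rw [h1, sub_self]; exact OrdFn.Ge.zero
      · exact Or.inr (hmin k (Finset.mem_filter.mpr ⟨hk, h1⟩))
    | zero => simpa using OrdFn.Ge.zero
    | add g k _ _ h1 h2 =>
      have := h1.add h2
      simp only [Pi.add_apply]
      convert this using 1
      ring
    | smul r k _ h1 =>
      have := (hRv r r.2).mul h1
      rw [zero_add] at this
      change v.Ge _ ((r : K) * k x - (r : K) * k 0)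
      rw [← mul_sub]
      exact this

end order

section action

variable (hv : ∀ (σ : G) (z : K), v.ord (σ • z) = v.ord z)
  (hRv : ∀ r ∈ R, v.Ge 0 r) (hH : IsOrder R ρ H)

include hv in
lemma ge_smul (σ : G) {z : K} : v.Ge c (σ • z) ↔ v.Ge c z := by
  unfold OrdFn.Ge
  rw [hv, smul_eq_zero_iff_eq]

include hv in
lemma gt_smul (σ : G) {z : K} : v.Gt c (σ • z) ↔ v.Gt c z := by
  unfold OrdFn.Gt
  rw [hv, smul_eq_zero_iff_eq]

include hv in
lemma eq_smul (σ : G) {z : K} : v.Eq c (σ • z) ↔ v.Eq c z := by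
  unfold OrdFn.Eq
  rw [hv, smul_ne_zero_iff_ne]

include hv hH

lemma IsOrder.rge_act (σ : G) : RGe v H c (ρ σ x) ↔ RGe v H c x := by
  refine forall₂_congr fun f hf => ?_
  have h1 : f (ρ σ x) - f 0 = σ • (f x - f 0) := by
    rw [smul_sub, ← hH.equiv f hf, ← hH.equiv f hf, map_zero]
  rw [h1, ge_smul hv]

lemma IsOrder.rgt_act (σ : G) : RGt v H c (ρ σ x) ↔ RGt v H c x := by
  refine forall₂_congr fun f hf => ?_
  have h1 : f (ρ σ x) - f 0 = σ • (f x - f 0) := by
    rw [smul_sub, ← hH.equiv f hf, ← hH.equiv f hf, map_zero]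
  rw [h1, gt_smul hv]

include hRv

/-- **The tame scalar**: on `r ≥ c`, `P(σ)` acts through `P(σϖ/ϖ)` modulo `r > c`. -/
theorem IsOrder.scalar {σ : G} (hσ : ∀ z : K, v.Ge 0 z → v.Gt 0 (σ • z - z)) {ϖ : K}
    (hϖ : v.Eq c ϖ) (hc : 0 < c) (P : ℤ[X]) :
    ∀ x : V, RGe v H c x → (RGe v H c (aeval (ρ σ) P x) ∧ ∀ f ∈ H, v.Gt c (f (aeval (ρ σ) P x) - f 0 -
      aeval (σ • ϖ / ϖ) P * (f x - f 0))) := by
  have hθ : v.Eq 0 (σ • ϖ / ϖ) := by
    have h1 : v.Eq c (σ • ϖ) := (eq_smul hv σ).mpr hϖ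
    have h2 := h1.mul hϖ.inv
    rwa [add_neg_cancel, ← div_eq_mul_inv] at h2
  set θ := σ • ϖ / ϖ with hθdef
  -- one step
  have hstep : ∀ z : K, v.Ge c z → v.Gt c (σ • z - θ * z) := by
    intro z hz
    have h1 : v.Ge 0 (z / ϖ) := by
      have := hz.mul hϖ.inv.ge
      rwa [add_neg_cancel, ← div_eq_mul_inv] at this
    have h2 := hσ _ h1
    have h3 : σ • z - θ * z = (σ • ϖ) * (σ • (z / ϖ) - z / ϖ) := by
      have : z = ϖ * (z / ϖ) := by rw [mul_div_cancel₀ _ hϖ.1]
      conv_lhs => rw [this]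
      rw [smul_mul', hθdef]
      field_simp [hϖ.1]
    rw [h3]
    have := ((eq_smul hv σ).mpr hϖ).ge.mul_gt h2
    rwa [add_zero] at this
  have hpow : ∀ (n : ℕ) (x : V), RGe v H c x → RGe v H c (((ρ σ) ^ n) x) ∧
      ∀ f ∈ H, v.Gt c (f (((ρ σ) ^ n) x) - f 0 - θ ^ n * (f x - f 0)) := by
    intro n
    induction n with
    | zero =>
      intro x hx
      refine ⟨by simpa using hx, fun f _ => ?_⟩
      have : f (((ρ σ) ^ 0) x) - f 0 - θ ^ 0 * (f x - f 0) = 0 := by simp
      rw [this]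
      exact OrdFn.Gt.zero
    | succ n ih =>
      intro x hx
      obtain ⟨h1, h2⟩ := ih x hx
      have e : ((ρ σ) ^ (n + 1)) x = ρ σ (((ρ σ) ^ n) x) := by
        rw [pow_succ']; rfl
      rw [e]
      refine ⟨(hH.rge_act hv σ).mpr h1, fun f hf => ?_⟩
      have h3 : f (ρ σ (((ρ σ) ^ n) x)) - f 0 = σ • (f (((ρ σ) ^ n) x) - f 0) := by
        rw [smul_sub, ← hH.equiv f hf, ← hH.equiv f hf, map_zero]
      rw [h3]
      have h4 := hstep _ (h1 f hf)
      have h5 := hθ.ge.mul_gt (h2 f hf)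
      rw [zero_add] at h5
      convert h4.add h5 using 1
      ring
  have hzsmul : ∀ (a : ℤ) (x : V), RGe v H c x → RGe v H c (a • x) ∧
      ∀ f ∈ H, v.Gt c (f (a • x) - f 0 - a * (f x - f 0)) := by
    intro a x hx
    induction a using Int.induction_on with
    | zero =>
      refine ⟨by simpa using RGe.zero, fun f _ => ?_⟩
      simpa using OrdFn.Gt.zero
    | succ n ih =>
      obtain ⟨h1, h2⟩ := ih
      refine ⟨by rw [add_smul, one_smul]; exact hH.rge_add hRv h1 hx, fun f hf => ?_⟩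
      rw [add_smul, one_smul]
      have h3 := (hH.add_approx hRv h1 hx hf).gt (show c < c + c by linarith)
      convert h3.add (h2 f hf) using 1
      push_cast
      ring
    | pred n ih =>
      obtain ⟨h1, h2⟩ := ih
      have hxn := hH.rge_neg hRv hx
      refine ⟨by rw [sub_smul, one_smul, sub_eq_add_neg]; exact hH.rge_add hRv h1 hxn,
        fun f hf => ?_⟩
      rw [sub_smul, one_smul, sub_eq_add_neg (-(n : ℤ) • x) x]
      have h3 := (hH.add_approx hRv h1 hxn hf).gt (show c < c + c by linarith)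
      have h4 := (hH.add_approx hRv hxn hx hf).gt (show c < c + c by linarith)
      rw [neg_add_cancel] at h4
      convert (h3.add (h2 f hf)).sub h4 using 1
      push_cast
      ring
  induction P using Polynomial.induction_on' with
  | add p q hp hq =>
    intro x hx
    obtain ⟨h1, h2⟩ := hp x hx
    obtain ⟨h3, h4⟩ := hq x hx
    have e : aeval (ρ σ) (p + q) x = aeval (ρ σ) p x + aeval (ρ σ) q x := by
      rw [map_add]; rfl
    rw [e]
    refine ⟨hH.rge_add hRv h1 h3, fun f hf => ?_⟩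
    have h5 := (hH.add_approx hRv h1 h3 hf).gt (show c < c + c by linarith)
    convert (h5.add (h2 f hf)).add (h4 f hf) using 1
    rw [map_add]
    ring
  | monomial n a =>
    intro x hx
    have e : aeval (ρ σ) (monomial n a) x = a • ((ρ σ) ^ n) x := by
      rw [aeval_monomial, Algebra.algebraMap_eq_smul_one, smul_mul_assoc, one_mul]
      rfl
    obtain ⟨h1, h2⟩ := hpow n x hx
    obtain ⟨h3, h4⟩ := hzsmul a _ h1
    rw [e]
    refine ⟨h3, fun f hf => ?_⟩
    have h5 := (OrdFn.ge_intCast (v := v) a).mul_gt (h2 f hf)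
    rw [zero_add] at h5
    convert (h4 f hf).add h5 using 1
    rw [aeval_monomial, eq_intCast]
    ring

/-- if `P(θ)` reduces to `0` then `P(σ)` increases the radius -/
theorem IsOrder.scalar_gt {σ : G} (hσ : ∀ z : K, v.Ge 0 z → v.Gt 0 (σ • z - z)) {ϖ : K}
    (hϖ : v.Eq c ϖ) (hc : 0 < c) (P : ℤ[X]) (hx : RGe v H c x)
    (hP : v.Gt 0 (aeval (σ • ϖ / ϖ) P)) : RGt v H c (aeval (ρ σ) P x) := by
  intro f hf
  have h1 := (hH.scalar hv hRv hσ hϖ hc P x hx).2 f hf
  have h2 := hP.mul_ge (hx f hf)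
  rw [zero_add] at h2
  convert h1.add h2 using 1
  ring

/-- conversely -/
theorem IsOrder.scalar_of_gt {σ : G} (hσ : ∀ z : K, v.Ge 0 z → v.Gt 0 (σ • z - z)) {ϖ : K}
    (hϖ : v.Eq c ϖ) (hc : 0 < c) (P : ℤ[X]) (hx : REq v H c x)
    (hP : RGt v H c (aeval (ρ σ) P x)) : v.Gt 0 (aeval (σ • ϖ / ϖ) P) := by
  obtain ⟨hx, f, hf, hfe⟩ := hx
  have h1 := (hH.scalar hv hRv hσ hϖ hc P x hx).2 f hf
  have h2 := (hP f hf).sub h1
  have h3 : (f (aeval (ρ σ) P x) - f 0) - (f (aeval (ρ σ) P x) - f 0 -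
      aeval (σ • ϖ / ϖ) P * (f x - f 0)) = (f x - f 0) * aeval (σ • ϖ / ϖ) P := by ring
  rw [h3] at h2
  have h4 := h2.of_mul_eq hfe
  rwa [sub_self] at h4

/-- elements acting trivially on residues raise the radius when it is `0` -/
theorem IsOrder.scalar_zero {σ : G} (hσ : ∀ z : K, v.Ge 0 z → v.Gt 0 (σ • z - z)) (x : V) :
    RGt v H 0 (ρ σ x - x) := by
  refine hH.rgt_of_diff hRv fun f hf => ?_
  rw [hH.equiv f hf]
  exact hσ _ (hH.val_ge hRv hf x)

end action

end Fermat.Agent.FlatLoc
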