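import Fermat.Agent.FlatLoc.FrobCount

/-!
# Ramification estimates in Kummer extensions
-/

set_option autoImplicit false
set_option linter.unusedSectionVars false

namespace Fermat.Agent.FlatLoc

open Fermat.Agent.ECRed
open scoped Polynomial

/-- terms of pairwise distinct valuations do not cancel -/
lemma ge_of_sum_ge {K : Type*} [Field K] {v : OrdFn K} {c : ℝ} {ι : Type*} {s : Finset ι}
    {t : ι → K} (hd : ∀ i ∈ s, ∀ j ∈ s, t i ≠ 0 → t j ≠ 0 → v.ord (t i) = v.ord (t j) → i = j)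
    (h : v.Ge c (∑ i ∈ s, t i)) : ∀ i ∈ s, v.Ge c (t i) := by
  classical
  by_contra hcon
  push Not at hcon
  let S := s.filter fun i => ¬ v.Ge c (t i)
  have hS : S.Nonempty := by
    obtain ⟨i, hi, hi'⟩ := hcon
    exact ⟨i, Finset.mem_filter.mpr ⟨hi, hi'⟩⟩
  obtain ⟨j, hjS, hj⟩ := S.exists_min_image (fun i => v.ord (t i)) hS
  obtain ⟨hjs, hjc⟩ := Finset.mem_filter.mp hjS
  have hj0 := (OrdFn.not_ge_iff.mp hjc)
  have hrest : v.Gt (v.ord (t j)) (∑ i ∈ s.erase j, t i) := by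
    refine gt_sum _ _ fun i hi => ?_
    obtain ⟨hij, his⟩ := Finset.mem_erase.mp hi
    by_cases h0 : t i = 0
    · left; exact h0
    by_cases hic : v.Ge c (t i)
    · exact hic.gt hj0.2
    · rw [OrdFn.gt_iff h0]
      have h1 := hj i (Finset.mem_filter.mpr ⟨his, hic⟩)
      refine lt_of_le_of_ne h1 fun h2 => hij ?_
      exact (hd j hjs i his hj0.1 h0 h2).symm
  have h1 : v.Eq (v.ord (t j)) (∑ i ∈ s, t i) := by
    rw [← Finset.add_sum_erase _ _ hjs]
    exact (OrdFn.eq_self hj0.1).add_gt hrest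
  exact h1.not_gt (h.gt hj0.2)

variable {K : Type*} [Field K] {κ : Type*} [Field κ] {G : Type*} [Group G]
  [MulSemiringAction G K] {p : ℕ} [hp : Fact p.Prime] (C : Ctx K κ G p)

namespace Ctx

variable {ϖ : K} (hϖ : ϖ ^ (p ^ 2 - 1) = p)

include C hϖ

/-- **Ramification estimate** -/
theorem ramif {π : K} (hπ0 : π ≠ 0) {i : ℤ} (hi : ¬ (p : ℤ) ∣ i)
    (hπ : C.v.ord π = i / ((p * (p ^ 2 - 1 : ℕ) : ℝ))) {x : ℝ} {τ : G} (hτ : τ ∈ JJ G ϖ)
    (hx : C.v.Ge (C.v.ord π + x) (τ • π - π)) {P : (L0 G ϖ)[X]} (hP : P.natDegree < p)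
    (hb : C.v.Ge 0 (Polynomial.aeval π P)) :
    C.v.Ge (1 / (p * (p ^ 2 - 1 : ℕ) : ℝ) + x) (τ • Polynomial.aeval π P - Polynomial.aeval π P) := by
  classical
  have he := C.epos
  set e : ℝ := ((p ^ 2 - 1 : ℕ) : ℝ) with hedef
  have hp0 : (0 : ℝ) < p := by exact_mod_cast hp.out.pos
  set t : ℕ → K := fun j => (P.coeff j : K) * π ^ j with ht
  have hsum : Polynomial.aeval π P = ∑ j ∈ Finset.range p, t j := by
    rw [Polynomial.aeval_eq_sum_range' hP]
    rfl
  have hordt : ∀ j, t j ≠ 0 → ∃ n : ℤ, C.v.ord (t j) = (n * p + i * j) / (p * e) := by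
    intro j hj
    have hc : (P.coeff j : K) ≠ 0 := left_ne_zero_of_mul hj
    obtain ⟨n, hn⟩ := C.ord_L0 hϖ (P.coeff j).2 hc
    refine ⟨n, ?_⟩
    rw [ht]
    simp only
    rw [OrdFn.ord_mul hc (pow_ne_zero _ hπ0), OrdFn.ord_pow hπ0, hn, hπ, ← hedef]
    field_simp
  have hd : ∀ j ∈ Finset.range p, ∀ k ∈ Finset.range p, t j ≠ 0 → t k ≠ 0 →
      C.v.ord (t j) = C.v.ord (t k) → j = k := by
    intro j hj k hk hj0 hk0 h
    obtain ⟨n, hn⟩ := hordt j hj0
    obtain ⟨m, hm⟩ := hordt k hk0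
    rw [hn, hm, div_left_inj' (by positivity)] at h
    have h1 : n * p + i * j = m * p + i * k := by exact_mod_cast h
    have h2 : (p : ℤ) ∣ i * (j - k) := ⟨m - n, by linear_combination h1⟩
    have h3 := (Int.Prime.dvd_mul' hp.out h2).resolve_left hi
    have hj' := Finset.mem_range.mp hj
    have hk' := Finset.mem_range.mp hk
    obtain ⟨r, hr⟩ := h3
    have h4 : r = 0 := by
      by_contra hr0
      have h5 : (p : ℤ) ≤ |(j : ℤ) - k| := by
        rw [hr, abs_mul]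
        have : 1 ≤ |r| := Int.one_le_abs hr0
        have hpp : |(p : ℤ)| = p := abs_of_nonneg (by positivity)
        rw [hpp]
        nlinarith [hp.out.pos]
      have h6 : |(j : ℤ) - k| < p := by
        rw [abs_lt]; constructor <;> omega
      omega
    rw [h4, mul_zero] at hr
    omega
  rw [hsum] at hb ⊢
  have hge := ge_of_sum_ge hd hb
  rw [Finset.smul_sum, ← Finset.sum_sub_distrib]
  refine ge_sum _ _ fun j hj => ?_
  by_cases hj0 : t j = 0
  · rw [hj0, smul_zero, sub_zero]; exact OrdFn.Ge.zero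
  have hc : (P.coeff j : K) ≠ 0 := left_ne_zero_of_mul hj0
  have e1 : τ • t j - t j = (P.coeff j : K) * ((τ • π) ^ j - π ^ j) := by
    rw [ht]
    simp only
    rw [smul_mul', (P.coeff j).2 τ hτ, smul_pow']
    ring
  by_cases hj1 : j = 0
  · rw [e1, hj1, pow_zero, pow_zero, sub_self, mul_zero]; exact OrdFn.Ge.zero
  have hord : 1 / (p * e) ≤ C.v.ord (t j) := by
    obtain ⟨n, hn⟩ := hordt j hj0
    have h1 := (OrdFn.ge_iff hj0).mp (hge j hj)
    rw [hn] at h1 ⊢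
    have hpe : 0 < p * e := by positivity
    rw [le_div_iff₀ hpe, zero_mul] at h1
    rw [div_le_div_iff_of_pos_right hpe]
    have h2 : (0 : ℤ) ≤ n * p + i * j := by exact_mod_cast h1
    have h3 : n * p + i * j ≠ 0 := by
      intro h4
      have h5 : (p : ℤ) ∣ i * j := ⟨-n, by linear_combination h4⟩
      have h6 := (Int.Prime.dvd_mul' hp.out h5).resolve_left hi
      have h7 : p ∣ j := by exact_mod_cast h6
      have := Nat.le_of_dvd (Nat.pos_of_ne_zero hj1) h7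
      have := Finset.mem_range.mp hj
      omega
    have h8 : (1 : ℤ) ≤ n * p + i * j := by omega
    exact_mod_cast h8
  have hτπ : C.v.Eq (C.v.ord π) (τ • π) := (eq_smul C.hv τ).mpr (OrdFn.eq_self hπ0)
  have h1 : C.v.Ge (C.v.ord π + x + (j - 1 : ℕ) * C.v.ord π) ((τ • π) ^ j - π ^ j) := by
    have h2 : (τ • π) ^ j - π ^ j = (τ • π - π) * ∑ l ∈ Finset.range j, (τ • π) ^ l * π ^ (j - 1 - l) :=
      (Commute.all _ _).mul_geom_sum₂ j |>.symm
    rw [h2]
    refine hx.mul (ge_sum _ _ fun l hl => ?_)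
    have h3 := (hτπ.pow l).mul ((OrdFn.eq_self hπ0 (v := C.v)).pow (j - 1 - l))
    have hl' := Finset.mem_range.mp hl
    have h4 : ((j - 1 : ℕ) : ℝ) * C.v.ord π = l * C.v.ord π + (j - 1 - l : ℕ) * C.v.ord π := by
      rw [← add_mul]
      congr 1
      have : j - 1 = l + (j - 1 - l) := by omega
      exact_mod_cast this
    rw [h4]
    exact h3.ge
  rw [e1]
  have h5 : C.v.ord (t j) = C.v.ord (P.coeff j : K) + j * C.v.ord π := by
    rw [ht]
    simp only
    rw [OrdFn.ord_mul hc (pow_ne_zero _ hπ0), OrdFn.ord_pow hπ0]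
  have h6 := ((OrdFn.eq_self hc (v := C.v)).ge).mul h1
  refine h6.mono ?_
  have h7 : ((j - 1 : ℕ) : ℝ) = j - 1 := by
    rw [Nat.cast_sub (Nat.one_le_iff_ne_zero.mpr hj1), Nat.cast_one]
  rw [h7]
  linarith

/-- power basis -/
theorem exists_poly {a : G → ZMod p} {y : K} (hy : Kum C ϖ a y)
    (ha : ∀ σ ∈ JJ G ϖ, ∀ τ ∈ JJ G ϖ, a (σ * τ) = a σ + a τ)
    {τ : G} (hτ : τ ∈ JJ G ϖ) (hτ1 : a τ ≠ 0) {b : K}
    (hb : ∀ σ ∈ JJ G ϖ, a σ = 0 → σ • b = b) :
    ∃ P : (L0 G ϖ)[X], P.natDegree < p ∧ Polynomial.aeval y P = b := by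
  classical
  have := C.charZero
  have hp0 : (p : K) ≠ 0 := by exact_mod_cast hp.out.ne_zero
  -- normalise `τ`
  obtain ⟨τ, hτ, hτ1⟩ : ∃ τ ∈ JJ G ϖ, a τ = 1 := by
    have h1 : ∀ n : ℕ, a (τ ^ n) = n * a τ := by
      intro n
      induction n with
      | zero =>
        have h2 := ha 1 (JJ G ϖ).one_mem 1 (JJ G ϖ).one_mem
        rw [mul_one, left_eq_add] at h2
        simp [h2]
      | succ n ih =>
        rw [pow_succ, ha _ ((JJ G ϖ).pow_mem hτ n) _ hτ, ih]
        push_cast; ring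
    refine ⟨τ ^ ((a τ)⁻¹).val, (JJ G ϖ).pow_mem hτ _, ?_⟩
    rw [h1, ZMod.natCast_zmod_val, inv_mul_cancel₀ hτ1]
  have ha1 : a 1 = 0 := by
    have h2 := ha 1 (JJ G ϖ).one_mem 1 (JJ G ϖ).one_mem
    rwa [mul_one, left_eq_add] at h2
  have hapow : ∀ n : ℕ, a (τ ^ n) = n := by
    intro n
    induction n with
    | zero => simpa using ha1
    | succ n ih =>
      rw [pow_succ, ha _ ((JJ G ϖ).pow_mem hτ n) _ hτ, ih, hτ1]
      push_cast; ring
  have hinv : ∀ σ ∈ JJ G ϖ, a σ⁻¹ = - a σ := by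
    intro σ hσ
    have h1 := ha σ hσ σ⁻¹ ((JJ G ϖ).inv_mem hσ)
    rw [mul_inv_cancel, ha1] at h1
    exact (neg_eq_of_add_eq_zero_right h1.symm).symm
  have hact : ∀ σ ∈ JJ G ϖ, ∀ σ' ∈ JJ G ϖ, a σ = a σ' → σ • b = σ' • b := by
    intro σ hσ σ' hσ' h
    have h1 := hb (σ⁻¹ * σ') ((JJ G ϖ).mul_mem ((JJ G ϖ).inv_mem hσ) hσ') (by
      rw [ha _ ((JJ G ϖ).inv_mem hσ) _ hσ', hinv σ hσ, h, neg_add_cancel])
    rw [mul_smul, inv_smul_eq_iff] at h1
    exact h1.symm
  -- eigencomponents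
  let B : ZMod p → K := fun k => ∑ m : ZMod p, C.ψ (-(k * m)) * (τ ^ m.val • b)
  have hB : ∀ k, ∀ σ ∈ JJ G ϖ, σ • B k = C.ψ (k * a σ) * B k := by
    intro k σ hσ
    rw [Finset.smul_sum, Finset.mul_sum]
    refine (Finset.sum_congr rfl fun m _ => ?_).trans (Equiv.sum_comp (Equiv.addLeft (a σ))
      fun m => C.ψ (k * a σ) * (C.ψ (-(k * m)) * (τ ^ m.val • b)))
    have h1 : σ • (τ ^ m.val • b) = τ ^ (a σ + m).val • b := by
      rw [← mul_smul]
      refine hact _ ((JJ G ϖ).mul_mem hσ ((JJ G ϖ).pow_mem hτ _)) _ ((JJ G ϖ).pow_mem hτ _) ?_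
      rw [ha _ hσ _ ((JJ G ϖ).pow_mem hτ _), hapow, hapow, ZMod.natCast_zmod_val,
        ZMod.natCast_zmod_val]
    rw [smul_mul', C.smul_psi hϖ hσ, h1, Equiv.coe_addLeft, ← mul_assoc,
      ← AddChar.map_add_eq_mul]
    congr 2
    ring
  have hsum : ∑ k : ZMod p, B k = p * b := by
    change ∑ k : ZMod p, ∑ m : ZMod p, C.ψ (-(k * m)) * (τ ^ m.val • b) = _
    rw [Finset.sum_comm]
    simp_rw [← Finset.sum_mul]
    rw [Finset.sum_eq_single 0]
    · simp
    · intro m _ hm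
      have h1 : ∑ k : ZMod p, C.ψ (-(k * m)) = 0 := by
        have h2 : ∑ k : ZMod p, C.ψ (-(k * m)) = C.ψ m * ∑ k : ZMod p, C.ψ (-(k * m)) := by
          rw [Finset.mul_sum, ← (Equiv.subRight (1 : ZMod p)).sum_comp]
          refine Finset.sum_congr rfl fun k _ => ?_
          rw [Equiv.subRight_apply, ← AddChar.map_add_eq_mul]
          congr 1
          ring
        have h3 : C.ψ m ≠ 1 := by
          intro h4
          rw [← AddChar.map_zero_eq_one C.ψ] at h4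
          exact hm (C.hψ h4)
        have h5 : (C.ψ m - 1) * ∑ k : ZMod p, C.ψ (-(k * m)) = 0 := by
          rw [sub_mul, one_mul, ← h2, sub_self]
        exact (mul_eq_zero.mp h5).resolve_left (sub_ne_zero.mpr h3)
      rw [h1, zero_mul]
    · intro h; exact absurd (Finset.mem_univ _) h
  have hq : ∀ k : ZMod p, B k / (p * y ^ k.val) ∈ L0 G ϖ := by
    intro k σ hσ
    have h1 : σ • (p : K) = p := by rw [← MulSemiringAction.toRingHom_apply, map_natCast]
    rw [smul_div₀', hB k σ hσ, smul_mul', h1, smul_pow', hy.2 σ hσ, mul_pow,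
      ← AddChar.map_nsmul_eq_pow]
    have h2 : k.val • a σ = k * a σ := by rw [nsmul_eq_mul, ZMod.natCast_zmod_val]
    rw [h2]
    have h3 : C.ψ (k * a σ) ≠ 0 := by
      intro h4
      have h5 : C.ψ (k * a σ) * C.ψ (-(k * a σ)) = 1 := by
        rw [← AddChar.map_add_eq_mul, add_neg_cancel, AddChar.map_zero_eq_one]
      rw [h4, zero_mul] at h5
      exact zero_ne_one h5
    have := hy.1
    field_simp
  refine ⟨∑ k : ZMod p, Polynomial.monomial k.val (⟨_, hq k⟩ : L0 G ϖ), ?_, ?_⟩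
  · refine lt_of_le_of_lt (Polynomial.natDegree_sum_le_of_forall_le (n := p - 1) _ _ fun k _ => ?_) ?_
    · refine (Polynomial.natDegree_monomial_le _).trans ?_
      have := ZMod.val_lt k
      omega
    · have := hp.out.pos
      omega
  · rw [map_sum]
    have h1 : ∀ k : ZMod p, Polynomial.aeval y (Polynomial.monomial k.val (⟨_, hq k⟩ : L0 G ϖ)) =
        B k / p := by
      intro k
      rw [Polynomial.aeval_monomial]
      change B k / (p * y ^ k.val) * y ^ k.val = _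
      have := hy.1
      field_simp
    rw [Finset.sum_congr rfl fun k _ => h1 k, ← Finset.sum_div, hsum, mul_div_cancel_left₀ _ hp0]

end Ctx

end Fermat.Agent.FlatLoc
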