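import Fermat.Agent.FlatLoc.Ramif

/-!
# Ramification estimates in Kummer extensions: applications
-/

set_option autoImplicit false
set_option linter.unusedSectionVars false

namespace Fermat.Agent.FlatLoc

open Fermat.Agent.ECRed
open scoped Polynomial

variable {K : Type*} [Field K] {κ : Type*} [Field κ] {G : Type*} [Group G]
  [MulSemiringAction G K] {p : ℕ} [hp : Fact p.Prime] (C : Ctx K κ G p)

namespace Ctx

variable {ϖ : K} (hϖ : ϖ ^ (p ^ 2 - 1) = p)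

include C hϖ

lemma eq_of_lead_ne {i : ℕ} {w : K} (h : C.v.Ge (i / ((p ^ 2 - 1 : ℕ) : ℝ)) w)
    (h0 : C.r (w / ϖ ^ i) ≠ 0) : C.v.Eq (i / ((p ^ 2 - 1 : ℕ) : ℝ)) w := by
  have h1 : ¬ C.v.Gt (i / ((p ^ 2 - 1 : ℕ) : ℝ)) w := fun h2 =>
    h0 ((C.r_eq_zero _ (C.div_ge hϖ h)).mpr (C.div_gt hϖ h2))
  rw [OrdFn.not_gt_iff] at h1
  exact ⟨h1.1, le_antisymm h1.2 ((OrdFn.ge_iff h1.1).mp h)⟩

lemma ord_sub_one {i : ℕ} (hi : 1 ≤ i) (hi' : i < p * (p + 1)) {y : K} (hyl : Lv C i y)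
    (hlead : lead C ϖ i y ≠ 0) : C.v.Eq (i / (p * (p ^ 2 - 1 : ℕ) : ℝ)) (y - 1) := by
  have he := C.epos
  have heR : ((p ^ 2 - 1 : ℕ) : ℝ) = (p + 1) * (p - 1) := e_cast
  have hp1 := one_lt (p := p)
  have hp0 : (0 : ℝ) < p := by linarith
  have hE := C.eq_of_lead_ne hϖ hyl hlead
  set e : ℝ := ((p ^ 2 - 1 : ℕ) : ℝ) with hedef
  have hi0 : (0 : ℝ) < i / e := by
    have : (0 : ℝ) < i := by exact_mod_cast hi
    positivity
  have hyp : C.v.Eq 0 (y ^ p) := by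
    have := OrdFn.eq_one (v := C.v).add_gt (hE.gt hi0)
    rwa [add_sub_cancel] at this
  have hy0 : y ≠ 0 := by
    rintro rfl
    rw [zero_pow hp.out.ne_zero] at hyp
    exact hyp.1 rfl
  have hy : C.v.Eq 0 y := by
    refine ⟨hy0, ?_⟩
    have h1 := hyp.2
    rw [OrdFn.ord_pow hy0] at h1
    exact (mul_eq_zero.mp h1).resolve_left hp0.ne'
  set z := y - 1 with hz
  have hz1 : C.v.Ge 0 z := hy.ge.sub OrdFn.eq_one.ge
  obtain ⟨w, hw, hw'⟩ := one_add_pow (p := p) C.v hz1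
  have hyz : y ^ p - 1 = z ^ p + p * z * w := by
    rw [show y = 1 + z by rw [hz]; ring, hw']; ring
  have hz0 : z ≠ 0 := by
    intro h0
    apply hE.1
    rw [hyz, h0, zero_pow hp.out.ne_zero]; ring
  have hpv : C.v.Eq 1 (p : K) := by
    refine ⟨?_, C.vp⟩
    have := C.charZero
    exact_mod_cast hp.out.ne_zero
  set c := C.v.ord z with hc
  have hzc : C.v.Eq c z := ⟨hz0, rfl⟩
  have h2 : C.v.Ge (1 + c) (p * z * w) := by
    simpa using (hpv.ge.mul hzc.ge).mul hw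
  have h3 : C.v.Eq (p * c) (z ^ p) := hzc.pow p
  rw [hyz] at hE
  by_cases hcase : c < (p + 1) / e
  · have h4 : p * c < 1 + c := by
      rw [heR, lt_div_iff₀ (by nlinarith)] at hcase
      nlinarith
    have h5 := h3.add_gt (h2.gt h4)
    have h6 := h5.unique hE
    refine ⟨hz0, ?_⟩
    rw [← hc, eq_div_iff (by positivity)]
    field_simp at h6
    linarith
  · exfalso
    push Not at hcase
    have h4 : (p * (p + 1) / e : ℝ) ≤ p * c := by
      rw [mul_div_assoc]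
      exact mul_le_mul_of_nonneg_left hcase hp0.le
    have h5 : (p * (p + 1) / e : ℝ) ≤ 1 + c := by
      have h7 : (p * (p + 1) / e : ℝ) = 1 + (p + 1) / e := by
        rw [heR]
        have : (p : ℝ) - 1 ≠ 0 := by linarith
        field_simp
        ring
      rw [h7]
      linarith
    have h6 := (h3.ge.mono h4).add (h2.mono h5)
    have h7 := (OrdFn.ge_iff hE.1).mp h6
    rw [hE.2, div_le_div_iff_of_pos_right he] at h7
    have h8 : p * (p + 1) ≤ i := by exact_mod_cast h7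
    omega

lemma psi_sub_one_ge {a : ZMod p} : C.v.Ge ((p + 1) / ((p ^ 2 - 1 : ℕ) : ℝ)) (C.ψ a - 1) := by
  by_cases ha : a = 0
  · rw [ha, AddChar.map_zero_eq_one, sub_self]; exact OrdFn.Ge.zero
  have h1 := eq_addChar_sub_one C.vp C.hψ ha
  have heR : ((p ^ 2 - 1 : ℕ) : ℝ) = (p + 1) * (p - 1) := e_cast
  have hp1 := one_lt (p := p)
  have h2 : ((p + 1) / ((p ^ 2 - 1 : ℕ) : ℝ) : ℝ) = 1 / ((p : ℝ) - 1) := by
    rw [heR]
    have : (p : ℝ) - 1 ≠ 0 := by linarith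
    field_simp
  rw [h2]
  exact h1.ge

/-- ramification estimate at level `i ≥ 1` -/
theorem ramif_level {i : ℕ} (hi : 1 ≤ i) (hi' : i < p * (p + 1)) (hpi : ¬ p ∣ i)
    {a : G → ZMod p} {y : K} (hy : Kum C ϖ a y) (hyl : Lv C i y) (hlead : lead C ϖ i y ≠ 0)
    (ha : ∀ σ ∈ JJ G ϖ, ∀ τ ∈ JJ G ϖ, a (σ * τ) = a σ + a τ)
    {b : K} (hb : ∀ σ ∈ JJ G ϖ, a σ = 0 → σ • b = b) (hb0 : C.v.Ge 0 b) {τ : G}
    (hτ : τ ∈ JJ G ϖ) :
    C.v.Ge ((1 + p * (p + 1) - i) / (p * (p ^ 2 - 1 : ℕ) : ℝ)) (τ • b - b) := by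
  have he := C.epos
  have hp1 := one_lt (p := p)
  have hp0 : (0 : ℝ) < p := by linarith
  by_cases hτ0 : a τ = 0
  · rw [hb τ hτ hτ0, sub_self]; exact OrdFn.Ge.zero
  obtain ⟨P, hP, hPy⟩ := C.exists_poly hϖ hy ha hτ hτ0 hb
  have hz := C.ord_sub_one hϖ hi hi' hyl hlead
  have h1 : Polynomial.aeval (y - 1) (P.comp (Polynomial.X + 1)) = b := by
    rw [Polynomial.aeval_comp]; simp [hPy]
  have h2 : (P.comp (Polynomial.X + 1)).natDegree < p := by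
    refine lt_of_le_of_lt Polynomial.natDegree_comp_le ?_
    have : (Polynomial.X + 1 : (L0 G ϖ)[X]).natDegree ≤ 1 := by
      have := Polynomial.natDegree_X_add_C (1 : L0 G ϖ)
      simpa using this.le
    calc _ ≤ P.natDegree * 1 := Nat.mul_le_mul_left _ this
      _ < p := by omega
  have hy0 : C.v.Eq 0 y := by
    have h3 : (0 : ℝ) < i / (p * (p ^ 2 - 1 : ℕ) : ℝ) := by
      have : (0 : ℝ) < i := by exact_mod_cast hi
      positivity
    have := OrdFn.eq_one (v := C.v).add_gt (hz.gt h3)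
    rwa [add_sub_cancel] at this
  have h3 : C.v.Ge (C.v.ord (y - 1) + ((p + 1) / ((p ^ 2 - 1 : ℕ) : ℝ) - i / (p * (p ^ 2 - 1 : ℕ) : ℝ)))
      (τ • (y - 1) - (y - 1)) := by
    have h4 : τ • (y - 1) - (y - 1) = (C.ψ (a τ) - 1) * y := by
      rw [smul_sub, smul_one, hy.2 τ hτ]; ring
    rw [h4, hz.2, add_sub_cancel]
    have := (C.psi_sub_one_ge hϖ (a := a τ)).mul hy0.ge
    rwa [add_zero] at this
  have h4 := C.ramif hϖ hz.1 (i := i) (by exact_mod_cast hpi) (by rw [hz.2]; simp) hτ h3 h2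
    (by rw [h1]; exact hb0)
  rw [h1] at h4
  convert h4 using 1
  field_simp
  ring

/-- ramification estimate at level `0` -/
theorem ramif_zero {m : ℤ} (hm : ¬ (p : ℤ) ∣ m)
    {a : G → ZMod p} {y : K} (hy : Kum C ϖ a y) (hord : (p : ℝ) * C.v.ord y = m / ((p ^ 2 - 1 : ℕ) : ℝ))
    (ha : ∀ σ ∈ JJ G ϖ, ∀ τ ∈ JJ G ϖ, a (σ * τ) = a σ + a τ)
    {b : K} (hb : ∀ σ ∈ JJ G ϖ, a σ = 0 → σ • b = b) (hb0 : C.v.Ge 0 b) {τ : G}
    (hτ : τ ∈ JJ G ϖ) :
    C.v.Ge ((1 + p * (p + 1)) / (p * (p ^ 2 - 1 : ℕ) : ℝ)) (τ • b - b) := by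
  have he := C.epos
  have hp1 := one_lt (p := p)
  have hp0 : (0 : ℝ) < p := by linarith
  by_cases hτ0 : a τ = 0
  · rw [hb τ hτ hτ0, sub_self]; exact OrdFn.Ge.zero
  obtain ⟨P, hP, hPy⟩ := C.exists_poly hϖ hy ha hτ hτ0 hb
  have h3 : C.v.Ge (C.v.ord y + ((p + 1) / ((p ^ 2 - 1 : ℕ) : ℝ))) (τ • y - y) := by
    have h4 : τ • y - y = (C.ψ (a τ) - 1) * y := by
      rw [hy.2 τ hτ]; ring
    rw [h4, add_comm]
    exact (C.psi_sub_one_ge hϖ (a := a τ)).mul (OrdFn.eq_self hy.1).ge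
  have h4 := C.ramif hϖ hy.1 (i := m) hm (by rw [eq_div_iff (by positivity)]; field_simp at hord; linarith)
    hτ h3 hP (by rw [hPy]; exact hb0)
  rw [hPy] at h4
  convert h4 using 1
  field_simp

end Ctx

end Fermat.Agent.FlatLoc
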