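import Fermat.Agent.FlatLoc.CountA

/-!
# The supersingular case: setup
-/

set_option autoImplicit false
set_option linter.unusedSectionVars false

namespace Fermat.Agent.FlatLoc

open Fermat.Agent.ECRed
open scoped Polynomial

variable {K : Type*} [Field K] {κ : Type*} [Field κ] {G : Type*} [Group G]
  [MulSemiringAction G K] {p : ℕ} [hp : Fact p.Prime] {C : Ctx K κ G p}
  {ϖ : K} {hϖ : ϖ ^ (p ^ 2 - 1) = p} {ρ : G →* Matrix (Fin 2) (Fin 2) (ZMod p)}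
  {c : G → Matrix (Fin 2) (Fin 2) (ZMod p)}

lemma Ctx.exists_JJ_mul {σ₀ : G} (hσ₀ : IsPrimitiveRoot (C.Th hϖ σ₀) (p ^ 2 - 1)) (σ : G) :
    ∃ (τ : G) (k : ℕ), τ ∈ JJ G ϖ ∧ σ = τ * σ₀ ^ k := by
  have he : NeZero (p ^ 2 - 1) := ⟨Ctx.e_ne_zero⟩
  obtain ⟨k, -, hk⟩ := hσ₀.eq_pow_of_mem_rootsOfUnity (ξ := C.Th hϖ σ)
    ((mem_rootsOfUnity _ _).mpr (C.Th_pow hϖ σ))
  refine ⟨σ * (σ₀ ^ k)⁻¹, k, ?_, by group⟩
  rw [C.mem_JJ_iff hϖ, map_mul, map_inv, map_pow, hk, mul_inv_cancel]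

/-- supersingular data -/
structure SS (C : Ctx K κ G p) {ϖ : K} (hϖ : ϖ ^ (p ^ 2 - 1) = p)
    (ρ : G →* Matrix (Fin 2) (Fin 2) (ZMod p)) (σ₀ : G) : Prop where
  prim : IsPrimitiveRoot (C.Th hϖ σ₀) (p ^ 2 - 1)
  req : ∀ H : Subalgebra C.R ((Fin 2 → ZMod p) → K), IsOrder C.R (vb ρ) H → ∀ x, x ≠ 0 →
    REq C.v H (1 / ((p ^ 2 - 1 : ℕ) : ℝ)) x
  triv : ∀ σ ∈ JJ G ϖ, ρ σ = 1
  noeig : ∀ x : Fin 2 → ZMod p, x ≠ 0 → ∀ a : ZMod p, (ρ σ₀).mulVec x ≠ a • x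
  det : (ρ σ₀).det = C.ω σ₀
  flat : IsFlatMod C.R (vb ρ)

lemma finrank_vec : Module.finrank (ZMod p) (Fin 2 → ZMod p) = 2 := by simp

lemma det_lin_vb (σ : G) : LinearMap.det (lin p (vb ρ) σ) = (ρ σ).det := by
  have : lin p (vb ρ) σ = Matrix.toLin' (ρ σ) := by
    ext x
    rfl
  rw [this, LinearMap.det_toLin']

theorem exists_ss (hϖ : ϖ ^ (p ^ 2 - 1) = p) (hflat : IsFlatMod C.R (vb ρ))
    (hdet : ∀ σ, (ρ σ).det = C.ω σ)
    (hno : ¬ ∃ x : Fin 2 → ZMod p, x ≠ 0 ∧ ∀ σ, (ρ σ).mulVec x = (C.ω σ : ZMod p) • x) :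
    ∃ σ₀, SS C hϖ ρ σ₀ := by
  obtain ⟨σ₀, hσ₀⟩ := C.Th_surj hϖ
  have hcl : ∀ H : Subalgebra C.R ((Fin 2 → ZMod p) → K), IsOrder C.R (vb ρ) H → _ := fun H hH =>
    (C.classify hH finrank_vec (fun σ => by rw [det_lin_vb, hdet]) hϖ).resolve_left hno
  obtain ⟨H, hH⟩ := hflat
  have hepos : 0 < 1 / ((p ^ 2 - 1 : ℕ) : ℝ) := one_div_pos.mpr C.epos
  have hv := C.eq_varpi hϖ Ctx.e_ne_zero
  have htriv : ∀ σ ∈ JJ G ϖ, ρ σ = 1 := by
    intro σ hσ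
    have h1 : ∀ x : Fin 2 → ZMod p, (ρ σ).mulVec x = x := by
      intro x
      by_contra hne
      by_cases hx : x = 0
      · exact hne (by rw [hx, Matrix.mulVec_zero])
      have hreq := (hcl H hH).1
      have h2 := C.scalar_gt hH hepos hv σ (Polynomial.X - Polynomial.C 1) (hreq x hx).1 (by
        rw [mem_JJ.mp hσ, div_self (C.varpi_ne hϖ Ctx.e_ne_zero), C.r_one]; simp)
      rw [Ctx.aeval_X_sub_end, one_smul] at h2
      exact (hreq _ (sub_ne_zero.mpr hne)).not_gt h2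
    apply Matrix.ext_of_mulVec_single
    intro i
    rw [h1, Matrix.one_mulVec]
  refine ⟨σ₀, hσ₀, fun H' hH' => (hcl H' hH').1, htriv, ?_, hdet σ₀, H, hH⟩
  intro x hx a ha
  apply (hcl H hH).2
  refine ⟨x, hx, fun σ => ?_⟩
  obtain ⟨τ, k, hτ, rfl⟩ := Ctx.exists_JJ_mul hσ₀ σ
  have hpow : ∀ k : ℕ, (ρ (σ₀ ^ k)).mulVec x = a ^ k • x := by
    intro k
    induction k with
    | zero => rw [pow_zero, map_one, Matrix.one_mulVec, pow_zero, one_smul]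
    | succ k ih =>
      rw [pow_succ, map_mul, ← Matrix.mulVec_mulVec, ha, Matrix.mulVec_smul, ih, smul_smul, pow_succ,
        mul_comm]
  refine ⟨a ^ k, ?_⟩
  rw [vb_apply, map_mul, htriv τ hτ, one_mul, hpow]

namespace SS

variable {σ₀ : G} (S : SS C hϖ ρ σ₀)

include S

/-- the residue of the fundamental character -/
lemma prim_g : IsPrimitiveRoot (C.r (C.Th hϖ σ₀ : K)) (p ^ 2 - 1) := C.r_Th_prim hϖ S.prim

lemma s10 : ρ σ₀ 1 0 ≠ 0 := by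
  intro h
  refine S.noeig ![1, 0] (fun h1 => one_ne_zero (congrFun h1 0)) (ρ σ₀ 0 0) ?_
  ext i
  fin_cases i
  · simp [Matrix.mulVec, dotProduct, Fin.sum_univ_two]
  · simp [Matrix.mulVec, dotProduct, Fin.sum_univ_two, h]

lemma s01 : ρ σ₀ 0 1 ≠ 0 := by
  intro h
  refine S.noeig ![0, 1] (fun h1 => one_ne_zero (congrFun h1 1)) (ρ σ₀ 1 1) ?_
  ext i
  fin_cases i
  · simp [Matrix.mulVec, dotProduct, Fin.sum_univ_two, h]
  · simp [Matrix.mulVec, dotProduct, Fin.sum_univ_two]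

lemma root [CharP κ p] : C.r (C.Th hϖ σ₀ : K) ^ 2 -
    ZMod.castHom (dvd_refl p) κ (ρ σ₀).trace * C.r (C.Th hϖ σ₀ : K) +
    ZMod.castHom (dvd_refl p) κ (ρ σ₀).det = 0 := by
  obtain ⟨H, hH⟩ := S.flat
  have hepos : 0 < 1 / ((p ^ 2 - 1 : ℕ) : ℝ) := one_div_pos.mpr C.epos
  have hv := C.eq_varpi hϖ Ctx.e_ne_zero
  have hx : (![1, 0] : Fin 2 → ZMod p) ≠ 0 := fun h1 => one_ne_zero (congrFun h1 0)
  have h1 := C.scalar_of_gt hH hepos hv σ₀ (quad ((ρ σ₀).trace.val : ℤ) ((ρ σ₀).det.val : ℤ))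
    (S.req H hH _ hx) (by
      rw [aeval_quad_end, Ctx.val_zsmul, Ctx.val_zsmul, vb_apply, vb_apply]
      have : (ρ σ₀).mulVec ((ρ σ₀).mulVec ![1, 0]) - (ρ σ₀).trace • (ρ σ₀).mulVec ![1, 0] +
          (ρ σ₀).det • ![1, 0] = 0 := by
        ext i
        fin_cases i <;>
        simp [Matrix.mulVec, dotProduct, Fin.sum_univ_two, Matrix.det_fin_two,
          Matrix.trace_fin_two] <;> ring
      rw [this]; exact RGt.zero)
  rw [aeval_quad_field] at h1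
  rw [← C.Th_apply hϖ] at h1
  have e1 : ∀ a : ZMod p, ZMod.castHom (dvd_refl p) κ a = (((a.val : ℕ) : ℤ) : κ) := by
    intro a
    rw [Int.cast_natCast, ← map_natCast (ZMod.castHom (dvd_refl p) κ), ZMod.natCast_zmod_val]
  rw [e1, e1]
  exact h1

lemma gp_ne : C.r (C.Th hϖ σ₀ : K) ^ p ≠ C.r (C.Th hϖ σ₀ : K) := by
  intro h
  have hg := S.prim_g
  set g := C.r (C.Th hϖ σ₀ : K)
  have hg0 : g ≠ 0 := hg.ne_zero Ctx.e_ne_zero
  have hp1 := hp.out.one_lt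
  have h1 : g ^ (p - 1) = 1 := by
    refine mul_right_cancel₀ hg0 ?_
    rw [← pow_succ, one_mul, Nat.sub_add_cancel hp.out.pos, h]
  have h2 := Nat.le_of_dvd (by omega) (hg.dvd_of_pow_eq_one _ h1)
  have h3 : 2 * p ≤ p ^ 2 := by nlinarith
  omega

lemma roots [CharP κ p] : ZMod.castHom (dvd_refl p) κ (ρ σ₀).trace = C.r (C.Th hϖ σ₀ : K) +
      C.r (C.Th hϖ σ₀ : K) ^ p ∧
    ZMod.castHom (dvd_refl p) κ (ρ σ₀).det = C.r (C.Th hϖ σ₀ : K) * C.r (C.Th hϖ σ₀ : K) ^ p := by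
  have h1 := S.root
  have hne := S.gp_ne
  set g := C.r (C.Th hϖ σ₀ : K)
  have h2 := congrArg (frobenius κ p) h1
  rw [map_add, map_sub, map_mul, map_pow, map_zero, frobenius_def, frobenius_def, frobenius_def,
    ← map_pow, ← map_pow, ZMod.pow_card, ZMod.pow_card] at h2
  have h3 : (g - g ^ p) * (g + g ^ p - ZMod.castHom (dvd_refl p) κ (ρ σ₀).trace) = 0 := by
    linear_combination h1 - h2
  have h4 := (mul_eq_zero.mp h3).resolve_left (sub_ne_zero.mpr hne.symm)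
  have h5 : ZMod.castHom (dvd_refl p) κ (ρ σ₀).trace = g + g ^ p := (sub_eq_zero.mp h4).symm
  refine ⟨h5, ?_⟩
  rw [h5] at h1
  linear_combination h1

/-- the traceless part of `s` -/
noncomputable def _root_.Fermat.Agent.FlatLoc.tt (ρ : G →* Matrix (Fin 2) (Fin 2) (ZMod p)) (σ₀ : G) :
    Matrix (Fin 2) (Fin 2) (ZMod p) :=
  ρ σ₀ - ((ρ σ₀).trace / 2) • (1 : Matrix (Fin 2) (Fin 2) (ZMod p))

end SS

section tt

variable {σ₀ : G}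

lemma two_ne (C : Ctx K κ G p) : (2 : ZMod p) ≠ 0 := by
  intro h
  have h1 : ((2 : ℕ) : ZMod p) = 0 := by exact_mod_cast h
  rw [ZMod.natCast_eq_zero_iff] at h1
  have := Nat.le_of_dvd (by norm_num) h1
  have := C.two_lt_nat
  omega

lemma s_eq : ρ σ₀ = ((ρ σ₀).trace / 2) • (1 : Matrix (Fin 2) (Fin 2) (ZMod p)) + tt ρ σ₀ := by
  rw [tt]; abel

lemma tt_trace (C : Ctx K κ G p) : (tt ρ σ₀).trace = 0 := by
  have h2 := two_ne C
  rw [tt, Matrix.trace_sub, Matrix.trace_smul, Matrix.trace_one]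
  simp
  field_simp
  ring

/-- `t² = δ` -/
lemma tt_sq (C : Ctx K κ G p) : tt ρ σ₀ * tt ρ σ₀ =
    (-(tt ρ σ₀).det) • (1 : Matrix (Fin 2) (Fin 2) (ZMod p)) := by
  have h := tt_trace (ρ := ρ) (σ₀ := σ₀) C
  rw [Matrix.trace_fin_two] at h
  have h11 : tt ρ σ₀ 1 1 = - tt ρ σ₀ 0 0 := by linear_combination h
  ext i j
  fin_cases i <;> fin_cases j <;>
  simp [Matrix.mul_apply, Fin.sum_univ_two, Matrix.det_fin_two, h11] <;> ring

lemma SS.t10 (S : SS C hϖ ρ σ₀) : tt ρ σ₀ 1 0 ≠ 0 := by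
  have := S.s10
  simpa [tt] using this

lemma SS.det_tt (S : SS C hϖ ρ σ₀) : (tt ρ σ₀).det ≠ 0 := by
  intro h
  have h2 : ∃ x : Fin 2 → ZMod p, x ≠ 0 ∧ (tt ρ σ₀).mulVec x = 0 :=
    Matrix.exists_mulVec_eq_zero_iff.mpr h
  obtain ⟨x, hx, hx0⟩ := h2
  refine S.noeig x hx ((ρ σ₀).trace / 2) ?_
  conv_lhs => rw [s_eq (ρ := ρ) (σ₀ := σ₀)]
  rw [Matrix.add_mulVec, hx0, add_zero, Matrix.smul_mulVec, Matrix.one_mulVec]

end tt

end Fermat.Agent.FlatLoc
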