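import Fermat.Agent.FlatLoc.SS

/-!
# The supersingular case: the commuting part vanishes
-/

set_option autoImplicit false
set_option linter.unusedSectionVars false

namespace Fermat.Agent.FlatLoc

open Fermat.Agent.ECRed
open scoped Polynomial

variable {K : Type*} [Field K] {κ : Type*} [Field κ] {G : Type*} [Group G]
  [MulSemiringAction G K] {p : ℕ} [hp : Fact p.Prime] {C : Ctx K κ G p}
  {ϖ : K} {hϖ : ϖ ^ (p ^ 2 - 1) = p} {ρ : G →* Matrix (Fin 2) (Fin 2) (ZMod p)}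
  {c : G → Matrix (Fin 2) (Fin 2) (ZMod p)}

/-- first basis vector -/
def e₁ : Fin 2 → ZMod p := ![1, 0]

lemma mul_e₁ (X : Matrix (Fin 2) (Fin 2) (ZMod p)) : X.mulVec e₁ = ![X 0 0, X 1 0] := by
  ext i
  fin_cases i <;> simp [e₁, Matrix.mulVec, dotProduct, Fin.sum_univ_two]

lemma t_entries (C : Ctx K κ G p) {σ₀ : G} : tt ρ σ₀ 1 1 = - tt ρ σ₀ 0 0 := by
  have h := tt_trace (ρ := ρ) (σ₀ := σ₀) C
  rw [Matrix.trace_fin_two] at h
  linear_combination h

lemma hmul2 (A B : Matrix (Fin 2) (Fin 2) (ZMod p)) (i j) :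
    (A * B) i j = A i 0 * B 0 j + A i 1 * B 1 j := by
  rw [Matrix.mul_apply, Fin.sum_univ_two]

namespace SS

variable {σ₀ : G} (S : SS C hϖ ρ σ₀)

include S

lemma comm_form {X : Matrix (Fin 2) (Fin 2) (ZMod p)} (h : X * tt ρ σ₀ = tt ρ σ₀ * X) :
    ∃ a b : ZMod p, X = a • (1 : Matrix (Fin 2) (Fin 2) (ZMod p)) + b • tt ρ σ₀ := by
  have ht := S.t10
  have h11 := t_entries (ρ := ρ) C (σ₀ := σ₀)
  set t := tt ρ σ₀
  have e00 := congrFun (congrFun h 0) 0
  have e10 := congrFun (congrFun h 1) 0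
  rw [hmul2, hmul2] at e00 e10
  rw [h11] at e10
  refine ⟨X 0 0 - X 1 0 / t 1 0 * t 0 0, X 1 0 / t 1 0, ?_⟩
  ext i j
  fin_cases i <;> fin_cases j
  · simp
  · simp; field_simp; linear_combination e00
  · simp; field_simp
  · simp [h11]; field_simp; linear_combination e10

lemma comm_tr {X : Matrix (Fin 2) (Fin 2) (ZMod p)} (h : X * tt ρ σ₀ = tt ρ σ₀ * X)
    (htr : X.trace = 0) : X = (X 1 0 / tt ρ σ₀ 1 0) • tt ρ σ₀ := by
  obtain ⟨a, b, hab⟩ := S.comm_form h
  have ht := S.t10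
  have h2 := two_ne C
  have h1 : a = 0 := by
    rw [hab, Matrix.trace_add, Matrix.trace_smul, Matrix.trace_smul, tt_trace C,
      Matrix.trace_one] at htr
    simp at htr
    exact htr.resolve_right h2
  rw [h1, zero_smul, zero_add] at hab
  have h3 : X 1 0 = b * tt ρ σ₀ 1 0 := by rw [hab]; simp
  rw [h3, mul_div_cancel_right₀ _ ht]
  exact hab

lemma anti_zero {X : Matrix (Fin 2) (Fin 2) (ZMod p)} (h : X * tt ρ σ₀ = -(tt ρ σ₀ * X))
    (h0 : X.mulVec e₁ = 0) : X = 0 := by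
  have ht := S.t10
  have h11 := t_entries (ρ := ρ) C (σ₀ := σ₀)
  rw [mul_e₁] at h0
  have x00 : X 0 0 = 0 := congrFun h0 0
  have x10 : X 1 0 = 0 := congrFun h0 1
  set t := tt ρ σ₀
  have e00 := congrFun (congrFun h 0) 0
  have e10 := congrFun (congrFun h 1) 0
  rw [Matrix.neg_apply, hmul2, hmul2, x00, x10] at e00 e10
  have x01 : X 0 1 = 0 := by
    have : X 0 1 * t 1 0 = 0 := by linear_combination e00
    exact (mul_eq_zero.mp this).resolve_right ht
  have x11 : X 1 1 = 0 := by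
    have : X 1 1 * t 1 0 = 0 := by linear_combination e10
    exact (mul_eq_zero.mp this).resolve_right ht
  ext i j
  fin_cases i <;> fin_cases j
  · exact x00
  · exact x01
  · exact x10
  · exact x11

lemma vec_form (v : Fin 2 → ZMod p) : ∃ a b : ZMod p,
    v = (a • (1 : Matrix (Fin 2) (Fin 2) (ZMod p)) + b • tt ρ σ₀).mulVec e₁ := by
  have ht := S.t10
  refine ⟨v 0 - v 1 / tt ρ σ₀ 1 0 * tt ρ σ₀ 0 0, v 1 / tt ρ σ₀ 1 0, ?_⟩
  rw [mul_e₁]
  ext i
  fin_cases i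
  · simp
  · simp; field_simp

lemma comm_s : ρ σ₀ * tt ρ σ₀ = tt ρ σ₀ * ρ σ₀ := by
  rw [tt, mul_sub, sub_mul, mul_smul_comm, smul_mul_assoc, mul_one, one_mul]

lemma rho_form (σ : G) : ∃ k : ℕ, ρ σ = ρ σ₀ ^ k := by
  obtain ⟨τ, k, hτ, rfl⟩ := Ctx.exists_JJ_mul S.prim σ
  exact ⟨k, by rw [map_mul, S.triv τ hτ, one_mul, map_pow]⟩

lemma comm_t (σ : G) : ρ σ * tt ρ σ₀ = tt ρ σ₀ * ρ σ := by
  obtain ⟨k, hk⟩ := S.rho_form σ
  rw [hk]
  exact ((show Commute (ρ σ₀) (tt ρ σ₀) from S.comm_s).pow_left k).eq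

/-- inverse of `t` -/
lemma tinv : ((-(tt ρ σ₀).det)⁻¹ • tt ρ σ₀) * tt ρ σ₀ = 1 := by
  rw [smul_mul_assoc, tt_sq C, smul_smul, inv_mul_cancel₀ (neg_ne_zero.mpr S.det_tt), one_smul]

/-- the eigenvalues of `g ^ k` -/
lemma omega_g [CharP κ p] : ((C.ω σ₀ : ZMod p).val : κ) = C.r (C.Th hϖ σ₀ : K) ^ (p + 1) := by
  rw [← C.r_omega_eq hϖ, C.Th_apply]

/-- **homomorphisms into the commutant are not flat** -/
theorem gamma_zero [IsAlgClosed κ] {γ : G → ZMod p} (hc : FlatC C ρ (fun σ => γ σ • tt ρ σ₀)) :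
    ∀ σ, γ σ = 0 := by
  have := C.char
  obtain ⟨hcoc, H, hH⟩ := hc
  have ht := S.t10
  have hp1 := hp.out.one_lt
  have hp2 := C.two_lt_nat
  have he2 : p ^ 2 - 1 = (p + 1) * (p - 1) := Ctx.e_factor
  set t := tt ρ σ₀ with htdef
  have hadd : ∀ σ τ, γ (σ * τ) = γ σ + γ τ := by
    intro σ τ
    have h1 := hcoc σ τ
    have h2 : ρ σ * (γ τ • t) * ρ σ⁻¹ = γ τ • t := by
      rw [mul_smul_comm, S.comm_t, smul_mul_assoc, mul_assoc, rho_mul_inv, mul_one]
    rw [h2, ← add_smul] at h1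
    have h3 := congrFun (congrFun h1 1) 0
    simp only [Matrix.smul_apply, smul_eq_mul] at h3
    exact mul_right_cancel₀ ht h3
  have hγ1 : γ 1 = 0 := by
    have := hadd 1 1
    rwa [mul_one, left_eq_add] at this
  have hinv : ∀ σ, γ σ⁻¹ = - γ σ := by
    intro σ
    have h1 := hadd σ σ⁻¹
    rw [mul_inv_cancel, hγ1] at h1
    exact (neg_eq_of_add_eq_zero_right h1.symm).symm
  have hpow : ∀ (σ : G) (k : ℕ), γ (σ ^ k) = k * γ σ := by
    intro σ k
    induction k with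
    | zero => simp [hγ1]
    | succ k ih => rw [pow_succ, hadd, ih]; push_cast; ring
  -- reduction to `J`
  suffices hJ : ∀ σ ∈ JJ G ϖ, γ σ = 0 by
    have h0 : γ σ₀ = 0 := by
      have h1 : σ₀ ^ (p ^ 2 - 1) ∈ JJ G ϖ := by
        rw [C.mem_JJ_iff hϖ, map_pow, C.Th_pow]
      have h2 := hJ _ h1
      rw [hpow] at h2
      refine (mul_eq_zero.mp h2).resolve_left fun h3 => ?_
      rw [ZMod.natCast_eq_zero_iff] at h3
      exact Ctx.not_dvd_e h3
    intro σ
    obtain ⟨τ, k, hτ, rfl⟩ := Ctx.exists_JJ_mul S.prim σ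
    rw [hadd, hJ τ hτ, hpow, h0]; ring
  set f : G → (ZMod p →+ ZMod p) := fun σ => AddMonoidHom.mulRight (γ σ) with hf
  have hK : ∀ m : ZMod p, ∃ y, Kum C ϖ (fun σ => f σ m) y := by
    intro m
    obtain ⟨y, -, hy⟩ := C.exists_kum hϖ hH (a := fun σ => f σ m)
      (fun σ _ τ _ => by
        change m * γ (σ * τ) = m * γ σ + m * γ τ
        rw [hadd]; ring)
      (fun σ hσ h1 => by
        have h2 : extRep ρ _ hcoc σ (e₁, 0) = (e₁, 0) := by rw [h1]; rfl
        rw [extRep_apply, S.triv σ hσ] at h2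
        have h3 := (Prod.mk.inj h2).2
        rw [mul_one, Matrix.mulVec_zero, add_zero, mul_e₁] at h3
        have h4 : γ σ * t 1 0 = 0 := congrFun h3 1
        change m * γ σ = 0
        rw [(mul_eq_zero.mp h4).resolve_right ht, mul_zero])
    exact ⟨y, hy⟩
  set T : AddMonoid.End (ZMod p) := AddMonoidHom.mulLeft (C.ω σ₀ : ZMod p) with hT
  have hTK : ∀ m y, Kum C ϖ (fun σ => f σ m) y → Kum C ϖ (fun σ => f σ (T m)) (σ₀ • y) := by
    intro m y hy
    refine ⟨by rw [ne_eq, smul_eq_zero_iff_eq]; exact hy.1, fun τ hτ => ?_⟩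
    have e1 : τ • σ₀ • y = σ₀ • ((σ₀⁻¹ * τ * σ₀) • y) := by
      rw [← mul_smul, ← mul_smul]; congr 1; group
    rw [e1, hy.2 _ (C.conj_mem_JJ hϖ hτ), smul_mul', C.hω]
    congr 2
    change (C.ω σ₀ : ZMod p) * (m * γ (σ₀⁻¹ * τ * σ₀)) = (C.ω σ₀ : ZMod p) * m * γ τ
    rw [hadd, hadd, hinv]; ring
  set Q : ℤ[X] := Polynomial.X - Polynomial.C ((C.ω σ₀ : ZMod p).val : ℤ) with hQ
  have hQT : Polynomial.aeval T Q = 0 := by
    refine AddMonoidHom.ext fun m => ?_
    refine (Ctx.aeval_X_sub_end T _ m).trans ?_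
    rw [Ctx.val_zsmul]
    change (C.ω σ₀ : ZMod p) * m - (C.ω σ₀ : ZMod p) * m = 0
    ring
  have hg := S.prim_g
  have hωg := S.omega_g
  set g := C.r (C.Th hϖ σ₀ : K) with hgdef
  have hQg : ∀ a : κ, Polynomial.aeval a Q = a - g ^ (p + 1) := by
    intro a
    rw [hQ, map_sub, Polynomial.aeval_X, Polynomial.aeval_C, eq_intCast, Int.cast_natCast, hωg]
  have hne : ∀ k, k < p * (p + 1) → k ≠ p + 1 → Polynomial.aeval (g ^ k) Q ≠ 0 := by
    intro k hk hk1 h0
    rw [hQg, sub_eq_zero] at h0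
    rcases Nat.lt_or_ge k (p + 1) with hlt | hge
    · have := hg.pow_inj (by nlinarith [Nat.sub_add_cancel hp1.le]) (by nlinarith [Nat.sub_add_cancel hp1.le]) h0
      omega
    · have h1 : g ^ (k - (p + 1)) = 1 := by
        have hg0 : g ≠ 0 := hg.ne_zero Ctx.e_ne_zero
        refine mul_right_cancel₀ (pow_ne_zero (p + 1) hg0) ?_
        rw [← pow_add, Nat.sub_add_cancel hge, one_mul, h0]
      have h2 := hg.dvd_of_pow_eq_one _ h1
      have h3 := Nat.le_of_dvd (by omega) h2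
      have h4 : p * (p + 1) = p ^ 2 - 1 + (p + 1) := by
        have : 1 ≤ p ^ 2 := Nat.one_le_pow _ _ hp.out.pos
        zify [this]; ring
      omega
  have hplt : p + 1 < p * (p + 1) := by nlinarith
  have h1 : Lev C ϖ f 1 := by
    refine C.lev_zero_of_poly hϖ hK hTK hQT ?_
    have := hne 0 (by omega) (by omega)
    rwa [pow_zero] at this
  have h2 : Lev C ϖ f (p + 1) := C.lev_up hϖ hTK hQT le_rfl h1 (by omega) (by omega)
    fun k hk hk' => Or.inr (hne k (by omega) (by omega))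
  obtain ⟨ℓ, hℓ⟩ := C.exists_leadHom hϖ (by omega) hplt (by
    intro h
    have := (Nat.dvd_add_right (dvd_refl p)).mp h
    have := Nat.le_of_dvd one_pos this
    omega) h2
  obtain ⟨y, hy, hyl⟩ := h2 1
  by_cases hl : lead C ϖ (p + 1) y = 0
  · have hℓ0 : ℓ = 0 := by
      refine AddMonoidHom.ext fun m => ?_
      have h3 : ℓ m = m.val • ℓ 1 := by rw [← map_nsmul]; congr 1; simp
      rw [h3, hℓ 1 y hy hyl, hl, smul_zero]; rfl
    have h3 := C.lev_succ_of_hom hϖ h2 hℓ hℓ0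
    have h4 := C.lev_up hϖ hTK hQT (by omega) h3 (j := p * (p + 1)) (by omega) le_rfl
      fun k hk hk' => Or.inr (hne k (by omega) (by omega))
    intro σ hσ
    have h5 := DFunLike.congr_fun (C.eq_zero_of_lev hϖ h4 σ hσ) (1 : ZMod p)
    change 1 * γ σ = 0 at h5
    rwa [one_mul] at h5
  · intro τ hτ
    by_contra hγτ
    have hge : RGe C.v H ((1 + p * (p + 1) - (p + 1 : ℕ)) / (p * (p ^ 2 - 1 : ℕ) : ℝ))
        ((0, (γ τ • t).mulVec e₁) : (Fin 2 → ZMod p) × (Fin 2 → ZMod p)) := by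
      have e1 : ((0, (γ τ • t).mulVec e₁) : (Fin 2 → ZMod p) × (Fin 2 → ZMod p)) =
          (e₁, (γ τ • t).mulVec e₁) - (e₁, 0) := by simp
      rw [e1]
      refine hH.rge_of_diff C.hRv fun h hh => ?_
      have hact : ∀ σ ∈ JJ G ϖ, σ • h (e₁, 0) = h (e₁, (γ σ • t).mulVec e₁) := by
        intro σ hσ
        rw [← hH.equiv h hh, extRep_apply, S.triv σ hσ]
        simp only [Matrix.one_mulVec, mul_one, Matrix.mulVec_zero, add_zero]
        rfl
      have h3 := C.ramif_level hϖ (by omega) hplt (by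
          intro h
          have := (Nat.dvd_add_right (dvd_refl p)).mp h
          have := Nat.le_of_dvd one_pos this
          omega) hy hyl hl
        (fun σ _ τ _ => by
          change 1 * γ (σ * τ) = 1 * γ σ + 1 * γ τ
          rw [hadd]; ring) (b := h (e₁, 0))
        (fun σ hσ h3 => by
          have h4 : γ σ = 0 := by
            change 1 * γ σ = 0 at h3
            rwa [one_mul] at h3
          rw [hact σ hσ, h4, zero_smul, Matrix.zero_mulVec]) (hH.val_ge C.hRv hh _) hτ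
      rwa [hact τ hτ] at h3
    have hvec : (γ τ • t).mulVec e₁ ≠ 0 := by
      intro h0
      rw [mul_e₁] at h0
      have h4 : γ τ * t 1 0 = 0 := congrFun h0 1
      exact hγτ ((mul_eq_zero.mp h4).resolve_right ht)
    have hreq := S.req _ (hH.restrict inrHom inr_inj (inr_equivar hcoc)) _ hvec
    rw [req_restrict] at hreq
    have hle := hreq.le_of_ge hge
    have he := C.epos
    have hp1' := Ctx.one_lt (p := p)
    rw [div_le_div_iff₀ (by positivity) he] at hle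
    push_cast at hle
    have h5 : (p : ℝ) * p ≤ p := by
      have h6 : ((1 + p * (p + 1) - (p + 1) : ℝ)) * ((p ^ 2 - 1 : ℕ) : ℝ) ≤ p * ((p ^ 2 - 1 : ℕ) : ℝ) := by
        calc _ ≤ _ := hle
          _ = _ := by ring
      have h7 := le_of_mul_le_mul_right h6 he
      linarith
    nlinarith

/-- **flat cocycles anticommute with `t`** -/
theorem anti [IsAlgClosed κ] (hc : FlatC C ρ c) (htr : ∀ σ, (c σ).trace = 0) (σ : G) :
    c σ * tt ρ σ₀ = -(tt ρ σ₀ * c σ) := by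
  have ht := S.t10
  have hδ := neg_ne_zero.mpr S.det_tt
  have hsq := tt_sq (ρ := ρ) (σ₀ := σ₀) C
  have htinv := S.tinv
  have hcomm := S.comm_t
  set t := tt ρ σ₀ with htdef
  set δ := -t.det with hδdef
  have h1 : FlatC C ρ (fun σ => t * c σ * (δ⁻¹ • t)) := hc.conj htinv hcomm
  have h2 : FlatC C ρ (c + fun σ => t * c σ * (δ⁻¹ • t)) := hc.add h1
  have hcom : ∀ σ, (c σ + t * c σ * (δ⁻¹ • t)) * t = t * (c σ + t * c σ * (δ⁻¹ • t)) := by
    intro σ
    have e1 : t * c σ * (δ⁻¹ • t) * t = t * c σ := by rw [mul_assoc, htinv, mul_one]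
    have e2 : t * (t * c σ * (δ⁻¹ • t)) = c σ * t := by
      calc t * (t * c σ * (δ⁻¹ • t)) = (t * t) * c σ * (δ⁻¹ • t) := by simp only [mul_assoc]
        _ = δ • (c σ * (δ⁻¹ • t)) := by rw [hsq, smul_mul_assoc, smul_mul_assoc, one_mul]
        _ = c σ * t := by rw [mul_smul_comm, smul_smul, mul_inv_cancel₀ hδ, one_smul]
    rw [add_mul, mul_add, e1, e2, add_comm]
  have htr' : ∀ σ, (c σ + t * c σ * (δ⁻¹ • t)).trace = 0 := by
    intro σ
    rw [Matrix.trace_add, htr, zero_add, mul_assoc, Matrix.trace_mul_comm, mul_assoc, htinv, mul_one,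
      htr]
  have h3 : (c + fun σ => t * c σ * (δ⁻¹ • t)) =
      fun σ => ((c σ + t * c σ * (δ⁻¹ • t)) 1 0 / t 1 0) • t := by
    funext σ
    exact S.comm_tr (hcom σ) (htr' σ)
  rw [h3] at h2
  have h4 := S.gamma_zero h2 σ
  have h5 : c σ + t * c σ * (δ⁻¹ • t) = 0 := by
    have := congrFun h3 σ
    simp only [Pi.add_apply] at this
    rw [this, h4, zero_smul]
  have h6 := congrArg (· * t) h5
  simp only [add_mul, zero_mul] at h6
  rw [mul_assoc (t * c σ), htinv, mul_one] at h6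
  exact eq_neg_of_add_eq_zero_left h6

end SS

end Fermat.Agent.FlatLoc
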