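import Fermat.Agent.FlatLoc.SS2

/-!
# The supersingular case: level two is excluded
-/

set_option autoImplicit false
set_option linter.unusedSectionVars false

namespace Fermat.Agent.FlatLoc

open Fermat.Agent.ECRed
open scoped Polynomial

variable {K : Type*} [Field K] {κ : Type*} [Field κ] {G : Type*} [Group G]
  [MulSemiringAction G K] {p : ℕ} [hp : Fact p.Prime] {C : Ctx K κ G p}
  {ϖ : K} {hϖ : ϖ ^ (p ^ 2 - 1) = p} {ρ : G →* Matrix (Fin 2) (Fin 2) (ZMod p)}
  {c : G → Matrix (Fin 2) (Fin 2) (ZMod p)}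

/-- a function with exact valuation on finitely many differences -/
lemma Ctx.exists_generic {V : Type*} [AddCommGroup V] {ρ' : G →* AddMonoid.End V}
    {H : Subalgebra C.R (V → K)} [Infinite κ] (hH : IsOrder C.R ρ' H) {r : ℝ} {ϖ' : K}
    (hϖ' : C.v.Eq r ϖ') {ι : Type} [Finite ι] (x : ι → V) (x₀ : V)
    (hx : ∀ i, REq C.v H r (x i - x₀)) : ∃ h ∈ H, ∀ i, C.v.Eq r (h (x i) - h x₀) := by
  classical
  have hge : ∀ h ∈ H, ∀ i, C.v.Ge r (h (x i) - h x₀) := by
    intro h hh i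
    have := hH.diff_ge C.hRv (hx i).1 hh x₀
    rwa [add_sub_cancel] at this
  have hdiv : ∀ {z : K}, C.v.Ge r z → C.v.Ge 0 (z / ϖ') := by
    intro z hz
    have := hz.mul hϖ'.inv.ge
    rwa [add_neg_cancel, ← div_eq_mul_inv] at this
  let M : Submodule κ (ι → κ) :=
    { carrier := {v | ∃ h ∈ H, ∀ i, v i = C.r ((h (x i) - h x₀) / ϖ')}
      add_mem' := by
        rintro v w ⟨h, hh, hv⟩ ⟨h', hh', hw⟩
        refine ⟨h + h', H.add_mem hh hh', fun i => ?_⟩
        rw [Pi.add_apply, hv, hw, ← C.r_add _ _ (hdiv (hge h hh i)) (hdiv (hge h' hh' i))]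
        congr 1
        simp only [Pi.add_apply]
        ring
      zero_mem' := ⟨0, H.zero_mem, fun i => by simp [C.r_zero]⟩
      smul_mem' := by
        rintro a v ⟨h, hh, hv⟩
        obtain ⟨b, hb, rfl⟩ := C.r_surj a
        refine ⟨(⟨b, hb⟩ : C.R) • h, H.smul_mem hh _, fun i => ?_⟩
        rw [Pi.smul_apply, hv, smul_eq_mul, ← C.r_mul _ _ (C.hRv b hb) (hdiv (hge h hh i))]
        congr 1
        change b * ((h (x i) - h x₀) / ϖ') = (b * h (x i) - b * h x₀) / ϖ'
        ring }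
  obtain ⟨v, ⟨h, hh, hv⟩, hv0⟩ := Module.Dual.exists_forall_mem_ne_zero_of_forall_exists M
    (fun i : ι => (LinearMap.proj i : (ι → κ) →ₗ[κ] κ)) (fun i => by
      have h1 : ∃ h ∈ H, ¬ C.v.Gt r (h (x i) - h x₀) := by
        by_contra hcon
        push Not at hcon
        exact (hx i).not_gt (hH.rgt_of_diff C.hRv hcon)
      obtain ⟨h, hh, h2⟩ := h1
      refine ⟨_, ⟨h, hh, fun i => rfl⟩, ?_⟩
      change C.r ((h (x i) - h x₀) / ϖ') ≠ 0
      intro h3
      apply h2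
      have h4 := ((C.r_eq_zero _ (hdiv (hge h hh i))).mp h3).mul_ge hϖ'.ge
      rwa [zero_add, div_mul_cancel₀ _ hϖ'.1] at h4)
  refine ⟨h, hh, fun i => ?_⟩
  have h1 : C.r ((h (x i) - h x₀) / ϖ') ≠ 0 := by
    rw [← hv]; exact hv0 i
  have h2 : ¬ C.v.Gt r (h (x i) - h x₀) := by
    intro h3
    apply h1
    rw [C.r_eq_zero _ (hdiv (hge h hh i))]
    have := h3.mul_ge hϖ'.inv.ge
    rwa [add_neg_cancel, ← div_eq_mul_inv] at this
  rw [OrdFn.not_gt_iff] at h2
  exact ⟨h2.1, le_antisymm h2.2 ((OrdFn.ge_iff h2.1).mp (hge h hh i))⟩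

lemma eval_ge {v : OrdFn K} {r : ℝ} {P : K[X]} {a : K} (hP : ∀ j, v.Ge r (P.coeff j))
    (ha : v.Ge 0 a) : v.Ge r (P.eval a) := by
  rw [Polynomial.eval_eq_sum_range]
  refine ge_sum _ _ fun j _ => ?_
  have := (hP j).mul (Ge.pow_aux ha j)
  rwa [add_zero] at this

lemma coeff_prod_ge {v : OrdFn K} {ι : Type*} (s : Finset ι) (a : ι → K) (ha : ∀ i ∈ s, v.Ge 0 (a i))
    (j : ℕ) : v.Ge 0 ((∏ i ∈ s, (Polynomial.X - Polynomial.C (a i))).coeff j) := by
  classical
  have h : ∏ i ∈ s, (Polynomial.X - Polynomial.C (a i)) ∈ Polynomial.lifts (intSub v).subtype := by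
    refine Subsemiring.prod_mem _ fun i hi => ?_
    exact Subring.sub_mem (Polynomial.liftsRing (intSub v).subtype) (Polynomial.X_mem_lifts _)
      (Polynomial.C_mem_lifts _ (⟨a i, ha i hi⟩ : intSub v))
  rw [Polynomial.lifts_iff_coeff_lifts] at h
  obtain ⟨z, hz⟩ := h j
  rw [← hz]
  exact z.2

namespace SS

variable {σ₀ : G} (S : SS C hϖ ρ σ₀)

include S

lemma coc_J (hc : IsCoc ρ c) {σ : G} (hσ : σ ∈ JJ G ϖ) (τ : G) : c (σ * τ) = c σ + c τ := by
  rw [hc, S.triv σ hσ, S.triv _ ((JJ G ϖ).inv_mem hσ), one_mul, mul_one]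

lemma coc_conj (hc : IsCoc ρ c) {σ τ : G} (hτ : τ ∈ JJ G ϖ) (hτ' : σ⁻¹ * τ * σ ∈ JJ G ϖ) :
    c τ * ρ σ = ρ σ * c (σ⁻¹ * τ * σ) := by
  have h1 := hc.mul_rho τ σ
  have h2 := hc.mul_rho σ (σ⁻¹ * τ * σ)
  have h3 : σ * (σ⁻¹ * τ * σ) = τ * σ := by group
  rw [h3, h1, S.triv τ hτ, S.triv _ hτ', mul_one, mul_one, one_mul, mul_one] at h2
  have h4 : c τ * ρ σ + c σ * ρ σ = ρ σ * c (σ⁻¹ * τ * σ) + c σ * ρ σ := by
    rw [h2]; abel
  exact add_right_cancel h4

lemma ext_act (hc : IsCoc ρ c) {σ : G} (hσ : σ ∈ JJ G ϖ) (v w : Fin 2 → ZMod p) :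
    extRep ρ c hc σ (v, w) = (v, w + (c σ).mulVec v) := by
  rw [extRep_apply, S.triv σ hσ]
  simp only [Matrix.one_mulVec, mul_one]
  rw [add_comm]

/-- the leading coefficient at level two vanishes -/
theorem lead_two [IsAlgClosed κ] (hc : FlatC C ρ c) {β : (Fin 2 → ZMod p) →+ ZMod p} {y : K}
    (hy : Kum C ϖ (fun σ => β ((c σ).mulVec e₁)) y) (hyl : Lv C 2 y) : lead C ϖ 2 y = 0 := by
  classical
  have := C.char
  obtain ⟨hcoc, H, hH⟩ := hc
  have hp1 := hp.out.one_lt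
  have hp2 := C.two_lt_nat
  have hp2' : ¬ p ∣ 2 := fun h => by
    have := Nat.le_of_dvd (by norm_num) h
    omega
  have hlt : 2 < p * (p + 1) := by nlinarith
  have he := C.epos
  have hadd : ∀ σ ∈ JJ G ϖ, ∀ τ ∈ JJ G ϖ, β ((c (σ * τ)).mulVec e₁) =
      β ((c σ).mulVec e₁) + β ((c τ).mulVec e₁) := by
    intro σ hσ τ _
    rw [S.coc_J hcoc hσ, Matrix.add_mulVec, map_add]
  by_contra hl
  by_cases hτ : ∃ τ ∈ JJ G ϖ, β ((c τ).mulVec e₁) ≠ 0
  swap
  · push Not at hτ
    have h1 : y ∈ L0 G ϖ := by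
      intro σ hσ
      rw [hy.2 σ hσ]
      simp only
      rw [hτ σ hσ, AddChar.map_zero_eq_one, one_mul]
    have h2 := C.lv_L0 hϖ (by norm_num) hlt hp2' h1 hyl
    apply hl
    unfold lead
    have h3 : C.v.Gt ((2 : ℕ) / ((p ^ 2 - 1 : ℕ) : ℝ)) (y ^ p - 1) := by
      refine OrdFn.Ge.gt h2 ?_
      rw [div_lt_div_iff_of_pos_right he]
      norm_num
    exact (C.r_eq_zero _ (C.div_ge hϖ hyl)).mpr (C.div_gt hϖ h3)
  obtain ⟨τ, hτJ, hτ⟩ := hτ
  set Sβ : Finset (Fin 2 → ZMod p) := Finset.univ.filter fun w => β w = 0 with hSβ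
  have hϖe : C.v.Eq (1 / ((p ^ 2 - 1 : ℕ) : ℝ)) ϖ := C.eq_varpi hϖ Ctx.e_ne_zero
  -- a generic function
  let ι : Type := {w : Fin 2 → ZMod p // w ≠ 0}
  obtain ⟨h, hh, hgen⟩ := Ctx.exists_generic hH hϖe (ι := ι)
    (fun i => ((e₁, i.1) : (Fin 2 → ZMod p) × (Fin 2 → ZMod p))) (e₁, 0) (fun i => by
      have e1 : ((e₁, i.1) : (Fin 2 → ZMod p) × (Fin 2 → ZMod p)) - (e₁, 0) = inrHom i.1 := by
        change _ = ((0, i.1) : (Fin 2 → ZMod p) × (Fin 2 → ZMod p))
        simp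
      rw [e1, ← req_restrict]
      exact S.req _ (hH.restrict inrHom inr_inj (inr_equivar hcoc)) _ i.2)
  have hint : ∀ x, C.v.Ge 0 (h x) := fun x => hH.val_ge C.hRv hh x
  set a := h (e₁, 0) with ha
  set F : K[X] := ∏ w ∈ Sβ, (Polynomial.X - Polynomial.C (h (e₁, w))) with hF
  have hact : ∀ σ ∈ JJ G ϖ, ∀ w, σ • h (e₁, w) = h (e₁, w + (c σ).mulVec e₁) := by
    intro σ hσ w
    rw [← hH.equiv h hh, S.ext_act hcoc hσ]
  have hmap : ∀ σ ∈ JJ G ϖ, F.map (MulSemiringAction.toRingHom G K σ) =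
      ∏ w ∈ Sβ, (Polynomial.X - Polynomial.C (h (e₁, w + (c σ).mulVec e₁))) := by
    intro σ hσ
    rw [hF, Polynomial.map_prod]
    refine Finset.prod_congr rfl fun w _ => ?_
    rw [Polynomial.map_sub, Polynomial.map_X, Polynomial.map_C, MulSemiringAction.toRingHom_apply,
      hact σ hσ]
  have hfix : ∀ σ ∈ JJ G ϖ, β ((c σ).mulVec e₁) = 0 → ∀ j, σ • F.coeff j = F.coeff j := by
    intro σ hσ h0 j
    have h1 : F.map (MulSemiringAction.toRingHom G K σ) = F := by
      rw [hmap σ hσ, hF]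
      refine Finset.prod_equiv (Equiv.addRight ((c σ).mulVec e₁)) (fun w => ?_) (fun w _ => rfl)
      rw [hSβ, Finset.mem_filter, Finset.mem_filter, Equiv.coe_addRight, map_add, h0, add_zero]
      simp only [Finset.mem_univ, true_and]
    have h2 := congrArg (fun P => Polynomial.coeff P j) h1
    simp only [Polynomial.coeff_map, MulSemiringAction.toRingHom_apply] at h2
    exact h2
  have hcoef : ∀ j, C.v.Ge ((1 + p * (p + 1) - (2 : ℕ)) / (p * (p ^ 2 - 1 : ℕ) : ℝ))
      (τ • F.coeff j - F.coeff j) := by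
    intro j
    exact C.ramif_level hϖ (by norm_num) hlt hp2' hy hyl hl hadd (fun σ hσ h0 => hfix σ hσ h0 j)
      (coeff_prod_ge _ _ (fun w _ => hint _) j) hτJ
  have hFa : F.eval a = 0 := by
    rw [hF, Polynomial.eval_prod]
    refine Finset.prod_eq_zero (i := 0) ?_ ?_
    · simp [hSβ]
    · simp [ha]
  have h1 : C.v.Ge ((1 + p * (p + 1) - (2 : ℕ)) / (p * (p ^ 2 - 1 : ℕ) : ℝ))
      ((F.map (MulSemiringAction.toRingHom G K τ)).eval a) := by
    have h2 := eval_ge (v := C.v) (P := F.map (MulSemiringAction.toRingHom G K τ) - F) (a := a)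
      (fun j => by
        rw [Polynomial.coeff_sub, Polynomial.coeff_map, MulSemiringAction.toRingHom_apply]
        exact hcoef j) (hint _)
    rwa [Polynomial.eval_sub, hFa, sub_zero] at h2
  have h2 : C.v.Eq (Sβ.card * (1 / ((p ^ 2 - 1 : ℕ) : ℝ)))
      ((F.map (MulSemiringAction.toRingHom G K τ)).eval a) := by
    rw [hmap τ hτJ, Polynomial.eval_prod]
    have hind : ∀ s ⊆ Sβ, C.v.Eq (s.card * (1 / ((p ^ 2 - 1 : ℕ) : ℝ)))
        (∏ w ∈ s, Polynomial.eval a (Polynomial.X - Polynomial.C (h (e₁, w + (c τ).mulVec e₁)))) := by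
      intro s
      induction s using Finset.induction_on with
      | empty => intro _; simpa using OrdFn.eq_one
      | insert w s hw ih =>
        intro hs
        rw [Finset.prod_insert hw, Finset.card_insert_of_notMem hw]
        have hwS : β w = 0 := (Finset.mem_filter.mp (hs (Finset.mem_insert_self _ _))).2
        have hne : w + (c τ).mulVec e₁ ≠ 0 := by
          intro h0
          apply hτ
          have := congrArg β h0
          rwa [map_add, hwS, zero_add, map_zero] at this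
        have h3 := hgen ⟨_, hne⟩
        have h4 := h3.neg.mul (ih fun x hx => hs (Finset.mem_insert_of_mem hx))
        convert h4 using 1
        · push_cast; ring
        · simp [ha]
    exact hind Sβ (Finset.Subset.refl _)
  have hcard : Sβ.card ≤ p := by
    -- the fibres of `β` over `𝔽_p`
    have h3 : Sβ.card * p ≤ p * p := by
      have h4 : (Finset.univ : Finset (Fin 2 → ZMod p)).card = p * p := by
        rw [Finset.card_univ]; simp [ZMod.card, pow_two]
      rw [← h4]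
      have hinj : Set.InjOn (fun q : (Fin 2 → ZMod p) × ZMod p => q.1 + q.2.val • (c τ).mulVec e₁)
          (Sβ ×ˢ (Finset.univ : Finset (ZMod p)) : Finset _) := by
        rintro ⟨w, m⟩ hw ⟨w', m'⟩ hw' heq
        simp only [Finset.coe_product, Finset.coe_univ, Set.mem_prod, Set.mem_univ, and_true,
          Finset.mem_coe] at hw hw'
        have hw0 : β w = 0 := (Finset.mem_filter.mp hw).2
        have hw0' : β w' = 0 := (Finset.mem_filter.mp hw').2
        simp only at heq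
        have h5 := congrArg β heq
        rw [map_add, map_add, hw0, hw0', zero_add, zero_add, map_nsmul, map_nsmul, nsmul_eq_mul,
          nsmul_eq_mul, ZMod.natCast_zmod_val, ZMod.natCast_zmod_val] at h5
        have h6 := mul_right_cancel₀ hτ h5
        subst h6
        rw [add_left_inj] at heq
        rw [heq]
      have h5 := Finset.card_image_of_injOn hinj
      rw [Finset.card_product, Finset.card_univ (α := ZMod p), ZMod.card] at h5
      rw [← h5]
      exact Finset.card_le_card (Finset.subset_univ _)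
    exact Nat.le_of_mul_le_mul_right h3 hp.out.pos
  have h3 := (OrdFn.ge_iff h2.1).mp h1
  rw [h2.2] at h3
  have h4 : (Sβ.card : ℝ) ≤ p := by exact_mod_cast hcard
  have hp0 : (0 : ℝ) < p := by exact_mod_cast hp.out.pos
  rw [div_le_iff₀ (by positivity)] at h3
  have h5 : (Sβ.card * (1 / ((p ^ 2 - 1 : ℕ) : ℝ)) * (p * ((p ^ 2 - 1 : ℕ) : ℝ)) : ℝ) = Sβ.card * p := by
    field_simp
  rw [h5] at h3
  have h6 : (Sβ.card : ℝ) * p ≤ p * p := mul_le_mul_of_nonneg_right h4 hp0.le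
  have h7 : (1 : ℝ) < p := by exact_mod_cast hp1
  push_cast at h3
  linarith

end SS

end Fermat.Agent.FlatLoc
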