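import Fermat.Agent.FlatLoc.SS3

/-!
# The supersingular case: levels
-/

set_option autoImplicit false
set_option linter.unusedSectionVars false

namespace Fermat.Agent.FlatLoc

open Fermat.Agent.ECRed
open scoped Polynomial

variable {K : Type*} [Field K] {κ : Type*} [Field κ] {G : Type*} [Group G]
  [MulSemiringAction G K] {p : ℕ} [hp : Fact p.Prime] {C : Ctx K κ G p}
  {ϖ : K} {hϖ : ϖ ^ (p ^ 2 - 1) = p} {ρ : G →* Matrix (Fin 2) (Fin 2) (ZMod p)}
  {c : G → Matrix (Fin 2) (Fin 2) (ZMod p)}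

/-- the conjugate of `s` -/
noncomputable def sbar (ρ : G →* Matrix (Fin 2) (Fin 2) (ZMod p)) (σ₀ : G) :
    Matrix (Fin 2) (Fin 2) (ZMod p) :=
  ((ρ σ₀).trace / 2) • (1 : Matrix (Fin 2) (Fin 2) (ZMod p)) - tt ρ σ₀

/-- `s̄²` -/
noncomputable def AA (ρ : G →* Matrix (Fin 2) (Fin 2) (ZMod p)) (σ₀ : G) :
    Matrix (Fin 2) (Fin 2) (ZMod p) := sbar ρ σ₀ * sbar ρ σ₀

/-- the functionals on the plane -/
abbrev WW (p : ℕ) := (Fin 2 → ZMod p) →+ ZMod p

instance : Finite (WW p) := Finite.of_injective (fun β : WW p => (β : (Fin 2 → ZMod p) → ZMod p))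
  DFunLike.coe_injective

/-- precomposition with a matrix -/
def preM (A : Matrix (Fin 2) (Fin 2) (ZMod p)) : AddMonoid.End (WW p) :=
  AddMonoidHom.mk' (fun β => β.comp (Matrix.mulVecLin A).toAddMonoidHom) fun _ _ => rfl

lemma preM_apply (A : Matrix (Fin 2) (Fin 2) (ZMod p)) (β : WW p) (v : Fin 2 → ZMod p) :
    preM A β v = β (A.mulVec v) := rfl

lemma map_zmod_smul (β : WW p) (a : ZMod p) (v : Fin 2 → ZMod p) : β (a • v) = a * β v := by
  have h1 : a • v = a.val • v := by rw [← Nat.cast_smul_eq_nsmul (ZMod p)]; simp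
  rw [h1, map_nsmul, nsmul_eq_mul, ZMod.natCast_zmod_val]

/-- Cayley-Hamilton -/
lemma aeval_preM (A : Matrix (Fin 2) (Fin 2) (ZMod p)) :
    Polynomial.aeval (preM A) (quad (A.trace.val : ℤ) (A.det.val : ℤ)) = 0 := by
  refine AddMonoidHom.ext fun β => ?_
  refine (aeval_quad_end (preM A) _ _ β).trans ?_
  refine AddMonoidHom.ext fun v => ?_
  have e1 : ∀ (a : ZMod p) (β : WW p) (v : Fin 2 → ZMod p), (((a.val : ℕ) : ℤ) • β) v = a * β v := by
    intro a β v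
    rw [natCast_zsmul]
    change a.val • β v = _
    rw [nsmul_eq_mul, ZMod.natCast_zmod_val]
  change β (A.mulVec (A.mulVec v)) - (((A.trace.val : ℕ) : ℤ) • (preM A β)) v +
    (((A.det.val : ℕ) : ℤ) • β) v = 0
  rw [e1, e1, preM_apply, ← map_zmod_smul, ← map_zmod_smul, ← map_sub, ← map_add]
  have : A.mulVec (A.mulVec v) - A.trace • A.mulVec v + A.det • v = 0 := by
    ext i
    fin_cases i <;>
    simp [Matrix.mulVec, dotProduct, Fin.sum_univ_two, Matrix.det_fin_two,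
      Matrix.trace_fin_two] <;> ring
  rw [this, map_zero]

/-- the homomorphism attached to a cocycle -/
def ff (c : G → Matrix (Fin 2) (Fin 2) (ZMod p)) (σ : G) : WW p →+ ZMod p :=
  AddMonoidHom.eval ((c σ).mulVec e₁)

lemma ff_apply (σ : G) (β : WW p) : ff c σ β = β ((c σ).mulVec e₁) := rfl

namespace SS

variable {σ₀ : G} (S : SS C hϖ ρ σ₀)

include S

lemma anti_s {X : Matrix (Fin 2) (Fin 2) (ZMod p)} (h : X * tt ρ σ₀ = -(tt ρ σ₀ * X)) :
    X * ρ σ₀ = sbar ρ σ₀ * X := by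
  conv_lhs => rw [s_eq (ρ := ρ) (σ₀ := σ₀)]
  rw [mul_add, h, sbar, sub_mul, mul_smul_comm, mul_one, smul_mul_assoc, one_mul, sub_eq_add_neg]

lemma sbar_mul : sbar ρ σ₀ * ρ σ₀ = (ρ σ₀).det • (1 : Matrix (Fin 2) (Fin 2) (ZMod p)) := by
  have h2 := two_ne C
  ext i j
  fin_cases i <;> fin_cases j <;>
  simp [sbar, tt, hmul2, Matrix.trace_fin_two, Matrix.det_fin_two] <;> field_simp <;> ring

lemma omega_conj' (hc : IsCoc ρ c) (hanti : ∀ σ, c σ * tt ρ σ₀ = -(tt ρ σ₀ * c σ)) {τ : G}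
    (hτ : τ ∈ JJ G ϖ) : (C.ω σ₀ : ZMod p) • c (σ₀⁻¹ * τ * σ₀) = AA ρ σ₀ * c τ := by
  have h1 := S.coc_conj hc hτ (C.conj_mem_JJ hϖ (τ := σ₀) hτ)
  rw [S.anti_s (hanti τ)] at h1
  rw [AA, mul_assoc (sbar ρ σ₀) (sbar ρ σ₀) (c τ), h1, ← mul_assoc (sbar ρ σ₀) (ρ σ₀), S.sbar_mul,
    smul_mul_assoc, one_mul, S.det]

lemma kum_T (hc : IsCoc ρ c) (hanti : ∀ σ, c σ * tt ρ σ₀ = -(tt ρ σ₀ * c σ)) (β : WW p) (y : K)
    (hy : Kum C ϖ (fun σ => ff c σ β) y) :
    Kum C ϖ (fun σ => ff c σ (preM (AA ρ σ₀) β)) (σ₀ • y) := by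
  refine ⟨by rw [ne_eq, smul_eq_zero_iff_eq]; exact hy.1, fun τ hτ => ?_⟩
  have e1 : τ • σ₀ • y = σ₀ • ((σ₀⁻¹ * τ * σ₀) • y) := by
    rw [← mul_smul, ← mul_smul]; congr 1; group
  rw [e1, hy.2 _ (C.conj_mem_JJ hϖ hτ), smul_mul', C.hω]
  congr 2
  change (C.ω σ₀ : ZMod p) * β ((c (σ₀⁻¹ * τ * σ₀)).mulVec e₁) =
    β ((AA ρ σ₀).mulVec ((c τ).mulVec e₁))
  rw [← map_zmod_smul, ← Matrix.smul_mulVec, S.omega_conj' hc hanti hτ, Matrix.mulVec_mulVec]

lemma kum_exists (hc : FlatC C ρ c) (β : WW p) : ∃ y, Kum C ϖ (fun σ => ff c σ β) y := by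
  obtain ⟨hcoc, H, hH⟩ := hc
  obtain ⟨y, -, hy⟩ := C.exists_kum hϖ hH (a := fun σ => ff c σ β)
    (fun σ hσ τ _ => by
      rw [ff_apply, ff_apply, ff_apply, S.coc_J hcoc hσ, Matrix.add_mulVec, map_add])
    (fun σ hσ h1 => by
      have h2 : extRep ρ _ hcoc σ (e₁, 0) = (e₁, 0) := by rw [h1]; rfl
      rw [S.ext_act hcoc hσ, zero_add] at h2
      rw [ff_apply, (Prod.mk.inj h2).2, map_zero])
  exact ⟨y, hy⟩

lemma trace_sbar : (sbar ρ σ₀).trace = (ρ σ₀).trace := by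
  have h2 := two_ne C
  simp [sbar, tt, Matrix.trace_fin_two]
  field_simp
  ring

lemma det_sbar : (sbar ρ σ₀).det = (ρ σ₀).det := by
  have h2 := two_ne C
  simp [sbar, tt, Matrix.trace_fin_two, Matrix.det_fin_two]
  field_simp
  ring

lemma trace_AA : (AA ρ σ₀).trace = (ρ σ₀).trace ^ 2 - 2 * (ρ σ₀).det := by
  rw [← S.trace_sbar, ← S.det_sbar, AA]
  simp [Matrix.trace_fin_two, Matrix.det_fin_two, hmul2]
  ring

lemma det_AA : (AA ρ σ₀).det = (ρ σ₀).det ^ 2 := by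
  rw [AA, Matrix.det_mul, S.det_sbar, pow_two]

/-- the polynomial of `s̄²` -/
lemma aeval_Q [CharP κ p] (a : κ) :
    Polynomial.aeval a (quad ((AA ρ σ₀).trace.val : ℤ) ((AA ρ σ₀).det.val : ℤ)) =
      (a - C.r (C.Th hϖ σ₀ : K) ^ 2) * (a - (C.r (C.Th hϖ σ₀ : K) ^ p) ^ 2) := by
  have hr := S.roots
  set g := C.r (C.Th hϖ σ₀ : K)
  have e1 : ∀ a : ZMod p, (((a.val : ℕ) : ℤ) : κ) = ZMod.castHom (dvd_refl p) κ a := by
    intro a
    rw [Int.cast_natCast, ← map_natCast (ZMod.castHom (dvd_refl p) κ), ZMod.natCast_zmod_val]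
  rw [aeval_quad_field, e1, e1, S.trace_AA, S.det_AA, map_sub, map_mul, map_pow, map_pow, hr.1,
    hr.2, map_ofNat]
  ring

lemma aeval_Q_ne [CharP κ p] {k : ℕ} (hk : k < p * (p + 1)) (hk2 : k ≠ 2) (hk3 : k ≠ p ^ 2 + 1)
    (hkp : k ≠ 2 * p) : Polynomial.aeval (C.r (C.Th hϖ σ₀ : K) ^ k)
      (quad ((AA ρ σ₀).trace.val : ℤ) ((AA ρ σ₀).det.val : ℤ)) ≠ 0 := by
  rw [S.aeval_Q]
  have hg := S.prim_g
  set g := C.r (C.Th hϖ σ₀ : K)
  have hg0 : g ≠ 0 := hg.ne_zero Ctx.e_ne_zero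
  have hp2 := C.two_lt_nat
  have hp9 : 3 * p ≤ p ^ 2 := by nlinarith
  have hpp : p * (p + 1) = p ^ 2 + p := by ring
  have key : ∀ m n : ℕ, m < n → n - m < 2 * (p ^ 2 - 1) → g ^ m = g ^ n → n = m + (p ^ 2 - 1) := by
    intro m n hmn hlt h
    have h1 : g ^ (n - m) = 1 := by
      refine mul_right_cancel₀ (pow_ne_zero m hg0) ?_
      rw [← pow_add, Nat.sub_add_cancel hmn.le, one_mul, h]
    obtain ⟨q, hq⟩ := hg.dvd_of_pow_eq_one _ h1
    have hq1 : q = 1 := by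
      rcases Nat.lt_or_ge q 1 with h2 | h2
      · have : q = 0 := by omega
        rw [this, mul_zero] at hq
        omega
      · rcases Nat.lt_or_ge q 2 with h3 | h3
        · omega
        · have : (p ^ 2 - 1) * 2 ≤ (p ^ 2 - 1) * q := Nat.mul_le_mul_left _ h3
          omega
    rw [hq1, mul_one] at hq
    omega
  refine mul_ne_zero (fun h0 => ?_) fun h0 => ?_
  · have h1 : g ^ k = g ^ 2 := sub_eq_zero.mp h0
    rcases Nat.lt_trichotomy k 2 with h2 | h2 | h2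
    · have := key k 2 h2 (by omega) h1
      omega
    · exact hk2 h2
    · have := key 2 k h2 (by omega) h1.symm
      omega
  · have h1 : g ^ k = g ^ (2 * p) := by
      rw [sub_eq_zero.mp h0, ← pow_mul]; congr 1; ring
    rcases Nat.lt_trichotomy k (2 * p) with h2 | h2 | h2
    · have := key k (2 * p) h2 (by omega) h1
      omega
    · exact hkp h2
    · have := key (2 * p) k h2 (by omega) h1.symm
      omega

/-- **levels of flat cocycles** -/
theorem lev_flat [IsAlgClosed κ] (hc : FlatC C ρ c) (hanti : ∀ σ, c σ * tt ρ σ₀ = -(tt ρ σ₀ * c σ)) :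
    Lev C ϖ (ff c) (p ^ 2 + 1) := by
  have := C.char
  have hp2 := C.two_lt_nat
  have hp9 : 3 * p ≤ p ^ 2 := by nlinarith
  have hpp : p * (p + 1) = p ^ 2 + p := by ring
  have hT := S.kum_T hc.coc hanti
  have hQ := aeval_preM (AA ρ σ₀)
  have h1 : Lev C ϖ (ff c) 1 := by
    refine C.lev_zero_of_poly hϖ (S.kum_exists hc) hT hQ ?_
    have := S.aeval_Q_ne (k := 0) (by nlinarith) (by omega) (by omega) (by omega)
    rwa [pow_zero] at this
  have h2 : Lev C ϖ (ff c) 2 := C.lev_up hϖ hT hQ le_rfl h1 (by omega) (by omega) fun k hk hk' =>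
    Or.inr (S.aeval_Q_ne (by omega) (by omega) (by omega) (by omega))
  have h3 : Lev C ϖ (ff c) 3 := by
    intro β
    obtain ⟨y, hy, hyl⟩ := h2 β
    exact ⟨y, hy, C.lv_succ hϖ (C.kum_pow hy) hyl (S.lead_two hc hy hyl)⟩
  refine C.lev_up hϖ hT hQ (by omega) h3 (by omega) (by omega) fun k hk hk' => ?_
  by_cases hkp : k = 2 * p
  · exact Or.inl ⟨2, by rw [hkp, mul_comm]⟩
  · exact Or.inr (S.aeval_Q_ne (by omega) (by omega) (by omega) hkp)

lemma ff_zero (hanti : ∀ σ, c σ * tt ρ σ₀ = -(tt ρ σ₀ * c σ)) {σ : G} (h : ff c σ = 0) : c σ = 0 := by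
  refine S.anti_zero (hanti σ) ?_
  ext i
  have h1 : ff c σ (Pi.evalAddMonoidHom (fun _ : Fin 2 => ZMod p) i) = 0 := by rw [h]; rfl
  exact h1

/-- a cyclic functional -/
lemma cyclic [CharP κ p] (β : WW p) : ∃ P : ℤ[X],
    Polynomial.aeval (preM (AA ρ σ₀)) P (Pi.evalAddMonoidHom (fun _ : Fin 2 => ZMod p) 0) = β := by
  have h2 := two_ne C
  set A := AA ρ σ₀ with hA
  have hA01 : A 0 1 ≠ 0 := by
    have htr : (ρ σ₀).trace ≠ 0 := by
      intro h0
      have h1 := S.roots.1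
      have hg := S.prim_g
      rw [h0, map_zero] at h1
      set g := C.r (C.Th hϖ σ₀ : K)
      have hg0 : g ≠ 0 := hg.ne_zero Ctx.e_ne_zero
      have hp2 := C.two_lt_nat
      have h3 : g ^ (p - 1) = -1 := by
        refine mul_right_cancel₀ hg0 ?_
        rw [← pow_succ, Nat.sub_add_cancel hp.out.pos]
        linear_combination -h1
      have h4 : g ^ (2 * (p - 1)) = 1 := by rw [mul_comm, pow_mul, h3]; ring
      have h5 := Nat.le_of_dvd (by omega) (hg.dvd_of_pow_eq_one _ h4)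
      have hp9 : 3 * p ≤ p ^ 2 := by nlinarith
      omega
    have h1 : A 0 1 = -((ρ σ₀).trace * ρ σ₀ 0 1) := by
      rw [hA, AA]
      simp [sbar, tt, Matrix.trace_fin_two, hmul2]
      field_simp
      ring
    rw [h1]
    exact neg_ne_zero.mpr (mul_ne_zero htr S.s01)
  set b := β ![0, 1] / A 0 1 with hb
  set a := β ![1, 0] - b * A 0 0 with ha
  refine ⟨Polynomial.C (a.val : ℤ) + Polynomial.C (b.val : ℤ) * Polynomial.X, ?_⟩
  have e1 : ∀ (a : ZMod p) (β : WW p) (v : Fin 2 → ZMod p), (((a.val : ℕ) : ℤ) • β) v = a * β v := by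
    intro a β v
    rw [natCast_zsmul]
    change a.val • β v = _
    rw [nsmul_eq_mul, ZMod.natCast_zmod_val]
  have e2 : ∀ β₀ : WW p, Polynomial.aeval (preM A)
      (Polynomial.C (a.val : ℤ) + Polynomial.C (b.val : ℤ) * Polynomial.X) β₀ =
      (a.val : ℤ) • β₀ + (b.val : ℤ) • preM A β₀ := by
    intro β₀
    rw [map_add, map_mul, Polynomial.aeval_X, Polynomial.aeval_C, Polynomial.aeval_C,
      Algebra.algebraMap_eq_smul_one, Algebra.algebraMap_eq_smul_one]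
    rfl
  refine (e2 _).trans ?_
  refine AddMonoidHom.ext fun v => ?_
  change ((a.val : ℤ) • (Pi.evalAddMonoidHom (fun _ : Fin 2 => ZMod p) 0 : WW p)) v +
    ((b.val : ℤ) • preM A (Pi.evalAddMonoidHom (fun _ : Fin 2 => ZMod p) 0 : WW p)) v = β v
  rw [e1, e1, preM_apply]
  change a * v 0 + b * (A.mulVec v) 0 = β v
  have hv : v = v 0 • ![1, 0] + v 1 • ![0, 1] := by
    ext i; fin_cases i <;> simp
  conv_rhs => rw [hv, map_add, map_zmod_smul, map_zmod_smul]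
  have h3 : (A.mulVec v) 0 = A 0 0 * v 0 + A 0 1 * v 1 := by
    simp [Matrix.mulVec, dotProduct, Fin.sum_univ_two]
  rw [h3]
  have h4 : b * A 0 1 = β ![0, 1] := by rw [hb, div_mul_cancel₀ _ hA01]
  rw [ha]
  linear_combination v 1 * h4

end SS

end Fermat.Agent.FlatLoc
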