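import Fermat.Agent.FlatLoc.Ext

/-!
# The ordinary case: triangular modules
-/

set_option autoImplicit false
set_option linter.unusedSectionVars false

namespace Fermat.Agent.FlatLoc

open Fermat.Agent.ECRed
open scoped Polynomial

section tri

variable {p : ℕ} {G : Type*} [Group G]

/-- two-dimensional triangular representations -/
def triRep (χ₁ χ₂ : G →* (ZMod p)ˣ) (μ : G → ZMod p)
    (hμ : ∀ σ τ, μ (σ * τ) = χ₁ σ * μ τ + μ σ * χ₂ τ) : G →* AddMonoid.End (ZMod p × ZMod p) where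
  toFun σ := AddMonoidHom.mk' (fun x => ((χ₁ σ : ZMod p) * x.1 + μ σ * x.2, (χ₂ σ : ZMod p) * x.2))
    fun x y => by
      ext1
      · simp only [Prod.fst_add, Prod.snd_add]; ring
      · simp only [Prod.snd_add]; ring
  map_one' := by
    have h : μ 1 = 0 := by
      have h1 := hμ 1 1
      rw [mul_one, map_one, map_one, Units.val_one, one_mul, mul_one, left_eq_add] at h1
      exact h1
    ext1 x
    change (((χ₁ 1 : (ZMod p)ˣ) : ZMod p) * x.1 + μ 1 * x.2, ((χ₂ 1 : (ZMod p)ˣ) : ZMod p) * x.2) = x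
    rw [h, map_one, map_one]; simp
  map_mul' σ τ := by
    ext1 x
    change (((χ₁ (σ * τ) : (ZMod p)ˣ) : ZMod p) * x.1 + μ (σ * τ) * x.2,
      ((χ₂ (σ * τ) : (ZMod p)ˣ) : ZMod p) * x.2) =
      ((χ₁ σ : ZMod p) * ((χ₁ τ : ZMod p) * x.1 + μ τ * x.2) + μ σ * ((χ₂ τ : ZMod p) * x.2),
        (χ₂ σ : ZMod p) * ((χ₂ τ : ZMod p) * x.2))
    rw [hμ, map_mul, map_mul, Units.val_mul, Units.val_mul]
    ext1
    · simp only; ring
    · simp only; ring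

lemma triRep_apply (χ₁ χ₂ : G →* (ZMod p)ˣ) (μ : G → ZMod p)
    (hμ : ∀ σ τ, μ (σ * τ) = χ₁ σ * μ τ + μ σ * χ₂ τ) (σ : G) (x : ZMod p × ZMod p) :
    triRep χ₁ χ₂ μ hμ σ x = ((χ₁ σ : ZMod p) * x.1 + μ σ * x.2, (χ₂ σ : ZMod p) * x.2) := rfl

end tri

variable {K : Type*} [Field K] {κ : Type*} [Field κ] {G : Type*} [Group G]
  [MulSemiringAction G K] {p : ℕ} [hp : Fact p.Prime] (C : Ctx K κ G p)

namespace Ctx

variable {V : Type*} [AddCommGroup V] [Finite V] [Module (ZMod p) V] {ρ' : G →* AddMonoid.End V}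
  {H : Subalgebra C.R (V → K)}

/-- an invariant point in the connected component is zero -/
lemma eq_zero_of_fixed (hH : IsOrder C.R ρ' H) {x : V} (hfix : ∀ σ, ρ' σ x = x)
    (hx : RGt C.v H 0 x) : x = 0 := by
  by_contra hx0
  have h1 : RGe C.v H 1 x := by
    intro f hf
    by_cases hz : f x - f 0 = 0
    · left; exact hz
    have hzf : ∀ σ : G, σ • (f x - f 0) = f x - f 0 := by
      intro σ
      rw [smul_sub, ← hH.equiv f hf, ← hH.equiv f hf, hfix, map_zero]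
    obtain ⟨n, hn⟩ := C.int_val _ hz hzf
    have h2 := (OrdFn.gt_iff hz).mp (hx f hf)
    rw [OrdFn.ge_iff hz, hn]
    rw [hn] at h2
    have h3 : (0 : ℤ) < n := by exact_mod_cast h2
    exact_mod_cast h3
  have h2 := hH.rad_le C.base C.hRv C.vp C.hψ C.ω C.hω h1 hx0
  have h3 : (2 : ℝ) < p := by exact_mod_cast C.two_lt_nat
  rw [le_div_iff₀ (by linarith)] at h2
  linarith

lemma rgt_zero_sub (hH : IsOrder C.R ρ' H) (σ : G) (x : V) : RGt C.v H 0 (ρ' σ x - x) :=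
  hH.scalar_zero C.hv C.hRv (C.inert σ) x

lemma rgt_smul {c : ℝ} (hH : IsOrder C.R ρ' H) {x : V} (hx : RGt C.v H c x) (a : ZMod p) :
    RGt C.v H c (a • x) := by
  have h1 : a • x = a.val • x := by rw [← Nat.cast_smul_eq_nsmul (ZMod p)]; simp
  rw [h1]
  exact (hH.gtSub C.hRv c).nsmul_mem (x := x) hx a.val

variable {μ : G → ZMod p}

/-- étale by multiplicative extensions split -/
lemma tri_one_omega {hμ : ∀ σ τ, μ (σ * τ) = (1 : G →* (ZMod p)ˣ) σ * μ τ + μ σ * C.ω τ}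
    (h : IsFlatMod C.R (triRep 1 C.ω μ hμ)) {σ₀ : G} (h0 : μ σ₀ = 0) (hω : C.ω σ₀ ≠ 1) (σ : G) :
    μ σ = 0 := by
  obtain ⟨H, hH⟩ := h
  have h1 : RGt C.v H 0 ((0, 1) : ZMod p × ZMod p) := by
    have h2 := C.rgt_zero_sub hH σ₀ (0, 1)
    rw [triRep_apply, h0] at h2
    have hne : (C.ω σ₀ : ZMod p) - 1 ≠ 0 := by
      intro h3
      exact hω (Units.ext (by rw [Units.val_one]; exact sub_eq_zero.mp h3))
    have h3 := C.rgt_smul hH h2 ((C.ω σ₀ : ZMod p) - 1)⁻¹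
    convert h3 using 1
    ext1
    · simp
    · simp only [Prod.smul_snd, Prod.snd_sub, smul_eq_mul, mul_one]
      rw [inv_mul_cancel₀ hne]
  have h2 : RGt C.v H 0 ((μ σ, 0) : ZMod p × ZMod p) := by
    have h3 := C.rgt_zero_sub hH σ (0, 1)
    have h4 := C.rgt_smul hH h1 (-((C.ω σ : ZMod p) - 1))
    have h5 := hH.rgt_add C.hRv h3 h4
    convert h5 using 1
    rw [triRep_apply]
    ext1
    · simp
    · simp
  have h3 := C.eq_zero_of_fixed hH (fun τ => by rw [triRep_apply]; simp) h2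
  exact (Prod.mk.inj h3).1

/-- unipotent modules are trivial -/
lemma tri_one_one {hμ : ∀ σ τ, μ (σ * τ) = (1 : G →* (ZMod p)ˣ) σ * μ τ + μ σ * (1 : G →* (ZMod p)ˣ) τ}
    (h : IsFlatMod C.R (triRep 1 1 μ hμ)) (σ : G) : μ σ = 0 := by
  obtain ⟨H, hH⟩ := h
  have h2 : RGt C.v H 0 ((μ σ, 0) : ZMod p × ZMod p) := by
    have h3 := C.rgt_zero_sub hH σ (0, 1)
    convert h3 using 1
    rw [triRep_apply]
    ext1
    · simp
    · simp
  have h3 := C.eq_zero_of_fixed hH (fun τ => by rw [triRep_apply]; simp) h2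
  exact (Prod.mk.inj h3).1

end Ctx

section ord

variable {C} {ρ : G →* Matrix (Fin 2) (Fin 2) (ZMod p)} {c : G → Matrix (Fin 2) (Fin 2) (ZMod p)}

/-- upper triangular representations of ordinary type -/
structure IsOrd (C : Ctx K κ G p) (ρ : G →* Matrix (Fin 2) (Fin 2) (ZMod p)) : Prop where
  h00 : ∀ σ, ρ σ 0 0 = C.ω σ
  h10 : ∀ σ, ρ σ 1 0 = 0
  h11 : ∀ σ, ρ σ 1 1 = 1

/-- **The shape of flat cocycles in the ordinary case** -/
theorem FlatC.ord (h : FlatC C ρ c) (hρ : IsOrd C ρ) (htr : ∀ σ, (c σ).trace = 0) {σ₀ : G}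
    (hω : C.ω σ₀ ≠ 1) (h10 : c σ₀ 1 0 = 0) :
    (∀ σ, c σ 1 0 = 0 ∧ c σ 1 1 = 0 ∧ c σ 0 0 = 0) ∧
    ∃ hμ : ∀ σ τ, c (σ * τ) 0 1 = C.ω σ * c τ 0 1 + c σ 0 1 * (1 : G →* (ZMod p)ˣ) τ,
      IsFlatMod C.R (triRep C.ω 1 (fun σ => c σ 0 1) hμ) := by
  obtain ⟨hc, hf⟩ := h
  have hcρ : ∀ σ i j, (c σ * ρ σ) i j = c σ i 0 * ρ σ 0 j + c σ i 1 * ρ σ 1 j := fun σ i j => by
    rw [Matrix.mul_apply, Fin.sum_univ_two]
  have hmul : ∀ (A B : Matrix (Fin 2) (Fin 2) (ZMod p)) i j, (A * B) i j = A i 0 * B 0 j + A i 1 * B 1 j :=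
    fun A B i j => by rw [Matrix.mul_apply, Fin.sum_univ_two]
  -- the lower left entry
  have hμ1 : ∀ σ τ, (c (σ * τ) * ρ (σ * τ)) 1 0 = (1 : G →* (ZMod p)ˣ) σ * (c τ * ρ τ) 1 0 +
      (c σ * ρ σ) 1 0 * C.ω τ := by
    intro σ τ
    rw [hc.mul_rho, Matrix.add_apply, hmul (c σ * ρ σ), hmul (ρ σ), hρ.h00, hρ.h10, hρ.h10, hρ.h11]
    simp; ring
  have hflat1 : IsFlatMod C.R (triRep 1 C.ω (fun σ => (c σ * ρ σ) 1 0) hμ1) := by
    let g : ((Fin 2 → ZMod p) × (Fin 2 → ZMod p)) →+ ZMod p × ZMod p :=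
      AddMonoidHom.mk' (fun x => (x.2 1, x.1 0)) fun x y => rfl
    let S : AddSubgroup ((Fin 2 → ZMod p) × (Fin 2 → ZMod p)) :=
      { carrier := {x | x.1 1 = 0}
        add_mem' := fun {x y} hx hy => by
          change x.1 1 + y.1 1 = 0
          rw [show x.1 1 = 0 from hx, show y.1 1 = 0 from hy, add_zero]
        zero_mem' := rfl
        neg_mem' := fun {x} hx => by
          change -x.1 1 = 0
          rw [show x.1 1 = 0 from hx, neg_zero] }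
    refine hf.subquot C.base S ?_ g ?_ ?_
    · intro σ x hx
      have hx' : x.1 1 = 0 := hx
      change (ρ σ).mulVec x.1 1 = 0
      simp [Matrix.mulVec, dotProduct, Fin.sum_univ_two, hρ.h10, hx']
    · intro σ x hx
      have hx' : x.1 1 = 0 := hx
      change (((c σ * ρ σ).mulVec x.1 + (ρ σ).mulVec x.2) 1, (ρ σ).mulVec x.1 0) =
        (((1 : G →* (ZMod p)ˣ) σ : ZMod p) * x.2 1 + (c σ * ρ σ) 1 0 * x.1 0, (C.ω σ : ZMod p) * x.1 0)
      simp only [Pi.add_apply, Matrix.mulVec, dotProduct, Fin.sum_univ_two, hρ.h10, hρ.h11, hρ.h00, hx']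
      ext1
      · simp; ring
      · simp
    · intro w
      refine ⟨(![w.2, 0], ![0, w.1]), rfl, rfl⟩
  have hω0 : ∀ σ, (C.ω σ : ZMod p) ≠ 0 := fun σ => (C.ω σ).ne_zero
  have hc10' : ∀ σ, (c σ * ρ σ) 1 0 = 0 :=
    C.tri_one_omega hflat1 (σ₀ := σ₀) (by rw [hcρ, h10, hρ.h10]; simp) hω
  have hc10 : ∀ σ, c σ 1 0 = 0 := by
    intro σ
    have h1 := hc10' σ
    rw [hcρ, hρ.h10, hρ.h00, mul_zero, add_zero] at h1
    exact (mul_eq_zero.mp h1).resolve_right (hω0 σ)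
  -- the lower right entry
  have hμ2 : ∀ σ τ, (c (σ * τ) * ρ (σ * τ)) 1 1 = (1 : G →* (ZMod p)ˣ) σ * (c τ * ρ τ) 1 1 +
      (c σ * ρ σ) 1 1 * (1 : G →* (ZMod p)ˣ) τ := by
    intro σ τ
    rw [hc.mul_rho, Matrix.add_apply, hmul (c σ * ρ σ), hmul (ρ σ), hρ.h10, hρ.h11, hρ.h11, hc10']
    simp; ring
  have hflat2 : IsFlatMod C.R (triRep 1 1 (fun σ => (c σ * ρ σ) 1 1) hμ2) := by
    let g : ((Fin 2 → ZMod p) × (Fin 2 → ZMod p)) →+ ZMod p × ZMod p :=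
      AddMonoidHom.mk' (fun x => (x.2 1, x.1 1)) fun x y => rfl
    refine hf.subquot C.base ⊤ (fun _ _ _ => trivial) g ?_ ?_
    · intro σ x _
      change (((c σ * ρ σ).mulVec x.1 + (ρ σ).mulVec x.2) 1, (ρ σ).mulVec x.1 1) =
        (((1 : G →* (ZMod p)ˣ) σ : ZMod p) * x.2 1 + (c σ * ρ σ) 1 1 * x.1 1,
          ((1 : G →* (ZMod p)ˣ) σ : ZMod p) * x.1 1)
      simp only [Pi.add_apply, Matrix.mulVec, dotProduct, Fin.sum_univ_two, hρ.h10, hρ.h11, hc10']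
      ext1
      · simp; ring
      · simp
    · intro w
      exact ⟨(![0, w.2], ![0, w.1]), trivial, rfl⟩
  have hc11' : ∀ σ, (c σ * ρ σ) 1 1 = 0 := C.tri_one_one hflat2
  have hc11 : ∀ σ, c σ 1 1 = 0 := by
    intro σ
    have h1 := hc11' σ
    rw [hcρ, hρ.h11, hc10, zero_mul, zero_add, mul_one] at h1
    exact h1
  have hc00 : ∀ σ, c σ 0 0 = 0 := by
    intro σ
    have h1 := htr σ
    rw [Matrix.trace_fin_two, hc11, add_zero] at h1
    exact h1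
  refine ⟨fun σ => ⟨hc10 σ, hc11 σ, hc00 σ⟩, ?_⟩
  have hc01 : ∀ σ, (c σ * ρ σ) 0 1 = c σ 0 1 := by
    intro σ
    rw [hcρ, hc00, hρ.h11]; ring
  have hc00' : ∀ σ, (c σ * ρ σ) 0 0 = 0 := by
    intro σ
    rw [hcρ, hc00, hρ.h10]; ring
  have hμ : ∀ σ τ, c (σ * τ) 0 1 = C.ω σ * c τ 0 1 + c σ 0 1 * (1 : G →* (ZMod p)ˣ) τ := by
    intro σ τ
    rw [← hc01 (σ * τ), hc.mul_rho, Matrix.add_apply, hmul (c σ * ρ σ), hmul (ρ σ), hc01, hc01,
      hc00', hc11', hρ.h00, hρ.h11]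
    simp; ring
  refine ⟨hμ, ?_⟩
  let g : ((Fin 2 → ZMod p) × (Fin 2 → ZMod p)) →+ ZMod p × ZMod p :=
    AddMonoidHom.mk' (fun x => (x.2 0, x.1 1)) fun x y => rfl
  let S : AddSubgroup ((Fin 2 → ZMod p) × (Fin 2 → ZMod p)) :=
    { carrier := {x | x.2 1 = 0}
      add_mem' := fun {x y} hx hy => by
        change x.2 1 + y.2 1 = 0
        rw [show x.2 1 = 0 from hx, show y.2 1 = 0 from hy, add_zero]
      zero_mem' := rfl
      neg_mem' := fun {x} hx => by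
        change -x.2 1 = 0
        rw [show x.2 1 = 0 from hx, neg_zero] }
  refine hf.subquot C.base S ?_ g ?_ ?_
  · intro σ x hx
    have hx' : x.2 1 = 0 := hx
    change ((c σ * ρ σ).mulVec x.1 + (ρ σ).mulVec x.2) 1 = 0
    simp only [Pi.add_apply, Matrix.mulVec, dotProduct, Fin.sum_univ_two, hρ.h10, hx', hc10', hc11']
    ring
  · intro σ x hx
    have hx' : x.2 1 = 0 := hx
    change (((c σ * ρ σ).mulVec x.1 + (ρ σ).mulVec x.2) 0, (ρ σ).mulVec x.1 1) =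
      ((C.ω σ : ZMod p) * x.2 0 + c σ 0 1 * x.1 1, ((1 : G →* (ZMod p)ˣ) σ : ZMod p) * x.1 1)
    simp only [Pi.add_apply, Matrix.mulVec, dotProduct, Fin.sum_univ_two, hρ.h10, hρ.h11, hρ.h00, hx',
      hc00', hc01]
    ext1
    · simp; ring
    · simp
  · intro w
    refine ⟨(![0, w.2], ![w.1, 0]), rfl, rfl⟩

end ord

end Fermat.Agent.FlatLoc
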