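import Fermat.Agent.FlatLoc.Tri

/-!
# The ordinary case: Kummer levels
-/

set_option autoImplicit false
set_option linter.unusedSectionVars false

namespace Fermat.Agent.FlatLoc

open Fermat.Agent.ECRed
open scoped Polynomial

variable {K : Type*} [Field K] {κ : Type*} [Field κ] {G : Type*} [Group G]
  [MulSemiringAction G K] {p : ℕ} [hp : Fact p.Prime] (C : Ctx K κ G p)

namespace Ctx

variable {ϖ : K} (hϖ : ϖ ^ (p ^ 2 - 1) = p)
variable {β : G → ZMod p} {hβ : ∀ σ τ, β (σ * τ) = C.ω σ * β τ + β σ * (1 : G →* (ZMod p)ˣ) τ}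

include C hϖ

/-- the residue of the fundamental character is primitive -/
lemma r_Th_prim {σ₀ : G} (hσ₀ : IsPrimitiveRoot (C.Th hϖ σ₀) (p ^ 2 - 1)) :
    IsPrimitiveRoot (C.r (C.Th hϖ σ₀ : K)) (p ^ 2 - 1) := by
  have hT := C.Th_eq hϖ σ₀
  refine ⟨?_, fun l hl => ?_⟩
  · rw [← C.r_pow hT.ge, ← Units.val_pow_eq_pow_val, hσ₀.pow_eq_one, Units.val_one, C.r_one]
  · rw [← C.r_pow hT.ge, ← Units.val_pow_eq_pow_val] at hl
    have h1 : (C.Th hϖ σ₀ ^ l : Kˣ) = 1 := by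
      apply Units.ext
      refine C.root_inj (not_dvd_e (p := p)) ?_ (by rw [Units.val_one, one_pow]) ?_
      · rw [← Units.val_pow_eq_pow_val, ← pow_mul, mul_comm, pow_mul, hσ₀.pow_eq_one, one_pow,
          Units.val_one]
      · rw [hl, Units.val_one, C.r_one]
    exact hσ₀.dvd_of_pow_eq_one l h1

include hβ

lemma tri_additive : ∀ σ ∈ JJ G ϖ, ∀ τ ∈ JJ G ϖ, β (σ * τ) = β σ + β τ := by
  intro σ hσ τ _
  rw [hβ, C.omega_JJ hϖ hσ]; simp; ring

lemma tri_hT {σ₀ : G} (h0 : β σ₀ = 0) (m : ZMod p) (y : K)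
    (hy : Kum C ϖ (fun σ => AddMonoidHom.mulRight (β σ) m) y) :
    Kum C ϖ (fun σ => AddMonoidHom.mulRight (β σ) ((1 : AddMonoid.End (ZMod p)) m)) (σ₀ • y) := by
  have h1 : β 1 = 0 := by
    have := hβ 1 1
    rw [mul_one, map_one, Units.val_one, one_mul, MonoidHom.one_apply, Units.val_one, mul_one,
      left_eq_add] at this
    exact this
  have hinv : β σ₀⁻¹ = 0 := by
    have := hβ σ₀ σ₀⁻¹
    rw [mul_inv_cancel, h1, h0, zero_mul, add_zero] at this
    exact (mul_eq_zero.mp this.symm).resolve_left (C.ω σ₀).ne_zero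
  refine ⟨by rw [ne_eq, smul_eq_zero_iff_eq]; exact hy.1, fun τ hτ => ?_⟩
  have e1 : τ • σ₀ • y = σ₀ • ((σ₀⁻¹ * τ * σ₀) • y) := by
    rw [← mul_smul, ← mul_smul]; congr 1; group
  rw [e1, hy.2 _ (C.conj_mem_JJ hϖ hτ), smul_mul', C.hω]
  congr 2
  have e2 : β (σ₀⁻¹ * τ * σ₀) = C.ω σ₀⁻¹ * β τ := by
    rw [hβ, hβ, h0, hinv, mul_zero, zero_mul, add_zero, zero_add, MonoidHom.one_apply,
      Units.val_one, mul_one]
  change (C.ω σ₀ : ZMod p) * (m * β (σ₀⁻¹ * τ * σ₀)) = m * β τ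
  rw [e2, map_inv]
  have h2 : (C.ω σ₀ : ZMod p) * ((C.ω σ₀)⁻¹ : (ZMod p)ˣ) = 1 := (C.ω σ₀).mul_inv
  linear_combination (m * β τ) * h2

/-- **flat extensions of `ℤ/p` by `μ_p` are given by units** -/
theorem tri_lev [IsAlgClosed κ] (h : IsFlatMod C.R (triRep C.ω 1 β hβ)) {σ₀ : G}
    (hσ₀ : IsPrimitiveRoot (C.Th hϖ σ₀) (p ^ 2 - 1)) (h0 : β σ₀ = 0) :
    Lev C ϖ (fun σ => AddMonoidHom.mulRight (β σ)) (p ^ 2 - 1) := by
  obtain ⟨H, hH⟩ := h
  have hadd := C.tri_additive hϖ (hβ := hβ)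
  have hK : ∀ m : ZMod p, ∃ y, Kum C ϖ (fun σ => AddMonoidHom.mulRight (β σ) m) y := by
    intro m
    obtain ⟨y, -, hy⟩ := C.exists_kum hϖ hH (a := fun σ => AddMonoidHom.mulRight (β σ) m)
      (fun σ hσ τ hτ => by
        change m * β (σ * τ) = m * β σ + m * β τ
        rw [hadd σ hσ τ hτ]; ring)
      (fun σ _ h1 => by
        have h2 : triRep C.ω 1 β hβ σ (0, 1) = (0, 1) := by rw [h1]; rfl
        rw [triRep_apply] at h2
        have h3 := (Prod.mk.inj h2).1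
        have h4 : β σ = 0 := by simpa using h3
        change m * β σ = 0
        rw [h4, mul_zero])
    exact ⟨y, hy⟩
  have h1 : Lev C ϖ (fun σ => AddMonoidHom.mulRight (β σ)) 1 := by
    refine C.lev_zero hϖ hK fun N hN => ?_
    ext m
    obtain ⟨y, hy⟩ := hK m
    obtain ⟨k, hk⟩ := C.ord_kum hϖ hy
    rw [hN m y hy k hk]
    by_contra hk0
    have hpk : ¬ (p : ℤ) ∣ k := fun h2 => hk0 ((ZMod.intCast_zmod_eq_zero_iff_dvd k p).mpr h2)
    by_cases hτ : ∃ τ ∈ JJ G ϖ, m * β τ ≠ 0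
    · obtain ⟨τ, hτJ, hτ⟩ := hτ
      have hm : m ≠ 0 := left_ne_zero_of_mul hτ
      have hβτ : β τ ≠ 0 := right_ne_zero_of_mul hτ
      have hge : RGe C.v H ((1 + p * (p + 1)) / (p * (p ^ 2 - 1 : ℕ) : ℝ))
          ((β τ, 0) : ZMod p × ZMod p) := by
        have e1 : ((β τ, 0) : ZMod p × ZMod p) = (β τ, 1) - (0, 1) := by simp
        rw [e1]
        refine hH.rge_of_diff C.hRv fun f hf => ?_
        have hact : ∀ σ ∈ JJ G ϖ, σ • f (0, 1) = f (β σ, 1) := by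
          intro σ _
          rw [← hH.equiv f hf, triRep_apply]
          simp
        have h3 := C.ramif_zero hϖ hpk hy hk
          (fun σ hσ τ hτ => by
            change m * β (σ * τ) = m * β σ + m * β τ
            rw [hadd σ hσ τ hτ]; ring) (b := f (0, 1))
          (fun σ hσ h3 => by
            have h4 : β σ = 0 := (mul_eq_zero.mp h3).resolve_left hm
            rw [hact σ hσ, h4]) (hH.val_ge C.hRv hf _) hτJ
        rwa [hact τ hτJ] at h3
      have hle := hH.rad_le C.base C.hRv C.vp C.hψ C.ω C.hω hge (by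
        intro h4; exact hβτ (Prod.mk.inj h4).1)
      have he := C.epos
      have heR : ((p ^ 2 - 1 : ℕ) : ℝ) = (p + 1) * (p - 1) := e_cast
      have hp1 := one_lt (p := p)
      rw [heR, div_le_div_iff₀ (by nlinarith [mul_pos (show (0:ℝ) < p + 1 by linarith) (show (0:ℝ) < p - 1 by linarith)]) (by linarith)] at hle
      nlinarith
    · push Not at hτ
      have h2 : y ∈ L0 G ϖ := by
        intro σ hσ
        rw [hy.2 σ hσ]
        change C.ψ (m * β σ) * y = y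
        rw [hτ σ hσ, AddChar.map_zero_eq_one, one_mul]
      obtain ⟨n, hn⟩ := C.ord_L0 hϖ h2 hy.1
      rw [hn, ← mul_div_assoc, div_left_inj' C.epos.ne'] at hk
      apply hpk
      refine ⟨n, ?_⟩
      exact_mod_cast hk.symm
  have hp1 := hp.out.one_lt
  have he1 : 1 ≤ p ^ 2 - 1 := by
    have : 2 ^ 2 ≤ p ^ 2 := Nat.pow_le_pow_left hp.out.two_le 2
    omega
  refine C.lev_up hϖ (f := fun σ => AddMonoidHom.mulRight (β σ)) (σ₀ := σ₀) (T := 1)
    (C.tri_hT hϖ (hβ := hβ) h0) (Q := Polynomial.X - 1) ?_ (i := 1) le_rfl h1 he1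
    (by nlinarith [Nat.sub_le (p ^ 2) 1]) fun k hk hk' => Or.inr ?_
  · simp
  · rw [map_sub, Polynomial.aeval_X, map_one]
    intro h3
    have h4 := (C.r_Th_prim hϖ hσ₀).dvd_of_pow_eq_one k (sub_eq_zero.mp h3)
    have := Nat.le_of_dvd (by omega) h4
    omega

end Ctx

end Fermat.Agent.FlatLoc
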