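import Fermat.Agent.FlatLoc.Ctx

/-!
# Isotypic components for a character with finite image
-/

set_option autoImplicit false
set_option linter.unusedSectionVars false

namespace Fermat.Agent.FlatLoc

open Fermat.Agent.ECRed
open scoped Polynomial

section Weights

variable {K : Type*} [Field K] {G : Type*} [Group G] [MulSemiringAction G K]
  {e : ℕ} [NeZero e] {Θ : G →* Kˣ}
  (hfix : ∀ σ τ : G, σ • ((Θ τ : Kˣ) : K) = Θ τ)
  (hrange : ∀ σ, Θ σ ^ e = 1) (hsurj : ∃ σ, IsPrimitiveRoot (Θ σ) e)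

include hrange in
lemma finite_range_of_pow : Finite Θ.range := by
  have hle : Θ.range ≤ rootsOfUnity e K := by
    rintro _ ⟨σ, rfl⟩
    exact (mem_rootsOfUnity _ _).mpr (hrange σ)
  exact Finite.of_injective (Subgroup.inclusion hle) (Subgroup.inclusion_injective hle)

/-- chosen lifts -/
noncomputable def lft (u : Θ.range) : G := u.2.choose

lemma lft_spec (u : Θ.range) : Θ (lft u) = u := u.2.choose_spec

/-- the isotypic component -/
noncomputable def cmp (Θ : G →* Kˣ) (w : ℕ) (y : K) : K :=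
  ∑ᶠ u : Θ.range, (((u : Kˣ)⁻¹ : Kˣ) : K) ^ w * (lft u • y)

include hrange hfix in
lemma smul_cmp {w : ℕ} {y : K} (hy : ∀ τ, Θ τ = 1 → τ • y = y) (σ : G) :
    σ • cmp Θ w y = (Θ σ : K) ^ w * cmp Θ w y := by
  classical
  have := finite_range_of_pow hrange
  have : Fintype Θ.range := Fintype.ofFinite _
  unfold cmp
  rw [finsum_eq_sum_of_fintype, Finset.smul_sum, Finset.mul_sum]
  let e' : Θ.range ≃ Θ.range := Equiv.mulLeft ⟨Θ σ, σ, rfl⟩
  conv_rhs => rw [← e'.sum_comp]
  refine Finset.sum_congr rfl fun u _ => ?_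
  have h1 : ((e' u : Θ.range) : Kˣ) = Θ σ * u := rfl
  have h2 : lft (e' u) • y = σ • (lft u • y) := by
    have h3 : Θ ((σ * lft u)⁻¹ * lft (e' u)) = 1 := by
      rw [map_mul, map_inv, map_mul, lft_spec, lft_spec, h1, inv_mul_cancel]
    have h4 := hy _ h3
    rw [mul_smul, inv_smul_eq_iff, mul_smul] at h4
    exact h4
  have h5 : σ • ((((u : Kˣ)⁻¹ : Kˣ) : K) ^ w) = (((u : Kˣ)⁻¹ : Kˣ) : K) ^ w := by
    rw [smul_pow']
    congr 1
    have := hfix σ (lft u)⁻¹
    rwa [map_inv, lft_spec] at this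
  rw [smul_mul', h5, h2, h1, mul_inv, Units.val_mul, mul_pow, ← mul_assoc, ← mul_assoc,
    ← mul_pow, ← Units.val_mul, mul_inv_cancel, Units.val_one, one_pow, one_mul]

include hrange hsurj in
lemma sum_cmp {y : K} (hy : ∀ τ, Θ τ = 1 → τ • y = y) :
    ∑ w ∈ Finset.range e, cmp Θ w y = e * y := by
  classical
  have := finite_range_of_pow hrange
  have : Fintype Θ.range := Fintype.ofFinite _
  unfold cmp
  simp_rw [finsum_eq_sum_of_fintype]
  rw [Finset.sum_comm]
  simp_rw [← Finset.sum_mul]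
  rw [Finset.sum_eq_single 1]
  · have h1 : lft (1 : Θ.range) • y = y := hy _ (by rw [lft_spec]; rfl)
    rw [h1]
    simp
  · intro u _ hu
    have h1 : ∑ w ∈ Finset.range e, (((u : Kˣ)⁻¹ : Kˣ) : K) ^ w = 0 := by
      have h2 := mul_geom_sum (((u : Kˣ)⁻¹ : Kˣ) : K) e
      have h3 : (((u : Kˣ)⁻¹ : Kˣ) : K) ^ e = 1 := by
        rw [← Units.val_pow_eq_pow_val, inv_pow]
        obtain ⟨_, σ, rfl⟩ := u
        simp only
        rw [hrange, inv_one, Units.val_one]
      rw [h3, sub_self, mul_eq_zero] at h2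
      refine h2.resolve_left fun h4 => hu ?_
      apply Subtype.ext
      have h5 : ((u : Kˣ)⁻¹ : Kˣ) = 1 := Units.ext (sub_eq_zero.mp h4)
      exact inv_eq_one.mp h5
    rw [h1, zero_mul]
  · intro h; exact absurd (Finset.mem_univ _) h

include hrange in
lemma ge_cmp {v : OrdFn K} (hv : ∀ (σ : G) (z : K), v.ord (σ • z) = v.ord z) {c : ℝ} {y : K}
    (hy : v.Ge c y) (w : ℕ) : v.Ge c (cmp Θ w y) := by
  classical
  have := finite_range_of_pow hrange
  have : Fintype Θ.range := Fintype.ofFinite _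
  unfold cmp
  rw [finsum_eq_sum_of_fintype]
  refine ge_sum _ _ fun u _ => ?_
  have h1 : v.Eq 0 ((((u : Kˣ)⁻¹ : Kˣ) : K) ^ w) := by
    have : v.Eq 0 ((((u : Kˣ)⁻¹ : Kˣ) : K)) := by
      refine ord_root_of_unity (n := e) (NeZero.ne e) ?_
      rw [← Units.val_pow_eq_pow_val, inv_pow]
      obtain ⟨_, σ, rfl⟩ := u
      simp only
      rw [hrange, inv_one, Units.val_one]
    simpa using this.pow w
  have := h1.ge.mul ((ge_smul hv (lft u)).mpr hy)
  rwa [zero_add] at this

include hrange hsurj in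
lemma card_range : Nat.card Θ.range = e := by
  have := finite_range_of_pow hrange
  obtain ⟨σ, hσ⟩ := hsurj
  have hle : Θ.range ≤ rootsOfUnity e K := by
    rintro _ ⟨σ, rfl⟩
    exact (mem_rootsOfUnity _ _).mpr (hrange σ)
  have h1 : Nat.card Θ.range ≤ e := by
    have h2 : Nat.card (rootsOfUnity e K) ≤ e := by
      exact card_rootsOfUnity K e
    exact (Nat.card_le_card_of_injective _ (Subgroup.inclusion_injective hle)).trans h2
  have h3 : e ∣ Nat.card Θ.range := by
    have h4 : orderOf (⟨Θ σ, σ, rfl⟩ : Θ.range) = e := by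
      rw [← Subgroup.orderOf_coe]
      exact hσ.eq_orderOf.symm
    rw [← h4]
    exact orderOf_dvd_natCard _
  exact le_antisymm h1 (Nat.le_of_dvd Nat.card_pos h3)

end Weights

end Fermat.Agent.FlatLoc
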